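import Mathlib

set_option autoImplicit false

/-!
# The norm of power series from `R[[x]]` to `R[[x^l]]` and Hecke operators on power series
-/

open PowerSeries

noncomputable section

namespace Fermat.Agent.ESCore

variable {R : Type*} [CommRing R] {l : ℕ}

/-- The matrix of multiplication by `P` on `R[[x]]` over `R[[q]]`, `q = x ^ l`. -/
def mulMat (l : ℕ) (P : R⟦X⟧) : Matrix (Fin l) (Fin l) R⟦X⟧ :=
  Matrix.of fun a j => PowerSeries.mk fun n =>
    if (j : ℕ) ≤ n * l + a then coeff (n * l + a - j) P else 0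

/-- recombination of the components -/
def recomb (hl : l ≠ 0) (u : Fin l → R⟦X⟧) : R⟦X⟧ :=
  ∑ a : Fin l, X ^ (a : ℕ) * expand l hl (u a)

theorem coeff_recomb (hl : l ≠ 0) (u : Fin l → R⟦X⟧) (n : ℕ) (a : Fin l) :
    coeff (n * l + a) (recomb hl u) = coeff n (u a) := by
  rw [recomb, map_sum, Finset.sum_eq_single a]
  · rw [coeff_X_pow_mul', if_pos (Nat.le_add_left _ _), Nat.add_sub_cancel, mul_comm,
      coeff_expand_mul]
  · intro b _ hb
    rw [coeff_X_pow_mul']
    split_ifs with h
    · refine coeff_expand_of_not_dvd l hl _ ?_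
      rintro ⟨c, hc⟩
      apply hb
      have h1 : n * l + a = l * c + b := by omega
      have h2 : (n * l + a) % l = (l * c + b) % l := by rw [h1]
      rw [Nat.mul_add_mod, mul_comm n l, Nat.mul_add_mod, Nat.mod_eq_of_lt a.2,
        Nat.mod_eq_of_lt b.2] at h2
      exact Fin.ext h2.symm
    · rfl
  · intro h
    exact absurd (Finset.mem_univ _) h

theorem recomb_injective (hl : l ≠ 0) : Function.Injective (recomb (R := R) hl) := by
  intro u v h
  funext a
  ext n
  rw [← coeff_recomb hl u n a, h, coeff_recomb]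

theorem recomb_mulMat (hl : l ≠ 0) (P : R⟦X⟧) (j : Fin l) :
    recomb hl (fun a => mulMat l P a j) = X ^ (j : ℕ) * P := by
  ext m
  obtain ⟨n, a, rfl⟩ : ∃ (n : ℕ) (a : Fin l), m = n * l + a :=
    ⟨m / l, ⟨m % l, Nat.mod_lt _ (Nat.pos_of_ne_zero hl)⟩, (Nat.div_add_mod' m l).symm⟩
  rw [coeff_recomb, coeff_X_pow_mul']
  simp [mulMat]

theorem recomb_add (hl : l ≠ 0) (u v : Fin l → R⟦X⟧) :
    recomb hl (u + v) = recomb hl u + recomb hl v := by
  simp [recomb, mul_add, Finset.sum_add_distrib]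

theorem recomb_mulVec (hl : l ≠ 0) (P : R⟦X⟧) (u : Fin l → R⟦X⟧) :
    recomb hl ((mulMat l P).mulVec u) = P * recomb hl u := by
  have h1 : ∀ b, ∑ a : Fin l, X ^ (a : ℕ) * (expand l hl (mulMat l P a b) * expand l hl (u b)) =
      P * (X ^ (b : ℕ) * expand l hl (u b)) := by
    intro b
    have h2 := recomb_mulMat hl P b
    rw [recomb] at h2
    simp only [← mul_assoc]
    rw [← Finset.sum_mul, h2]
    ring
  rw [recomb, recomb, Finset.mul_sum, ← Finset.sum_congr rfl fun b _ => h1 b, Finset.sum_comm]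
  refine Finset.sum_congr rfl fun a _ => ?_
  rw [Matrix.mulVec, dotProduct, map_sum, Finset.mul_sum]
  simp [map_mul]

theorem mulMat_mul (hl : l ≠ 0) (P Q : R⟦X⟧) : mulMat l (P * Q) = mulMat l P * mulMat l Q := by
  have h : ∀ j, (fun a => mulMat l (P * Q) a j) = fun a => (mulMat l P * mulMat l Q) a j := by
    intro j
    apply recomb_injective hl
    rw [recomb_mulMat]
    have h2 : (fun a => (mulMat l P * mulMat l Q) a j) =
        (mulMat l P).mulVec (fun a => mulMat l Q a j) := by
      funext a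
      rfl
    rw [h2, recomb_mulVec, recomb_mulMat]
    ring
  ext1 a j
  exact congrFun (h j) a

theorem mulMat_expand (hl : l ≠ 0) (Q : R⟦X⟧) : mulMat l (expand l hl Q) = Matrix.scalar _ Q := by
  have h : ∀ j, (fun a => mulMat l (expand l hl Q) a j) = fun a => Matrix.scalar (Fin l) Q a j := by
    intro j
    apply recomb_injective hl
    rw [recomb_mulMat, recomb, Finset.sum_eq_single j]
    · simp
    · intro b _ hb
      simp [Matrix.diagonal_apply_ne _ hb]
    · intro h
      exact absurd (Finset.mem_univ _) h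
  ext1 a j
  exact congrFun (h j) a

theorem mulMat_one (hl : l ≠ 0) : mulMat l (1 : R⟦X⟧) = 1 := by
  have := mulMat_expand hl (1 : R⟦X⟧)
  rwa [map_one, map_one] at this

theorem mulMat_pow (hl : l ≠ 0) (P : R⟦X⟧) (n : ℕ) : mulMat l (P ^ n) = mulMat l P ^ n := by
  induction n with
  | zero => rw [pow_zero, pow_zero, mulMat_one hl]
  | succ n ih => rw [pow_succ, pow_succ, mulMat_mul hl, ih]

theorem mulMat_map {S : Type*} [CommRing S] (f : R →+* S) (P : R⟦X⟧) :
    (mulMat l P).map (PowerSeries.map f) = mulMat l (PowerSeries.map f P) := by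
  ext a j n
  simp only [mulMat, Matrix.map_apply, Matrix.of_apply, coeff_map, coeff_mk]
  split_ifs <;> simp

/-- The norm from `R[[x]]` to `R[[x^l]]`. -/
def normSer (l : ℕ) (P : R⟦X⟧) : R⟦X⟧ := (mulMat l P).det

theorem normSer_mul (hl : l ≠ 0) (P Q : R⟦X⟧) : normSer l (P * Q) = normSer l P * normSer l Q := by
  rw [normSer, mulMat_mul hl, Matrix.det_mul, normSer, normSer]

theorem normSer_one (hl : l ≠ 0) : normSer l (1 : R⟦X⟧) = 1 := by
  rw [normSer, mulMat_one hl, Matrix.det_one]

theorem normSer_pow (hl : l ≠ 0) (P : R⟦X⟧) (n : ℕ) : normSer l (P ^ n) = normSer l P ^ n := by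
  rw [normSer, mulMat_pow hl, Matrix.det_pow, normSer]

theorem normSer_expand (hl : l ≠ 0) (Q : R⟦X⟧) : normSer l (expand l hl Q) = Q ^ l := by
  rw [normSer, mulMat_expand hl, Matrix.scalar_apply, Matrix.det_diagonal]
  simp

theorem normSer_map {S : Type*} [CommRing S] (f : R →+* S) (P : R⟦X⟧) :
    PowerSeries.map f (normSer l P) = normSer l (PowerSeries.map f P) := by
  rw [normSer, normSer, ← mulMat_map, RingHom.map_det]
  rfl

theorem normSer_C (hl : l ≠ 0) (c : R) : normSer l (C c) = C (c ^ l) := by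
  have := normSer_expand hl (C c)
  rwa [expand_C, ← map_pow] at this

theorem normSer_ne_zero [IsDomain R] (hl : l ≠ 0) {P : R⟦X⟧} (hP : P ≠ 0) :
    normSer l P ≠ 0 := by
  intro h
  obtain ⟨v, hv, h2⟩ := Matrix.exists_mulVec_eq_zero_iff.mpr h
  have h3 := recomb_mulVec hl P v
  have h4 : recomb hl (0 : Fin l → R⟦X⟧) = 0 := by simp [recomb]
  rw [h2, h4] at h3
  have h5 := (mul_eq_zero.mp h3.symm).resolve_left hP
  exact hv (recomb_injective hl (h5.trans h4.symm))

/-- product formula for the norm -/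
theorem expand_normSer [IsDomain R] (hl : l ≠ 0) {ζ : R} (hζ : IsPrimitiveRoot ζ l) (P : R⟦X⟧) :
    expand l hl (normSer l P) = ∏ i : Fin l, rescale (ζ ^ (i : ℕ)) P := by
  set V : Matrix (Fin l) (Fin l) R⟦X⟧ :=
    Matrix.of fun i a => rescale (ζ ^ (i : ℕ)) (X ^ (a : ℕ)) with hV
  have hresc : ∀ (i : Fin l) (φ : R⟦X⟧), rescale (ζ ^ (i : ℕ)) (expand l hl φ) = expand l hl φ := by
    intro i φ
    ext n
    rw [coeff_rescale]
    by_cases h : l ∣ n
    · obtain ⟨m, rfl⟩ := h
      rw [← pow_mul, mul_comm (i : ℕ), mul_assoc, pow_mul, hζ.pow_eq_one, one_pow, one_mul]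
    · rw [coeff_expand_of_not_dvd l hl _ h, mul_zero]
  have h1 : V * (mulMat l P).map (expand l hl) =
      Matrix.diagonal (fun i : Fin l => rescale (ζ ^ (i : ℕ)) P) * V := by
    ext1 i j
    rw [Matrix.diagonal_mul, Matrix.mul_apply]
    have h2 := congrArg (rescale (ζ ^ (i : ℕ))) (recomb_mulMat hl P j)
    rw [recomb, map_sum, map_mul] at h2
    simp only [map_mul, hresc] at h2
    simp only [hV, Matrix.of_apply, Matrix.map_apply]
    rw [h2]
    ring
  have hdetV : V.det ≠ 0 := by
    have hV2 : V = (Matrix.vandermonde fun i : Fin l => (C (ζ ^ (i : ℕ)) : R⟦X⟧)) *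
        Matrix.diagonal (fun a : Fin l => (X ^ (a : ℕ) : R⟦X⟧)) := by
      ext1 i a
      rw [Matrix.mul_diagonal, Matrix.vandermonde_apply, hV, Matrix.of_apply, map_pow, rescale_X,
        mul_pow]
    rw [hV2, Matrix.det_mul, Matrix.det_diagonal]
    refine mul_ne_zero ?_ (Finset.prod_ne_zero_iff.mpr fun a _ => pow_ne_zero _ X_ne_zero)
    rw [Matrix.det_vandermonde_ne_zero_iff]
    intro i j hij
    have h3 := C_injective hij
    exact Fin.ext (hζ.pow_inj i.2 j.2 h3)
  have h4 := congrArg Matrix.det h1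
  rw [Matrix.det_mul, Matrix.det_mul, Matrix.det_diagonal, mul_comm] at h4
  have h5 := mul_right_cancel₀ hdetV h4
  rw [← h5, normSer]
  exact RingHom.map_det ((expand l hl : R⟦X⟧ →ₐ[R] R⟦X⟧) : R⟦X⟧ →+* R⟦X⟧) _

/-- characteristic `l` formula for the norm -/
theorem normSer_charP [Fact l.Prime] [CharP R l] [IsReduced R] (P : R⟦X⟧) :
    normSer l P = PowerSeries.map (frobenius R l) P := by
  have hl : l ≠ 0 := (Fact.out : l.Prime).ne_zero
  have h1 : P ^ l = expand l hl (PowerSeries.map (frobenius R l) P) := by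
    rw [← PowerSeries.map_expand]
    exact (MvPowerSeries.map_frobenius_expand (p := l) (R := R) hl (f := P)).symm
  have h2 : normSer l P ^ l = (PowerSeries.map (frobenius R l) P) ^ l := by
    rw [← normSer_pow hl, h1, normSer_expand]
  have hch : CharP R⟦X⟧ l := by
    refine ⟨fun n => ?_⟩
    rw [← CharP.cast_eq_zero_iff R l n]
    constructor
    · intro h
      have := congrArg constantCoeff h
      simpa using this
    · intro h
      have : ((n : R⟦X⟧)) = C (n : R) := by simp
      rw [this, h, map_zero]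
  have hred : ∀ x : R⟦X⟧, x ^ l = 0 → x = 0 := by
    intro x hx
    have h3 : expand l hl (PowerSeries.map (frobenius R l) x) = 0 := by
      rw [← hx, ← PowerSeries.map_expand]
      exact (MvPowerSeries.map_frobenius_expand (p := l) (R := R) hl (f := x))
    ext n
    have h4 := congrArg (coeff (l * n)) h3
    rw [coeff_expand_mul, coeff_map, map_zero, frobenius_def] at h4
    rw [map_zero]
    exact eq_zero_of_pow_eq_zero h4
  have h6 : (normSer l P - PowerSeries.map (frobenius R l) P) ^ l = 0 := by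
    rw [sub_pow_char, h2, sub_self]
  exact sub_eq_zero.mp (hred _ h6)

/-- The multiplicative Hecke operator on power series. -/
def heckeSer (l : ℕ) (hl : l ≠ 0) (P : R⟦X⟧) : R⟦X⟧ := expand l hl P * normSer l P

theorem heckeSer_mul (hl : l ≠ 0) (P Q : R⟦X⟧) :
    heckeSer l hl (P * Q) = heckeSer l hl P * heckeSer l hl Q := by
  rw [heckeSer, map_mul, normSer_mul hl, heckeSer, heckeSer]
  ring

theorem heckeSer_one (hl : l ≠ 0) : heckeSer l hl (1 : R⟦X⟧) = 1 := by
  rw [heckeSer, map_one, normSer_one hl, one_mul]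

theorem heckeSer_pow (hl : l ≠ 0) (P : R⟦X⟧) (n : ℕ) :
    heckeSer l hl (P ^ n) = heckeSer l hl P ^ n := by
  rw [heckeSer, map_pow, normSer_pow hl, heckeSer, mul_pow]

theorem heckeSer_C (hl : l ≠ 0) (c : R) : heckeSer l hl (C c) = C (c ^ (l + 1)) := by
  rw [heckeSer, expand_C, normSer_C hl, ← map_mul, pow_succ']

theorem map_heckeSer {S : Type*} [CommRing S] (f : R →+* S) (hl : l ≠ 0) (P : R⟦X⟧) :
    PowerSeries.map f (heckeSer l hl P) = heckeSer l hl (PowerSeries.map f P) := by
  rw [heckeSer, map_mul, PowerSeries.map_expand, normSer_map, heckeSer]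

theorem heckeSer_ne_zero [IsDomain R] (hl : l ≠ 0) {P : R⟦X⟧} (hP : P ≠ 0) :
    heckeSer l hl P ≠ 0 := by
  refine mul_ne_zero (fun h => hP ?_) (normSer_ne_zero hl hP)
  ext n
  have h4 := congrArg (coeff (l * n)) h
  rwa [coeff_expand_mul, map_zero] at h4

theorem heckeSer_charP [Fact l.Prime] [CharP R l] [IsReduced R] (hl : l ≠ 0) (P : R⟦X⟧) :
    heckeSer l hl P = expand l hl P * PowerSeries.map (frobenius R l) P := by
  rw [heckeSer, normSer_charP]

end Fermat.Agent.ESCore
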