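import Fermat.Agent.ESCore.HeckeMul
import Fermat.Agent.ESCore.HeckeSer
import Fermat.Agent.Eis16.QSer
import Fermat.Agent.ES.HolRing

set_option autoImplicit false

/-!
# `q`-expansions of multiplicative Hecke operators
-/

open UpperHalfPlane ModularForm Matrix Matrix.SpecialLinearGroup CongruenceSubgroup
open Fermat.Agent.Eis16 Fermat.Agent.ES
open scoped MatrixGroups Manifold

noncomputable section

namespace Fermat.Agent.ESCore

local notation "𝕢" => Function.Periodic.qParam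

/-- the converse of a change of width -/
theorem HasQ_of_expand {l : ℕ} (hl : l ≠ 0) {f : ℍ → ℂ} {A : PowerSeries ℂ}
    (h : HasQ l f (A.expand l hl)) : HasQ 1 f A := by
  intro τ
  have h1 := h τ
  have hl' : (l : ℂ) ≠ 0 := Nat.cast_ne_zero.mpr hl
  have hq : 𝕢 l τ ^ l = 𝕢 1 τ := by
    simp only [Function.Periodic.qParam]
    rw [← Complex.exp_nat_mul]
    congr 1
    push_cast
    field_simp
  have hinj : Function.Injective (fun m : ℕ => l * m) :=
    fun a b hab => Nat.eq_of_mul_eq_mul_left (Nat.pos_of_ne_zero hl) hab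
  rw [← hinj.hasSum_iff] at h1
  · convert h1 using 2 with n
    simp only [Function.comp_apply]
    rw [PowerSeries.coeff_expand_mul, pow_mul, hq]
  · intro n hn
    rw [PowerSeries.coeff_expand_of_not_dvd, zero_mul]
    rintro ⟨m, rfl⟩
    exact hn ⟨m, rfl⟩

theorem qParam_heckeMatrix {l : ℕ} (hl : l ≠ 0) (j : ℕ) (τ : ℍ) :
    𝕢 1 ((heckeMatrix l j • τ : ℍ) : ℂ) =
      Complex.exp (2 * Real.pi * Complex.I / l) ^ j * 𝕢 l τ := by
  have hl' : (l : ℂ) ≠ 0 := Nat.cast_ne_zero.mpr hl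
  rw [coe_heckeMatrix_smul hl]
  simp only [Function.Periodic.qParam]
  rw [← Complex.exp_nat_mul, ← Complex.exp_add]
  congr 1
  push_cast
  field_simp
  ring

theorem qParam_heckeDiagMatrix {l : ℕ} (hl : l ≠ 0) (τ : ℍ) :
    𝕢 1 ((heckeDiagMatrix l • τ : ℍ) : ℂ) = 𝕢 1 τ ^ l := by
  rw [coe_heckeDiagMatrix_smul hl]
  simp only [Function.Periodic.qParam]
  rw [← Complex.exp_nat_mul]
  congr 1
  push_cast
  ring

theorem hasQ_heckeMulU {l : ℕ} (hl : l ≠ 0) {F : ℍ → ℂ} {P : PowerSeries ℂ} (h : HasQ 1 F P) :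
    HasQ 1 (heckeMulU l F) (normSer l P) := by
  refine HasQ_of_expand hl ?_
  rw [expand_normSer hl (Complex.isPrimitiveRoot_exp l hl) P]
  have h1 : heckeMulU l F = ∏ j : Fin l, fun τ => F (heckeMatrix l j • τ) := by
    ext τ
    rw [heckeMulU_apply, Finset.prod_apply]
  rw [h1]
  refine HasQ.finset_prod _ fun j _ => ?_
  exact h.comp_rescale (h' := l) _ (qParam_heckeMatrix hl j)

theorem hasQ_heckeMul {l : ℕ} (hl : l ≠ 0) {F : ℍ → ℂ} {P : PowerSeries ℂ} (h : HasQ 1 F P) :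
    HasQ 1 (heckeMul l F) (heckeSer l hl P) := by
  have h1 : heckeMul l F = (fun τ => F (heckeDiagMatrix l • τ)) * heckeMulU l F := by
    ext τ
    rw [heckeMul_apply]
    rfl
  rw [h1, heckeSer]
  exact (h.comp_pow l hl (qParam_heckeDiagMatrix hl)).mul (hasQ_heckeMulU hl h)

theorem hasQ_of_mem_BRing {F : ℍ → ℂ} (hF : F ∈ BRing) : HasQ 1 F (qExpansion 1 F) :=
  HasQ.of_periodic one_pos hF.1 hF.2.1 hF.2.2

theorem qExpansion_heckeMul {l : ℕ} (hl : l ≠ 0) {F : ℍ → ℂ} (hF : F ∈ BRing) :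
    qExpansion 1 (heckeMul l F) = heckeSer l hl (qExpansion 1 F) :=
  (hasQ_heckeMul hl (hasQ_of_mem_BRing hF)).qExpansion_eq one_pos

theorem qExpansion_heckeMulU {l : ℕ} (hl : l ≠ 0) {F : ℍ → ℂ} (hF : F ∈ BRing) :
    qExpansion 1 (heckeMulU l F) = normSer l (qExpansion 1 F) :=
  (hasQ_heckeMulU hl (hasQ_of_mem_BRing hF)).qExpansion_eq one_pos

theorem mem_BRing_of_mem_mform {N : ℕ} {χ : Gamma0 N →* ℂˣ}
    (hχ : ∀ g : Gamma0 N, (g : SL(2, ℤ)) 1 0 = 0 → χ g = 1) {k : ℤ} {F : ℍ → ℂ}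
    (hF : F ∈ mform χ k) : F ∈ BRing := by
  obtain ⟨h1, h2, h3⟩ := hF
  refine ⟨?_, h1, by simpa using h3 1⟩
  have hT : F ∣[k] (ModularGroup.T ^ (1 : ℤ)) = F := by
    have := h2 (uni N 1)
    rw [hχ (uni N 1) (by rw [uni_coe]; rfl), Units.val_one, one_smul] at this
    exact this
  intro z
  by_cases hz : 0 < z.im
  · have hz' : 0 < (z + ((1 : ℝ) : ℂ)).im := by simpa using hz
    rw [Function.comp_apply, Function.comp_apply, ofComplex_apply_of_im_pos hz,
      ofComplex_apply_of_im_pos hz']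
    have h4 := congrFun hT ⟨z, hz⟩
    rw [SL_slash_apply] at h4
    have h5 : denom (ModularGroup.T ^ (1 : ℤ) : SL(2, ℤ)) (⟨z, hz⟩ : ℍ) = 1 := by
      rw [ModularGroup.denom_apply, ModularGroup.coe_T_zpow]
      simp
    rw [h5, _root_.one_zpow, mul_one] at h4
    rw [← h4]
    congr 1
    apply UpperHalfPlane.ext
    rw [ModularGroup.coe_T_zpow_smul_eq]
    simp
  · have hz' : (z + ((1 : ℝ) : ℂ)).im ≤ 0 := by simpa using not_lt.mp hz
    rw [Function.comp_apply, Function.comp_apply,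
      ofComplex_apply_of_im_nonpos (not_lt.mp hz), ofComplex_apply_of_im_nonpos hz']

end Fermat.Agent.ESCore
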