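import Fermat.Agent.ESCore.HauptExp

/-!
# The Hauptmoduln `t2`, `t3` are surjective onto `ℂ ∖ {0}`
-/

set_option autoImplicit false

open Matrix.SpecialLinearGroup CongruenceSubgroup ModularGroup
open scoped MatrixGroups ModularForm Manifold
open UpperHalfPlane hiding I J
open Complex (I)
open ModularForm (E₄ E₆)
open Fermat.Agent.Eis16 Fermat.Agent.ModFun

noncomputable section

namespace Fermat.Agent.ESCore

local notation "Δ" => ModularForm.discriminant
local notation "𝕢" => Function.Periodic.qParam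
local notation "ΓGL" p => (Subgroup.map (Matrix.SpecialLinearGroup.mapGL ℝ) (Gamma0 p))

/-- a `Γ₀(p)`-invariant holomorphic function, bounded at both cusps and vanishing at `∞`, is
zero -/
theorem eq_zero_of_bounded (p : ℕ) [Fact p.Prime] (f : ℍ → ℂ)
    (hinv : ∀ g ∈ Gamma0 p, ∀ τ, f (g • τ) = f τ) (A B : PowerSeries ℂ)
    (hA : HasQ 1 f A) (hB : HasQ p (fun τ => f (S • τ)) B) (h0 : A.coeff 0 = 0) : f = 0 := by
  have hinv' : ∀ g ∈ Gamma0 p, f ∣[(0 : ℤ)] g = f := by
    intro g hg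
    ext τ
    rw [ModularForm.SL_slash_apply, hinv g hg]
    simp
  have hS' : f ∣[(0 : ℤ)] S = fun τ => f (S • τ) := by
    ext τ
    rw [slash_S_apply]
    simp
  have key := ModularForm.sturm_bound_Gamma0 p (mkForm (0 : ℤ) f hinv' A B hA
    (by rw [hS']; exact hB)) (by
    intro n hn
    rw [coe_mkForm, hA.qExpansion_eq one_pos]
    simp only [zero_mul, Int.toNat_zero, Nat.zero_div, Nat.le_zero] at hn
    rw [hn, h0])
  have := congrArg (fun F : ModularForm (ΓGL p) 0 => (F : ℍ → ℂ)) key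
  exact this

namespace HauptFn

variable {p : ℕ} [NeZero p] {κ : ℤ} (H : HauptFn p κ)

lemma vadd (τ : ℍ) : H.t ((1 : ℝ) +ᵥ τ) = H.t τ := by
  rw [← modular_T_smul]
  exact H.smul T (by rw [mem_Gamma0_iff]; simp [coe_T]) τ

theorem surjective (hp : p.Prime) {z : ℂ} (hz : z ≠ 0) : ∃ τ, H.t τ = z := by
  have : Fact p.Prime := ⟨hp⟩
  by_contra hc
  push Not at hc
  have h1 : ∀ τ, H.t τ - z ≠ 0 := fun τ => sub_ne_zero.mpr (hc τ)
  set c : ℂ := (κ : ℂ) ^ 2 * p ^ 4 with hcdef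
  have hκ0 := κ_ne p H.hκ
  have hp0 := p_ne p
  have hc0 : c ≠ 0 := mul_ne_zero (pow_ne_zero _ hκ0) (pow_ne_zero _ hp0)
  have hSd : ∀ τ, H.t (S • up p τ) = 1 / (c * H.t τ) := by
    intro τ
    rw [H.smul_S, dn_up]
  have h2 : ∀ τ, 1 - z * (c * H.t τ) ≠ 0 := by
    intro τ h
    apply hc (S • up p τ)
    rw [hSd]
    have h0 := H.ne_zero τ
    field_simp
    linear_combination h
  -- the function `f = t / (t - z)`
  set f : ℍ → ℂ := fun τ => H.t τ / (H.t τ - z) with hf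
  have hfm : MDiff f := H.mdiff.div (H.mdiff.sub mdifferentiable_const) h1
  set G : ℍ → ℂ := fun τ => 1 / (1 - z * (c * H.t τ)) with hG
  have hGm : MDiff G := by
    refine MDifferentiable.div mdifferentiable_const ?_ h2
    refine MDifferentiable.sub mdifferentiable_const ?_
    exact MDifferentiable.mul mdifferentiable_const
      (MDifferentiable.mul mdifferentiable_const H.mdiff)
  have hfS : ∀ τ, f (S • τ) = G (dn p τ) := by
    intro τ
    simp only [hf, hG]
    rw [H.smul_S, ← hcdef]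
    have h3 := h2 (dn p τ)
    have h4 := H.ne_zero (dn p τ)
    have h5 : 1 / (c * H.t (dn p τ)) - z ≠ 0 := by
      have := h1 (S • τ)
      rwa [H.smul_S, ← hcdef] at this
    rw [div_eq_div_iff h5 h3]
    field_simp
  have hlimf : Filter.Tendsto f atImInfty (nhds (0 / (0 - z))) :=
    H.tendsto.div (H.tendsto.sub tendsto_const_nhds) (by simpa using hz)
  have hlimG : Filter.Tendsto G atImInfty (nhds (1 / (1 - z * (c * 0)))) := by
    refine Filter.Tendsto.div tendsto_const_nhds ?_ (by simp)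
    exact tendsto_const_nhds.sub (tendsto_const_nhds.mul (tendsto_const_nhds.mul H.tendsto))
  have hperf : Function.Periodic (f ∘ ofComplex) (1 : ℝ) := by
    have := ModFun.periodic_ofComplex (f := f) (h := 1) (by
      intro τ
      simp only [hf]
      rw [H.vadd])
    exact_mod_cast this
  have hperG : Function.Periodic (G ∘ ofComplex) (1 : ℝ) := by
    have := ModFun.periodic_ofComplex (f := G) (h := 1) (by
      intro τ
      simp only [hG]
      rw [H.vadd])
    exact_mod_cast this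
  have hfq := HasQ.of_periodic one_pos hperf hfm (hlimf.isBigO_one ℝ)
  have hGq := HasQ.of_periodic one_pos hperG hGm (hlimG.isBigO_one ℝ)
  have hf0 : (UpperHalfPlane.qExpansion 1 f).coeff 0 = 0 := by
    have := tendsto_nhds_unique (hfq.tendsto one_pos) hlimf
    rw [this]; simp
  have key := eq_zero_of_bounded p f (by
    intro g hg τ
    simp only [hf]
    rw [H.smul g hg]) _ _ hfq ((HasQ.dn p hGq).congr fun τ => (hfS τ).symm) hf0
  have h5 := congrFun key (UpperHalfPlane.I)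
  simp only [hf, Pi.zero_apply, div_eq_zero_iff] at h5
  rcases h5 with h5 | h5
  · exact H.ne_zero _ h5
  · exact h1 _ h5

end HauptFn

/-! ### summary for the levels 2 and 3 -/

theorem t2_surjective {z : ℂ} (hz : z ≠ 0) : ∃ τ, t2 τ = z := haupt2.surjective Nat.prime_two hz

theorem t3_surjective {z : ℂ} (hz : z ≠ 0) : ∃ τ, t3 τ = z := haupt3.surjective Nat.prime_three hz

theorem t2_ne_zero (τ : ℍ) : t2 τ ≠ 0 := haupt2.ne_zero τ

theorem t3_ne_zero (τ : ℍ) : t3 τ ≠ 0 := haupt3.ne_zero τ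

theorem t2_smul (g : SL(2, ℤ)) (hg : g ∈ Gamma0 2) (τ : ℍ) : t2 (g • τ) = t2 τ :=
  haupt2.smul g hg τ

theorem t3_smul (g : SL(2, ℤ)) (hg : g ∈ Gamma0 3) (τ : ℍ) : t3 (g • τ) = t3 τ :=
  haupt3.smul g hg τ

theorem mdiff_t2 : MDiff t2 := haupt2.mdiff

theorem mdiff_t3 : MDiff t3 := haupt3.mdiff

/-- order of `t2 - t2 τ₀` at `τ₀` -/
theorem order_t2 (τ₀ : ℍ) : analyticOrderAt (fun z : ℂ => t2 (ofComplex z) - t2 τ₀) (τ₀ : ℂ) =
    if t2 τ₀ = -1 / 64 then 2 else 1 := haupt2.ordH_two (τ₀ := τ₀) J_mul_t2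

/-- order of `t3 - t3 τ₀` at `τ₀` -/
theorem order_t3 (τ₀ : ℍ) : analyticOrderAt (fun z : ℂ => t3 (ofComplex z) - t3 τ₀) (τ₀ : ℂ) =
    if t3 τ₀ = -1 / 27 then 3 else 1 := haupt3.ordH_three (τ₀ := τ₀) J_mul_t3

/-- Expansion at `∞` -/
theorem t2_hasExp : HasExp (Int.castRingHom ℂ) (qN 1) t2
    (HahnSeries.ofPowerSeries ℤ ℤ (PowerSeries.X * TW 2 16)) := by
  rw [← TS_eq]
  exact haupt2.hasExp

theorem t3_hasExp : HasExp (Int.castRingHom ℂ) (qN 1) t3
    (HahnSeries.ofPowerSeries ℤ ℤ (PowerSeries.X * TW 3 3)) := by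
  rw [← TS_eq]
  exact haupt3.hasExp

/-- Expansion of `2¹² t2` at `0` -/
theorem t2_S_hasExp : HasExp (Int.castRingHom ℂ) (qN 2)
    (fun τ => (2 : ℂ) ^ 12 * t2 (S • τ))
    (HahnSeries.single (-1) 1 * HahnSeries.ofPowerSeries ℤ ℤ (TWi 2 16)) := by
  refine haupt2.hasExp_S.congr fun τ => ?_
  simp only [t2]
  push_cast
  ring

/-- Expansion of `3⁶ t3` at `0` -/
theorem t3_S_hasExp : HasExp (Int.castRingHom ℂ) (qN 3)
    (fun τ => (3 : ℂ) ^ 6 * t3 (S • τ))
    (HahnSeries.single (-1) 1 * HahnSeries.ofPowerSeries ℤ ℤ (TWi 3 3)) := by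
  refine haupt3.hasExp_S.congr fun τ => ?_
  simp only [t3]
  push_cast
  ring

theorem t2_dn (τ : ℍ) : (2 : ℂ) ^ 12 * (t2 (S • τ) * t2 (dn 2 τ)) = 1 := by
  have := haupt2.fricke τ
  simp only [t2]
  push_cast at this
  linear_combination this

theorem t3_dn (τ : ℍ) : (3 : ℂ) ^ 6 * (t3 (S • τ) * t3 (dn 3 τ)) = 1 := by
  have := haupt3.fricke τ
  simp only [t3]
  push_cast at this
  linear_combination this

end Fermat.Agent.ESCore
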