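import Mathlib
import Fermat.Prelude.Def_EllipticCurve_FrobeniusTrace

set_option autoImplicit false

/-!
# Kummer classes of modular functions: definitions

`Qb` is the algebraic closure of `ℚ` fixed in the statements, `ι : Qb →+* ℂ` a fixed embedding.
For a character `χ` of a subgroup `G` of `SL(2,ℤ)`, `mform χ k` is the space of holomorphic
functions on `ℍ` transforming with weight `k` and multiplier `χ`, bounded at all cusps.
-/

open UpperHalfPlane ModularForm Matrix PowerSeries
open scoped MatrixGroups Manifold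

noncomputable section

namespace Fermat.Agent.ESCore

/-- The algebraic closure of `ℚ` of the statements. -/
abbrev Qb : Type := AlgebraicClosure ℚ

/-- The absolute Galois group of `ℚ` of the statements. -/
abbrev GQ : Type := Qb ≃ₐ[ℚ] Qb

theorem isAlgebraic_Qb : Algebra.IsAlgebraic ℚ Qb := AlgebraicClosure.isAlgebraic ℚ

/-- A fixed embedding of `Qb` into `ℂ`. -/
def ιC : Qb →+* ℂ :=
  haveI := isAlgebraic_Qb
  (IsAlgClosed.lift (R := ℚ) (S := Qb) (M := ℂ)).toRingHom

/-- The Galois group acts on power series, coefficientwise. -/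
def gmap (σ : GQ) : PowerSeries Qb →+* PowerSeries Qb :=
  PowerSeries.map (σ.toRingEquiv.toRingHom : Qb →+* Qb)

/-- Forms of weight `k` with multiplier `χ` on the group `G`: holomorphic on `ℍ` and bounded at
all cusps. -/
def mform {G : Subgroup SL(2, ℤ)} (χ : G →* ℂˣ) (k : ℤ) : Submodule ℂ (ℍ → ℂ) where
  carrier := {f | MDiff f ∧ (∀ g : G, f ∣[k] (g : SL(2, ℤ)) = (χ g : ℂ) • f) ∧
    ∀ A : SL(2, ℤ), IsBoundedAtImInfty (f ∣[k] A)}
  add_mem' := by
    rintro f g ⟨h1, h2, h3⟩ ⟨h4, h5, h6⟩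
    refine ⟨h1.add h4, fun γ => ?_, fun A => ?_⟩
    · rw [SlashAction.add_slash, h2, h5, smul_add]
    · rw [SlashAction.add_slash]
      exact (h3 A).add (h6 A)
  zero_mem' := by
    refine ⟨mdifferentiable_const, fun γ => ?_, fun A => ?_⟩
    · rw [SlashAction.zero_slash, smul_zero]
    · rw [SlashAction.zero_slash]
      exact Filter.const_boundedAtFilter atImInfty (0 : ℂ)
  smul_mem' := by
    rintro c f ⟨h1, h2, h3⟩
    refine ⟨?_, fun γ => ?_, fun A => ?_⟩
    · exact h1.const_smul c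
    · rw [ModularForm.SL_smul_slash, h2, smul_comm]
    · rw [ModularForm.SL_smul_slash]
      exact (h3 A).const_mul_left c

/-- The characters of `Γ₀(N)` of order dividing `m`, trivial on `T` and on `-1`. -/
def XG (N m : ℕ) : Subgroup (CongruenceSubgroup.Gamma0 N →* ℂˣ) where
  carrier := {χ | χ ^ m = 1 ∧ ∀ g : CongruenceSubgroup.Gamma0 N, (g : SL(2, ℤ)) 1 0 = 0 → χ g = 1}
  mul_mem' := by
    rintro a b ⟨h1, h2⟩ ⟨h3, h4⟩
    refine ⟨by rw [mul_pow, h1, h3]; ext g; simp, fun g hg => ?_⟩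
    simp [h2 g hg, h4 g hg]
  one_mem' := ⟨one_pow m, fun g _ => rfl⟩
  inv_mem' := by
    rintro a ⟨h1, h2⟩
    refine ⟨by rw [inv_pow, h1]; ext g; simp, fun g hg => ?_⟩
    simp [h2 g hg]

end Fermat.Agent.ESCore
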