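import Mathlib
import Fermat.Agent.ESCore.Defs

set_option autoImplicit false
set_option linter.unusedSectionVars false

/-!
# Frobenius and inertia elements on roots of unity, the cyclotomic character
-/

open IsLocalRing

noncomputable section

namespace Fermat.Agent.ESCore

variable {A : ValuationSubring Qb} {l : ℕ}

theorem val_natCast_lt_one (hA : A.LiesOverPrime l) : A.valuation (l : Qb) < 1 := hA

theorem val_intCast_le_one (A : ValuationSubring Qb) (z : ℤ) : A.valuation (z : Qb) ≤ 1 :=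
  (A.valuation_le_one_iff _).mpr (by exact_mod_cast intCast_mem A z)

theorem val_natCast_eq_one (hA : A.LiesOverPrime l) (hl : l.Prime) {r : ℕ} (hr : r.Coprime l) :
    A.valuation (r : Qb) = 1 := by
  refine le_antisymm (by exact_mod_cast val_intCast_le_one A r) ?_
  by_contra hcon
  push Not at hcon
  obtain ⟨u, v, huv⟩ := (Nat.isCoprime_iff_coprime.mpr hr)
  have h1 : ((u * r + v * l : ℤ) : Qb) = 1 := by rw [huv]; simp
  have h2 : A.valuation ((u : Qb) * r) < 1 := by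
    rw [map_mul]
    exact mul_lt_one_of_nonneg_of_lt_one_right (val_intCast_le_one A u) zero_le hcon
  have h3 : A.valuation ((v : Qb) * l) < 1 := by
    rw [map_mul]
    exact mul_lt_one_of_nonneg_of_lt_one_right (val_intCast_le_one A v) zero_le
      (val_natCast_lt_one hA)
  have h4 := A.valuation.map_add_lt h2 h3
  push_cast at h1
  rw [h1, map_one] at h4
  exact lt_irrefl _ h4

theorem val_root_of_unity (A : ValuationSubring Qb) {m : ℕ} (hm : m ≠ 0) {η : Qb}
    (h : η ^ m = 1) : A.valuation η = 1 := by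
  have h1 : A.valuation η ^ m = 1 := by rw [← map_pow, h, map_one]
  exact (pow_eq_one_iff_of_nonneg zero_le hm).mp h1

/-- A root of unity of order prime to `l` which is congruent to one is one. -/
theorem root_eq_one (hA : A.LiesOverPrime l) (hl : l.Prime) {m : ℕ} (hlm : ¬ l ∣ m) {η : Qb}
    (hη : η ^ m = 1) (hres : A.valuation (η - 1) < 1) : η = 1 := by
  by_contra hne
  have hm : m ≠ 0 := by rintro rfl; exact hlm (dvd_zero l)
  have hd : orderOf η ∣ m := orderOf_dvd_of_pow_eq_one hη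
  have hd1 : orderOf η ≠ 1 := fun h => hne (orderOf_eq_one_iff.mp h)
  obtain ⟨r, hr, hrd⟩ := Nat.exists_prime_and_dvd hd1
  obtain ⟨e, he⟩ := hrd
  have hd0 : 0 < orderOf η := Nat.pos_of_dvd_of_pos hd (Nat.pos_of_ne_zero hm)
  have he0 : 0 < e := Nat.pos_of_ne_zero (by rintro rfl; rw [mul_zero] at he; omega)
  set ξ := η ^ e with hξ
  have hξr : ξ ^ r = 1 := by
    rw [hξ, ← pow_mul, mul_comm, ← he, pow_orderOf_eq_one]
  have hξ1 : ξ ≠ 1 := by
    intro h
    have h1 : orderOf η ∣ e := orderOf_dvd_of_pow_eq_one h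
    have h2 := Nat.le_of_dvd he0 h1
    have h3 := hr.two_le
    nlinarith
  -- powers are congruent to one
  have hpow : ∀ i : ℕ, A.valuation (η ^ i - 1) < 1 := by
    intro i
    induction i with
    | zero => simp
    | succ i ih =>
      have h1 : η ^ (i + 1) - 1 = η * (η ^ i - 1) + (η - 1) := by ring
      rw [h1]
      refine A.valuation.map_add_lt ?_ hres
      rw [map_mul, val_root_of_unity A hm hη, one_mul]
      exact ih
  have hsum : ∑ i ∈ Finset.range r, ξ ^ i = 0 := by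
    have h1 := geom_sum_mul ξ r
    rw [hξr, sub_self] at h1
    rcases mul_eq_zero.mp h1 with h | h
    · exact h
    · exact absurd (sub_eq_zero.mp h) hξ1
  have h5 : (r : Qb) = -∑ i ∈ Finset.range r, (ξ ^ i - 1) := by
    rw [Finset.sum_sub_distrib, hsum]
    simp
  have h6 : A.valuation (r : Qb) < 1 := by
    rw [h5, Valuation.map_neg]
    refine Valuation.map_sum_lt _ one_ne_zero fun i _ => ?_
    rw [hξ, ← pow_mul]
    exact hpow _
  have hrl : r.Coprime l := by
    rw [Nat.coprime_primes hr hl]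
    rintro rfl
    exact hlm (dvd_trans ⟨e, he⟩ hd)
  rw [val_natCast_eq_one hA hl hrl] at h6
  exact lt_irrefl _ h6

theorem val_lt_one_of_residue {x y : Qb} (hx : x ∈ A) (hy : y ∈ A)
    (h : residue A ⟨x, hx⟩ = residue A ⟨y, hy⟩) : A.valuation (x - y) < 1 := by
  rw [← sub_eq_zero, ← map_sub, residue_eq_zero_iff] at h
  have h2 := (A.valuation_lt_one_iff _).mp h
  exact h2

theorem frob_val {σ : GQ} (hσ : A.IsFrobeniusAt σ l) {x : Qb} (hx : x ∈ A) :
    A.valuation (σ x - x ^ l) < 1 := by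
  obtain ⟨hd, h⟩ := hσ
  have h1 := h (residue A ⟨x, hx⟩)
  rw [← ResidueField.residue_smul, ← map_pow] at h1
  exact val_lt_one_of_residue _ _ h1

theorem inertia_val {σ : GQ} (hσ : σ ∈ A.inertiaSubgroupIn ℚ) {x : Qb} (hx : x ∈ A) :
    A.valuation (σ x - x) < 1 := by
  obtain ⟨τ, hτ, rfl⟩ := hσ
  have h0 : MulSemiringAction.toRingAut (A.decompositionSubgroup ℚ) (ResidueField A) τ = 1 := hτ
  have h1 : τ • (residue A ⟨x, hx⟩) = residue A ⟨x, hx⟩ := by
    have := congrArg (fun f : RingAut (ResidueField A) => f (residue A ⟨x, hx⟩)) h0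
    exact this
  rw [← ResidueField.residue_smul] at h1
  exact val_lt_one_of_residue _ _ h1

theorem mem_of_root {m : ℕ} (hm : m ≠ 0) {ζ : Qb} (h : ζ ^ m = 1) : ζ ∈ A :=
  (A.valuation_le_one_iff ζ).mp (val_root_of_unity A hm h).le

/-- Frobenius on roots of unity -/
theorem frob_root (hA : A.LiesOverPrime l) (hl : l.Prime) {σ : GQ} (hσ : A.IsFrobeniusAt σ l)
    {m : ℕ} (hlm : ¬ l ∣ m) {ζ : Qb} (hζ : ζ ^ m = 1) : σ ζ = ζ ^ l := by
  have hm : m ≠ 0 := by rintro rfl; exact hlm (dvd_zero l)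
  have hζ0 : ζ ≠ 0 := by
    rintro rfl
    rw [zero_pow hm] at hζ
    exact zero_ne_one hζ
  have h1 := frob_val hσ (mem_of_root (A := A) hm hζ)
  have hζl : ζ ^ l ≠ 0 := pow_ne_zero _ hζ0
  have h2 : (σ ζ / ζ ^ l) ^ m = 1 := by
    rw [div_pow, ← map_pow, hζ, map_one, ← pow_mul, mul_comm, pow_mul, hζ, one_pow, div_one]
  have h3 : A.valuation (σ ζ / ζ ^ l - 1) < 1 := by
    rw [div_sub_one hζl, map_div₀, map_pow, val_root_of_unity A hm hζ, one_pow, div_one]
    exact h1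
  have h4 := root_eq_one hA hl hlm h2 h3
  rwa [div_eq_one_iff_eq hζl] at h4

/-- inertia on roots of unity -/
theorem inertia_root (hA : A.LiesOverPrime l) (hl : l.Prime) {σ : GQ}
    (hσ : σ ∈ A.inertiaSubgroupIn ℚ) {m : ℕ} (hlm : ¬ l ∣ m) {ζ : Qb} (hζ : ζ ^ m = 1) :
    σ ζ = ζ := by
  have hm : m ≠ 0 := by rintro rfl; exact hlm (dvd_zero l)
  have hζ0 : ζ ≠ 0 := by
    rintro rfl
    rw [zero_pow hm] at hζ
    exact zero_ne_one hζ
  have h1 := inertia_val hσ (mem_of_root (A := A) hm hζ)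
  have h2 : (σ ζ / ζ) ^ m = 1 := by
    rw [div_pow, ← map_pow, hζ, map_one, div_one]
  have h3 : A.valuation (σ ζ / ζ - 1) < 1 := by
    rw [div_sub_one hζ0, map_div₀, val_root_of_unity A hm hζ, div_one]
    exact h1
  have h4 := root_eq_one hA hl hlm h2 h3
  rwa [div_eq_one_iff_eq hζ0] at h4

/-! ### the cyclotomic character -/

theorem exists_primitiveRoot (m : ℕ) [NeZero m] : ∃ ζ : Qb, IsPrimitiveRoot ζ m := by
  have : NeZero (m : Qb) := ⟨by exact_mod_cast NeZero.ne m⟩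
  exact HasEnoughRootsOfUnity.exists_primitiveRoot Qb m

theorem card_roots (m : ℕ) [NeZero m] : Nat.card {x // x ∈ rootsOfUnity m Qb} = m := by
  have : NeZero (m : Qb) := ⟨by exact_mod_cast NeZero.ne m⟩
  exact HasEnoughRootsOfUnity.natCard_rootsOfUnity Qb m

/-- the mod `m` cyclotomic character -/
def cyc (m : ℕ) [NeZero m] : GQ →* (ZMod m)ˣ :=
  (modularCyclotomicCharacter Qb (card_roots m)).comp
    { toFun := fun σ => σ.toRingEquiv
      map_one' := rfl
      map_mul' := fun _ _ => rfl }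

theorem cyc_spec {m : ℕ} [NeZero m] (σ : GQ) {ζ : Qb} (hζ : ζ ^ m = 1) :
    σ ζ = ζ ^ ((cyc m σ : (ZMod m)ˣ) : ZMod m).val := by
  have hm : m ≠ 0 := NeZero.ne m
  have hζ0 : ζ ≠ 0 := by
    rintro rfl
    rw [zero_pow hm] at hζ
    exact zero_ne_one hζ
  have h := modularCyclotomicCharacter.spec Qb (card_roots m) σ.toRingEquiv
    (t := Units.mk0 ζ hζ0) (by
      rw [mem_rootsOfUnity]
      exact Units.ext hζ)
  exact h

theorem cyc_eq_of {m : ℕ} [NeZero m] {σ : GQ} {ζ : Qb} (hζ : IsPrimitiveRoot ζ m) {n : ℕ}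
    (h : σ ζ = ζ ^ n) : ((cyc m σ : (ZMod m)ˣ) : ZMod m) = n := by
  have h1 := cyc_spec σ hζ.pow_eq_one
  rw [h] at h1
  have h2 : ζ ^ (n % m) = ζ ^ n := by
    conv_lhs => rw [hζ.eq_orderOf]
    exact pow_mod_orderOf ζ n
  rw [← h2] at h1
  have h3 := hζ.pow_inj (Nat.mod_lt _ (NeZero.pos m)) (ZMod.val_lt _) h1
  rw [← ZMod.natCast_zmod_val ((cyc m σ : (ZMod m)ˣ) : ZMod m), ← h3, ZMod.natCast_mod]

theorem cyc_frob {m : ℕ} [NeZero m] (hA : A.LiesOverPrime l) (hl : l.Prime) {σ : GQ}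
    (hσ : A.IsFrobeniusAt σ l) (hlm : ¬ l ∣ m) : ((cyc m σ : (ZMod m)ˣ) : ZMod m) = l := by
  obtain ⟨ζ, hζ⟩ := exists_primitiveRoot m
  exact cyc_eq_of hζ (frob_root hA hl hσ hlm hζ.pow_eq_one)

theorem cyc_eq_one_of {m : ℕ} [NeZero m] {σ : GQ} {ζ : Qb} (hζ : IsPrimitiveRoot ζ m)
    (h : σ ζ = ζ) : cyc m σ = 1 := by
  apply Units.ext
  rw [cyc_eq_of hζ (n := 1) (by rw [h, pow_one])]
  simp

theorem cyc_inertia {m : ℕ} [NeZero m] (hA : A.LiesOverPrime l) (hl : l.Prime) {σ : GQ}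
    (hσ : σ ∈ A.inertiaSubgroupIn ℚ) (hlm : ¬ l ∣ m) : cyc m σ = 1 := by
  obtain ⟨ζ, hζ⟩ := exists_primitiveRoot m
  exact cyc_eq_one_of hζ (inertia_root hA hl hσ hlm hζ.pow_eq_one)

/-- The cyclotomic character factors through a finite level. -/
theorem cyc_finite (m : ℕ) [NeZero m] : ∃ L : IntermediateField ℚ Qb, FiniteDimensional ℚ L ∧
    ∀ σ : GQ, (∀ x ∈ L, σ x = x) → cyc m σ = 1 := by
  obtain ⟨ζ, hζ⟩ := exists_primitiveRoot m
  have := isAlgebraic_Qb
  refine ⟨IntermediateField.adjoin ℚ {ζ}, ?_, fun σ hσ => cyc_eq_one_of hζ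
    (hσ ζ (IntermediateField.mem_adjoin_simple_self ℚ ζ))⟩
  exact IntermediateField.adjoin.finiteDimensional (Algebra.IsIntegral.isIntegral ζ)

end Fermat.Agent.ESCore
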