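import Mathlib

set_option autoImplicit false

/-!
# Finite systems of coset representatives and the induced operators on characters

`φ : Γ →* G` is an injective homomorphism, `δ : ι → G` is a finite family such that the cosets
`φ(Γ) δ x` are distinct and are permuted by right multiplication by `φ(Γ)`. Such a family induces
an operator `c ↦ (γ ↦ ∏ c(γ'_x))` on characters of `Γ`.
-/

noncomputable section

namespace Fermat.Agent.ESCore

variable {Γ G : Type*} [Group Γ] [Group G]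

/-- a finite system of representatives of cosets, stable under right multiplication -/
structure CosetSys (φ : Γ →* G) (ι : Type*) where
  δ : ι → G
  inj : ∀ x y γ, δ x = φ γ * δ y → x = y
  act : ∀ x γ, ∃ y γ', δ x * φ γ = φ γ' * δ y

namespace CosetSys

variable {φ : Γ →* G} (hφ : Function.Injective φ) {ι ι' : Type*} [Fintype ι] [Fintype ι']

section
variable (S : CosetSys φ ι)

include hφ in
omit [Fintype ι] in
theorem unique {a : G} {γ₁ γ₂ : Γ} {x y : ι} (h₁ : a = φ γ₁ * S.δ x) (h₂ : a = φ γ₂ * S.δ y) :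
    x = y ∧ γ₁ = γ₂ := by
  have h : S.δ x = φ (γ₁⁻¹ * γ₂) * S.δ y := by
    rw [map_mul, map_inv, mul_assoc, ← h₂, h₁, inv_mul_cancel_left]
  obtain rfl := S.inj _ _ _ h
  refine ⟨rfl, hφ ?_⟩
  rw [h₁] at h₂
  exact mul_right_cancel h₂

/-- the cocycle -/
def coc (γ : Γ) (x : ι) : Γ := (S.act x γ).choose_spec.choose

/-- the target of `x` -/
def tgt (γ : Γ) (x : ι) : ι := (S.act x γ).choose

omit [Fintype ι] in
theorem spec (γ : Γ) (x : ι) : S.δ x * φ γ = φ (S.coc γ x) * S.δ (S.tgt γ x) :=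
  (S.act x γ).choose_spec.choose_spec

theorem tgt_bijective (γ : Γ) : Function.Bijective (S.tgt γ) := by
  rw [Fintype.bijective_iff_injective_and_card]
  refine ⟨fun x y h => ?_, rfl⟩
  have h1 := S.spec γ x
  have h2 := S.spec γ y
  rw [h] at h1
  have h3 : S.δ x = φ (S.coc γ x * (S.coc γ y)⁻¹) * S.δ y := by
    rw [map_mul, map_inv, mul_assoc]
    rw [← mul_inv_eq_iff_eq_mul] at h1 h2
    rw [← h2, ← h1]
    group
  exact S.inj _ _ _ h3

include hφ in
omit [Fintype ι] in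
theorem tgt_eq {γ γ' : Γ} {x y : ι} (h : S.δ x * φ γ = φ γ' * S.δ y) : S.tgt γ x = y :=
  (S.unique hφ (S.spec γ x) h).1

include hφ in
omit [Fintype ι] in
theorem coc_eq {γ γ' : Γ} {x y : ι} (h : S.δ x * φ γ = φ γ' * S.δ y) : S.coc γ x = γ' :=
  (S.unique hφ (S.spec γ x) h).2

include hφ in
omit [Fintype ι] in
theorem coc_mul (γ₁ γ₂ : Γ) (x : ι) :
    S.coc (γ₁ * γ₂) x = S.coc γ₁ x * S.coc γ₂ (S.tgt γ₁ x) := by
  refine S.coc_eq hφ (y := S.tgt γ₂ (S.tgt γ₁ x)) ?_
  rw [map_mul, ← mul_assoc, S.spec, mul_assoc, S.spec, map_mul, mul_assoc]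

variable {B : Type*} [CommGroup B]

/-- the induced operator on characters -/
def trans (c : Γ →* B) : Γ →* B where
  toFun γ := ∏ x, c (S.coc γ x)
  map_one' := by
    refine Finset.prod_eq_one fun x _ => ?_
    rw [S.coc_eq hφ (γ' := 1) (y := x) (by simp), map_one]
  map_mul' γ₁ γ₂ := by
    simp only [S.coc_mul hφ, map_mul, Finset.prod_mul_distrib]
    congr 1
    exact (S.tgt_bijective γ₁).prod_comp fun x => c (S.coc γ₂ x)

theorem trans_apply' (c : Γ →* B) (γ : Γ) : S.trans hφ c γ = ∏ x, c (S.coc γ x) := rfl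

theorem trans_apply (c : Γ →* B) (γ : Γ) (γ' : ι → Γ) (s : ι → ι)
    (h : ∀ x, S.δ x * φ γ = φ (γ' x) * S.δ (s x)) : S.trans hφ c γ = ∏ x, c (γ' x) := by
  rw [trans_apply']
  exact Finset.prod_congr rfl fun x _ => by rw [S.coc_eq hφ (h x)]

theorem trans_mul (c c' : Γ →* B) : S.trans hφ (c * c') = S.trans hφ c * S.trans hφ c' := by
  ext γ
  simp [trans_apply', Finset.prod_mul_distrib]

theorem trans_one : S.trans hφ (1 : Γ →* B) = 1 := by
  ext γ
  simp [trans_apply']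

theorem trans_pow (c : Γ →* B) (n : ℕ) : S.trans hφ (c ^ n) = S.trans hφ c ^ n := by
  ext γ
  simp [trans_apply', Finset.prod_pow]

theorem trans_comp {B' : Type*} [CommGroup B'] (f : B →* B') (c : Γ →* B) :
    S.trans hφ (f.comp c) = f.comp (S.trans hφ c) := by
  ext γ
  simp [trans_apply']

/-- the induced operator on characters, as a homomorphism -/
def transHom : (Γ →* B) →* (Γ →* B) where
  toFun := S.trans hφ
  map_one' := S.trans_one hφ
  map_mul' := S.trans_mul hφ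

@[simp] theorem transHom_apply (c : Γ →* B) : S.transHom hφ c = S.trans hφ c := rfl

end

/-- independence of the choice of representatives -/
theorem trans_eq_of_equiv {B : Type*} [CommGroup B] (S : CosetSys φ ι) (S' : CosetSys φ ι')
    (f : ι' → ι) (hcard : Fintype.card ι' = Fintype.card ι)
    (h : ∀ x, ∃ α, S'.δ x = φ α * S.δ (f x)) (c : Γ →* B) :
    S'.trans hφ c = S.trans hφ c := by
  choose α hα using h
  have hf : Function.Bijective f := by
    rw [Fintype.bijective_iff_injective_and_card]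
    refine ⟨fun x y hxy => ?_, hcard⟩
    have h1 := hα x
    have h2 := hα y
    rw [hxy] at h1
    refine S'.inj x y (α x * (α y)⁻¹) ?_
    rw [h1, h2, map_mul, map_inv]
    group
  ext γ
  have h3 : S'.trans hφ c γ = ∏ x, c (α x * S.coc γ (f x) * (α (S'.tgt γ x))⁻¹) := by
    rw [trans_apply']
    refine Finset.prod_congr rfl fun x _ => ?_
    have h4 : S'.δ x * φ γ =
        φ (α x * S.coc γ (f x)) * S.δ (S.tgt γ (f x)) := by
      rw [hα, mul_assoc, S.spec, ← mul_assoc, ← map_mul]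
    have h5 : S'.δ x * φ γ = φ (S'.coc γ x * α (S'.tgt γ x)) * S.δ (f (S'.tgt γ x)) := by
      rw [S'.spec, hα, ← mul_assoc, ← map_mul]
    rw [← (S.unique hφ h5 h4).2, mul_inv_cancel_right]
  rw [h3]
  simp only [map_mul, map_inv, Finset.prod_mul_distrib, Finset.prod_inv_distrib]
  rw [(S'.tgt_bijective γ).prod_comp fun x => c (α x), hf.prod_comp fun x => c (S.coc γ x),
    trans_apply', mul_comm (∏ x, c (α x)), mul_inv_cancel_right]

/-- product of coset systems -/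
def prod (S₁ : CosetSys φ ι) (S₂ : CosetSys φ ι')
    (hinj : ∀ z x w y γ, S₂.δ z * S₁.δ x = φ γ * (S₂.δ w * S₁.δ y) → z = w ∧ x = y) :
    CosetSys φ (ι × ι') where
  δ p := S₂.δ p.2 * S₁.δ p.1
  inj := by
    rintro ⟨x, z⟩ ⟨y, w⟩ γ h
    obtain ⟨rfl, rfl⟩ := hinj z x w y γ h
    rfl
  act := by
    rintro ⟨x, z⟩ γ
    obtain ⟨y, γ₁, h₁⟩ := S₁.act x γ
    obtain ⟨w, γ₂, h₂⟩ := S₂.act z γ₁
    refine ⟨(y, w), γ₂, ?_⟩
    simp only
    rw [mul_assoc, h₁, ← mul_assoc, h₂, mul_assoc]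

theorem prod_trans {B : Type*} [CommGroup B] (S₁ : CosetSys φ ι) (S₂ : CosetSys φ ι')
    (hinj : ∀ z x w y γ, S₂.δ z * S₁.δ x = φ γ * (S₂.δ w * S₁.δ y) → z = w ∧ x = y)
    (c : Γ →* B) : (prod S₁ S₂ hinj).trans hφ c = S₁.trans hφ (S₂.trans hφ c) := by
  ext γ
  rw [trans_apply (S := prod S₁ S₂ hinj) hφ c γ (fun p => S₂.coc (S₁.coc γ p.1) p.2)
    (fun p => (S₁.tgt γ p.1, S₂.tgt (S₁.coc γ p.1) p.2)), trans_apply', Fintype.prod_prod_type]
  · rfl
  · rintro ⟨x, z⟩
    simp only [prod]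
    rw [mul_assoc, S₁.spec, ← mul_assoc, S₂.spec, mul_assoc]

/-- commutation of the operators -/
theorem trans_comm {B : Type*} [CommGroup B] (S₁ : CosetSys φ ι) (S₂ : CosetSys φ ι')
    (hinj : ∀ z x w y γ, S₂.δ z * S₁.δ x = φ γ * (S₂.δ w * S₁.δ y) → z = w ∧ x = y)
    (hinj' : ∀ z x w y γ, S₁.δ z * S₂.δ x = φ γ * (S₁.δ w * S₂.δ y) → z = w ∧ x = y)
    (h : ∀ z x, ∃ w y α, S₂.δ z * S₁.δ x = φ α * (S₁.δ w * S₂.δ y)) (c : Γ →* B) :
    S₁.trans hφ (S₂.trans hφ c) = S₂.trans hφ (S₁.trans hφ c) := by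
  rw [← prod_trans hφ S₁ S₂ hinj, ← prod_trans hφ S₂ S₁ hinj']
  choose w y α hα using h
  refine trans_eq_of_equiv hφ _ _ (fun p => (y p.2 p.1, w p.2 p.1)) ?_ ?_ c
  · simp [mul_comm]
  · rintro ⟨x, z⟩
    exact ⟨α z x, hα z x⟩

end CosetSys

end Fermat.Agent.ESCore
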