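import Fermat.Agent.ESCore.Defs
import Fermat.Agent.ESCore.CosetSys
import Fermat.Prelude.Sol.S_ModularForm_heckeT_slash_eq_self_of_mem_Gamma0

set_option autoImplicit false

/-!
# Hecke operators on characters of `Γ₀(N)`
-/

open UpperHalfPlane ModularForm Matrix Matrix.SpecialLinearGroup CongruenceSubgroup
open scoped MatrixGroups Manifold

noncomputable section

namespace Fermat.Agent.ESCore

open P2MW.S_ModularForm_heckeT_slash_eq_self_of_mem_Gamma0.ModularForm.HeckeSlashInvariance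

theorem mapGL_inj : Function.Injective (mapGL ℝ : SL(2, ℤ) →* GL (Fin 2) ℝ) := by
  intro a b h
  ext i j
  have := congrArg (fun g : GL (Fin 2) ℝ => (g : Matrix (Fin 2) (Fin 2) ℝ) i j) h
  simpa using this

/-- the embedding of `Γ₀(N)` in `GL(2,ℝ)` -/
def gam (N : ℕ) : Gamma0 N →* GL (Fin 2) ℝ := (mapGL ℝ).comp (Gamma0 N).subtype

theorem gam_apply {N : ℕ} (g : Gamma0 N) : gam N g = mapGL ℝ (g : SL(2, ℤ)) := rfl

theorem gam_injective (N : ℕ) : Function.Injective (gam N) :=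
  fun _ _ h => Subtype.ext (mapGL_inj h)

/-- the representatives of the Hecke coset at a prime `l` not dividing the level -/
def hdelta (l : ℕ) : Option (Fin l) → GL (Fin 2) ℝ
  | some j => heckeMatrix l j
  | none => heckeDiagMatrix l

/-- upper triangular matrices with positive integral diagonal -/
structure IsTri (A : GL (Fin 2) ℝ) (a b d : ℤ) : Prop where
  h00 : (A : Matrix (Fin 2) (Fin 2) ℝ) 0 0 = a
  h01 : (A : Matrix (Fin 2) (Fin 2) ℝ) 0 1 = b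
  h10 : (A : Matrix (Fin 2) (Fin 2) ℝ) 1 0 = 0
  h11 : (A : Matrix (Fin 2) (Fin 2) ℝ) 1 1 = d
  ha : 0 < a
  hd : 0 < d

theorem IsTri.mul {A B : GL (Fin 2) ℝ} {a b d a' b' d' : ℤ} (hA : IsTri A a b d)
    (hB : IsTri B a' b' d') : IsTri (A * B) (a * a') (a * b' + b * d') (d * d') where
  h00 := by simp [Matrix.mul_apply, Fin.sum_univ_two, hA.h00, hB.h00, hB.h10]
  h01 := by simp [Matrix.mul_apply, Fin.sum_univ_two, hA.h00, hA.h01, hB.h01, hB.h11]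
  h10 := by simp [Matrix.mul_apply, Fin.sum_univ_two, hA.h10, hB.h10]
  h11 := by simp [Matrix.mul_apply, Fin.sum_univ_two, hA.h10, hA.h11, hB.h11]
  ha := mul_pos hA.ha hB.ha
  hd := mul_pos hA.hd hB.hd

theorem isTri_heckeMatrix {l : ℕ} (hl : l ≠ 0) (j : ℕ) : IsTri (heckeMatrix l j) 1 j l where
  h00 := by simp [hl]
  h01 := by simp [hl]
  h10 := by simp [hl]
  h11 := by simp [hl]
  ha := one_pos
  hd := by positivity

theorem isTri_heckeDiagMatrix {l : ℕ} (hl : l ≠ 0) : IsTri (heckeDiagMatrix l) l 0 1 where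
  h00 := by simp [hl]
  h01 := by simp [hl]
  h10 := by simp [hl]
  h11 := by simp [hl]
  ha := by positivity
  hd := one_pos

/-- uniqueness of the Hermite form -/
theorem IsTri.unique {A B : GL (Fin 2) ℝ} {a b d a' b' d' : ℤ} (hA : IsTri A a b d)
    (hB : IsTri B a' b' d') (γ : SL(2, ℤ)) (h : A = mapGL ℝ γ * B) :
    a = a' ∧ d = d' ∧ ∃ e : ℤ, b = b' + e * d' := by
  have h00 := congrArg (fun g : GL (Fin 2) ℝ => (g : Matrix (Fin 2) (Fin 2) ℝ) 0 0) h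
  have h01 := congrArg (fun g : GL (Fin 2) ℝ => (g : Matrix (Fin 2) (Fin 2) ℝ) 0 1) h
  have h10 := congrArg (fun g : GL (Fin 2) ℝ => (g : Matrix (Fin 2) (Fin 2) ℝ) 1 0) h
  have h11 := congrArg (fun g : GL (Fin 2) ℝ => (g : Matrix (Fin 2) (Fin 2) ℝ) 1 1) h
  simp only [Units.val_mul, Matrix.mul_apply, Fin.sum_univ_two, hA.h00, hA.h01, hA.h10, hA.h11,
    hB.h00, hB.h01, hB.h10, hB.h11, mapGL_apply, mul_zero, add_zero] at h00 h01 h10 h11
  norm_cast at h00 h01 h10 h11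
  have hdet := det_eq γ
  have ha' := hB.ha
  have hγ : γ 1 0 = 0 := by
    rcases mul_eq_zero.mp h10.symm with h | h
    · exact h
    · omega
  rw [hγ] at h11 hdet
  simp only [zero_mul, mul_zero, zero_add, sub_zero] at h11 hdet
  have h1 : 0 < γ 0 0 := by
    have := hA.ha
    rw [h00] at this
    exact (pos_iff_pos_of_mul_pos this).mpr ha'
  have h2 : γ 0 0 = 1 := by
    rcases Int.isUnit_iff.mp (IsUnit.of_mul_eq_one _ hdet) with h | h <;> omega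
  rw [h2, one_mul] at hdet
  rw [h2, one_mul] at h00 h01
  rw [hdet, one_mul] at h11
  exact ⟨h00, h11, γ 0 1, h01⟩

/-- unipotent matrix -/
def uni (N : ℕ) (e : ℤ) : Gamma0 N :=
  ⟨ModularGroup.T ^ e, by rw [Gamma0_mem, ModularGroup.coe_T_zpow]; simp⟩

theorem uni_coe (N : ℕ) (e : ℤ) :
    (((uni N e : Gamma0 N) : SL(2, ℤ)) : Matrix (Fin 2) (Fin 2) ℤ) = !![1, e; 0, 1] :=
  ModularGroup.coe_T_zpow e

/-- unipotent translation -/
theorem IsTri.exists_mul {A B : GL (Fin 2) ℝ} {a b d b' : ℤ} (hA : IsTri A a b d)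
    (hB : IsTri B a b' d) (N : ℕ) (e : ℤ) (h : b = b' + e * d) :
    A = gam N (uni N e) * B := by
  rw [gam_apply]
  ext i j
  simp only [Units.val_mul, Matrix.mul_apply, Fin.sum_univ_two, mapGL_apply, uni_coe]
  fin_cases i <;> fin_cases j <;>
    simp [hA.h00, hA.h01, hA.h10, hA.h11, hB.h00, hB.h01, hB.h10, hB.h11, h]

theorem hdelta_isTri {l : ℕ} (hl : l ≠ 0) (x : Option (Fin l)) :
    ∃ a b d, IsTri (hdelta l x) a b d := by
  cases x with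
  | none => exact ⟨_, _, _, isTri_heckeDiagMatrix hl⟩
  | some j => exact ⟨_, _, _, isTri_heckeMatrix hl j⟩

/-- The Hecke system of cosets at `l ∤ N`. -/
def heckeSys {N l : ℕ} (hl : l.Prime) (hN : ¬ l ∣ N) : CosetSys (gam N) (Option (Fin l)) where
  δ := hdelta l
  inj := by
    intro x y γ h
    rw [gam_apply] at h
    have hl2 := hl.two_le
    cases x with
    | none =>
      cases y with
      | none => rfl
      | some j =>
        have := ((isTri_heckeDiagMatrix hl.ne_zero).unique (isTri_heckeMatrix hl.ne_zero j) γ h).1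
        omega
    | some i =>
      cases y with
      | none =>
        have := ((isTri_heckeMatrix hl.ne_zero i).unique (isTri_heckeDiagMatrix hl.ne_zero) γ h).1
        omega
      | some j =>
        obtain ⟨-, -, e, he⟩ :=
          (isTri_heckeMatrix hl.ne_zero i).unique (isTri_heckeMatrix hl.ne_zero j) γ h
        have h1 : ((i : ℕ) : ℤ) % l = ((j : ℕ) : ℤ) % l := by
          rw [he, Int.add_mul_emod_self_right]
        have h2 : (i : ℕ) % l = (j : ℕ) % l := by exact_mod_cast h1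
        rw [Nat.mod_eq_of_lt i.2, Nat.mod_eq_of_lt j.2] at h2
        exact congrArg some (Fin.ext h2)
  act := by
    intro x γ
    have : Fact l.Prime := ⟨hl⟩
    have hcN : (N : ℤ) ∣ (γ : SL(2, ℤ)) 1 0 :=
      (ZMod.intCast_zmod_eq_zero_iff_dvd _ _).mp (CongruenceSubgroup.Gamma0_mem.mp γ.2)
    have key : ∀ z : OnePoint (ZMod l), ∃ y : Option (Fin l), heckeRep l z = hdelta l y := by
      intro z
      induction z using OnePoint.rec with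
      | infty => exact ⟨none, rfl⟩
      | coe j => exact ⟨some ⟨j.val, j.val_lt⟩, rfl⟩
    have key2 : ∃ z : OnePoint (ZMod l), hdelta l x = heckeRep l z := by
      cases x with
      | none => exact ⟨OnePoint.infty, rfl⟩
      | some j =>
        refine ⟨((j : ℕ) : ZMod l), ?_⟩
        rw [heckeRep_coe, ZMod.val_cast_of_lt j.2]
        rfl
    obtain ⟨z, hz⟩ := key2
    obtain ⟨g', hg', h⟩ := heckeRep_mul hN (γ : SL(2, ℤ)) hcN z
    obtain ⟨y, hy⟩ := key (redMatrix l (γ : SL(2, ℤ)) • z)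
    refine ⟨y, ⟨g', CongruenceSubgroup.Gamma0_mem.mpr
      ((ZMod.intCast_zmod_eq_zero_iff_dvd _ _).mpr hg')⟩, ?_⟩
    rw [gam_apply, gam_apply, hz, h, hy]

/-- The system of cosets of `U_q`, `q ∣ N`. -/
def heckeSysU {N q : ℕ} (hq : q ≠ 0) (hN : q ∣ N) : CosetSys (gam N) (Fin q) where
  δ j := heckeMatrix q j
  inj := by
    intro i j γ h
    rw [gam_apply] at h
    obtain ⟨-, -, e, he⟩ :=
      (isTri_heckeMatrix hq i).unique (isTri_heckeMatrix hq j) γ h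
    have h1 : ((i : ℕ) : ℤ) % q = ((j : ℕ) : ℤ) % q := by
      rw [he, Int.add_mul_emod_self_right]
    have h2 : (i : ℕ) % q = (j : ℕ) % q := by exact_mod_cast h1
    rw [Nat.mod_eq_of_lt i.2, Nat.mod_eq_of_lt j.2] at h2
    exact Fin.ext h2
  act := by
    intro x γ
    have : NeZero q := ⟨hq⟩
    have hcN : (N : ℤ) ∣ (γ : SL(2, ℤ)) 1 0 :=
      (ZMod.intCast_zmod_eq_zero_iff_dvd _ _).mp (CongruenceSubgroup.Gamma0_mem.mp γ.2)
    have hc : (q : ℤ) ∣ (γ : SL(2, ℤ)) 1 0 := (Int.natCast_dvd_natCast.mpr hN).trans hcN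
    obtain ⟨g', hg', h⟩ := heckeMatrix_mul_of_dvd (γ : SL(2, ℤ)) hc ((x : ℕ) : ZMod q)
    have hg'N : g' ∈ Gamma0 N := by
      rw [CongruenceSubgroup.Gamma0_mem, hg']
      push_cast
      rw [CongruenceSubgroup.Gamma0_mem.mp γ.2, mul_zero]
    rw [ZMod.val_cast_of_lt x.2] at h
    exact ⟨⟨_, ZMod.val_lt _⟩, ⟨g', hg'N⟩, h⟩

variable {B : Type*} [CommGroup B]

/-- The Hecke operator `T_l` on characters of `Γ₀(N)`. -/
def heckeChar {N l : ℕ} (hl : l.Prime) (hN : ¬ l ∣ N) (c : Gamma0 N →* B) : Gamma0 N →* B :=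
  (heckeSys hl hN).trans (gam_injective N) c

/-- The Hecke operator `U_q` on characters of `Γ₀(N)`. -/
def heckeCharU {N q : ℕ} (hq : q ≠ 0) (hN : q ∣ N) (c : Gamma0 N →* B) : Gamma0 N →* B :=
  (heckeSysU hq hN).trans (gam_injective N) c

theorem heckeChar_apply {N l : ℕ} (hl : l.Prime) (hN : ¬ l ∣ N) (c : Gamma0 N →* B)
    (γ : Gamma0 N) (γ' : Option (Fin l) → Gamma0 N) (s : Option (Fin l) → Option (Fin l))
    (h : ∀ x, hdelta l x * mapGL ℝ (γ : SL(2, ℤ)) =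
      mapGL ℝ (γ' x : SL(2, ℤ)) * hdelta l (s x)) :
    heckeChar hl hN c γ = ∏ x, c (γ' x) :=
  CosetSys.trans_apply _ _ c γ γ' s h

theorem exists_heckeChar {N l : ℕ} (hl : l.Prime) (hN : ¬ l ∣ N) (γ : Gamma0 N) :
    ∃ (γ' : Option (Fin l) → Gamma0 N) (s : Equiv.Perm (Option (Fin l))),
      (∀ x, hdelta l x * mapGL ℝ (γ : SL(2, ℤ)) =
        mapGL ℝ (γ' x : SL(2, ℤ)) * hdelta l (s x)) ∧
      ∀ {B : Type} [CommGroup B] (c : Gamma0 N →* B), heckeChar hl hN c γ = ∏ x, c (γ' x) :=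
  ⟨(heckeSys hl hN).coc γ, Equiv.ofBijective _ ((heckeSys hl hN).tgt_bijective γ),
    fun x => (heckeSys hl hN).spec γ x, fun _ => rfl⟩

theorem heckeChar_mul {N l : ℕ} (hl : l.Prime) (hN : ¬ l ∣ N) (c c' : Gamma0 N →* B) :
    heckeChar hl hN (c * c') = heckeChar hl hN c * heckeChar hl hN c' :=
  CosetSys.trans_mul _ _ c c'

theorem heckeChar_one {N l : ℕ} (hl : l.Prime) (hN : ¬ l ∣ N) :
    heckeChar hl hN (1 : Gamma0 N →* B) = 1 := CosetSys.trans_one _ _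

theorem heckeChar_pow {N l : ℕ} (hl : l.Prime) (hN : ¬ l ∣ N) (c : Gamma0 N →* B) (n : ℕ) :
    heckeChar hl hN (c ^ n) = heckeChar hl hN c ^ n :=
  CosetSys.trans_pow _ _ c n

theorem heckeChar_comp {N l : ℕ} (hl : l.Prime) (hN : ¬ l ∣ N) {B' : Type*} [CommGroup B']
    (f : B →* B') (c : Gamma0 N →* B) :
    heckeChar hl hN (f.comp c) = f.comp (heckeChar hl hN c) :=
  CosetSys.trans_comp _ _ f c

theorem heckeCharU_mul {N q : ℕ} (hq : q ≠ 0) (hN : q ∣ N) (c c' : Gamma0 N →* B) :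
    heckeCharU hq hN (c * c') = heckeCharU hq hN c * heckeCharU hq hN c' :=
  CosetSys.trans_mul _ _ c c'

theorem heckeCharU_one {N q : ℕ} (hq : q ≠ 0) (hN : q ∣ N) :
    heckeCharU hq hN (1 : Gamma0 N →* B) = 1 := CosetSys.trans_one _ _

theorem heckeCharU_pow {N q : ℕ} (hq : q ≠ 0) (hN : q ∣ N) (c : Gamma0 N →* B) (n : ℕ) :
    heckeCharU hq hN (c ^ n) = heckeCharU hq hN c ^ n :=
  CosetSys.trans_pow _ _ c n

theorem heckeCharU_comp {N q : ℕ} (hq : q ≠ 0) (hN : q ∣ N) {B' : Type*} [CommGroup B']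
    (f : B →* B') (c : Gamma0 N →* B) :
    heckeCharU hq hN (f.comp c) = f.comp (heckeCharU hq hN c) :=
  CosetSys.trans_comp _ _ f c

/-- the cocycle of an upper triangular matrix is upper triangular -/
theorem coc_tri {N : ℕ} {ι : Type*} (S : CosetSys (gam N) ι)
    (hS : ∀ x, ∃ a b d, IsTri (S.δ x) a b d) (γ : Gamma0 N) (hγ : (γ : SL(2, ℤ)) 1 0 = 0) (x : ι) :
    (S.coc γ x : SL(2, ℤ)) 1 0 = 0 := by
  have h := S.spec γ x
  obtain ⟨a, b, d, h1⟩ := hS x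
  obtain ⟨a', b', d', h2⟩ := hS (S.tgt γ x)
  rw [gam_apply, gam_apply] at h
  have h10 := congrArg (fun g : GL (Fin 2) ℝ => (g : Matrix (Fin 2) (Fin 2) ℝ) 1 0) h
  simp only [Units.val_mul, Matrix.mul_apply, Fin.sum_univ_two, h1.h10, h1.h11, h2.h00, h2.h10,
    mapGL_apply, hγ, mul_zero, add_zero, zero_mul, Int.cast_zero] at h10
  have h3 : (a' : ℝ) ≠ 0 := by exact_mod_cast h2.ha.ne'
  have h4 := (mul_eq_zero.mp h10.symm).resolve_right h3
  exact_mod_cast h4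

theorem trans_eq_one_of_tri {N : ℕ} {ι : Type*} [Fintype ι] (S : CosetSys (gam N) ι)
    (hS : ∀ x, ∃ a b d, IsTri (S.δ x) a b d) (c : Gamma0 N →* B)
    (hc : ∀ g : Gamma0 N, (g : SL(2, ℤ)) 1 0 = 0 → c g = 1) (γ : Gamma0 N)
    (hγ : (γ : SL(2, ℤ)) 1 0 = 0) : S.trans (gam_injective N) c γ = 1 :=
  Finset.prod_eq_one fun x _ => hc _ (coc_tri S hS γ hγ x)

theorem heckeSys_isTri {N l : ℕ} (hl : l.Prime) (hN : ¬ l ∣ N) (x : Option (Fin l)) :
    ∃ a b d, IsTri ((heckeSys hl hN).δ x) a b d := hdelta_isTri hl.ne_zero x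

theorem heckeSysU_isTri {N q : ℕ} (hq : q ≠ 0) (hN : q ∣ N) (x : Fin q) :
    ∃ a b d, IsTri ((heckeSysU hq hN).δ x) a b d := ⟨_, _, _, isTri_heckeMatrix hq x⟩

theorem heckeChar_mem {N l : ℕ} (hl : l.Prime) (hN : ¬ l ∣ N) {m : ℕ} {χ : Gamma0 N →* ℂˣ}
    (hχ : χ ∈ XG N m) : heckeChar hl hN χ ∈ XG N m := by
  refine ⟨?_, fun g hg => trans_eq_one_of_tri _ (heckeSys_isTri hl hN) _ hχ.2 g hg⟩
  rw [← heckeChar_pow, hχ.1, heckeChar_one]

theorem heckeCharU_mem {N q : ℕ} (hq : q ≠ 0) (hN : q ∣ N) {m : ℕ} {χ : Gamma0 N →* ℂˣ}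
    (hχ : χ ∈ XG N m) : heckeCharU hq hN χ ∈ XG N m := by
  refine ⟨?_, fun g hg => trans_eq_one_of_tri _ (heckeSysU_isTri hq hN) _ hχ.2 g hg⟩
  rw [← heckeCharU_pow, hχ.1, heckeCharU_one]

/-- The operator `T_l` on `XG N m`. -/
def heckeX {N l : ℕ} (hl : l.Prime) (hN : ¬ l ∣ N) (m : ℕ) : XG N m →* XG N m where
  toFun χ := ⟨heckeChar hl hN χ.1, heckeChar_mem hl hN χ.2⟩
  map_one' := Subtype.ext (heckeChar_one (B := ℂˣ) hl hN)
  map_mul' χ ψ := Subtype.ext (heckeChar_mul hl hN χ.1 ψ.1)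

@[simp] theorem heckeX_coe {N l : ℕ} (hl : l.Prime) (hN : ¬ l ∣ N) (m : ℕ) (χ : XG N m) :
    (heckeX hl hN m χ : Gamma0 N →* ℂˣ) = heckeChar hl hN χ := rfl

/-- The operator `U_q` on `XG N m`. -/
def heckeXU {N q : ℕ} (hq : q ≠ 0) (hN : q ∣ N) (m : ℕ) : XG N m →* XG N m where
  toFun χ := ⟨heckeCharU hq hN χ.1, heckeCharU_mem hq hN χ.2⟩
  map_one' := Subtype.ext (heckeCharU_one (B := ℂˣ) hq hN)
  map_mul' χ ψ := Subtype.ext (heckeCharU_mul hq hN χ.1 ψ.1)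

@[simp] theorem heckeXU_coe {N q : ℕ} (hq : q ≠ 0) (hN : q ∣ N) (m : ℕ) (χ : XG N m) :
    (heckeXU hq hN m χ : Gamma0 N →* ℂˣ) = heckeCharU hq hN χ := rfl

/-! ### Commutation -/

theorem IsTri.congr {A : GL (Fin 2) ℝ} {a b d a' b' d' : ℤ} (h : IsTri A a b d) (ha : a = a')
    (hb : b = b') (hd : d = d') : IsTri A a' b' d' := by subst ha hb hd; exact h

theorem IsTri.ext {A A' : GL (Fin 2) ℝ} {a b d : ℤ} (h : IsTri A a b d) (h' : IsTri A' a b d) :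
    A = A' := by
  ext i j
  fin_cases i <;> fin_cases j <;>
    simp [h.h00, h.h01, h.h10, h.h11, h'.h00, h'.h01, h'.h10, h'.h11]

theorem mod_unique {n i j : ℤ} (hi : 0 ≤ i) (hi' : i < n) (hj : 0 ≤ j) (hj' : j < n)
    (h : n ∣ i - j) : i = j := by
  have h1 : i % n = j % n := (Int.emod_eq_emod_iff_emod_sub_eq_zero).mpr (Int.emod_eq_zero_of_dvd h)
  rwa [Int.emod_eq_of_lt hi hi', Int.emod_eq_of_lt hj hj'] at h1

/-- a system of cosets of Hecke type -/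
structure IsHeckeSys {N : ℕ} {ι : Type*} (S : CosetSys (gam N) ι) (l : ℕ) : Prop where
  tri : ∀ x, ∃ a b d : ℤ, IsTri (S.δ x) a b d ∧ a * d = l ∧ 0 ≤ b ∧ b < d
  surj : ∀ x a b d, IsTri (S.δ x) a b d → ∀ b', 0 ≤ b' → b' < d → ∃ y, IsTri (S.δ y) a b' d

theorem isHeckeSys_heckeSys {N l : ℕ} (hl : l.Prime) (hN : ¬ l ∣ N) :
    IsHeckeSys (heckeSys hl hN) l where
  tri := by
    intro x
    cases x with
    | none => exact ⟨_, _, _, isTri_heckeDiagMatrix hl.ne_zero, by simp, le_rfl, one_pos⟩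
    | some j => exact ⟨_, _, _, isTri_heckeMatrix hl.ne_zero j, by simp, by positivity,
        by exact_mod_cast j.2⟩
  surj := by
    intro x a b d h b' hb hb'
    cases x with
    | none =>
      obtain ⟨h1, h2, -⟩ := (isTri_heckeDiagMatrix hl.ne_zero).unique (A := hdelta l none) h 1
        (by simp [heckeSys])
      subst h1 h2
      obtain rfl : b' = 0 := by omega
      exact ⟨none, isTri_heckeDiagMatrix hl.ne_zero⟩
    | some j =>
      obtain ⟨h1, h2, -⟩ := (isTri_heckeMatrix hl.ne_zero j).unique (A := hdelta l (some j)) h 1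
        (by simp [heckeSys])
      subst h1 h2
      lift b' to ℕ using hb
      exact ⟨some ⟨b', by exact_mod_cast hb'⟩, isTri_heckeMatrix hl.ne_zero b'⟩

theorem isHeckeSys_heckeSysU {N q : ℕ} (hq : q ≠ 0) (hN : q ∣ N) :
    IsHeckeSys (heckeSysU hq hN) q where
  tri := fun j => ⟨_, _, _, isTri_heckeMatrix hq j, by simp, by positivity, by exact_mod_cast j.2⟩
  surj := by
    intro j a b d h b' hb hb'
    obtain ⟨h1, h2, -⟩ := (isTri_heckeMatrix hq j).unique (A := heckeMatrix q j) h 1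
        (by simp [heckeSysU])
    subst h1 h2
    lift b' to ℕ using hb
    exact ⟨⟨b', by exact_mod_cast hb'⟩, isTri_heckeMatrix hq b'⟩

theorem eq_of_mul_eq_of_coprime {a₁ a₂ a₁' a₂' d₁ d₂ d₁' d₂' : ℤ} {l₁ l₂ : ℕ}
    (hl : l₁.Coprime l₂) (h1 : a₁ * d₁ = l₁) (h1' : a₁' * d₁' = l₁) (h2 : a₂ * d₂ = l₂)
    (h2' : a₂' * d₂' = l₂) (p1 : 0 < a₁) (p1' : 0 < a₁') (h : a₂ * a₁ = a₂' * a₁') : a₁ = a₁' := by
  have hc : IsCoprime (l₁ : ℤ) (l₂ : ℤ) := Nat.isCoprime_iff_coprime.mpr hl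
  have e1 : a₁ ∣ a₁' := by
    refine (hc.of_isCoprime_of_dvd_left (Dvd.intro _ h1) |>.of_isCoprime_of_dvd_right
      (Dvd.intro _ h2')).dvd_of_dvd_mul_left (h ▸ Dvd.intro_left _ rfl)
  have e2 : a₁' ∣ a₁ := by
    refine (hc.of_isCoprime_of_dvd_left (Dvd.intro _ h1') |>.of_isCoprime_of_dvd_right
      (Dvd.intro _ h2)).dvd_of_dvd_mul_left (h ▸ Dvd.intro_left _ rfl)
  exact Int.dvd_antisymm p1.le p1'.le e1 e2

theorem prod_inj {N : ℕ} {ι₁ ι₂ : Type*} {S₁ : CosetSys (gam N) ι₁} {S₂ : CosetSys (gam N) ι₂}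
    {l₁ l₂ : ℕ} (hl : l₁.Coprime l₂) (H₁ : IsHeckeSys S₁ l₁) (H₂ : IsHeckeSys S₂ l₂)
    (z : ι₂) (x : ι₁) (w : ι₂) (y : ι₁) (γ : Gamma0 N)
    (h : S₂.δ z * S₁.δ x = gam N γ * (S₂.δ w * S₁.δ y)) : z = w ∧ x = y := by
  obtain ⟨a₂, b₂, d₂, t₂, e₂, p₂, q₂⟩ := H₂.tri z
  obtain ⟨a₁, b₁, d₁, t₁, e₁, p₁, q₁⟩ := H₁.tri x
  obtain ⟨a₂', b₂', d₂', t₂', e₂', p₂', q₂'⟩ := H₂.tri w
  obtain ⟨a₁', b₁', d₁', t₁', e₁', p₁', q₁'⟩ := H₁.tri y
  obtain ⟨u1, u2, e, u3⟩ := (t₂.mul t₁).unique (t₂'.mul t₁') γ h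
  have v1 : a₁ = a₁' := eq_of_mul_eq_of_coprime hl e₁ e₁' e₂ e₂' t₁.ha t₁'.ha u1
  have v2 : d₁ = d₁' := eq_of_mul_eq_of_coprime hl ((mul_comm _ _).trans e₁)
    ((mul_comm _ _).trans e₁') ((mul_comm _ _).trans e₂) ((mul_comm _ _).trans e₂') t₁.hd t₁'.hd u2
  subst v1 v2
  have v3 : a₂ = a₂' := mul_right_cancel₀ t₁.ha.ne' u1
  have v4 : d₂ = d₂' := mul_right_cancel₀ t₁.hd.ne' u2
  subst v3 v4
  have hc : IsCoprime (l₁ : ℤ) (l₂ : ℤ) := Nat.isCoprime_iff_coprime.mpr hl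
  have hc1 : IsCoprime d₁ a₂ := hc.of_isCoprime_of_dvd_left (Dvd.intro_left _ e₁)
    |>.of_isCoprime_of_dvd_right (Dvd.intro _ e₂)
  have v5 : b₁ = b₁' := by
    refine mod_unique p₁ q₁ p₁' q₁' (hc1.dvd_of_dvd_mul_left ⟨b₂' - b₂ + e * d₂, ?_⟩)
    linear_combination u3
  subst v5
  have v6 : b₂ = b₂' := by
    refine mod_unique p₂ q₂ p₂' q₂' ⟨e, ?_⟩
    have := t₁.hd.ne'
    have h3 : d₁ * (b₂ - b₂' - d₂ * e) = 0 := by linear_combination u3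
    rcases mul_eq_zero.mp h3 with h4 | h4
    · exact absurd h4 this
    · linear_combination h4
  subst v6
  refine ⟨S₂.inj _ _ 1 ?_, S₁.inj _ _ 1 ?_⟩
  · rw [map_one, one_mul]; exact t₂.ext t₂'
  · rw [map_one, one_mul]; exact t₁.ext t₁'

theorem prod_exchange {N : ℕ} {ι₁ ι₂ : Type*} {S₁ : CosetSys (gam N) ι₁}
    {S₂ : CosetSys (gam N) ι₂} {l₁ l₂ : ℕ} (hl : l₁.Coprime l₂) (H₁ : IsHeckeSys S₁ l₁)
    (H₂ : IsHeckeSys S₂ l₂) (z : ι₂) (x : ι₁) :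
    ∃ w y α, S₂.δ z * S₁.δ x = gam N α * (S₁.δ w * S₂.δ y) := by
  obtain ⟨a₂, b₂, d₂, t₂, e₂, p₂, q₂⟩ := H₂.tri z
  obtain ⟨a₁, b₁, d₁, t₁, e₁, p₁, q₁⟩ := H₁.tri x
  have hc : IsCoprime (l₁ : ℤ) (l₂ : ℤ) := Nat.isCoprime_iff_coprime.mpr hl
  have hc1 : IsCoprime a₁ d₂ := hc.of_isCoprime_of_dvd_left (Dvd.intro _ e₁)
    |>.of_isCoprime_of_dvd_right (Dvd.intro_left _ e₂)
  obtain ⟨u, v, huv⟩ := hc1
  -- `b₂' ≡ u (a₂ b₁ + b₂ d₁) mod d₂`
  set c := a₂ * b₁ + b₂ * d₁ with hcdef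
  set b₂' := (u * c) % d₂ with hb₂'
  obtain ⟨k, hk⟩ : d₂ ∣ c - a₁ * b₂' := by
    have h1 : d₂ ∣ u * c - b₂' := Int.dvd_self_sub_emod
    obtain ⟨k', hk'⟩ := h1
    refine ⟨a₁ * k' + v * c, ?_⟩
    linear_combination a₁ * hk' - c * huv
  set b₁' := k % d₁ with hb₁'
  obtain ⟨e, he⟩ : d₁ ∣ k - b₁' := Int.dvd_self_sub_emod
  obtain ⟨y, hy⟩ := H₂.surj z a₂ b₂ d₂ t₂ b₂' (Int.emod_nonneg _ t₂.hd.ne')
    (Int.emod_lt_of_pos _ t₂.hd)
  obtain ⟨w, hw⟩ := H₁.surj x a₁ b₁ d₁ t₁ b₁' (Int.emod_nonneg _ t₁.hd.ne')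
    (Int.emod_lt_of_pos _ t₁.hd)
  refine ⟨w, y, uni N e, ?_⟩
  refine (t₂.mul t₁).exists_mul ((hw.mul hy).congr (mul_comm _ _) rfl (mul_comm _ _)) N e ?_
  linear_combination hk + d₂ * he

/-- Hecke operators at coprime indices commute -/
theorem heckeSys_comm {N : ℕ} {ι₁ ι₂ : Type*} [Fintype ι₁] [Fintype ι₂]
    {S₁ : CosetSys (gam N) ι₁} {S₂ : CosetSys (gam N) ι₂} {l₁ l₂ : ℕ} (hl : l₁.Coprime l₂)
    (H₁ : IsHeckeSys S₁ l₁) (H₂ : IsHeckeSys S₂ l₂) (c : Gamma0 N →* B) :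
    S₁.trans (gam_injective N) (S₂.trans (gam_injective N) c) =
      S₂.trans (gam_injective N) (S₁.trans (gam_injective N) c) :=
  CosetSys.trans_comm _ S₁ S₂ (fun z x w y γ h => prod_inj hl H₁ H₂ z x w y γ h)
    (fun z x w y γ h => prod_inj hl.symm H₂ H₁ z x w y γ h)
    (fun z x => prod_exchange hl H₁ H₂ z x) c

theorem heckeChar_comm {N l l' : ℕ} (hl : l.Prime) (hN : ¬ l ∣ N) (hl' : l'.Prime)
    (hN' : ¬ l' ∣ N) (c : Gamma0 N →* B) :
    heckeChar hl hN (heckeChar hl' hN' c) = heckeChar hl' hN' (heckeChar hl hN c) := by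
  rcases eq_or_ne l l' with rfl | h
  · rfl
  · exact heckeSys_comm ((Nat.coprime_primes hl hl').mpr h) (isHeckeSys_heckeSys hl hN)
      (isHeckeSys_heckeSys hl' hN') c

theorem heckeChar_heckeCharU_comm {N l q : ℕ} (hl : l.Prime) (hN : ¬ l ∣ N) (hq : q ≠ 0)
    (hqN : q ∣ N) (c : Gamma0 N →* B) :
    heckeChar hl hN (heckeCharU hq hqN c) = heckeCharU hq hqN (heckeChar hl hN c) :=
  heckeSys_comm ((Nat.Prime.coprime_iff_not_dvd hl).mpr fun h => hN (h.trans hqN))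
    (isHeckeSys_heckeSys hl hN) (isHeckeSys_heckeSysU hq hqN) c

theorem heckeCharU_comm {N q q' : ℕ} (hq : q ≠ 0) (hN : q ∣ N) (hq' : q' ≠ 0)
    (hN' : q' ∣ N) (h : q.Coprime q') (c : Gamma0 N →* B) :
    heckeCharU hq hN (heckeCharU hq' hN' c) = heckeCharU hq' hN' (heckeCharU hq hN c) :=
  heckeSys_comm h (isHeckeSys_heckeSysU hq hN) (isHeckeSys_heckeSysU hq' hN') c

theorem heckeX_comm {N l l' : ℕ} (hl : l.Prime) (hN : ¬ l ∣ N) (hl' : l'.Prime)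
    (hN' : ¬ l' ∣ N) (m : ℕ) (χ : XG N m) :
    heckeX hl hN m (heckeX hl' hN' m χ) = heckeX hl' hN' m (heckeX hl hN m χ) :=
  Subtype.ext (heckeChar_comm hl hN hl' hN' χ.1)

theorem heckeX_heckeXU_comm {N l q : ℕ} (hl : l.Prime) (hN : ¬ l ∣ N) (hq : q ≠ 0)
    (hqN : q ∣ N) (m : ℕ) (χ : XG N m) :
    heckeX hl hN m (heckeXU hq hqN m χ) = heckeXU hq hqN m (heckeX hl hN m χ) :=
  Subtype.ext (heckeChar_heckeCharU_comm hl hN hq hqN χ.1)

theorem heckeXU_comm {N q q' : ℕ} (hq : q ≠ 0) (hN : q ∣ N) (hq' : q' ≠ 0)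
    (hN' : q' ∣ N) (h : q.Coprime q') (m : ℕ) (χ : XG N m) :
    heckeXU hq hN m (heckeXU hq' hN' m χ) = heckeXU hq' hN' m (heckeXU hq hN m χ) :=
  Subtype.ext (heckeCharU_comm hq hN hq' hN' h χ.1)

end Fermat.Agent.ESCore
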