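import Mathlib
import Fermat.Agent.ES.MaxPrinciple
import Fermat.Agent.ES.Lattice

set_option autoImplicit false
set_option linter.unusedSectionVars false

/-!
# Hecke eigensystems occur in the homomorphisms from `Γ₀(N)` to a field

For a ring homomorphism `χ` from the Hecke algebra (weight two, level `N`) to any field `k` there is
a non-zero parabolic homomorphism `c : Γ₀(N) → k` with the same Hecke eigenvalues.
-/

open UpperHalfPlane hiding I
open Filter Topology Function Complex Matrix.SpecialLinearGroup CongruenceSubgroup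
open scoped Manifold MatrixGroups ModularForm Pointwise TensorProduct

noncomputable section

namespace Fermat.Agent.ESCore

open Fermat.Agent.ES

/-! ### algebra -/

/-- A finite faithful module over a commutative ring has eigenfunctionals for every homomorphism
to a field. -/
theorem exists_functional {T : Type*} [CommRing T] {L : Type*} [AddCommGroup L] [Module T L]
    [Module.Finite T L] (hfaith : Module.annihilator T L = ⊥) {k : Type*} [Field k]
    (χ : T →+* k) : ∃ Λ : L →+ k, Λ ≠ 0 ∧ ∀ (t : T) (v : L), Λ (t • v) = χ t * Λ v := by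
  obtain ⟨p, hp⟩ : ∃ p : PrimeSpectrum T, p.asIdeal = RingHom.ker χ :=
    ⟨⟨RingHom.ker χ, RingHom.ker_isPrime χ⟩, rfl⟩
  have hsupp : p ∈ Module.support T L := by
    rw [Module.support_eq_zeroLocus, hfaith]
    simp
  rw [Module.mem_support_iff_nontrivial_residueField_tensorProduct] at hsupp
  obtain ⟨v, hv⟩ := exists_ne (0 : p.asIdeal.ResidueField ⊗[T] L)
  obtain ⟨l, hl⟩ : ∃ l : Module.Dual p.asIdeal.ResidueField (p.asIdeal.ResidueField ⊗[T] L),
      l v ≠ 0 := by
    by_contra hcon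
    push Not at hcon
    exact hv ((Module.forall_dual_apply_eq_zero_iff p.asIdeal.ResidueField v).mp hcon)
  let e : p.asIdeal.ResidueField →+* k := Ideal.ResidueField.lift p.asIdeal χ hp.le (by
    intro x hx
    have : χ x ≠ 0 := fun h => hx (by
      change x ∈ p.asIdeal
      rw [hp]
      exact RingHom.mem_ker.mpr h)
    exact this.isUnit)
  have he : ∀ t : T, e (algebraMap T p.asIdeal.ResidueField t) = χ t := fun t =>
    Ideal.ResidueField.lift_algebraMap ..
  refine ⟨{ toFun := fun x => e (l (1 ⊗ₜ x))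
            map_zero' := by simp
            map_add' := fun x y => by rw [TensorProduct.tmul_add, map_add, map_add] }, ?_, ?_⟩
  · intro h0
    have h1 : ∀ x : L, l (1 ⊗ₜ x) = 0 := by
      intro x
      have h2 : e (l (1 ⊗ₜ x)) = 0 := DFunLike.congr_fun h0 x
      exact (map_eq_zero e).mp h2
    have h3 : l = 0 := by
      refine LinearMap.ext fun y => ?_
      induction y using TensorProduct.induction_on with
      | zero => simp
      | tmul a x =>
        have : a ⊗ₜ[T] x = a • ((1 : p.asIdeal.ResidueField) ⊗ₜ[T] x) := by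
          rw [TensorProduct.smul_tmul', smul_eq_mul, mul_one]
        rw [this, map_smul, h1]
        simp
      | add a b ha hb => rw [map_add, ha, hb, map_add]
    exact hl (by rw [h3]; rfl)
  · intro t x
    change e (l (1 ⊗ₜ (t • x))) = χ t * e (l (1 ⊗ₜ x))
    have h1 : (1 : p.asIdeal.ResidueField) ⊗ₜ[T] (t • x) =
        (algebraMap T p.asIdeal.ResidueField t) • ((1 : p.asIdeal.ResidueField) ⊗ₜ[T] x) := by
      rw [TensorProduct.tmul_smul, algebraMap_smul]
    rw [h1, map_smul, smul_eq_mul, map_mul, he]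

/-! ### periods -/

variable {N : ℕ} [NeZero N]

/-- `δ ↦ F∘δ` on primitives in weight two -/
theorem IsPrimitive_comp_slash {F h : ℍ → ℂ} (hF : IsPrimitive F h) {g : GL (Fin 2) ℝ}
    (hg : 0 < g.det.val) :
    IsPrimitive (fun τ => F (g • τ)) (h ∣[(2 : ℤ)] g) := by
  have hdet' : g.val.det = g.det.val := (Matrix.GeneralLinearGroup.val_det_apply g).symm
  have h1 := hF.comp_smul (g := g) (by rw [hdet']; exact hg)
  convert! h1 using 1
  ext τ
  have hσ (x) : σ g x = x := by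
    rw [σ, if_pos hg]; rfl
  simp only [ModularForm.slash_apply, hσ, hdet', abs_of_pos hg]
  have h2 : (denom g (τ : ℂ)) ^ (-(2 : ℤ)) = (denom g (τ : ℂ) ^ 2)⁻¹ := by
    rw [zpow_neg]; norm_cast
  rw [h2, show (2 : ℤ) - 1 = 1 by norm_num, zpow_one]
  ring

theorem IsPrimitive_sum {ι : Type*} (s : Finset ι) {F h : ι → ℍ → ℂ}
    (H : ∀ i ∈ s, IsPrimitive (F i) (h i)) : IsPrimitive (∑ i ∈ s, F i) (∑ i ∈ s, h i) := by
  classical
  induction s using Finset.induction_on with
  | empty => simpa using IsPrimitive.zero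
  | insert a s ha ih =>
    rw [Finset.sum_insert ha, Finset.sum_insert ha]
    exact (H a (Finset.mem_insert_self _ _)).add
      (ih fun i hi => H i (Finset.mem_insert_of_mem hi))

/-- **Hecke operators and periods, weight two.** -/
theorem pml_of_sum {ι : Type*} [Fintype ι] (δ : ι → GL (Fin 2) ℝ) (hδ : ∀ x, 0 < (δ x).det.val)
    {f h : CuspForm (Gamma0 N) 2} (hh : (⇑h : ℍ → ℂ) = ∑ x, (⇑f : ℍ → ℂ) ∣[(2 : ℤ)] δ x)
    (γ : Gamma0 N) (γ' : ι → Gamma0 N) (s : Equiv.Perm ι)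
    (hs : ∀ x, δ x * mapGL ℝ (γ : SL(2, ℤ)) = mapGL ℝ (γ' x : SL(2, ℤ)) * δ (s x)) :
    pml N h (Additive.ofMul γ) = ∑ x, pml N f (Additive.ofMul (γ' x)) := by
  obtain ⟨F, hF⟩ := isPrimitive_of_exists f
  have hG : IsPrimitive (∑ x, fun τ => F (δ x • τ)) h := by
    rw [hh]
    exact IsPrimitive_sum _ fun x _ => IsPrimitive_comp_slash hF (hδ x)
  change ModularCurve.periodMap N h (Additive.ofMul γ) =
    ∑ x, ModularCurve.periodMap N f (Additive.ofMul (γ' x))
  rw [periodMap_apply hG γ UpperHalfPlane.I]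
  simp only [Finset.sum_apply]
  have h1 : ∀ x, F (δ x • (γ : SL(2, ℤ)) • UpperHalfPlane.I) =
      ModularCurve.periodMap N f (Additive.ofMul (γ' x)) + F (δ (s x) • UpperHalfPlane.I) := by
    intro x
    rw [periodMap_apply hF (γ' x) (δ (s x) • UpperHalfPlane.I)]
    have h2 : δ x • (γ : SL(2, ℤ)) • UpperHalfPlane.I =
        (γ' x : SL(2, ℤ)) • δ (s x) • UpperHalfPlane.I := by
      change δ x • (mapGL ℝ (γ : SL(2, ℤ))) • UpperHalfPlane.I =
        (mapGL ℝ (γ' x : SL(2, ℤ))) • δ (s x) • UpperHalfPlane.I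
      rw [← mul_smul, hs, mul_smul]
    rw [h2]
    ring
  rw [Finset.sum_congr rfl fun x _ => h1 x, Finset.sum_add_distrib,
    Equiv.sum_comp s fun x => F (δ x • UpperHalfPlane.I)]
  ring

variable (N) in
/-- the period functionals -/
def perHom : Additive (Gamma0 N) →+ (CuspForm (Gamma0 N) 2 →ₗ[ℂ] ℂ) where
  toFun γ :=
    { toFun := fun f => pml N f γ
      map_add' := fun f g => by rw [map_add]; rfl
      map_smul' := fun c f => by rw [_root_.map_smul]; rfl }
  map_zero' := by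
    refine LinearMap.ext fun f => ?_
    exact map_zero (pml N f)
  map_add' γ γ' := by
    refine LinearMap.ext fun f => ?_
    exact map_add (pml N f) γ γ'

theorem perHom_apply (γ : Additive (Gamma0 N)) (f : CuspForm (Gamma0 N) 2) :
    perHom N γ f = pml N f γ := rfl

variable (N) in
/-- the period lattice -/
def perLat : AddSubgroup (CuspForm (Gamma0 N) 2 →ₗ[ℂ] ℂ) := (perHom N).range

theorem perHom_comp_of_sum {ι : Type*} [Fintype ι] (δ : ι → GL (Fin 2) ℝ)
    (hδ : ∀ x, 0 < (δ x).det.val) {t : Module.End ℂ (CuspForm (Gamma0 N) 2)}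
    (ht : ∀ f, (⇑(t f) : ℍ → ℂ) = ∑ x, (⇑f : ℍ → ℂ) ∣[(2 : ℤ)] δ x)
    (γ : Gamma0 N) (γ' : ι → Gamma0 N) (s : Equiv.Perm ι)
    (hs : ∀ x, δ x * mapGL ℝ (γ : SL(2, ℤ)) = mapGL ℝ (γ' x : SL(2, ℤ)) * δ (s x)) :
    perHom N (Additive.ofMul γ) ∘ₗ t = ∑ x, perHom N (Additive.ofMul (γ' x)) := by
  refine LinearMap.ext fun f => ?_
  rw [LinearMap.comp_apply, perHom_apply, pml_of_sum δ hδ (ht f) γ γ' s hs, LinearMap.sum_apply]
  rfl

open P2MW.S_ModularForm_heckeT_slash_eq_self_of_mem_Gamma0.ModularForm.HeckeSlashInvariance in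
theorem perLat_comp_heckeT {p : ℕ} (hp : p.Prime) (hpN : ¬ p ∣ N)
    {φ : CuspForm (Gamma0 N) 2 →ₗ[ℂ] ℂ} (hφ : φ ∈ perLat N) :
    φ ∘ₗ CuspForm.heckeTLin 2 hp hpN ∈ perLat N := by
  have : Fact p.Prime := ⟨hp⟩
  have : NeZero p := ⟨hp.ne_zero⟩
  obtain ⟨γ, rfl⟩ := hφ
  have hγN : (N : ℤ) ∣ (γ.toMul : SL(2, ℤ)) 1 0 :=
    (ZMod.intCast_zmod_eq_zero_iff_dvd _ _).mp (CongruenceSubgroup.Gamma0_mem.mp γ.toMul.2)
  choose γ' hγ' hmul using heckeRep_mul (p := p) hpN (γ.toMul : SL(2, ℤ)) hγN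
  have hγ'N : ∀ x, γ' x ∈ CongruenceSubgroup.Gamma0 N := fun x =>
    CongruenceSubgroup.Gamma0_mem.mpr ((ZMod.intCast_zmod_eq_zero_iff_dvd _ _).mpr (hγ' x))
  have h := perHom_comp_of_sum (heckeRep p) (fun x => by
      induction x using OnePoint.rec with
      | infty => exact ModularForm.det_heckeDiagMatrix_pos p
      | coe j => exact ModularForm.det_heckeMatrix_pos p _)
    (t := CuspForm.heckeTLin 2 hp hpN)
    (fun f => heckeT_eq_sum_onePoint _ _) γ.toMul (fun x => ⟨γ' x, hγ'N x⟩)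
    (MulAction.toPerm (redMatrix p (γ.toMul : SL(2, ℤ)))) hmul
  change perHom N (Additive.ofMul γ.toMul) ∘ₗ _ ∈ _
  rw [h]
  exact AddSubgroup.sum_mem _ fun x _ => ⟨_, rfl⟩

open P2MW.S_ModularForm_heckeT_slash_eq_self_of_mem_Gamma0.ModularForm.HeckeSlashInvariance in
theorem perLat_comp_heckeU {p : ℕ} (hp : p.Prime) (hpN : p ∣ N)
    {φ : CuspForm (Gamma0 N) 2 →ₗ[ℂ] ℂ} (hφ : φ ∈ perLat N) :
    φ ∘ₗ CuspForm.heckeULin 2 hpN ∈ perLat N := by
  have : NeZero p := ⟨hp.ne_zero⟩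
  obtain ⟨γ, rfl⟩ := hφ
  have hγN : (N : ℤ) ∣ (γ.toMul : SL(2, ℤ)) 1 0 :=
    (ZMod.intCast_zmod_eq_zero_iff_dvd _ _).mp (CongruenceSubgroup.Gamma0_mem.mp γ.toMul.2)
  have hγp : (p : ℤ) ∣ (γ.toMul : SL(2, ℤ)) 1 0 := (Int.natCast_dvd_natCast.mpr hpN).trans hγN
  choose γ' hγ' hmul using heckeMatrix_mul_of_dvd (p := p) (γ.toMul : SL(2, ℤ)) hγp
  have hγ'N : ∀ x, γ' x ∈ CongruenceSubgroup.Gamma0 N := fun x =>
    CongruenceSubgroup.Gamma0_mem.mpr ((ZMod.intCast_zmod_eq_zero_iff_dvd _ _).mpr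
      (by rw [hγ' x]; exact dvd_mul_of_dvd_right hγN _))
  have h := perHom_comp_of_sum (fun x : ZMod p => ModularForm.heckeMatrix p x.val)
    (fun x => ModularForm.det_heckeMatrix_pos p _)
    (t := CuspForm.heckeULin 2 hpN)
    (fun f => heckeU_eq_sum_zmod _ _) γ.toMul (fun x => ⟨γ' x, hγ'N x⟩) _ hmul
  change perHom N (Additive.ofMul γ.toMul) ∘ₗ _ ∈ _
  rw [h]
  exact AddSubgroup.sum_mem _ fun x _ => ⟨_, rfl⟩

theorem perLat_comp {S : Set ℕ} {t : Module.End ℂ (CuspForm (Gamma0 N) 2)}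
    (ht : t ∈ CuspForm.heckeAlgebra N 2 S) {φ : CuspForm (Gamma0 N) 2 →ₗ[ℂ] ℂ}
    (hφ : φ ∈ perLat N) : φ ∘ₗ t ∈ perLat N := by
  induction ht using Algebra.adjoin_induction generalizing φ with
  | mem x hx =>
    rcases hx with ⟨ℓ, hℓ, hℓN, hℓS, rfl⟩ | ⟨q, hqN, hq, hqS, rfl⟩
    · exact perLat_comp_heckeT hℓ hℓN hφ
    · exact perLat_comp_heckeU hq hqN hφ
  | algebraMap r =>
    have : φ ∘ₗ (algebraMap ℤ (Module.End ℂ (CuspForm (Gamma0 N) 2)) r) = r • φ := by
      ext f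
      simp
    rw [this]
    exact AddSubgroup.zsmul_mem _ hφ _
  | add x y _ _ hx hy => rw [LinearMap.comp_add]; exact AddSubgroup.add_mem _ (hx hφ) (hy hφ)
  | mul x y _ _ hx hy =>
    have : φ ∘ₗ (x * y) = (φ ∘ₗ x) ∘ₗ y := rfl
    rw [this]
    exact hy (hx hφ)

variable (N) in
/-- the period lattice with its Hecke module structure -/
def LatM (_S : Set ℕ) : Type := perLat N

instance (S : Set ℕ) : AddCommGroup (LatM N S) := inferInstanceAs (AddCommGroup (perLat N))

/-- composition with Hecke operators -/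
instance LatM_module (S : Set ℕ) : Module (CuspForm.heckeAlgebra N 2 S) (LatM N S) where
  smul t φ := ⟨φ.1 ∘ₗ t.1, perLat_comp t.2 φ.2⟩
  one_smul φ := Subtype.ext (LinearMap.comp_id _)
  mul_smul s t φ := by
    apply Subtype.ext
    change φ.1 ∘ₗ (s * t).1 = (φ.1 ∘ₗ t.1) ∘ₗ s.1
    rw [mul_comm s t]
    rfl
  smul_zero t := Subtype.ext (LinearMap.zero_comp _)
  smul_add t φ ψ := Subtype.ext (LinearMap.add_comp _ _ _)
  add_smul s t φ := Subtype.ext (LinearMap.comp_add _ _ _)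
  zero_smul φ := Subtype.ext (LinearMap.comp_zero _)

theorem LatM_smul_coe {S : Set ℕ} (t : CuspForm.heckeAlgebra N 2 S) (φ : LatM N S) :
    (t • φ : LatM N S).1 = φ.1 ∘ₗ t.1 := rfl

theorem perLat_fg : (perLat N).FG := by
  have hG : Group.FG SL(2, ℤ) := by
    rw [Group.fg_iff]
    exact ⟨{ModularGroup.S, ModularGroup.T}, SpecialLinearGroup.SL2Z_generators, by simp⟩
  have hfg : Group.FG (CongruenceSubgroup.Gamma0 N) := inferInstance
  have h2 : AddGroup.FG (Additive (CongruenceSubgroup.Gamma0 N)) := inferInstance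
  have h3 : AddGroup.FG (perHom N).range := inferInstance
  exact (AddGroup.fg_iff_addSubgroup_fg _).mp h3

instance LatM_finite (S : Set ℕ) : Module.Finite (CuspForm.heckeAlgebra N 2 S) (LatM N S) := by
  have h1 : Module.Finite ℤ (LatM N S) := by
    have h2 : AddGroup.FG (perLat N) := (AddGroup.fg_iff_addSubgroup_fg _).mpr perLat_fg
    have h3 : Module.Finite ℤ (perLat N) := Module.Finite.iff_addGroup_fg.mpr h2
    exact h3
  have : IsScalarTower ℤ (CuspForm.heckeAlgebra N 2 S) (LatM N S) := AddCommGroup.intIsScalarTower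
  exact Module.Finite.of_restrictScalars_finite ℤ _ _

theorem LatM_faithful (S : Set ℕ) :
    Module.annihilator (CuspForm.heckeAlgebra N 2 S) (LatM N S) = ⊥ := by
  rw [eq_bot_iff]
  intro t ht
  rw [Module.mem_annihilator] at ht
  rw [Submodule.mem_bot]
  apply Subtype.ext
  refine LinearMap.ext fun f => ?_
  have h1 : pml N (t.1 f) = 0 := by
    refine AddMonoidHom.ext fun γ => ?_
    have h2 := ht (⟨perHom N γ, ⟨γ, rfl⟩⟩ : LatM N S)
    have h3 := congrArg Subtype.val h2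
    exact LinearMap.congr_fun h3 f
  have h2 : pml N (t.1 f) + ModularCurve.Period.charInvolution N ℂ ℂ (pml N 0) = 0 := by
    rw [h1, map_zero, map_zero, add_zero]
  exact (pml_add_inv_injective h2).1

/-- **Support theorem.** Every Hecke eigensystem with values in a field `k` occurs in the space of
parabolic homomorphisms `Γ₀(N) → k`. The Hecke action is specified through any presentation of
`t` as a sum of slash operators. -/
theorem exists_parabolic_eigenHom {S : Set ℕ} {k : Type*} [Field k]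
    (χ : CuspForm.heckeAlgebra N 2 S →+* k) :
    ∃ c : Additive (Gamma0 N) →+ k, c ≠ 0 ∧
      (∀ γ : Gamma0 N, ((γ : SL(2, ℤ)) : Matrix (Fin 2) (Fin 2) ℤ).trace ^ 2 = 4 →
        c (Additive.ofMul γ) = 0) ∧
      ∀ (t : CuspForm.heckeAlgebra N 2 S) {ι : Type} [Fintype ι] (δ : ι → GL (Fin 2) ℝ),
        (∀ x, 0 < (δ x).det.val) →
        (∀ f : CuspForm (Gamma0 N) 2, (⇑(t.1 f) : ℍ → ℂ) = ∑ x, (⇑f : ℍ → ℂ) ∣[(2 : ℤ)] δ x) →
        ∀ (γ : Gamma0 N) (γ' : ι → Gamma0 N) (s : Equiv.Perm ι),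
        (∀ x, δ x * mapGL ℝ (γ : SL(2, ℤ)) = mapGL ℝ (γ' x : SL(2, ℤ)) * δ (s x)) →
        ∑ x, c (Additive.ofMul (γ' x)) = χ t * c (Additive.ofMul γ) := by
  obtain ⟨Λ, hΛ0, hΛ⟩ := exists_functional (LatM_faithful (N := N) S) χ
  let pr : Additive (Gamma0 N) →+ LatM N S := (perHom N).rangeRestrict
  refine ⟨Λ.comp pr, ?_, ?_, ?_⟩
  · intro h
    apply hΛ0
    refine AddMonoidHom.ext fun v => ?_
    obtain ⟨γ, hγ⟩ := AddMonoidHom.rangeRestrict_surjective (perHom N) v
    have h1 := DFunLike.congr_fun h γ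
    change Λ ((perHom N).rangeRestrict γ) = 0 at h1
    have h2 : (perHom N).rangeRestrict γ = v := hγ
    rw [h2] at h1
    exact h1
  · intro γ hγ
    have h1 : pr (Additive.ofMul γ) = 0 := by
      apply Subtype.ext
      refine LinearMap.ext fun f => ?_
      exact pml_mem_parabolicHoms f γ hγ
    rw [AddMonoidHom.comp_apply, h1, map_zero]
  · intro t ι _ δ hδ ht γ γ' s hs
    have h1 := perHom_comp_of_sum δ hδ ht γ γ' s hs
    have h2 : t • pr (Additive.ofMul γ) = ∑ x, pr (Additive.ofMul (γ' x)) := by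
      apply Subtype.ext
      rw [LatM_smul_coe]
      have h3 : (∑ x, pr (Additive.ofMul (γ' x))).1 = ∑ x, (pr (Additive.ofMul (γ' x))).1 :=
        map_sum (perLat N).subtype _ _
      rw [h3]
      exact h1
    simp only [AddMonoidHom.comp_apply]
    rw [← map_sum, ← h2, hΛ]

end Fermat.Agent.ESCore
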