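import Mathlib
import Fermat.Agent.ESCore.Support
import Fermat.Agent.ES.HeckeFinite
import Fermat.Agent.Hecke.Eigenform
import Fermat.Agent.ESCore.HeckeChar

set_option autoImplicit false
set_option linter.unusedSectionVars false

/-!
# Normalised eigenforms: the eigencharacter and the associated parabolic homomorphism
-/

open UpperHalfPlane hiding I
open Filter Topology Function Complex Matrix.SpecialLinearGroup CongruenceSubgroup ModularFormClass
open scoped Manifold MatrixGroups ModularForm Pointwise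

noncomputable section

namespace Fermat.Agent.ESCore

open Fermat.Agent.ES Fermat.Agent.Hecke

variable {N : ℕ} [NeZero N] {g : CuspForm (Gamma0 N) 2}

theorem eigen_coeff_of_dvd (hg : g.IsNormalizedEigenform) {p : ℕ} (hp : p.Prime) (hpN : p ∣ N)
    (n : ℕ) : qCoeff g (n * p) = qCoeff g p * qCoeff g n := by
  rcases Nat.eq_zero_or_pos n with rfl | hn
  · rw [zero_mul, qCoeff_zero_eq, mul_zero]
  obtain ⟨r, m, hm, rfl⟩ := Nat.exists_eq_pow_mul_and_not_dvd hn.ne' p hp.ne_one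
  have hcop : ∀ s, (p ^ s).Coprime m := fun s =>
    Nat.Coprime.pow_left _ ((Nat.Prime.coprime_iff_not_dvd hp).mpr hm)
  rw [show p ^ r * m * p = p ^ (r + 1) * m by ring, hg.qCoeff_mul_of_coprime _ _ (hcop _),
    hg.qCoeff_mul_of_coprime _ _ (hcop _)]
  rcases r with _ | r
  · rw [zero_add, pow_one, pow_zero, hg.qCoeff_one, one_mul]
  · rw [hg.qCoeff_prime_pow_of_dvd p r hp hpN]
    ring

theorem eigen_coeff_of_not_dvd (hg : g.IsNormalizedEigenform) {p : ℕ} (hp : p.Prime)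
    (hpN : ¬ p ∣ N) (n : ℕ) :
    qCoeff g (n * p) + (if p ∣ n then (p : ℂ) ^ ((2 : ℤ) - 1) * qCoeff g (n / p) else 0) =
      qCoeff g p * qCoeff g n := by
  have h4 : (p : ℂ) ^ ((2 : ℤ) - 1) = p := by norm_num
  rw [h4]
  rcases Nat.eq_zero_or_pos n with rfl | hn
  · simp [qCoeff_zero_eq]
  obtain ⟨r, m, hm, rfl⟩ := Nat.exists_eq_pow_mul_and_not_dvd hn.ne' p hp.ne_one
  have hcop : ∀ s, (p ^ s).Coprime m := fun s =>
    Nat.Coprime.pow_left _ ((Nat.Prime.coprime_iff_not_dvd hp).mpr hm)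
  rw [show p ^ r * m * p = p ^ (r + 1) * m by ring, hg.qCoeff_mul_of_coprime _ _ (hcop _),
    hg.qCoeff_mul_of_coprime _ _ (hcop _)]
  rcases r with _ | r
  · have h5 : ¬ p ∣ p ^ 0 * m := by simpa using hm
    rw [if_neg h5, zero_add, pow_one, pow_zero, hg.qCoeff_one, one_mul, add_zero]
  · have h5 : p ∣ p ^ (r + 1) * m := dvd_mul_of_dvd_left (dvd_pow_self _ (by omega)) _
    have h6 : p ^ (r + 1) * m / p = p ^ r * m := by
      rw [show p ^ (r + 1) * m = p * (p ^ r * m) by ring, Nat.mul_div_cancel_left _ hp.pos]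
    rw [if_pos h5, h6, hg.qCoeff_mul_of_coprime _ _ (hcop _),
      hg.qCoeff_prime_pow_of_not_dvd p r hp hpN]
    ring

theorem heckeTLin_eigen (hg : g.IsNormalizedEigenform) {p : ℕ} (hp : p.Prime) (hpN : ¬ p ∣ N) :
    CuspForm.heckeTLin 2 hp hpN g = qCoeff g p • g := by
  refine ext_of_forall_qCoeff _ _ fun n => ?_
  rw [qCoeff_heckeTLin hp hpN, qCoeff_smul, eigen_coeff_of_not_dvd hg hp hpN]

theorem heckeULin_eigen (hg : g.IsNormalizedEigenform) {p : ℕ} (hp : p.Prime) (hpN : p ∣ N) :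
    CuspForm.heckeULin 2 hpN g = qCoeff g p • g := by
  refine ext_of_forall_qCoeff _ _ fun n => ?_
  rw [qCoeff_heckeULin hp hpN, qCoeff_smul, eigen_coeff_of_dvd hg hp hpN]

theorem exists_eigenvalue (hg : g.IsNormalizedEigenform) {S : Set ℕ}
    {t : Module.End ℂ (CuspForm (Gamma0 N) 2)} (ht : t ∈ CuspForm.heckeAlgebra N 2 S) :
    ∃ a : ℂ, t g = a • g := by
  induction ht using Algebra.adjoin_induction with
  | mem x hx =>
    rcases hx with ⟨ℓ, hℓ, hℓN, hℓS, rfl⟩ | ⟨q, hqN, hq, hqS, rfl⟩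
    · exact ⟨_, heckeTLin_eigen hg hℓ hℓN⟩
    · exact ⟨_, heckeULin_eigen hg hq hqN⟩
  | algebraMap r =>
    refine ⟨r, ?_⟩
    rw [Module.algebraMap_end_apply, Int.cast_smul_eq_zsmul]
  | add x y _ _ hx hy =>
    obtain ⟨a, ha⟩ := hx
    obtain ⟨b, hb⟩ := hy
    exact ⟨a + b, by rw [LinearMap.add_apply, ha, hb, add_smul]⟩
  | mul x y _ _ hx hy =>
    obtain ⟨a, ha⟩ := hx
    obtain ⟨b, hb⟩ := hy
    exact ⟨a * b, by rw [Module.End.mul_apply, hb, map_smul, ha, smul_smul, mul_comm]⟩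

/-- the eigencharacter of a normalised eigenform -/
def eigenHomC (hg : g.IsNormalizedEigenform) (S : Set ℕ) : CuspForm.heckeAlgebra N 2 S →+* ℂ where
  toFun t := qCoeff (t.1 g) 1
  map_one' := hg.qCoeff_one
  map_zero' := by
    have : ((0 : CuspForm.heckeAlgebra N 2 S).1 : Module.End ℂ (CuspForm (Gamma0 N) 2)) g =
      (0 : ℂ) • g := by rw [zero_smul]; rfl
    rw [this, qCoeff_smul, zero_mul]
  map_add' s t := by
    have : ((s + t).1 : Module.End ℂ (CuspForm (Gamma0 N) 2)) g = s.1 g + t.1 g := rfl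
    rw [this, Fermat.Agent.Hecke.qCoeff_add]
  map_mul' s t := by
    have : ((s * t).1 : Module.End ℂ (CuspForm (Gamma0 N) 2)) g = s.1 (t.1 g) := rfl
    obtain ⟨b, hb⟩ := exists_eigenvalue hg t.2
    rw [this, hb, map_smul, qCoeff_smul, qCoeff_smul, hg.qCoeff_one]
    ring

theorem eigenHomC_spec (hg : g.IsNormalizedEigenform) {S : Set ℕ}
    (t : CuspForm.heckeAlgebra N 2 S) : t.1 g = eigenHomC hg S t • g := by
  obtain ⟨a, ha⟩ := exists_eigenvalue hg t.2
  change t.1 g = qCoeff (t.1 g) 1 • g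
  rw [ha, qCoeff_smul, hg.qCoeff_one, mul_one]

theorem eigenHomC_integral (hg : g.IsNormalizedEigenform) {S : Set ℕ}
    (t : CuspForm.heckeAlgebra N 2 S) : eigenHomC hg S t ∈ integralClosure ℤ ℂ := by
  have h1 : Module.Finite ℤ (CuspForm.heckeAlgebra N 2 S) := moduleFinite_heckeAlgebra 2 S
  have h2 : IsIntegral ℤ t := IsIntegral.of_finite ℤ t
  have h3 := h2.map ((eigenHomC hg S).toIntAlgHom)
  exact h3

/-- the eigencharacter of a normalised eigenform, with values in the algebraic integers -/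
def eigenHom (hg : g.IsNormalizedEigenform) (S : Set ℕ) :
    CuspForm.heckeAlgebra N 2 S →+* integralClosure ℤ ℂ :=
  (eigenHomC hg S).codRestrict (integralClosure ℤ ℂ).toSubring fun t => eigenHomC_integral hg t

theorem coe_eigenHom (hg : g.IsNormalizedEigenform) {S : Set ℕ}
    (t : CuspForm.heckeAlgebra N 2 S) : ((eigenHom hg S t : integralClosure ℤ ℂ) : ℂ) =
      eigenHomC hg S t := rfl

theorem eigenHom_T (hg : g.IsNormalizedEigenform) {S : Set ℕ} {l : ℕ} (hl : l.Prime)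
    (hlN : ¬ l ∣ N) (hlS : l ∉ S) :
    ((eigenHom hg S (CuspForm.heckeAlgebra.T hl hlN hlS) : integralClosure ℤ ℂ) : ℂ) =
      qCoeff g l := by
  rw [coe_eigenHom]
  change qCoeff (CuspForm.heckeTLin 2 hl hlN g) 1 = _
  rw [heckeTLin_eigen hg hl hlN, qCoeff_smul, hg.qCoeff_one, mul_one]

theorem eigenHom_U (hg : g.IsNormalizedEigenform) {S : Set ℕ} {l : ℕ} (hl : l.Prime)
    (hlN : l ∣ N) (hlS : l ∉ S) :
    ((eigenHom hg S (CuspForm.heckeAlgebra.U hl hlN hlS) : integralClosure ℤ ℂ) : ℂ) =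
      qCoeff g l := by
  rw [coe_eigenHom]
  change qCoeff (CuspForm.heckeULin 2 hlN g) 1 = _
  rw [heckeULin_eigen hg hl hlN, qCoeff_smul, hg.qCoeff_one, mul_one]

theorem hdelta_pos (l : ℕ) (x : Option (Fin l)) : 0 < (hdelta l x).det.val := by
  rcases x with _ | j
  · exact ModularForm.det_heckeDiagMatrix_pos l
  · exact ModularForm.det_heckeMatrix_pos l _

theorem heckeT_eq_sum_hdelta (l : ℕ) (f : ℍ → ℂ) :
    ModularForm.heckeT 2 l f = ∑ x, f ∣[(2 : ℤ)] hdelta l x := by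
  rw [Fintype.sum_option, ModularForm.heckeT_eq_heckeU_add, ModularForm.heckeU_def,
    Finset.sum_range, add_comm]
  rfl

theorem heckeU_eq_sum_fin (l : ℕ) (f : ℍ → ℂ) :
    ModularForm.heckeU 2 l f = ∑ x : Fin l, f ∣[(2 : ℤ)] ModularForm.heckeMatrix l x := by
  rw [ModularForm.heckeU_def, Finset.sum_range]

/-- **Eigencharacters (values in a field).** For every ring homomorphism `χ` from the Hecke algebra
of weight two and level `N` (away from `S`) to a field `k` there is a non-zero homomorphism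
`c : Γ₀(N) → k`, vanishing on all parabolic elements, with `T_l c = χ(T_l) c`, `U_q c = χ(U_q) c`. -/
theorem exists_eigenHom_of_ringHom {S : Set ℕ} {k : Type*} [Field k]
    (χ : CuspForm.heckeAlgebra N 2 S →+* k) :
    ∃ c : Additive (Gamma0 N) →+ k, c ≠ 0 ∧
      (∀ γ : Gamma0 N, ((γ : SL(2, ℤ)) : Matrix (Fin 2) (Fin 2) ℤ).trace ^ 2 = 4 →
        c (Additive.ofMul γ) = 0) ∧
      (∀ (l : ℕ) (hl : l.Prime) (hlN : ¬ l ∣ N) (hlS : l ∉ S)
        (γ : Gamma0 N) (γ' : Option (Fin l) → Gamma0 N) (s : Equiv.Perm (Option (Fin l))),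
        (∀ x, hdelta l x * mapGL ℝ (γ : SL(2, ℤ)) =
          mapGL ℝ (γ' x : SL(2, ℤ)) * hdelta l (s x)) →
        ∑ x, c (Additive.ofMul (γ' x)) =
          χ (CuspForm.heckeAlgebra.T hl hlN hlS) * c (Additive.ofMul γ)) ∧
      (∀ (l : ℕ) (hl : l.Prime) (hlN : l ∣ N) (hlS : l ∉ S)
        (γ : Gamma0 N) (γ' : Fin l → Gamma0 N) (s : Equiv.Perm (Fin l)),
        (∀ x : Fin l, ModularForm.heckeMatrix l x * mapGL ℝ (γ : SL(2, ℤ)) =
          mapGL ℝ (γ' x : SL(2, ℤ)) * ModularForm.heckeMatrix l (s x)) →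
        ∑ x, c (Additive.ofMul (γ' x)) =
          χ (CuspForm.heckeAlgebra.U hl hlN hlS) * c (Additive.ofMul γ)) := by
  obtain ⟨c, hc0, hpar, hc⟩ := exists_parabolic_eigenHom χ
  refine ⟨c, hc0, hpar, fun l hl hlN hlS γ γ' s hs => ?_, fun l hl hlN hlS γ γ' s hs => ?_⟩
  · exact hc (CuspForm.heckeAlgebra.T hl hlN hlS) (hdelta l) (hdelta_pos l)
      (fun f => heckeT_eq_sum_hdelta l f) γ γ' s hs
  · exact hc (CuspForm.heckeAlgebra.U hl hlN hlS) (fun x : Fin l => ModularForm.heckeMatrix l x)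
      (fun x => ModularForm.det_heckeMatrix_pos l _)
      (fun f => heckeU_eq_sum_fin l f) γ γ' s hs

/-- **Eigencharacter of a normalised eigenform.** -/
theorem exists_eigenHom' (hg : g.IsNormalizedEigenform) {k : Type*} [Field k]
    (φ : integralClosure ℤ ℂ →+* k) :
    ∃ c : Additive (Gamma0 N) →+ k, c ≠ 0 ∧
      (∀ γ : Gamma0 N, ((γ : SL(2, ℤ)) : Matrix (Fin 2) (Fin 2) ℤ).trace ^ 2 = 4 →
        c (Additive.ofMul γ) = 0) ∧
      ∀ (l : ℕ) (_ : l.Prime) (_ : ¬ l ∣ N), ∃ a : integralClosure ℤ ℂ, (a : ℂ) = qCoeff g l ∧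
        ∀ (γ : Gamma0 N) (γ' : Option (Fin l) → Gamma0 N) (s : Equiv.Perm (Option (Fin l))),
        (∀ x, hdelta l x * mapGL ℝ (γ : SL(2, ℤ)) =
          mapGL ℝ (γ' x : SL(2, ℤ)) * hdelta l (s x)) →
        ∑ x, c (Additive.ofMul (γ' x)) = φ a * c (Additive.ofMul γ) := by
  obtain ⟨c, hc0, hpar, hc, -⟩ := exists_eigenHom_of_ringHom (φ.comp (eigenHom hg ∅))
  refine ⟨c, hc0, hpar, fun l hl hlN => ⟨_, eigenHom_T hg hl hlN (Set.notMem_empty l), ?_⟩⟩
  intro γ γ' s hs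
  exact hc l hl hlN (Set.notMem_empty l) γ γ' s hs

/-- additive homomorphisms written multiplicatively -/
def mulHom {k : Type*} [AddCommGroup k] (c : Additive (Gamma0 N) →+ k) :
    Gamma0 N →* Multiplicative k where
  toFun γ := Multiplicative.ofAdd (c (Additive.ofMul γ))
  map_one' := by
    rw [ofMul_one, map_zero]
    rfl
  map_mul' a b := by
    rw [ofMul_mul, map_add]
    rfl

theorem toAdd_mulHom {k : Type*} [AddCommGroup k] (c : Additive (Gamma0 N) →+ k) (γ : Gamma0 N) :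
    Multiplicative.toAdd (mulHom c γ) = c (Additive.ofMul γ) := rfl

/-- **Eigencharacters, multiplicative notation.** -/
theorem exists_eigenChar_of_ringHom {S : Set ℕ} {k : Type} [Field k]
    (χ : CuspForm.heckeAlgebra N 2 S →+* k) :
    ∃ c : Gamma0 N →* Multiplicative k, c ≠ 1 ∧
      (∀ γ : Gamma0 N, ((γ : SL(2, ℤ)) : Matrix (Fin 2) (Fin 2) ℤ).trace ^ 2 = 4 → c γ = 1) ∧
      (∀ (l : ℕ) (hl : l.Prime) (hlN : ¬ l ∣ N) (hlS : l ∉ S) (γ : Gamma0 N),
        Multiplicative.toAdd (heckeChar hl hlN c γ) =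
          χ (CuspForm.heckeAlgebra.T hl hlN hlS) * Multiplicative.toAdd (c γ)) ∧
      (∀ (l : ℕ) (hl : l.Prime) (hlN : l ∣ N) (hlS : l ∉ S) (γ : Gamma0 N),
        Multiplicative.toAdd (heckeCharU hl.ne_zero hlN c γ) =
          χ (CuspForm.heckeAlgebra.U hl hlN hlS) * Multiplicative.toAdd (c γ)) := by
  obtain ⟨c, hc0, hpar, hT, hU⟩ := exists_eigenHom_of_ringHom χ
  refine ⟨mulHom c, fun h => hc0 ?_, fun γ hγ => hpar γ hγ, fun l hl hlN hlS γ => ?_,
    fun l hl hlN hlS γ => ?_⟩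
  · refine AddMonoidHom.ext fun γ => ?_
    exact DFunLike.congr_fun h γ.toMul
  · rw [toAdd_mulHom, ← hT l hl hlN hlS γ ((heckeSys hl hlN).coc γ)
      (Equiv.ofBijective _ ((heckeSys hl hlN).tgt_bijective γ))
      (fun x => (heckeSys hl hlN).spec γ x)]
    change Multiplicative.toAdd (∏ x, mulHom c ((heckeSys hl hlN).coc γ x)) = _
    rw [toAdd_prod]
    rfl
  · rw [toAdd_mulHom, ← hU l hl hlN hlS γ ((heckeSysU hl.ne_zero hlN).coc γ)
      (Equiv.ofBijective _ ((heckeSysU hl.ne_zero hlN).tgt_bijective γ))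
      (fun x => (heckeSysU hl.ne_zero hlN).spec γ x)]
    change Multiplicative.toAdd (∏ x, mulHom c ((heckeSysU hl.ne_zero hlN).coc γ x)) = _
    rw [toAdd_prod]
    rfl

/-- **Eigencharacter of a normalised eigenform.** -/
theorem exists_eigenHom (hg : g.IsNormalizedEigenform) {k : Type} [Field k]
    (φ : integralClosure ℤ ℂ →+* k) :
    ∃ c : Gamma0 N →* Multiplicative k, c ≠ 1 ∧
      (∀ γ : Gamma0 N, (γ : SL(2, ℤ)) 1 0 = 0 → c γ = 1) ∧
      ∀ (l : ℕ) (hl : l.Prime) (hlN : ¬ l ∣ N), ∃ a : integralClosure ℤ ℂ,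
        (a : ℂ) = qCoeff g l ∧ ∀ γ, Multiplicative.toAdd (heckeChar hl hlN c γ) =
          φ a * Multiplicative.toAdd (c γ) := by
  obtain ⟨c, hc0, hpar, hc, -⟩ := exists_eigenChar_of_ringHom (φ.comp (eigenHom hg ∅))
  refine ⟨c, hc0, fun γ hγ => hpar γ ?_, fun l hl hlN =>
    ⟨_, eigenHom_T hg hl hlN (Set.notMem_empty l), fun γ => ?_⟩⟩
  · have h1 := (γ : SL(2, ℤ)).det_coe
    rw [Matrix.det_fin_two, hγ, mul_zero, sub_zero] at h1
    rw [Matrix.trace_fin_two]
    rcases Int.eq_one_or_neg_one_of_mul_eq_one' h1 with ⟨ha, hb⟩ | ⟨ha, hb⟩ <;> rw [ha, hb] <;>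
      norm_num
  · exact hc l hl hlN (Set.notMem_empty l) γ

end Fermat.Agent.ESCore
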