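import Fermat.Agent.ESCore.Defs
import Fermat.Agent.ESCore.HeckeQ
import Fermat.Agent.Eis16.LevelOne

set_option autoImplicit false

/-!
# Basic algebra of forms with multiplier
-/

open UpperHalfPlane ModularForm Matrix Matrix.SpecialLinearGroup CongruenceSubgroup
open Fermat.Agent.Eis16 Fermat.Agent.ES
open scoped MatrixGroups Manifold

noncomputable section

namespace Fermat.Agent.ESCore

theorem slash_pow_SL2 (k : ℤ) (f : ℍ → ℂ) (A : SL(2, ℤ)) (m : ℕ) :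
    (f ^ m) ∣[k * m] A = (f ∣[k] A) ^ m := by
  induction m with
  | zero =>
    rw [pow_zero, pow_zero, Nat.cast_zero, mul_zero]
    exact ModularForm.is_invariant_one A
  | succ m ih =>
    rw [pow_succ, pow_succ, ← ih, ← ModularForm.mul_slash_SL2]
    congr 1
    push_cast
    ring

theorem mform_mul {G : Subgroup SL(2, ℤ)} {χ ψ : G →* ℂˣ} {k k' : ℤ} {f g : ℍ → ℂ}
    (hf : f ∈ mform χ k) (hg : g ∈ mform ψ k') : f * g ∈ mform (χ * ψ) (k + k') := by
  obtain ⟨h1, h2, h3⟩ := hf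
  obtain ⟨h4, h5, h6⟩ := hg
  refine ⟨h1.mul h4, fun γ => ?_, fun A => ?_⟩
  · rw [ModularForm.mul_slash_SL2, h2, h5, MonoidHom.mul_apply, Units.val_mul]
    ext τ
    simp only [Pi.mul_apply, Pi.smul_apply, smul_eq_mul]
    ring
  · rw [ModularForm.mul_slash_SL2]
    exact (h3 A).mul (h6 A)

theorem mform_congr {G : Subgroup SL(2, ℤ)} {χ ψ : G →* ℂˣ} {k k' : ℤ} {f : ℍ → ℂ}
    (hf : f ∈ mform χ k) (h1 : χ = ψ) (h2 : k = k') : f ∈ mform ψ k' := by
  subst h1 h2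
  exact hf

theorem mform_one {G : Subgroup SL(2, ℤ)} : (1 : ℍ → ℂ) ∈ mform (1 : G →* ℂˣ) 0 := by
  refine ⟨mdifferentiable_const, fun γ => ?_, fun A => ?_⟩
  · rw [ModularForm.is_invariant_one]
    simp
  · rw [ModularForm.is_invariant_one]
    exact Filter.const_boundedAtFilter atImInfty (1 : ℂ)

theorem mform_pow {G : Subgroup SL(2, ℤ)} {χ : G →* ℂˣ} {k : ℤ} {f : ℍ → ℂ}
    (hf : f ∈ mform χ k) (m : ℕ) : f ^ m ∈ mform (χ ^ m) (k * m) := by
  induction m with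
  | zero =>
    refine mform_congr (mform_one (G := G)) ?_ (by simp)
    ext g
    simp
  | succ m ih =>
    rw [pow_succ]
    refine mform_congr (mform_mul ih hf) ?_ (by push_cast; ring)
    ext g
    simp [pow_succ]

theorem hasQ_mform {N : ℕ} {χ : Gamma0 N →* ℂˣ}
    (hχ : ∀ g : Gamma0 N, (g : SL(2, ℤ)) 1 0 = 0 → χ g = 1) {k : ℤ} {F : ℍ → ℂ}
    (hF : F ∈ mform χ k) : HasQ 1 F (qExpansion 1 F) :=
  hasQ_of_mem_BRing (mem_BRing_of_mem_mform hχ hF)

theorem mform_ne_zero_iff {N : ℕ} {χ : Gamma0 N →* ℂˣ}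
    (hχ : ∀ g : Gamma0 N, (g : SL(2, ℤ)) 1 0 = 0 → χ g = 1) {k : ℤ} {F : ℍ → ℂ}
    (hF : F ∈ mform χ k) : F = 0 ↔ qExpansion 1 F = 0 := by
  constructor
  · rintro rfl
    exact (HasQ.zero 1).qExpansion_eq one_pos
  · intro h
    have h1 := hasQ_mform hχ hF
    rw [h] at h1
    exact h1.ext (HasQ.zero 1)

/-- `Δ` as a function. -/
abbrev dl : ℍ → ℂ := CuspForm.discriminant

theorem dl_slash (A : SL(2, ℤ)) : dl ∣[(12 : ℤ)] A = dl := by
  have := SlashInvariantFormClass.slash_action_eq CuspForm.discriminant (mapGL ℝ A) ⟨A, rfl⟩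
  exact this

theorem dl_mem {G : Subgroup SL(2, ℤ)} : dl ∈ mform (1 : G →* ℂˣ) 12 := by
  refine ⟨CuspForm.discriminant.holo', fun γ => ?_, fun A => ?_⟩
  · rw [dl_slash]
    simp
  · rw [dl_slash]
    exact ModularFormClass.bdd_at_infty CuspForm.discriminant

theorem dl_zero : IsZeroAtImInfty dl := CuspFormClass.zero_at_infty CuspForm.discriminant

theorem dl_ne_zero (τ : ℍ) : dl τ ≠ 0 := ModularForm.discriminant_ne_zero τ

/-- Build a cusp form on `Γ₀(N)`. -/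
def toCusp {N : ℕ} [NeZero N] {k : ℤ} {f : ℍ → ℂ} (hf : f ∈ mform (1 : Gamma0 N →* ℂˣ) k)
    (h0 : ∀ A : SL(2, ℤ), IsZeroAtImInfty (f ∣[k] A)) : CuspForm (Gamma0 N) k where
  toFun := f
  slash_action_eq' := by
    rintro _ ⟨g, hg, rfl⟩
    have := hf.2.1 ⟨g, hg⟩
    rw [MonoidHom.one_apply, Units.val_one, one_smul] at this
    exact this
  holo' := hf.1
  zero_at_cusps' := by
    intro c hc
    rw [Subgroup.IsArithmetic.isCusp_iff_isCusp_SL2Z] at hc
    rw [OnePoint.isZeroAt_iff_forall_SL2Z hc]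
    intro g _
    exact h0 g

@[simp] theorem coe_toCusp {N : ℕ} [NeZero N] {k : ℤ} {f : ℍ → ℂ}
    (hf : f ∈ mform (1 : Gamma0 N →* ℂˣ) k)
    (h0 : ∀ A : SL(2, ℤ), IsZeroAtImInfty (f ∣[k] A)) : ⇑(toCusp hf h0) = f := rfl

theorem isZero_pow {f : ℍ → ℂ} (hf : IsZeroAtImInfty f) {m : ℕ} (hm : 0 < m) :
    IsZeroAtImInfty (f ^ m) := by
  have h1 : Filter.Tendsto f atImInfty (nhds 0) := hf
  have h2 := h1.pow m
  rw [zero_pow hm.ne'] at h2
  exact h2

theorem isZero_mul_bounded {f g : ℍ → ℂ} (hf : IsBoundedAtImInfty f) (hg : IsZeroAtImInfty g) :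
    IsZeroAtImInfty (f * g) := by
  have h1 : g =o[atImInfty] (fun _ => (1 : ℝ)) := (Asymptotics.isLittleO_one_iff ℝ).2 hg
  have h2 := Asymptotics.IsBigO.mul_isLittleO hf h1
  simp only [Pi.one_apply, mul_one] at h2
  exact (Asymptotics.isLittleO_one_iff ℝ).1 h2

/-- The form `(F Δ)^m` as a cusp form, for `F` a form with character of order dividing `m`. -/
theorem exists_cusp_pow {N m : ℕ} [NeZero N] (hm : 0 < m) (χ : XG N m) {k : ℤ} {F : ℍ → ℂ}
    (hF : F ∈ mform χ.1 k) : ∃ f : CuspForm (Gamma0 N) ((k + 12) * m), ⇑f = (F * dl) ^ m := by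
  have h1 : (F * dl) ^ m ∈ mform (1 : Gamma0 N →* ℂˣ) ((k + 12) * m) := by
    have := mform_pow (mform_mul hF (dl_mem (G := Gamma0 N))) m
    refine mform_congr this ?_ rfl
    have h2 : (χ.1 * 1 : Gamma0 N →* ℂˣ) = χ.1 := by
      ext g
      simp
    rw [h2]
    exact χ.2.1
  refine ⟨toCusp h1 fun A => ?_, rfl⟩
  rw [slash_pow_SL2, ModularForm.mul_slash_SL2, dl_slash]
  exact isZero_pow (isZero_mul_bounded (hF.2.2 A) dl_zero) hm

end Fermat.Agent.ESCore
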