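import Fermat.Agent.ESCore.Scale
import Fermat.Agent.ESCore.MForm

set_option autoImplicit false

/-!
# The Eichler–Shimura relation on `XG N m` from the uniqueness lemma
-/

open UpperHalfPlane ModularForm Matrix Matrix.SpecialLinearGroup CongruenceSubgroup
open Fermat.Agent.Eis16 Fermat.Agent.ES
open scoped MatrixGroups Manifold

noncomputable section

namespace Fermat.Agent.ESCore

/-- The conclusion of the uniqueness lemma KL at a place `A`. -/
def KLProp (N m : ℕ) (A : ValuationSubring Qb) : Prop :=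
  ∀ (χ₁ χ₂ : XG N m) (n : ℕ) (F₁ F₂ : ℍ → ℂ), F₁ ∈ mform χ₁.1 (12 * n) →
    F₂ ∈ mform χ₂.1 (12 * n) → ∀ P₁ P₂ : PowerSeries A,
    qExpansion 1 (F₁ ^ m) = (P₁.map A.subtype).map ιC →
    qExpansion 1 (F₂ ^ m) = (P₂.map A.subtype).map ιC →
    P₁.map (IsLocalRing.residue A) = P₂.map (IsLocalRing.residue A) →
    P₁.map (IsLocalRing.residue A) ≠ 0 → χ₁ = χ₂

/-- The property characterising the Galois action on `XG N m`. -/
def GalSpec (N m : ℕ) (gal : GQ → XG N m → XG N m) : Prop :=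
  ∀ (σ : GQ) (χ : XG N m) (n : ℕ) (F : ℍ → ℂ), F ∈ mform χ.1 (12 * n) → F ≠ 0 →
    ∀ P : PowerSeries Qb, qExpansion 1 F = P.map ιC →
      ∃ G ∈ mform (gal σ χ).1 (12 * n), G ≠ 0 ∧ qExpansion 1 G = (gmap σ P).map ιC

/-- Existence of forms with algebraic coefficients. -/
def AlgForms (N m : ℕ) : Prop :=
  ∀ χ : XG N m, ∃ F ∈ mform χ.1 12, F ≠ 0 ∧ ∃ P : PowerSeries Qb, qExpansion 1 F = P.map ιC

theorem charP_residueQ {A : ValuationSubring Qb} {l : ℕ} (hl : l.Prime) (hA : A.LiesOverPrime l) :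
    CharP (IsLocalRing.ResidueField A) l := by
  have h1 : ((l : ℕ) : IsLocalRing.ResidueField A) = 0 := by
    have h2 : IsLocalRing.residue A ((l : ℕ) : A) = 0 := by
      rw [IsLocalRing.residue_eq_zero_iff, IsLocalRing.mem_maximalIdeal]
      obtain ⟨h3, h4⟩ := (ValuationSubring.mem_nonunits_iff_exists_mem_maximalIdeal (A := A)).1 hA
      have h5 : (⟨((l : ℕ) : Qb), h3⟩ : A) = ((l : ℕ) : A) := Subtype.ext (by simp)
      rw [h5] at h4
      exact (IsLocalRing.mem_maximalIdeal _).1 h4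
    rwa [map_natCast] at h2
  obtain ⟨c, hc⟩ := CharP.exists (IsLocalRing.ResidueField A)
  have h6 : c ∣ l := (CharP.cast_eq_zero_iff _ c l).1 h1
  rcases (Nat.dvd_prime hl).1 h6 with h7 | h7
  · subst h7
    exact absurd rfl (CharP.char_ne_one (IsLocalRing.ResidueField A) 1)
  · rw [← h7]
    exact hc

variable {N m : ℕ} [NeZero N]

theorem exists_good_form (hm : 0 < m) (hAlg : AlgForms N m) (A : ValuationSubring Qb)
    (χ : XG N m) : ∃ F ∈ mform χ.1 (12 * (2 : ℕ)), F ≠ 0 ∧ ∃ P : PowerSeries Qb,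
      qExpansion 1 F = P.map ιC ∧ ∃ R : PowerSeries A, R.map A.subtype = P ^ m ∧
        R.map (IsLocalRing.residue A) ≠ 0 := by
  obtain ⟨F₀, hF₀, hF₀', P₀, hP₀⟩ := hAlg χ
  have hQ₀ : HasQ 1 F₀ (P₀.map ιC) := by
    rw [← hP₀]
    exact hasQ_mform χ.2.2 hF₀
  set PD : PowerSeries Qb := DZ.map (Int.castRingHom Qb) with hPD
  have hQD : HasQ 1 dl (PD.map ιC) := by
    have : PD.map ιC = toC DZ := by
      ext n
      rw [hPD, PowerSeries.coeff_map, PowerSeries.coeff_map, coeff_toC]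
      simp
    rw [this]
    exact hasQ_Delta
  have hQ₁ : HasQ 1 (F₀ * dl) ((P₀ * PD).map ιC) := by
    rw [map_mul]
    exact hQ₀.mul hQD
  obtain ⟨f, hf⟩ := exists_cusp_pow hm χ hF₀
  have hfq : qExpansion 1 f = ((P₀ * PD) ^ m).map ιC := by
    rw [hf, (hQ₁.pow m).qExpansion_eq one_pos, map_pow]
  have hne : F₀ * dl ≠ 0 := by
    intro h
    apply hF₀'
    ext τ
    have h1 := congrFun h τ
    rcases mul_eq_zero.1 h1 with h2 | h2
    · exact h2
    · exact absurd h2 (dl_ne_zero τ)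
  have hf0 : f ≠ 0 := by
    intro h
    apply hne
    ext τ
    have h1 : (F₀ * dl) ^ m = 0 := by
      rw [← hf, h]
      rfl
    have h2 := congrFun h1 τ
    exact eq_zero_of_pow_eq_zero h2
  obtain ⟨a, ha, R, hR1, hR2⟩ := exists_scale A f hf0 hfq
  obtain ⟨b, hb⟩ := IsAlgClosed.exists_pow_nat_eq a hm
  have hb0 : b ≠ 0 := by
    rintro rfl
    rw [zero_pow hm.ne'] at hb
    exact ha hb.symm
  refine ⟨ιC b • (F₀ * dl), ?_, ?_, b • (P₀ * PD), ?_, R, ?_, hR2⟩
  · refine Submodule.smul_mem _ _ (mform_congr (mform_mul hF₀ (dl_mem (G := Gamma0 N))) ?_ ?_)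
    · ext g
      simp
    · norm_num
  · exact smul_ne_zero ((map_ne_zero ιC).2 hb0) hne
  · rw [(hQ₁.smul (ιC b)).qExpansion_eq one_pos]
    ext n
    rw [PowerSeries.coeff_smul, PowerSeries.coeff_map, PowerSeries.coeff_map,
      PowerSeries.coeff_smul, smul_eq_mul, smul_eq_mul, map_mul ιC]
  · rw [hR1, smul_pow, hb]

theorem map_decMap (A : ValuationSubring Qb) {σ : GQ} (hσ : σ ∈ A.decompositionSubgroup ℚ)
    (R : PowerSeries A) : (R.map (decMap A hσ)).map A.subtype = gmap σ (R.map A.subtype) := by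
  ext n
  rw [PowerSeries.coeff_map, PowerSeries.coeff_map, gmap, PowerSeries.coeff_map,
    PowerSeries.coeff_map]
  rfl

theorem gmap_mul (σ τ : GQ) (P : PowerSeries Qb) : gmap (σ * τ) P = gmap σ (gmap τ P) := by
  ext n
  rw [gmap, gmap, gmap, PowerSeries.coeff_map, PowerSeries.coeff_map, PowerSeries.coeff_map]
  rfl

/-- **The Eichler–Shimura relation.** -/
theorem ES_relation_aux (hm : 0 < m) (hAlg : AlgForms N m) {gal : GQ → XG N m → XG N m}
    (hgal : GalSpec N m gal) {l : ℕ} (hl : l.Prime) (hN : ¬ l ∣ N) {A : ValuationSubring Qb}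
    (hA : A.LiesOverPrime l) (hKL : KLProp N m A) {σ : GQ} (hσ : A.IsFrobeniusAt σ l)
    (χ : XG N m) : heckeX hl hN m (gal σ χ) = gal (σ * σ) χ * χ ^ l := by
  have := Fact.mk hl
  have hchar := charP_residueQ hl hA
  have hl0 := hl.ne_zero
  set dec := decMap A hσ.mem_decompositionSubgroup with hdec
  obtain ⟨F, hF, hF0, P, hP, R, hR1, hR2⟩ := exists_good_form hm hAlg A χ
  obtain ⟨G, hG, hG0, hGP⟩ := hgal σ χ 2 F hF hF0 P hP
  obtain ⟨G₂, hG₂, hG₂0, hG₂P⟩ := hgal (σ * σ) χ 2 F hF hF0 P hP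
  have hFQ : HasQ 1 F (P.map ιC) := by rw [← hP]; exact hasQ_mform χ.2.2 hF
  have hGQ : HasQ 1 G ((gmap σ P).map ιC) := by
    rw [← hGP]; exact hasQ_mform (gal σ χ).2.2 hG
  have hG₂Q : HasQ 1 G₂ ((gmap (σ * σ) P).map ιC) := by
    rw [← hG₂P]; exact hasQ_mform (gal (σ * σ) χ).2.2 hG₂
  set r := R.map (IsLocalRing.residue A) with hr
  have hres : ∀ R : PowerSeries A, (R.map dec).map (IsLocalRing.residue A) =
      (R.map (IsLocalRing.residue A)).map (frobenius _ l) := by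
    intro R
    ext n
    rw [PowerSeries.coeff_map, PowerSeries.coeff_map, PowerSeries.coeff_map,
      PowerSeries.coeff_map, frobenius_def]
    exact residue_decMap A hσ _
  have hfrob0 : r.map (frobenius _ l) ≠ 0 := by
    intro h
    apply hR2
    ext n
    have h1 := congrArg (PowerSeries.coeff n) h
    rw [PowerSeries.coeff_map, map_zero, frobenius_def] at h1
    rw [map_zero]
    exact eq_zero_of_pow_eq_zero h1
  have hexp : PowerSeries.expand l hl0 (r.map (frobenius _ l)) = r ^ l := by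
    rw [← PowerSeries.map_expand]
    exact (MvPowerSeries.map_frobenius_expand (p := l) (R := IsLocalRing.ResidueField A) hl0
      (f := r))
  refine hKL _ _ (2 * (l + 1)) (heckeMul l G) (G₂ * F ^ l) ?_ ?_
    (heckeSer l hl0 (R.map dec)) ((R.map dec).map dec * R ^ l) ?_ ?_ ?_ ?_
  · exact mform_congr (heckeMul_mem hl hN hG) rfl (by push_cast; ring)
  · refine mform_congr (mform_mul hG₂ (mform_pow hF l)) ?_ (by push_cast; ring)
    ext g
    simp
  · rw [((hasQ_heckeMul hl0 hGQ).pow m).qExpansion_eq one_pos, ← heckeSer_pow, ← map_pow,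
      ← map_pow, map_heckeSer, map_heckeSer, map_decMap, hR1]
  · rw [((hG₂Q.mul (hFQ.pow l)).pow m).qExpansion_eq one_pos, map_mul (PowerSeries.map A.subtype),
      map_decMap, map_decMap, map_pow (PowerSeries.map A.subtype), hR1, ← gmap_mul,
      map_mul (PowerSeries.map ιC), mul_pow, map_pow (PowerSeries.map ιC) (P ^ m) l,
      map_pow (PowerSeries.map ιC) P m, map_pow (gmap (σ * σ)), map_pow (PowerSeries.map ιC)]
    ring
  · rw [map_heckeSer, hres, heckeSer, normSer_charP, ← hr, hexp, map_mul, hres, hres, map_pow,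
      ← hr, mul_comm]
  · rw [map_heckeSer, hres]
    exact heckeSer_ne_zero hl0 hfrob0

/-- **Triviality of inertia.** -/
theorem inertia_trivial_aux (hm : 0 < m) (hAlg : AlgForms N m) {gal : GQ → XG N m → XG N m}
    (hgal : GalSpec N m gal) {A : ValuationSubring Qb} (hKL : KLProp N m A) {σ : GQ}
    (hσ : σ ∈ A.inertiaSubgroupIn ℚ) (χ : XG N m) : gal σ χ = χ := by
  obtain ⟨hdσ, hres⟩ := residue_decMap_inertia A hσ
  obtain ⟨F, hF, hF0, P, hP, R, hR1, hR2⟩ := exists_good_form hm hAlg A χ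
  obtain ⟨G, hG, hG0, hGP⟩ := hgal σ χ 2 F hF hF0 P hP
  have hFQ : HasQ 1 F (P.map ιC) := by rw [← hP]; exact hasQ_mform χ.2.2 hF
  have hGQ : HasQ 1 G ((gmap σ P).map ιC) := by
    rw [← hGP]; exact hasQ_mform (gal σ χ).2.2 hG
  have hres' : (R.map (decMap A hdσ)).map (IsLocalRing.residue A) =
      R.map (IsLocalRing.residue A) := by
    ext n
    rw [PowerSeries.coeff_map, PowerSeries.coeff_map, PowerSeries.coeff_map]
    exact hres _
  refine hKL _ _ 2 G F hG hF (R.map (decMap A hdσ)) R ?_ ?_ hres' ?_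
  · rw [(hGQ.pow m).qExpansion_eq one_pos, map_decMap, hR1, map_pow, map_pow]
  · rw [(hFQ.pow m).qExpansion_eq one_pos, hR1, map_pow]
  · rw [hres']
    exact hR2

end Fermat.Agent.ESCore
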