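import Fermat.Agent.ESCore.MatrixRep
import Fermat.Agent.ESCore.Cyclo
import Fermat.Agent.ESCore.EigenChar
import Fermat.Agent.ESCore.Relation

set_option autoImplicit false

/-!
# The mod `p` representation attached to an eigenform of weight two
-/

open Polynomial CongruenceSubgroup ModularFormClass CuspForm Matrix
open scoped MatrixGroups

noncomputable section

namespace Fermat.Agent.ESCore.ModP

/-! ### The residue fields of the ring of all algebraic integers -/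

/-- the quotient field -/
@[reducible] def quotField (𝔪 : Ideal (integralClosure ℤ ℂ)) (h𝔪 : 𝔪.IsMaximal) :
    Field (integralClosure ℤ ℂ ⧸ 𝔪) := Ideal.Quotient.field 𝔪

theorem isAlgClosed_quot (𝔪 : Ideal (integralClosure ℤ ℂ)) (h𝔪 : 𝔪.IsMaximal) :
    @IsAlgClosed (integralClosure ℤ ℂ ⧸ 𝔪) (quotField 𝔪 h𝔪) := by
  letI := quotField 𝔪 h𝔪
  refine IsAlgClosed.of_exists_root _ fun P hP hirr => ?_
  obtain ⟨Q, hQ, hdeg, hmon⟩ := Polynomial.lifts_and_natDegree_eq_and_monic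
    (f := Ideal.Quotient.mk 𝔪) (p := P)
    (Polynomial.mem_lifts_of_surjective Ideal.Quotient.mk_surjective P) hP
  have hdegP : 0 < P.natDegree := hirr.natDegree_pos
  have hroot : ∃ z : ℂ, (Q.map (algebraMap (integralClosure ℤ ℂ) ℂ)).IsRoot z := by
    refine Complex.exists_root ?_
    rw [hmon.degree_map]
    rw [Polynomial.degree_eq_natDegree hmon.ne_zero, hdeg]
    exact_mod_cast hdegP
  obtain ⟨z, hz⟩ := hroot
  have hz1 : IsIntegral (integralClosure ℤ ℂ) z := ⟨Q, hmon, by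
    rw [← Polynomial.eval_map]
    exact hz⟩
  have hz2 : IsIntegral ℤ z := isIntegral_trans z hz1
  refine ⟨Ideal.Quotient.mk 𝔪 ⟨z, hz2⟩, ?_⟩
  rw [← hQ, Polynomial.eval_map, Polynomial.eval₂_hom]
  have h3 : Q.eval (⟨z, hz2⟩ : integralClosure ℤ ℂ) = 0 := by
    apply Subtype.ext
    have h4 : algebraMap (integralClosure ℤ ℂ) ℂ (Q.eval ⟨z, hz2⟩) =
        (Q.map (algebraMap (integralClosure ℤ ℂ) ℂ)).eval z := by
      rw [Polynomial.eval_map, ← Polynomial.eval₂_at_apply]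
      rfl
    change algebraMap (integralClosure ℤ ℂ) ℂ (Q.eval ⟨z, hz2⟩) = 0
    rw [h4]
    exact hz
  rw [h3, map_zero]

/-! ### Characters with values in `μ_p` attached to an additive character of `Γ₀(N)` -/

/-- an injective homomorphism from `ℤ/p` to the units of `ℂ` -/
def zHom (p : ℕ) [NeZero p] : Multiplicative (ZMod p) →* ℂˣ :=
  (ZMod.stdAddChar (N := p)).toMonoidHom.toHomUnits

theorem zHom_injective (p : ℕ) [NeZero p] : Function.Injective (zHom p) := by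
  intro x y h
  have h1 := congrArg (Units.val) h
  exact ZMod.injective_stdAddChar h1

section eChar

variable {N p : ℕ} [NeZero p] {k : Type} [CommRing k] (c : Gamma0 N →* Multiplicative k)
  (hc : ∀ γ : Gamma0 N, (γ : SL(2, ℤ)) 1 0 = 0 → c γ = 1)

/-- the character with values in `μ_p` attached to `λ : k → ℤ/p` -/
def eHom (lam : k →+ ZMod p) : Gamma0 N →* ℂˣ :=
  (zHom p).comp ((AddMonoidHom.toMultiplicative lam).comp c)

theorem eHom_apply (lam : k →+ ZMod p) (γ : Gamma0 N) :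
    eHom c lam γ = zHom p (Multiplicative.ofAdd (lam (Multiplicative.toAdd (c γ)))) := rfl

include hc in
theorem eHom_mem (lam : k →+ ZMod p) : eHom c lam ∈ XG N p := by
  constructor
  · ext γ
    rw [MonoidHom.pow_apply, eHom_apply, ← map_pow, ← ofAdd_nsmul, nsmul_eq_mul,
      CharP.cast_eq_zero, zero_mul, ofAdd_zero, map_one, MonoidHom.one_apply]
  · intro γ hγ
    rw [eHom_apply, hc γ hγ, toAdd_one, map_zero, ofAdd_zero, map_one]

/-- the same as an element of `XG` -/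
def eX (lam : k →+ ZMod p) : Additive (XG N p) :=
  Additive.ofMul ⟨eHom c lam, eHom_mem c hc lam⟩

theorem eX_add (lam mu : k →+ ZMod p) : eX c hc (lam + mu) = eX c hc lam + eX c hc mu := by
  apply Additive.toMul.injective
  apply Subtype.ext
  ext γ
  simp only [eX, toMul_ofMul, toMul_add, Subgroup.coe_mul, MonoidHom.mul_apply, eHom_apply,
    AddMonoidHom.add_apply, ofAdd_add, map_mul]

/-- `λ ↦ eX λ` as a homomorphism -/
def eXHom : (k →+ ZMod p) →+ Additive (XG N p) :=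
  AddMonoidHom.mk' (eX c hc) (eX_add c hc)

theorem eX_eq_zero {lam : k →+ ZMod p} (h : eX c hc lam = 0) (γ : Gamma0 N) :
    lam (Multiplicative.toAdd (c γ)) = 0 := by
  have h1 : (⟨eHom c lam, eHom_mem c hc lam⟩ : XG N p) = 1 := Additive.ofMul.injective h
  have h2 : eHom c lam = 1 := congrArg Subtype.val h1
  have h3 : eHom c lam γ = 1 := by rw [h2]; rfl
  rw [eHom_apply, ← map_one (zHom p)] at h3
  exact zHom_injective p h3

/-- `T_l` as an additive endomorphism -/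
def heckeXL {N l : ℕ} (hl : l.Prime) (hN : ¬ l ∣ N) (m : ℕ) :
    Module.End ℤ (Additive (XG N m)) :=
  (MonoidHom.toAdditive (heckeX hl hN m)).toIntLinearMap

theorem heckeXL_apply {N l : ℕ} (hl : l.Prime) (hN : ¬ l ∣ N) (m : ℕ) (χ : Additive (XG N m)) :
    heckeXL hl hN m χ = Additive.ofMul (heckeX hl hN m (Additive.toMul χ)) := rfl

theorem heckeXL_eX {l : ℕ} (hl : l.Prime) (hN : ¬ l ∣ N) {a : k}
    (ha : ∀ γ, Multiplicative.toAdd (heckeChar hl hN c γ) = a * Multiplicative.toAdd (c γ))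
    (lam : k →+ ZMod p) :
    heckeXL hl hN p (eX c hc lam) = eX c hc (lam.comp (AddMonoidHom.mulLeft a)) := by
  rw [heckeXL_apply]
  apply congrArg Additive.ofMul
  apply Subtype.ext
  change heckeChar hl hN (eHom c lam) = eHom c (lam.comp (AddMonoidHom.mulLeft a))
  rw [eHom, ← MonoidHom.comp_assoc, heckeChar_comp]
  ext γ
  rw [eHom_apply, AddMonoidHom.comp_apply, AddMonoidHom.coe_mulLeft, ← ha]
  rfl

end eChar

section eField

variable {N p : ℕ} [NeZero p] {k : Type} [Field k] {c : Gamma0 N →* Multiplicative k}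
  (hc : ∀ γ : Gamma0 N, (γ : SL(2, ℤ)) 1 0 = 0 → c γ = 1)
  {ι : Type} {T : ι → Module.End ℤ (Additive (XG N p))} {a : ι → k}

theorem jointAlg_eX (hT : ∀ i lam, T i (eX c hc lam) =
      eX c hc (lam.comp (AddMonoidHom.mulLeft (a i))))
    {t : Module.End ℤ (Additive (XG N p)) × k} (ht : t ∈ jointAlg T a) (lam : k →+ ZMod p) :
    t.1 (eX c hc lam) = eX c hc (lam.comp (AddMonoidHom.mulLeft t.2)) := by
  induction ht using Algebra.adjoin_induction generalizing lam with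
  | mem x hx =>
    obtain ⟨i, rfl⟩ := hx
    exact hT i lam
  | algebraMap r =>
    change r • eX c hc lam = _
    have h1 : r • eX c hc lam = eX c hc (r • lam) := (map_zsmul (eXHom c hc) r lam).symm
    rw [h1]
    congr 1
    ext x
    change r • lam x = lam ((algebraMap ℤ k r) * x)
    rw [← Algebra.smul_def, map_zsmul]
  | add x y _ _ hx hy =>
    change x.1 _ + y.1 _ = eX c hc (lam.comp (AddMonoidHom.mulLeft (x.2 + y.2)))
    rw [hx, hy, ← eX_add]
    congr 1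
    ext z
    change lam (x.2 * z) + lam (y.2 * z) = lam ((x.2 + y.2) * z)
    rw [add_mul, map_add]
  | mul x y _ _ hx hy =>
    change x.1 (y.1 _) = eX c hc (lam.comp (AddMonoidHom.mulLeft (x.2 * y.2)))
    rw [hy, hx]
    congr 1
    ext z
    change lam (y.2 * (x.2 * z)) = lam (x.2 * y.2 * z)
    rw [mul_left_comm, mul_assoc]

theorem jointAlg_faithful [CharP k p] (hp : p.Prime) (hc1 : c ≠ 1)
    (hT : ∀ i lam, T i (eX c hc lam) = eX c hc (lam.comp (AddMonoidHom.mulLeft (a i))))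
    {t : Module.End ℤ (Additive (XG N p)) × k} (ht : t ∈ jointAlg T a) (h0 : t.1 = 0) :
    t.2 = 0 := by
  haveI := Fact.mk hp
  letI : Algebra (ZMod p) k := ZMod.algebra k p
  obtain ⟨γ, hγ⟩ : ∃ γ, c γ ≠ 1 := by
    by_contra hcon
    push Not at hcon
    exact hc1 (MonoidHom.ext hcon)
  have h1 : ∀ lam : k →+ ZMod p, lam (t.2 * Multiplicative.toAdd (c γ)) = 0 := by
    intro lam
    have h2 := jointAlg_eX hc hT ht lam
    rw [h0, LinearMap.zero_apply] at h2
    exact eX_eq_zero c hc h2.symm γ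
  have h2 : t.2 * Multiplicative.toAdd (c γ) = 0 := by
    rw [← Module.forall_dual_apply_eq_zero_iff (ZMod p)]
    intro lam
    exact h1 lam.toAddMonoidHom
  refine (mul_eq_zero.mp h2).resolve_right fun h3 => hγ ?_
  exact Multiplicative.toAdd.injective h3

end eField

/-! ### The main theorem -/

section Main

variable {N : ℕ} [NeZero N] {g : CuspForm (Gamma0 N) 2} {p : ℕ}

theorem finite_XG (N m : ℕ) [NeZero N] [NeZero m] : Finite (XG N m) := by
  have hG : Group.FG SL(2, ℤ) := by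
    rw [Group.fg_iff]
    exact ⟨{ModularGroup.S, ModularGroup.T}, SpecialLinearGroup.SL2Z_generators, by simp⟩
  have hfg : Group.FG (CongruenceSubgroup.Gamma0 N) := inferInstance
  obtain ⟨S, hS⟩ := hfg.out
  let F : XG N m → (S → rootsOfUnity m ℂ) := fun χ s => ⟨χ.1 s, by
    rw [mem_rootsOfUnity, ← MonoidHom.pow_apply, χ.2.1, MonoidHom.one_apply]⟩
  refine Finite.of_injective F fun χ ψ h => Subtype.ext ?_
  refine MonoidHom.eq_of_eqOn_dense hS fun s hs => ?_
  exact congrArg Subtype.val (congrFun h ⟨s, hs⟩)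

/-- the mod `m` cyclotomic character with values in a ring of characteristic dividing `m` -/
def cycK (m : ℕ) [NeZero m] (k : Type) [CommRing k] [CharP k m] : GQ →* kˣ :=
  (Units.map (ZMod.castHom dvd_rfl k : ZMod m →* k)).comp (cyc m)

theorem cycK_frob {m : ℕ} [NeZero m] {k : Type} [CommRing k] [CharP k m] {l : ℕ}
    {A : ValuationSubring Qb} (hA : A.LiesOverPrime l) (hl : l.Prime) {σ : GQ}
    (hσ : A.IsFrobeniusAt σ l) (hlm : ¬ l ∣ m) : ((cycK m k σ : kˣ) : k) = l := by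
  have h1 := cyc_frob (m := m) hA hl hσ hlm
  change (ZMod.castHom dvd_rfl k : ZMod m →* k) (cyc m σ : ZMod m) = l
  rw [h1]
  exact map_natCast (ZMod.castHom dvd_rfl k) l

/-- the Galois action on `XG`, additively -/
def galRep {N m : ℕ} (gal : GQ →* MulAut (XG N m)) : GQ →* Module.End ℤ (Additive (XG N m)) where
  toFun σ := (MonoidHom.toAdditive (gal σ).toMonoidHom).toIntLinearMap
  map_one' := by
    rw [map_one]
    rfl
  map_mul' σ τ := by
    rw [map_mul]
    rfl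

theorem galRep_apply {N m : ℕ} (gal : GQ →* MulAut (XG N m)) (σ : GQ) (χ : Additive (XG N m)) :
    galRep gal σ χ = Additive.ofMul (gal σ (Additive.toMul χ)) := rfl

theorem galRep_eq_one {N m : ℕ} {gal : GQ →* MulAut (XG N m)} {σ : GQ} (h : gal σ = 1) :
    galRep gal σ = 1 := by
  refine LinearMap.ext fun χ => ?_
  rw [galRep_apply, h]
  rfl

/-- **The mod `p` representation attached to an eigenform**, given the Galois action on
`Hom(Γ₀(N), μ_p)` and the Eichler–Shimura relation. -/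
theorem exists_rep_aux (hg : g.IsNormalizedEigenform) (hp : p.Prime)
    {k : Type} [Field k] [IsAlgClosed k] [CharP k p] (φ : integralClosure ℤ ℂ →+* k)
    (gal : GQ →* MulAut (XG N p))
    (hgalfin : ∃ L : IntermediateField ℚ Qb, FiniteDimensional ℚ L ∧
      ∀ σ : GQ, (∀ x ∈ L, σ x = x) → gal σ = 1)
    (hgalcomm : ∀ (l : ℕ) (hl : l.Prime) (hN : ¬ l ∣ N) (σ : GQ) (χ : XG N p),
      heckeX hl hN p (gal σ χ) = gal σ (heckeX hl hN p χ))
    (hES : ∀ (l : ℕ) (hl : l.Prime) (hN : ¬ l ∣ N), l ≠ p → ∀ B : ValuationSubring Qb,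
      B.LiesOverPrime l → ∀ σ : GQ, B.IsFrobeniusAt σ l → ∀ χ : XG N p,
        heckeX hl hN p (gal σ χ) = gal (σ * σ) χ * χ ^ l)
    (hin : ∀ l : ℕ, l.Prime → ¬ l ∣ N → l ≠ p → ∀ B : ValuationSubring Qb,
      B.LiesOverPrime l → ∀ σ ∈ B.inertiaSubgroupIn ℚ, gal σ = 1) :
    ∃ ρ' : GQ →* Matrix (Fin 2) (Fin 2) k,
      GaloisFactorsThroughFiniteLevel ρ' ∧
      (∀ l : ℕ, l.Prime → ¬ l ∣ N → l ≠ p → ∀ B : ValuationSubring Qb,
        B.LiesOverPrime l → ∀ σ ∈ B.inertiaSubgroupIn ℚ, ρ' σ = 1) ∧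
      (∀ l : ℕ, l.Prime → ¬ l ∣ N → l ≠ p → ∀ B : ValuationSubring Qb,
        B.LiesOverPrime l → ∀ σ : GQ, B.IsFrobeniusAt σ l → ∃ a : integralClosure ℤ ℂ,
          (a : ℂ) = qCoeff g l ∧
          (ρ' σ).charpoly = X ^ 2 - C (φ a) * X + C (l : k)) := by
  haveI := Fact.mk hp
  haveI : NeZero p := ⟨hp.ne_zero⟩
  obtain ⟨c, hc1, hcpar, hcT⟩ := exists_eigenHom hg φ
  haveI : Finite (XG N p) := finite_XG N p
  haveI : Finite (Additive (XG N p)) := inferInstanceAs (Finite (XG N p))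
  haveI : Module.Finite ℤ (Additive (XG N p)) := inferInstance
  -- the Hecke operators
  choose a ha haT using hcT
  let ι : Type := {l : ℕ // l.Prime ∧ ¬ l ∣ N}
  let T : ι → Module.End ℤ (Additive (XG N p)) := fun i => heckeXL i.2.1 i.2.2 p
  let b : ι → k := fun i => φ (a i.1 i.2.1 i.2.2)
  have hcomm : ∀ i j, T i * T j = T j * T i := fun i j => LinearMap.ext fun χ =>
    congrArg Additive.ofMul (heckeX_comm i.2.1 i.2.2 j.2.1 j.2.2 p (Additive.toMul χ))
  have hT : ∀ i lam, T i (eX c hcpar lam) = eX c hcpar (lam.comp (AddMonoidHom.mulLeft (b i))) :=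
    fun i lam => heckeXL_eX c hcpar i.2.1 i.2.2 (haT i.1 i.2.1 i.2.2) lam
  have hE : ∀ t ∈ jointAlg T b, t.1 = 0 → t.2 = 0 := fun t ht h0 =>
    jointAlg_faithful hcpar hp hc1 hT ht h0
  have hrel : ∀ (l : ℕ) (hl : l.Prime) (hN : ¬ l ∣ N), l ≠ p → ∀ B : ValuationSubring Qb,
      B.LiesOverPrime l → ∀ σ : GQ, B.IsFrobeniusAt σ l →
        galRep gal σ * galRep gal σ = T ⟨l, hl, hN⟩ * galRep gal σ -
          (algebraMap ℤ (Module.End ℤ (Additive (XG N p)) × k) l).1 := by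
    intro l hl hN hlp B hB σ hσ
    refine LinearMap.ext fun χ => ?_
    have h1 := hES l hl hN hlp B hB σ hσ (Additive.toMul χ)
    have h2 : T ⟨l, hl, hN⟩ (galRep gal σ χ) = galRep gal (σ * σ) χ + l • χ :=
      congrArg Additive.ofMul h1
    rw [← map_mul]
    change _ = T ⟨l, hl, hN⟩ (galRep gal σ χ) - (l : ℤ) • χ
    rw [h2, natCast_zsmul, add_sub_cancel_right]
  have hfrob : ∀ (l : ℕ) (hl : l.Prime), l ≠ p → ∀ B : ValuationSubring Qb,
      B.LiesOverPrime l → ∀ σ : GQ, B.IsFrobeniusAt σ l →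
        (algebraMap ℤ (Module.End ℤ (Additive (XG N p)) × k) l).2 = cycK p k σ := by
    intro l hl hlp B hB σ hσ
    rw [cycK_frob hB hl hσ fun h => hlp ((Nat.prime_dvd_prime_iff_eq hl hp).mp h)]
    exact Int.cast_natCast l
  have hmemT : ∀ i, (T i, b i) ∈ jointAlg T b := fun i => Algebra.subset_adjoin ⟨i, rfl⟩
  obtain ⟨L₁, hL₁, h₁⟩ := hgalfin
  obtain ⟨L₂, hL₂, h₂⟩ := cyc_finite p
  have hcyc1 : ∀ σ, cyc p σ = 1 → cycK p k σ = 1 := fun σ h => by
    change Units.map _ (cyc p σ) = 1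
    rw [h, map_one]
  obtain ⟨ρ', h3, h4⟩ := exists_matrixRep (T := T) (a := b) hcomm hE (galRep gal)
    (fun σ i => LinearMap.ext fun χ => congrArg Additive.ofMul
      (hgalcomm i.1 i.2.1 i.2.2 σ (Additive.toMul χ)))
    ⟨L₁, hL₁, fun σ hσ => galRep_eq_one (h₁ σ hσ)⟩
    (cycK p k) ⟨L₂, hL₂, fun σ hσ => hcyc1 σ (h₂ σ hσ)⟩ (N.primeFactors ∪ {p})
    (fun l hl hlbad B hB σ hσ => by
      rw [Finset.mem_union, not_or, Finset.mem_singleton] at hlbad
      have hlN : ¬ l ∣ N := fun h => hlbad.1 (Nat.mem_primeFactors.mpr ⟨hl, h, NeZero.ne N⟩)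
      exact ⟨(T ⟨l, hl, hlN⟩, b ⟨l, hl, hlN⟩), hmemT _, algebraMap ℤ _ (l : ℤ),
        Subalgebra.algebraMap_mem _ _, hrel l hl hlN hlbad.2 B hB σ hσ,
        hfrob l hl hlbad.2 B hB σ hσ⟩)
  refine ⟨ρ', ⟨L₁ ⊔ L₂, inferInstance, fun σ hσ => h4 σ
    (galRep_eq_one (h₁ σ fun x hx => hσ x ((le_sup_left : L₁ ≤ L₁ ⊔ L₂) hx)))
    (hcyc1 σ (h₂ σ fun x hx => hσ x ((le_sup_right : L₂ ≤ L₁ ⊔ L₂) hx)))⟩, ?_, ?_⟩
  · intro l hl hlN hlp B hB σ hσ
    refine h4 σ (galRep_eq_one (hin l hl hlN hlp B hB σ hσ)) (hcyc1 σ ?_)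
    exact cyc_inertia hB hl hσ fun h => hlp ((Nat.prime_dvd_prime_iff_eq hl hp).mp h)
  · intro l hl hlN hlp B hB σ hσ
    refine ⟨a l hl hlN, ha l hl hlN, ?_⟩
    have h5 := h3 σ (T ⟨l, hl, hlN⟩, b ⟨l, hl, hlN⟩) (hmemT _) (algebraMap ℤ _ (l : ℤ))
      (Subalgebra.algebraMap_mem _ _) (hrel l hl hlN hlp B hB σ hσ) (hfrob l hl hlp B hB σ hσ)
    have h6 : (algebraMap ℤ (Module.End ℤ (Additive (XG N p)) × k) (l : ℤ)).2 = (l : k) :=
      Int.cast_natCast l
    rw [h6] at h5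
    exact h5

/-- the hypotheses on the Galois action on `XG N m` used in the construction -/
structure GalData (N m : ℕ) (gal : GQ →* MulAut (XG N m)) : Prop where
  fin : ∃ L : IntermediateField ℚ Qb, FiniteDimensional ℚ L ∧
      ∀ σ : GQ, (∀ x ∈ L, σ x = x) → gal σ = 1
  comm : ∀ (l : ℕ) (hl : l.Prime) (hN : ¬ l ∣ N) (σ : GQ) (χ : XG N m),
      heckeX hl hN m (gal σ χ) = gal σ (heckeX hl hN m χ)
  es : ∀ (l : ℕ) (hl : l.Prime) (hN : ¬ l ∣ N), ¬ l ∣ m → ∀ B : ValuationSubring Qb,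
      B.LiesOverPrime l → ∀ σ : GQ, B.IsFrobeniusAt σ l → ∀ χ : XG N m,
        heckeX hl hN m (gal σ χ) = gal (σ * σ) χ * χ ^ l
  inertia : ∀ l : ℕ, l.Prime → ¬ l ∣ N → ¬ l ∣ m → ∀ B : ValuationSubring Qb,
      B.LiesOverPrime l → ∀ σ ∈ B.inertiaSubgroupIn ℚ, gal σ = 1

/-- the version over the residue field of a maximal ideal of the ring of all algebraic integers -/
theorem exists_rep_quot (hg : g.IsNormalizedEigenform) (hp : p.Prime)
    (𝔪 : Ideal (integralClosure ℤ ℂ)) (h𝔪 : 𝔪.IsMaximal)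
    (hp𝔪 : (p : integralClosure ℤ ℂ) ∈ 𝔪)
    {gal : GQ →* MulAut (XG N p)} (hgal : GalData N p gal) :
    ∃ ρ' : GQ →* Matrix (Fin 2) (Fin 2) (integralClosure ℤ ℂ ⧸ 𝔪),
      GaloisFactorsThroughFiniteLevel ρ' ∧
      (∀ l : ℕ, l.Prime → ¬ l ∣ N → l ≠ p → ∀ B : ValuationSubring Qb,
        B.LiesOverPrime l → ∀ σ ∈ B.inertiaSubgroupIn ℚ, ρ' σ = 1) ∧
      (∀ l : ℕ, l.Prime → ¬ l ∣ N → l ≠ p → ∀ B : ValuationSubring Qb,
        B.LiesOverPrime l → ∀ σ : GQ, B.IsFrobeniusAt σ l → ∃ a : integralClosure ℤ ℂ,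
          (a : ℂ) = qCoeff g l ∧
          (ρ' σ).charpoly = X ^ 2 - C (Ideal.Quotient.mk 𝔪 a) * X +
            C (l : integralClosure ℤ ℂ ⧸ 𝔪)) := by
  letI := quotField 𝔪 h𝔪
  haveI := isAlgClosed_quot 𝔪 h𝔪
  haveI hchar : CharP (integralClosure ℤ ℂ ⧸ 𝔪) p := by
    refine (CharP.charP_iff_prime_eq_zero hp).mpr ?_
    rw [← map_natCast (Ideal.Quotient.mk 𝔪)]
    exact Ideal.Quotient.eq_zero_iff_mem.mpr hp𝔪
  have hne : ∀ l : ℕ, l.Prime → l ≠ p → ¬ l ∣ p := fun l hl hlp h =>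
    hlp ((Nat.prime_dvd_prime_iff_eq hl hp).mp h)
  exact exists_rep_aux hg hp (Ideal.Quotient.mk 𝔪) gal hgal.fin hgal.comm
    (fun l hl hN hlp => hgal.es l hl hN (hne l hl hlp))
    (fun l hl hN hlp => hgal.inertia l hl hN (hne l hl hlp))

end Main

/-! ### Residual Galois representations -/

section Residual

variable {k : Type} [Field k]

/-- the residual representation attached to a matrix representation -/
def ofMatrixRep (ρ' : GQ →* Matrix (Fin 2) (Fin 2) k) (h : GaloisFactorsThroughFiniteLevel ρ') :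
    ResidualGaloisRep k where
  V := Fin 2 → k
  finrank_eq := by simp
  ρ := (Matrix.toLinAlgEquiv' : Matrix (Fin 2) (Fin 2) k ≃ₐ[k] _).toRingEquiv.toMonoidHom.comp ρ'
  factorsThroughFiniteLevel := by
    obtain ⟨L, hL, h1⟩ := h
    refine ⟨L, hL, fun σ hσ => ?_⟩
    rw [MonoidHom.comp_apply, h1 σ hσ, map_one]

theorem ofMatrixRep_rho (ρ' : GQ →* Matrix (Fin 2) (Fin 2) k)
    (h : GaloisFactorsThroughFiniteLevel ρ') (σ : GQ) :
    (ofMatrixRep ρ' h).ρ σ = Matrix.toLin' (ρ' σ) := rfl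

theorem charpoly_ofMatrixRep (ρ' : GQ →* Matrix (Fin 2) (Fin 2) k)
    (h : GaloisFactorsThroughFiniteLevel ρ') (σ : GQ) :
    LinearMap.charpoly ((ofMatrixRep ρ' h).ρ σ) = (ρ' σ).charpoly :=
  Matrix.charpoly_toLin' (ρ' σ)

end Residual

end Fermat.Agent.ESCore.ModP
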