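import Fermat.Agent.ESCore.Relation
import Fermat.Agent.ESCore.ModP

set_option autoImplicit false

/-!
# The Galois action commutes with the Hecke operators (H4)
-/

open UpperHalfPlane ModularForm Matrix Matrix.SpecialLinearGroup CongruenceSubgroup
open Fermat.Agent.Eis16 Fermat.Agent.ES
open scoped MatrixGroups Manifold

noncomputable section

namespace Fermat.Agent.ESCore

theorem char_unique_of_ne_zero {N m : ℕ} {χ ψ : XG N m} {k : ℤ} {F : ℍ → ℂ}
    (hF : F ∈ mform χ.1 k) (hG : F ∈ mform ψ.1 k) (h0 : F ≠ 0) : χ = ψ := by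
  obtain ⟨τ, hτ⟩ := Function.ne_iff.mp h0
  apply Subtype.ext
  ext g
  have h1 := congrFun ((hF.2.1 g).symm.trans (hG.2.1 g)) τ
  simp only [Pi.smul_apply, smul_eq_mul] at h1
  exact mul_right_cancel₀ hτ h1

theorem eq_of_qExpansion_eq {N m : ℕ} {χ ψ : XG N m} {k k' : ℤ} {F G : ℍ → ℂ}
    (hF : F ∈ mform χ.1 k) (hG : G ∈ mform ψ.1 k') (h : qExpansion 1 F = qExpansion 1 G) :
    F = G := by
  have h1 := hasQ_mform χ.2.2 hF
  have h2 := hasQ_mform ψ.2.2 hG
  rw [← h] at h2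
  ext τ
  exact (h1 τ).unique (h2 τ)

theorem char_eq_of_qExpansion_eq {N m : ℕ} {χ ψ : XG N m} {k : ℤ} {F G : ℍ → ℂ}
    (hF : F ∈ mform χ.1 k) (hG : G ∈ mform ψ.1 k) (h : qExpansion 1 F = qExpansion 1 G)
    (h0 : F ≠ 0) : χ = ψ := by
  have h1 := eq_of_qExpansion_eq hF hG h
  rw [← h1] at hG
  exact char_unique_of_ne_zero hF hG h0

/-- **(H4)** The Galois action commutes with `T_l`. -/
theorem heckeX_gal_comm {N m : ℕ} (hAlg : AlgForms N m) {gal : GQ → XG N m → XG N m}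
    (hgal : GalSpec N m gal) {l : ℕ} (hl : l.Prime) (hN : ¬ l ∣ N) (σ : GQ) (χ : XG N m) :
    heckeX hl hN m (gal σ χ) = gal σ (heckeX hl hN m χ) := by
  obtain ⟨F, hF, hF0, P, hP⟩ := hAlg χ
  have hF' : F ∈ mform χ.1 (12 * (1 : ℕ)) := mform_congr hF rfl (by norm_num)
  obtain ⟨G, hG, hG0, hGP⟩ := hgal σ χ 1 F hF' hF0 P hP
  have hl0 := hl.ne_zero
  have hFQ : HasQ 1 F (P.map ιC) := by rw [← hP]; exact hasQ_mform χ.2.2 hF
  have hGQ : HasQ 1 G ((gmap σ P).map ιC) := by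
    rw [← hGP]; exact hasQ_mform (gal σ χ).2.2 hG
  have hTF : heckeMul l F ∈ mform (heckeX hl hN m χ).1 (12 * (l + 1 : ℕ)) :=
    mform_congr (heckeMul_mem hl hN hF') rfl (by push_cast; ring)
  have hTG : heckeMul l G ∈ mform (heckeX hl hN m (gal σ χ)).1 (12 * (l + 1 : ℕ)) :=
    mform_congr (heckeMul_mem hl hN hG) rfl (by push_cast; ring)
  have hTFq : qExpansion 1 (heckeMul l F) = (heckeSer l hl0 P).map ιC := by
    rw [(hasQ_heckeMul hl0 hFQ).qExpansion_eq one_pos, map_heckeSer]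
  have hTGq : qExpansion 1 (heckeMul l G) = (gmap σ (heckeSer l hl0 P)).map ιC := by
    rw [(hasQ_heckeMul hl0 hGQ).qExpansion_eq one_pos, gmap, map_heckeSer, map_heckeSer]
  have hinj : Function.Injective (PowerSeries.map ιC) :=
    PowerSeries.map_injective _ ιC.injective
  have hP0 : P ≠ 0 := by
    rintro rfl
    rw [map_zero] at hP
    exact hF0 ((mform_ne_zero_iff χ.2.2 hF).mpr hP)
  have hTF0 : heckeMul l F ≠ 0 := by
    intro h
    have h1 := (mform_ne_zero_iff (heckeX hl hN m χ).2.2 hTF).mp h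
    rw [hTFq, ← map_zero (PowerSeries.map ιC)] at h1
    exact heckeSer_ne_zero hl0 hP0 (hinj h1)
  have hgP0 : gmap σ P ≠ 0 := by
    intro h
    rw [h, map_zero] at hGP
    exact hG0 ((mform_ne_zero_iff (gal σ χ).2.2 hG).mpr hGP)
  have hTG0 : heckeMul l G ≠ 0 := by
    intro h
    have h1 := (mform_ne_zero_iff (heckeX hl hN m (gal σ χ)).2.2 hTG).mp h
    rw [(hasQ_heckeMul hl0 hGQ).qExpansion_eq one_pos, ← map_heckeSer,
      ← map_zero (PowerSeries.map ιC)] at h1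
    exact heckeSer_ne_zero hl0 hgP0 (hinj h1)
  obtain ⟨G', hG', hG'0, hG'P⟩ := hgal σ (heckeX hl hN m χ) (l + 1) _ hTF hTF0 _ hTFq
  exact char_eq_of_qExpansion_eq hTG hG' (hTGq.trans hG'P.symm) hTG0

/-- all the properties of the Galois action used in the construction of the representations -/
theorem galData_of {N m : ℕ} [NeZero N] (hm : 0 < m) (hAlg : AlgForms N m)
    (gal : GQ →* MulAut (XG N m)) (hgal : GalSpec N m fun σ χ => gal σ χ)
    (hfin : ∃ L : IntermediateField ℚ Qb, FiniteDimensional ℚ L ∧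
      ∀ σ : GQ, (∀ x ∈ L, σ x = x) → gal σ = 1)
    (hKL : ∀ l : ℕ, l.Prime → ¬ l ∣ N → ¬ l ∣ m → ∀ B : ValuationSubring Qb,
      B.LiesOverPrime l → KLProp N m B) : ModP.GalData N m gal where
  fin := hfin
  comm l hl hN σ χ := heckeX_gal_comm hAlg hgal hl hN σ χ
  es l hl hN hlm B hB σ hσ χ := ES_relation_aux hm hAlg hgal hl hN hB
    (hKL l hl hN hlm B hB) hσ χ
  inertia l hl hN hlm B hB σ hσ := by
    ext1 χ
    exact inertia_trivial_aux hm hAlg hgal (hKL l hl hN hlm B hB) hσ χ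

end Fermat.Agent.ESCore
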