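import Fermat.Agent.ESCore.GalX
import Fermat.Agent.ESCore.GalComm

set_option autoImplicit false

/-!
# The Galois action on `XG N m` (row 22)
-/

open UpperHalfPlane hiding I J
open Complex Function Filter Topology ModularForm Matrix.SpecialLinearGroup CongruenceSubgroup
open scoped Manifold MatrixGroups ModularForm
open Fermat.Agent.ModFun Fermat.Agent.Eis16 Fermat.Agent.ES

noncomputable section

namespace Fermat.Agent.ESCore

open Gal

theorem T_mem_Gamma0 (N : ℕ) : ModularGroup.T ∈ Gamma0 N := by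
  rw [Gamma0_mem]
  simp [ModularGroup.coe_T]

theorem mform_of_modularForm {N : ℕ} [NeZero N] {k : ℤ} (f : ModularForm (Gamma0 N) k) :
    (f : ℍ → ℂ) ∈ mform (1 : Gamma0 N →* ℂˣ) k := by
  refine ⟨ModularFormClass.holo f, fun g => ?_, fun A => ModularFormClass.bdd_at_infty_slash f A⟩
  rw [MonoidHom.one_apply, Units.val_one, one_smul]
  exact f.slash_action_eq' _ ⟨g.1, g.2, rfl⟩

theorem conjStable_Gamma0 (N : ℕ) [NeZero N] : ConjStable (Gamma0 N) := by
  intro σ n f hf
  refine ⟨conjForm (σ : ℂ →+* ℂ) (toMF hf : ModularForm (Gamma0 N) (12 * n)) (isGood_hDelta N),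
    mform_of_modularForm _, ?_⟩
  exact qExpansion_conjForm (toMF hf : ModularForm (Gamma0 N) (12 * n)) (isGood_hDelta N)
    (σ : ℂ →+* ℂ)

variable {N m : ℕ} [NeZero N]

/-- **The Galois action on `XG N m`.** -/
def galX (N : ℕ) [NeZero N] {m : ℕ} (hm : 0 < m) : GQ →* MulAut (XG N m) :=
  galXG hm (conjStable_Gamma0 N) (T_mem_Gamma0 N)

theorem galSpec_galX (hm : 0 < m) : GalSpec N m fun σ χ => galX N hm σ χ := by
  intro σ χ n F hF hF0 P hP
  exact galXG_spec hm (conjStable_Gamma0 N) (T_mem_Gamma0 N) σ χ hF hF0 hP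

theorem algForms (hm : 0 < m) : AlgForms N m := fun χ =>
  exists_alg_form hm (conjStable_Gamma0 N) (T_mem_Gamma0 N) χ

theorem galX_continuous (hm : 0 < m) : ∃ L : IntermediateField ℚ Qb, FiniteDimensional ℚ L ∧
    ∀ σ : GQ, (∀ x ∈ L, σ x = x) → galX N hm (m := m) σ = 1 :=
  galXG_continuous hm (conjStable_Gamma0 N) (T_mem_Gamma0 N)

theorem galData_galX (hm : 0 < m)
    (hKL : ∀ l : ℕ, l.Prime → ¬ l ∣ N → ¬ l ∣ m → ∀ B : ValuationSubring Qb,
      B.LiesOverPrime l → KLProp N m B) : ModP.GalData N m (galX N hm) :=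
  galData_of hm (algForms hm) (galX N hm) (galSpec_galX hm) (galX_continuous hm) hKL

end Fermat.Agent.ESCore
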