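import Fermat.Agent.ESCore.HeckeCharG

set_option autoImplicit false

/-!
# Multiplicative Hecke operators on forms with character on groups between `Γ₁(N)` and `Γ₀(N)`
-/

open UpperHalfPlane ModularForm Matrix Matrix.SpecialLinearGroup CongruenceSubgroup
open Fermat.Agent.Eis16 Fermat.Agent.ES
open scoped MatrixGroups Manifold

noncomputable section

namespace Fermat.Agent.ESCore

variable {N : ℕ} {G : Subgroup SL(2, ℤ)}

/-- diamond operators on forms -/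
theorem slash_mem_mform (h1 : Gamma1 N ≤ G) (h0 : G ≤ Gamma0 N) {χ : G →* ℂˣ} {k : ℤ}
    {F : ℍ → ℂ} (hF : F ∈ mform χ k) (σ : Gamma0 N) :
    F ∣[k] (σ : SL(2, ℤ)) ∈ mform (diaChar h1 h0 σ χ) k := by
  obtain ⟨e1, e2, e3⟩ := hF
  refine ⟨e1.slash k _, fun γ => ?_, fun A => ?_⟩
  · rw [← SlashAction.slash_mul]
    have h : (σ : SL(2, ℤ)) * (γ : SL(2, ℤ)) = (conjG h1 h0 σ γ : SL(2, ℤ)) * (σ : SL(2, ℤ)) := by
      simp [conjG]
    rw [h, SlashAction.slash_mul, e2, ModularForm.SL_smul_slash]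
    rfl
  · rw [← SlashAction.slash_mul]
    exact e3 _

/-- Membership of products of slashes. -/
theorem prod_slash_mem {ι : Type*} [Fintype ι] {S : CosetSys (gamG G) ι}
    (hcusp : ∀ x (A : SL(2, ℤ)), ∃ (A' : SL(2, ℤ)) (B : GL (Fin 2) ℝ),
      S.δ x * mapGL ℝ A = mapGL ℝ A' * B ∧ (B : Matrix (Fin 2) (Fin 2) ℝ) 1 0 = 0)
    (hσ : ∀ x, UpperHalfPlane.σ (S.δ x) = .refl ℝ ℂ)
    {χ : G →* ℂˣ} {k : ℤ} {F : ℍ → ℂ} (hF : F ∈ mform χ k) :
    (∏ x, F ∣[k] S.δ x) ∈ mform (S.trans (gamG_injective G) χ) (k * Fintype.card ι) := by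
  obtain ⟨h1, h2, h3⟩ := hF
  have hsl : ∀ A : SL(2, ℤ), (∏ x, F ∣[k] S.δ x) ∣[k * (Fintype.card ι : ℤ)] A =
      ∏ x, F ∣[k] (S.δ x * mapGL ℝ A) := by
    intro A
    have hdet : |((mapGL ℝ A : GL (Fin 2) ℝ).det : ℝˣ).val| = 1 := by simp
    rw [← Finset.card_univ]
    change (∏ x, F ∣[k] S.δ x) ∣[k * (Finset.univ.card : ℤ)] (mapGL ℝ A : GL (Fin 2) ℝ) = _
    rw [ModularForm.prod_slash, hdet, _root_.one_zpow, one_smul]
    exact Finset.prod_congr rfl fun x _ => (SlashAction.slash_mul k _ _ F).symm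
  refine ⟨mdiff_prod _ fun x _ => h1.slash k (S.δ x), fun γ => ?_, fun A => ?_⟩
  · rw [hsl]
    have h4 : ∀ x, F ∣[k] (S.δ x * mapGL ℝ (γ : SL(2, ℤ))) =
        (χ (S.coc γ x) : ℂ) • F ∣[k] S.δ (S.tgt γ x) := by
      intro x
      have h5 := S.spec γ x
      rw [gamG_apply, gamG_apply] at h5
      rw [h5, SlashAction.slash_mul]
      have h6 : F ∣[k] (mapGL ℝ (S.coc γ x : SL(2, ℤ)) : GL (Fin 2) ℝ) =
          (χ (S.coc γ x) : ℂ) • F := h2 (S.coc γ x)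
      rw [h6, ModularForm.smul_slash, hσ]
      rfl
    simp only [h4]
    rw [CosetSys.trans_apply']
    ext τ
    simp only [Pi.smul_apply, Finset.prod_apply, smul_eq_mul, Finset.prod_mul_distrib,
      Units.coe_prod]
    rw [(S.tgt_bijective γ).prod_comp fun x => (F ∣[k] S.δ x) τ]
  · rw [hsl]
    refine bounded_prod _ fun x _ => ?_
    obtain ⟨A', B, h5, h6⟩ := hcusp x A
    rw [h5, SlashAction.slash_mul]
    exact IsBoundedAtImInfty.slash k h6 (h3 A')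

theorem smul_mem_mform {χ : G →* ℂˣ} {k : ℤ} {F : ℍ → ℂ} (hF : F ∈ mform χ k) (c : ℂ) :
    c • F ∈ mform χ k := Submodule.smul_mem _ c hF

/-- The multiplicative Hecke operator on forms of weight `k` for `G`:
`F ↦ (⟨l⟩F)(lτ) ∏_j F((τ+j)/l)`. -/
def heckeMulG (N l : ℕ) (k : ℤ) (F : ℍ → ℂ) : ℍ → ℂ :=
  fun τ => (F ∣[k] (sigmaD N l : SL(2, ℤ))) (heckeDiagMatrix l • τ) * heckeMulU l F τ

theorem heckeMulG_mem {l : ℕ} (hl : l.Prime) (hN : ¬ l ∣ N) (h1 : Gamma1 N ≤ G)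
    (h0 : G ≤ Gamma0 N) {χ : G →* ℂˣ} {k : ℤ} {F : ℍ → ℂ} (hF : F ∈ mform χ k) :
    heckeMulG N l k F ∈ mform (heckeCharG hl hN h1 h0 χ) (k * (l + 1)) := by
  have hdet : ∀ x, 0 < ((hdelta l x).det : ℝ) := by
    intro x
    cases x with
    | none => exact det_heckeDiagMatrix_pos l
    | some j => exact det_heckeMatrix_pos l j
  have h2 := prod_slash_mem (S := heckeSysG hl hN h1 h0) (fun x A => by
    obtain ⟨A', B, h3, h4⟩ := (isMulSys_heckeSys hl hN).cusp x A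
    refine ⟨(sigmaX N l x : SL(2, ℤ)) * A', B, ?_, h4⟩
    change gam N (sigmaX N l x) * (heckeSys hl hN).δ x * _ = _
    rw [mul_assoc, h3, map_mul, gam_apply, mul_assoc]) (fun x => by
    rw [UpperHalfPlane.σ, if_pos]
    change 0 < ((gam N (sigmaX N l x) * hdelta l x).det : ℝ)
    rw [map_mul, Units.val_mul, gam_apply]
    have h5 : ((mapGL ℝ (sigmaX N l x : SL(2, ℤ)) : GL (Fin 2) ℝ).det : ℝ) = 1 := by simp
    rw [h5, one_mul]
    exact hdet x) hF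
  have h3 : ∃ c : ℂ, heckeMulG N l k F = c • ∏ x, F ∣[k] (heckeSysG hl hN h1 h0).δ x := by
    refine ⟨slashConst k l 1 * ∏ _j : Fin l, slashConst k 1 l, ?_⟩
    ext τ
    simp only [heckeMulG, heckeMulU_apply, Pi.smul_apply, Finset.prod_apply, smul_eq_mul]
    rw [Fintype.prod_option, (isTri_heckeDiagMatrix hl.ne_zero).comp_eq k
      (F ∣[k] (sigmaD N l : SL(2, ℤ)))]
    have h6 : (F ∣[k] (sigmaD N l : SL(2, ℤ))) ∣[k] heckeDiagMatrix l =
        F ∣[k] (heckeSysG hl hN h1 h0).δ none := by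
      change (F ∣[k] (mapGL ℝ (sigmaD N l : SL(2, ℤ)) : GL (Fin 2) ℝ)) ∣[k] heckeDiagMatrix l = _
      rw [← SlashAction.slash_mul]
      rfl
    have h7 : ∀ j : Fin l, F (heckeMatrix l j • τ) =
        slashConst k 1 l * (F ∣[k] (heckeSysG hl hN h1 h0).δ (some j)) τ := by
      intro j
      rw [(isTri_heckeMatrix hl.ne_zero j).comp_eq k F]
      have h8 : (heckeSysG hl hN h1 h0).δ (some j) = heckeMatrix l j := by
        change gam N 1 * heckeMatrix l j = _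
        rw [map_one, one_mul]
      rw [h8]
    rw [h6, Finset.prod_congr rfl fun j _ => h7 j, Finset.prod_mul_distrib]
    ring
  obtain ⟨c, hc⟩ := h3
  rw [hc]
  have h4 := smul_mem_mform h2 c
  simpa using! h4

theorem heckeMulUG_mem {q : ℕ} (hq : q.Prime) (hN : q ∣ N) (h1 : Gamma1 N ≤ G)
    (h0 : G ≤ Gamma0 N) {χ : G →* ℂˣ} {k : ℤ} {F : ℍ → ℂ} (hF : F ∈ mform χ k) :
    heckeMulU q F ∈ mform (heckeCharUG hq.ne_zero hN h1 h0 χ) (k * q) := by
  have h2 := prod_slash_mem (S := heckeSysUG hq.ne_zero hN h1 h0)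
    (fun x A => (isMulSys_heckeSysU hq hN).cusp x A) (fun x => by
    rw [UpperHalfPlane.σ, if_pos]
    exact det_heckeMatrix_pos q x) hF
  have h3 : heckeMulU q F = (∏ _j : Fin q, slashConst k 1 q) •
      ∏ x, F ∣[k] (heckeSysUG hq.ne_zero hN h1 h0).δ x := by
    ext τ
    simp only [heckeMulU_apply, Pi.smul_apply, Finset.prod_apply, smul_eq_mul]
    rw [← Finset.prod_mul_distrib]
    exact Finset.prod_congr rfl fun j _ => (isTri_heckeMatrix hq.ne_zero j).comp_eq k F τ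
  rw [h3]
  have h4 := smul_mem_mform h2 (∏ _j : Fin q, slashConst k 1 q)
  simpa using! h4

theorem hasQ_heckeMulG {l : ℕ} (hl : l ≠ 0) {k : ℤ} {F : ℍ → ℂ} {P P' : PowerSeries ℂ}
    (h : HasQ 1 F P) (h' : HasQ 1 (F ∣[k] (sigmaD N l : SL(2, ℤ))) P') :
    HasQ 1 (heckeMulG N l k F) (P'.expand l hl * normSer l P) :=
  (h'.comp_pow l hl (qParam_heckeDiagMatrix hl)).mul (hasQ_heckeMulU hl h)

theorem heckeMulG_mul {l : ℕ} (k k' : ℤ) (F F' : ℍ → ℂ) :
    heckeMulG N l (k + k') (F * F') = heckeMulG N l k F * heckeMulG N l k' F' := by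
  ext τ
  simp only [heckeMulG, Pi.mul_apply]
  rw [ModularForm.mul_slash_SL2, Pi.mul_apply, heckeMulU, heckeMulU, heckeMulU, opMul_mul,
    Pi.mul_apply]
  ring

theorem mem_BRing_of_mem_mform' (h1 : Gamma1 N ≤ G) {χ : G →* ℂˣ}
    (hχ : ∀ g : G, (g : SL(2, ℤ)) 1 0 = 0 → χ g = 1) {k : ℤ} {F : ℍ → ℂ}
    (hF : F ∈ mform χ k) : F ∈ BRing := by
  obtain ⟨e1, e2, e3⟩ := hF
  refine ⟨?_, e1, by simpa using e3 1⟩
  have hTG : ModularGroup.T ^ (1 : ℤ) ∈ G := by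
    refine h1 ?_
    rw [Gamma1_mem, ModularGroup.coe_T_zpow]
    simp
  have hT : F ∣[k] (ModularGroup.T ^ (1 : ℤ)) = F := by
    have := e2 ⟨_, hTG⟩
    rw [hχ ⟨_, hTG⟩ (by simp [ModularGroup.coe_T_zpow]), Units.val_one, one_smul] at this
    exact this
  intro z
  by_cases hz : 0 < z.im
  · have hz' : 0 < (z + ((1 : ℝ) : ℂ)).im := by simpa using hz
    rw [Function.comp_apply, Function.comp_apply, ofComplex_apply_of_im_pos hz,
      ofComplex_apply_of_im_pos hz']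
    have h4 := congrFun hT ⟨z, hz⟩
    rw [SL_slash_apply] at h4
    have h5 : denom (ModularGroup.T ^ (1 : ℤ) : SL(2, ℤ)) (⟨z, hz⟩ : ℍ) = 1 := by
      rw [ModularGroup.denom_apply, ModularGroup.coe_T_zpow]
      simp
    rw [h5, _root_.one_zpow, mul_one] at h4
    rw [← h4]
    congr 1
    apply UpperHalfPlane.ext
    rw [ModularGroup.coe_T_zpow_smul_eq]
    simp
  · have hz' : (z + ((1 : ℝ) : ℂ)).im ≤ 0 := by simpa using not_lt.mp hz
    rw [Function.comp_apply, Function.comp_apply,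
      ofComplex_apply_of_im_nonpos (not_lt.mp hz), ofComplex_apply_of_im_nonpos hz']

end Fermat.Agent.ESCore
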