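import Mathlib

set_option autoImplicit false

/-!
# `m`-th roots of holomorphic functions on the upper half plane

A holomorphic function on `ℍ`, not identically zero, all of whose zeros have order divisible by
`m`, is the `m`-th power of a holomorphic function.
-/

open Complex Metric Set Filter Topology
open UpperHalfPlane hiding I
open scoped Manifold

noncomputable section

namespace Fermat.Agent.ESCore

/-- A nonvanishing holomorphic function on a ball has holomorphic `m`-th roots. -/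
theorem exists_root_ball_of_ne_zero {m : ℕ} (hm : 0 < m) {c : ℂ} {r : ℝ} {g : ℂ → ℂ}
    (hg : DifferentiableOn ℂ g (ball c r)) (h0 : ∀ z ∈ ball c r, g z ≠ 0) :
    ∃ h : ℂ → ℂ, DifferentiableOn ℂ h (ball c r) ∧ ∀ z ∈ ball c r, h z ^ m = g z := by
  by_cases hr : r ≤ 0
  · refine ⟨0, ?_, ?_⟩ <;> simp [ball_eq_empty.2 hr]
  push Not at hr
  have hg' : DifferentiableOn ℂ (deriv g) (ball c r) := hg.deriv isOpen_ball
  obtain ⟨L, hL⟩ := (hg'.div hg h0).isExactOn_ball
  have hc : c ∈ ball c r := mem_ball_self hr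
  set F : ℂ → ℂ := fun z => g z * exp (-L z) with hF
  have hFd : ∀ z ∈ ball c r, HasDerivAt F 0 z := by
    intro z hz
    have h1 : HasDerivAt g (deriv g z) z :=
      (hg.differentiableAt (isOpen_ball.mem_nhds hz)).hasDerivAt
    have h2 := (hL z hz).neg.cexp
    have h3 := h1.mul h2
    have h4 := h0 z hz
    have e : (deriv g / g) z = deriv g z / g z := rfl
    have e2 : deriv g z * exp ((-L) z) + g z * (exp ((-L) z) * -(deriv g / g) z) = 0 := by
      rw [e]
      field_simp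
      ring
    rw [e2] at h3
    exact h3
  have hconst : ∀ z ∈ ball c r, F z = F c := by
    intro z hz
    refine isOpen_ball.is_const_of_deriv_eq_zero (convex_ball c r).isPreconnected
      (fun w hw => (hFd w hw).differentiableAt.differentiableWithinAt)
      (fun w hw => (hFd w hw).deriv) hz hc
  obtain ⟨d, hd⟩ := IsAlgClosed.exists_pow_nat_eq (F c) hm
  refine ⟨fun z => d * exp (L z / m), ?_, ?_⟩
  · intro z hz
    exact (((hL z hz).div_const (m : ℂ)).cexp.const_mul d).differentiableAt.differentiableWithinAt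
  · intro z hz
    have hm' : (m : ℂ) ≠ 0 := by exact_mod_cast hm.ne'
    simp only
    rw [mul_pow, hd, ← exp_nat_mul, mul_div_cancel₀ _ hm', ← hconst z hz, hF]
    simp only
    rw [mul_assoc, ← Complex.exp_add, neg_add_cancel, exp_zero, mul_one]

/-- A holomorphic function near a closed ball, with zeros of order divisible by `m`, has a
holomorphic `m`-th root on the ball. -/
theorem exists_root_ball {m : ℕ} (hm : 0 < m) {c : ℂ} {r : ℝ} {f : ℂ → ℂ}
    (hf : AnalyticOnNhd ℂ f (closedBall c r))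
    (h : ∀ z ∈ closedBall c r, ∃ n : ℕ, analyticOrderAt f z = ((m * n : ℕ) : ℕ∞)) :
    ∃ G : ℂ → ℂ, DifferentiableOn ℂ G (ball c r) ∧ ∀ z ∈ ball c r, G z ^ m = f z := by
  classical
  have hmer : MeromorphicOn f (closedBall c r) := fun z hz => (hf z hz).meromorphicAt
  have hord : ∀ z ∈ closedBall c r, ∃ n : ℕ, meromorphicOrderAt f z = ((m * n : ℕ) : ℤ) := by
    intro z hz
    obtain ⟨n, hn⟩ := h z hz
    refine ⟨n, ?_⟩
    rw [(hf z hz).meromorphicOrderAt_eq, hn]
    rfl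
  have hfin : (MeromorphicOn.divisor f (closedBall c r)).support.Finite :=
    (MeromorphicOn.divisor f (closedBall c r)).finiteSupport (isCompact_closedBall c r)
  obtain ⟨g, hg, hg0, hfg⟩ := MeromorphicOn.extract_zeros_poles hmer
    (fun u => by obtain ⟨n, hn⟩ := hord u u.2; rw [hn]; exact WithTop.coe_ne_top) hfin
  set D : ℂ → ℤ := fun u => MeromorphicOn.divisor f (closedBall c r) u with hD
  have hDn : ∀ u, ∃ n : ℕ, D u = (m * n : ℕ) := by
    intro u
    by_cases hu : u ∈ closedBall c r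
    · obtain ⟨n, hn⟩ := hord u hu
      refine ⟨n, ?_⟩
      rw [hD]
      simp only
      rw [MeromorphicOn.divisor_apply hmer hu, hn]
      rfl
    · refine ⟨0, ?_⟩
      simpa [hD] using Function.locallyFinsuppWithin.apply_eq_zero_of_notMem _ hu
  choose n hn using hDn
  obtain ⟨h1, h1d, h1m⟩ := exists_root_ball_of_ne_zero hm (c := c) (r := r) (g := g)
    (fun z hz => (hg z (ball_subset_closedBall hz)).differentiableAt.differentiableWithinAt)
    (fun z hz => hg0 ⟨z, ball_subset_closedBall hz⟩)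
  set s : Finset ℂ := hfin.toFinset with hs
  set G : ℂ → ℂ := fun z => (∏ u ∈ s, (z - u) ^ n u) * h1 z with hG
  have hGd : DifferentiableOn ℂ G (ball c r) := by
    refine DifferentiableOn.mul ?_ h1d
    fun_prop
  refine ⟨G, hGd, ?_⟩
  -- equality off a discrete set
  have hprod : ∀ z, (∏ᶠ (u : ℂ), (fun x => x - u) ^ (MeromorphicOn.divisor f (closedBall c r)) u) z
      = ∏ u ∈ s, (z - u) ^ (m * n u) := by
    intro z
    rw [finprod_eq_prod_of_mulSupport_subset (s := s), Finset.prod_apply]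
    · refine Finset.prod_congr rfl fun u _ => ?_
      have := hn u
      simp only [hD] at this
      rw [this]
      simp only [Pi.pow_apply, zpow_natCast]
    · intro u hu
      rw [hs, Finite.coe_toFinset, Function.mem_support]
      intro h0
      apply hu
      simp only [h0, zpow_zero]
  have hev : ∀ z ∈ ball c r, ∀ᶠ w in 𝓝[≠] z, G w ^ m = f w := by
    intro z hz
    have h2 : ∀ᶠ w in 𝓝[≠] z, f w = ((∏ᶠ (u : ℂ),
        (fun x => x - u) ^ (MeromorphicOn.divisor f (closedBall c r)) u) • g) w := by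
      have h3 : ∀ᶠ w in 𝓝[closedBall c r \ {z}] z, f w = ((∏ᶠ (u : ℂ),
        (fun x => x - u) ^ (MeromorphicOn.divisor f (closedBall c r)) u) • g) w := by
        have h4 := hfg
        rw [Filter.EventuallyEq, Filter.Eventually, mem_codiscreteWithin] at h4
        have h5 := h4 z (ball_subset_closedBall hz)
        rw [disjoint_principal_right] at h5
        rw [Filter.Eventually, mem_nhdsWithin_iff_eventually] 
        rw [mem_nhdsWithin_iff_eventually] at h5
        filter_upwards [h5] with w hw hw2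
        by_contra hcon
        exact hw hw2.2 ⟨hw2.1, hcon⟩
      have h6 : 𝓝[closedBall c r \ {z}] z = 𝓝[≠] z := by
        rw [sdiff_eq, inter_comm, nhdsWithin_inter']
        refine inf_eq_left.2 (le_trans nhdsWithin_le_nhds ?_)
        exact le_principal_iff.2 (mem_of_superset (isOpen_ball.mem_nhds hz) ball_subset_closedBall)
      rwa [h6] at h3
    have h7 : ∀ᶠ w in 𝓝[≠] z, w ∈ ball c r :=
      eventually_nhdsWithin_of_eventually_nhds (isOpen_ball.mem_nhds hz)
    filter_upwards [h2, h7] with w hw hwb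
    rw [hw, Pi.smul_apply', hprod, hG]
    simp only
    rw [mul_pow, h1m w hwb, ← Finset.prod_pow, smul_eq_mul]
    congr 1
    refine Finset.prod_congr rfl fun u _ => ?_
    rw [← pow_mul, mul_comm]
  intro z hz
  have hc1 : ContinuousAt (fun w => G w ^ m) z :=
    ((hGd.continuousOn.continuousAt (isOpen_ball.mem_nhds hz)).pow m)
  have hc2 : ContinuousAt f z := (hf z (ball_subset_closedBall hz)).continuousAt
  have := hc1.tendsto.mono_left (nhdsWithin_le_nhds (s := {z}ᶜ))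
  have h8 := hc2.tendsto.mono_left (nhdsWithin_le_nhds (s := {z}ᶜ))
  have h9 : Tendsto f (𝓝[≠] z) (𝓝 (G z ^ m)) := this.congr' (hev z hz)
  exact tendsto_nhds_unique h9 h8

/-- Two holomorphic functions with the same `m`-th power that agree at a point where they do not
vanish are equal. -/
theorem eqOn_of_pow_eq {m : ℕ} (hm : 0 < m) {U : Set ℂ} (hU : IsOpen U) (hc : IsPreconnected U)
    {G1 G2 : ℂ → ℂ} (h1 : DifferentiableOn ℂ G1 U) (h2 : DifferentiableOn ℂ G2 U)
    (h : ∀ z ∈ U, G1 z ^ m = G2 z ^ m) {z0 : ℂ} (hz0 : z0 ∈ U) (h0 : G1 z0 = G2 z0)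
    (hne : G1 z0 ≠ 0) : EqOn G1 G2 U := by
  have ha1 : AnalyticOnNhd ℂ G1 U := h1.analyticOnNhd hU
  have ha2 : AnalyticOnNhd ℂ G2 U := h2.analyticOnNhd hU
  refine ha1.eqOn_of_preconnected_of_eventuallyEq ha2 hc hz0 ?_
  have hc1 : ContinuousAt G1 z0 := (ha1 z0 hz0).continuousAt
  have hc2 : ContinuousAt G2 z0 := (ha2 z0 hz0).continuousAt
  have hne2 : G2 z0 ≠ 0 := h0 ▸ hne
  -- the ratio is a root of unity close to `1`
  have hr : Tendsto (fun z => G1 z / G2 z) (𝓝 z0) (𝓝 1) := by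
    have := hc1.tendsto.div hc2.tendsto hne2
    rwa [h0, div_self hne2] at this
  have hfin : {ζ : ℂ | ζ ^ m = 1}.Finite := by
    have := (Polynomial.nthRoots m (1 : ℂ)).toFinset.finite_toSet
    refine this.subset ?_
    intro ζ hζ
    simpa [Polynomial.mem_nthRoots hm] using hζ
  have hcl : IsClosed ({ζ : ℂ | ζ ^ m = 1} \ {1}) := (hfin.subset sdiff_subset).isClosed
  have hev : ∀ᶠ z in 𝓝 z0, G1 z / G2 z ∈ ({ζ : ℂ | ζ ^ m = 1} \ {1})ᶜ :=
    hr (hcl.isOpen_compl.mem_nhds (by simp))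
  filter_upwards [hev, hU.mem_nhds hz0, hc2.eventually_ne hne2] with z hz hzU hz2
  have h3 : (G1 z / G2 z) ^ m = 1 := by
    rw [div_pow, h z hzU, div_self (pow_ne_zero m hz2)]
  have h4 : G1 z / G2 z = 1 := by
    by_contra hcon
    exact hz ⟨h3, hcon⟩
  rwa [div_eq_one_iff_eq hz2] at h4

/-- The exhaustion of the upper half plane by discs. -/
theorem closedBall_subset_upper (n : ℕ) :
    closedBall (((n : ℂ) + 2) * I) ((n : ℝ) + 2 - 1 / (n + 2)) ⊆ {z : ℂ | 0 < z.im} := by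
  intro z hz
  rw [mem_closedBall, dist_eq_norm] at hz
  have h1 : |(z - ((n : ℂ) + 2) * I).im| ≤ (n : ℝ) + 2 - 1 / (n + 2) :=
    (abs_im_le_norm _).trans hz
  have h2 : (z - ((n : ℂ) + 2) * I).im = z.im - (n + 2) := by simp
  rw [h2] at h1
  have h3 := (abs_le.1 h1).1
  have h4 : (0 : ℝ) < 1 / (n + 2) := by positivity
  simp only [mem_ofPred_eq]
  linarith

theorem ball_mono (n : ℕ) :
    ball (((n : ℂ) + 2) * I) ((n : ℝ) + 2 - 1 / (n + 2)) ⊆
      ball ((((n + 1 : ℕ) : ℂ) + 2) * I) (((n + 1 : ℕ) : ℝ) + 2 - 1 / ((n + 1 : ℕ) + 2)) := by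
  refine ball_subset_ball' ?_
  have h1 : dist (((n : ℂ) + 2) * I) ((((n + 1 : ℕ) : ℂ) + 2) * I) = 1 := by
    rw [dist_eq_norm]
    have : ((n : ℂ) + 2) * I - (((n + 1 : ℕ) : ℂ) + 2) * I = -I := by push_cast; ring
    rw [this, norm_neg, norm_I]
  rw [h1]
  push_cast
  have h2 : (1 : ℝ) / (n + 1 + 2) ≤ 1 / (n + 2) := by
    apply one_div_le_one_div_of_le <;> linarith [(Nat.cast_nonneg n : (0 : ℝ) ≤ n)]
  linarith

theorem ball_mono' {n k : ℕ} (h : n ≤ k) :
    ball (((n : ℂ) + 2) * I) ((n : ℝ) + 2 - 1 / (n + 2)) ⊆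
      ball (((k : ℂ) + 2) * I) ((k : ℝ) + 2 - 1 / (k + 2)) := by
  induction k, h using Nat.le_induction with
  | base => exact subset_rfl
  | succ k _ ih => exact ih.trans (ball_mono k)

theorem exists_mem_ball {z : ℂ} (hz : 0 < z.im) :
    ∃ n : ℕ, z ∈ ball (((n : ℂ) + 2) * I) ((n : ℝ) + 2 - 1 / (n + 2)) := by
  obtain ⟨n, hn⟩ := exists_nat_gt ((z.re ^ 2 + z.im ^ 2 + 2) / (2 * z.im))
  refine ⟨n, ?_⟩
  rw [mem_ball, dist_eq_norm]
  have hpos : (0 : ℝ) < (n : ℝ) + 2 - 1 / (n + 2) := by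
    have : (1 : ℝ) / (n + 2) ≤ 1 := by
      rw [div_le_one (by positivity)]
      linarith [(Nat.cast_nonneg n : (0 : ℝ) ≤ n)]
    linarith [(Nat.cast_nonneg n : (0 : ℝ) ≤ n)]
  refine lt_of_pow_lt_pow_left₀ 2 hpos.le ?_
  rw [← normSq_eq_norm_sq, normSq_apply]
  have e1 : (z - ((n : ℂ) + 2) * I).re = z.re := by simp
  have e2 : (z - ((n : ℂ) + 2) * I).im = z.im - (n + 2) := by simp
  rw [e1, e2]
  have h3 : z.re ^ 2 + z.im ^ 2 + 2 < n * (2 * z.im) := by
    rwa [div_lt_iff₀ (by positivity)] at hn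
  have h4 : ((n : ℝ) + 2 - 1 / (n + 2)) ^ 2 = (n + 2) ^ 2 - 2 + (1 / (n + 2)) ^ 2 := by
    have : ((n : ℝ) + 2) ≠ 0 := by positivity
    field_simp
    ring
  rw [h4]
  have h5 : (0 : ℝ) < (1 / ((n : ℝ) + 2)) ^ 2 := by positivity
  nlinarith

/-- A holomorphic function on `ℍ` all of whose zeros have order divisible by `m` is an `m`-th
power. -/
theorem exists_pow_eq {m : ℕ} (hm : 0 < m) {f : ℍ → ℂ} (hf : MDiff f) (hf0 : f ≠ 0)
    (h : ∀ τ : ℍ, ∃ n : ℕ, analyticOrderAt (f ∘ ofComplex) (τ : ℂ) = ((m * n : ℕ) : ℕ∞)) :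
    ∃ g : ℍ → ℂ, MDiff g ∧ ∀ τ, g τ ^ m = f τ := by
  classical
  set F : ℂ → ℂ := f ∘ ofComplex with hF
  have hFd : DifferentiableOn ℂ F {z | 0 < z.im} := UpperHalfPlane.mdifferentiable_iff.1 hf
  have hopen : IsOpen {z : ℂ | 0 < z.im} := isOpen_lt continuous_const continuous_im
  have hFa : AnalyticOnNhd ℂ F {z | 0 < z.im} := hFd.analyticOnNhd hopen
  let c : ℕ → ℂ := fun n => ((n : ℂ) + 2) * I
  let r : ℕ → ℝ := fun n => (n : ℝ) + 2 - 1 / (n + 2)
  have hrpos : ∀ n, 0 < r n := by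
    intro n
    have : (1 : ℝ) / (n + 2) ≤ 1 := by
      rw [div_le_one (by positivity)]
      linarith [(Nat.cast_nonneg n : (0 : ℝ) ≤ n)]
    simp only [r]
    linarith [(Nat.cast_nonneg n : (0 : ℝ) ≤ n)]
  have hsub : ∀ n, closedBall (c n) (r n) ⊆ {z : ℂ | 0 < z.im} := closedBall_subset_upper
  have hroot : ∀ n, ∃ G : ℂ → ℂ, DifferentiableOn ℂ G (ball (c n) (r n)) ∧
      ∀ z ∈ ball (c n) (r n), G z ^ m = F z := by
    intro n
    refine exists_root_ball hm (fun z hz => hFa z (hsub n hz)) fun z hz => ?_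
    exact h ⟨z, hsub n hz⟩
  -- a base point
  obtain ⟨z0, hz0, hFz0⟩ : ∃ z0 ∈ ball (c 0) (r 0), F z0 ≠ 0 := by
    by_contra hcon
    push Not at hcon
    apply hf0
    have hc0 : c 0 ∈ ball (c 0) (r 0) := mem_ball_self (hrpos 0)
    have h1 : EqOn F 0 {z | 0 < z.im} := by
      refine hFa.eqOn_zero_of_preconnected_of_eventuallyEq_zero
        (convex_halfSpace_im_gt 0).isPreconnected (z₀ := c 0) (hsub 0 (ball_subset_closedBall hc0)) ?_
      filter_upwards [isOpen_ball.mem_nhds hc0] with w hw using hcon w hw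
    funext τ
    have := h1 τ.2
    simpa [hF, ofComplex_apply] using this
  obtain ⟨w0, hw0⟩ := IsAlgClosed.exists_pow_nat_eq (F z0) hm
  have hw0' : w0 ≠ 0 := by
    rintro rfl
    apply hFz0
    rw [← hw0, zero_pow hm.ne']
  have hroot' : ∀ n, ∃ G : ℂ → ℂ, DifferentiableOn ℂ G (ball (c n) (r n)) ∧
      (∀ z ∈ ball (c n) (r n), G z ^ m = F z) ∧ G z0 = w0 := by
    intro n
    obtain ⟨G, hG1, hG2⟩ := hroot n
    have hz0n : z0 ∈ ball (c n) (r n) := ball_mono' (Nat.zero_le n) hz0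
    have hGz : G z0 ≠ 0 := by
      intro h0
      apply hFz0
      rw [← hG2 z0 hz0n, h0, zero_pow hm.ne']
    refine ⟨fun z => w0 / G z0 * G z, hG1.const_mul _, fun z hz => ?_, ?_⟩
    · simp only
      rw [mul_pow, hG2 z hz, div_pow, hw0, hG2 z0 hz0n, div_self hFz0, one_mul]
    · simp only
      rw [div_mul_cancel₀ _ hGz]
  choose G hG1 hG2 hG3 using hroot'
  have hagree : ∀ n k, n ≤ k → EqOn (G n) (G k) (ball (c n) (r n)) := by
    intro n k hnk
    have hz0n : z0 ∈ ball (c n) (r n) := ball_mono' (Nat.zero_le n) hz0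
    refine eqOn_of_pow_eq hm isOpen_ball (convex_ball _ _).isPreconnected (hG1 n)
      ((hG1 k).mono (ball_mono' hnk)) (fun z hz => ?_) hz0n (by rw [hG3, hG3]) (by rw [hG3]; exact hw0')
    rw [hG2 n z hz, hG2 k z (ball_mono' hnk hz)]
  have hex : ∀ τ : ℍ, ∃ n : ℕ, (τ : ℂ) ∈ ball (c n) (r n) := fun τ => exists_mem_ball τ.2
  let ν : ℍ → ℕ := fun τ => Nat.find (hex τ)
  have hν : ∀ τ : ℍ, (τ : ℂ) ∈ ball (c (ν τ)) (r (ν τ)) := fun τ => Nat.find_spec (hex τ)
  let g : ℍ → ℂ := fun τ => G (ν τ) τ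
  have hgG : ∀ (n : ℕ) (τ : ℍ), (τ : ℂ) ∈ ball (c n) (r n) → g τ = G n τ := by
    intro n τ hτ
    rcases le_total n (ν τ) with hle | hle
    · exact (hagree n (ν τ) hle hτ).symm
    · exact hagree (ν τ) n hle (hν τ)
  refine ⟨g, ?_, fun τ => ?_⟩
  · rw [UpperHalfPlane.mdifferentiable_iff]
    intro z hz
    obtain ⟨n, hn⟩ := hex ⟨z, hz⟩
    have h1 : (g ∘ ofComplex) =ᶠ[𝓝 z] G n := by
      filter_upwards [isOpen_ball.mem_nhds hn, hopen.mem_nhds hz] with w hw hwim
      rw [Function.comp_apply, ofComplex_apply_of_im_pos hwim]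
      exact hgG n ⟨w, hwim⟩ hw
    have h2 : DifferentiableAt ℂ (G n) z := (hG1 n).differentiableAt (isOpen_ball.mem_nhds hn)
    exact (h1.differentiableAt_iff.2 h2).differentiableWithinAt
  · have := hG2 (ν τ) τ (hν τ)
    simp only [g]
    rw [this]
    simp [hF, ofComplex_apply]

end Fermat.Agent.ESCore
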