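import Fermat.Agent.ESCore.GalOrder
import Fermat.Agent.ESCore.Root
import Fermat.Agent.ESCore.MForm
import Fermat.Agent.ESCore.HeckeMulG

set_option autoImplicit false

/-!
# Conjugation of forms with character (D1)
-/

open UpperHalfPlane hiding I J
open Complex Function Filter Topology ModularForm
open scoped Manifold MatrixGroups ModularForm
open Fermat.Agent.ModFun Fermat.Agent.Eis16 Fermat.Agent.ES

noncomputable section

namespace Fermat.Agent.ESCore.Gal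

local notation "Δ" => ModularForm.discriminant
local notation "𝕢" => Function.Periodic.qParam

/-- The characters of `G` of order dividing `m`, trivial on the elements fixing `∞`. -/
def XGen (G : Subgroup SL(2, ℤ)) (m : ℕ) : Subgroup (G →* ℂˣ) where
  carrier := {χ | χ ^ m = 1 ∧ ∀ g : G, (g : SL(2, ℤ)) 1 0 = 0 → χ g = 1}
  mul_mem' := by
    rintro a b ⟨h1, h2⟩ ⟨h3, h4⟩
    refine ⟨by rw [mul_pow, h1, h3]; ext g; simp, fun g hg => ?_⟩
    simp [h2 g hg, h4 g hg]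
  one_mem' := ⟨one_pow m, fun g _ => rfl⟩
  inv_mem' := by
    rintro a ⟨h1, h2⟩
    refine ⟨by rw [inv_pow, h1]; ext g; simp, fun g hg => ?_⟩
    simp [h2 g hg]

theorem XGen_Gamma0 (N m : ℕ) : XGen (CongruenceSubgroup.Gamma0 N) m = XG N m := rfl

/-- Conjugation by automorphisms of `ℂ` preserves the space of forms on `G`, in the weights
divisible by `12`. -/
def ConjStable (G : Subgroup SL(2, ℤ)) : Prop :=
  ∀ (σ : ℂ ≃+* ℂ) (n : ℕ) (f : ℍ → ℂ), f ∈ mform (1 : G →* ℂˣ) (12 * n) →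
    ∃ f' ∈ mform (1 : G →* ℂˣ) (12 * n),
      qExpansion 1 f' = (qExpansion 1 f).map (σ : ℂ →+* ℂ)

/-! ### Algebra -/

theorem exists_root_mul {R : Type*} [CommRing R] [IsDomain R] [Algebra ℂ R] {m : ℕ} (hm : 0 < m)
    {x y : R} (h : x ^ m = y ^ m) : ∃ ζ : ℂ, ζ ^ m = 1 ∧ x = ζ • y := by
  have hζ : IsPrimitiveRoot (Complex.exp (2 * Real.pi * Complex.I / m)) m :=
    Complex.isPrimitiveRoot_exp m hm.ne'
  set ζ := Complex.exp (2 * Real.pi * Complex.I / m)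
  have hinj : Function.Injective (algebraMap ℂ R) := FaithfulSMul.algebraMap_injective ℂ R
  have hζ' : IsPrimitiveRoot (algebraMap ℂ R ζ) m := hζ.map_of_injective hinj
  have h1 := hζ'.pow_sub_pow_eq_prod_sub_mul x y hm
  rw [h, sub_self] at h1
  obtain ⟨w, hw, h2⟩ := Finset.prod_eq_zero_iff.mp h1.symm
  have h3 : w ^ m = 1 := (Polynomial.mem_nthRootsFinset hm _).mp hw
  haveI : NeZero m := ⟨hm.ne'⟩
  obtain ⟨i, -, rfl⟩ := hζ'.eq_pow_of_pow_eq_one h3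
  refine ⟨ζ ^ i, ?_, ?_⟩
  · rw [← pow_mul, mul_comm, pow_mul, hζ.pow_eq_one, one_pow]
  · rw [sub_eq_zero] at h2
    rw [h2, Algebra.smul_def, map_pow]

/-! ### Multipliers -/

section Mult

variable {G : Subgroup SL(2, ℤ)}

theorem slash_ne_zero {k : ℤ} {F : ℍ → ℂ} (hF : F ≠ 0) (γ : SL(2, ℤ)) : F ∣[k] γ ≠ 0 := by
  intro h
  apply hF
  have h1 : (F ∣[k] γ) ∣[k] γ⁻¹ = F := by
    rw [← SlashAction.slash_mul, mul_inv_cancel, SlashAction.slash_one]
  rw [← h1, h, SlashAction.zero_slash]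

/-- a function which is multiplied by constants under `G` has a multiplier character -/
theorem exists_char {k : ℤ} {F : ℍ → ℂ} (hF : F ≠ 0)
    (h : ∀ γ : G, ∃ ζ : ℂ, F ∣[k] (γ : SL(2, ℤ)) = ζ • F) :
    ∃ χ : G →* ℂˣ, ∀ γ : G, F ∣[k] (γ : SL(2, ℤ)) = (χ γ : ℂ) • F := by
  choose ζ hζ using h
  have h0 : ∀ γ, ζ γ ≠ 0 := by
    intro γ h0
    have h1 := hζ γ
    rw [h0, zero_smul] at h1
    exact slash_ne_zero hF _ h1
  have hcan : ∀ a b : ℂ, a • F = b • F → a = b := by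
    intro a b hab
    obtain ⟨τ, hτ⟩ := Function.ne_iff.mp hF
    have h1 := congrFun hab τ
    simp only [Pi.smul_apply, smul_eq_mul] at h1
    exact mul_right_cancel₀ hτ h1
  refine ⟨{ toFun := fun γ => Units.mk0 (ζ γ) (h0 γ), map_one' := ?_, map_mul' := ?_ }, hζ⟩
  · apply Units.ext
    apply hcan
    change ζ 1 • F = (1 : ℂ) • F
    rw [← hζ, one_smul]
    exact SlashAction.slash_one _ _
  · intro γ δ
    apply Units.ext
    apply hcan
    change ζ (γ * δ) • F = (ζ γ * ζ δ) • F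
    rw [← hζ, Subgroup.coe_mul, SlashAction.slash_mul, hζ, ModularForm.SL_smul_slash, hζ,
      smul_smul]

end Mult

/-! ### Division by powers of `Δ` -/

theorem disc_pow_smul (γ : SL(2, ℤ)) (n : ℕ) (τ : ℍ) :
    Δ (γ • τ) ^ n = denom γ τ ^ (12 * (n : ℤ)) * Δ τ ^ n := by
  rw [discriminant_smul, mul_pow, ← zpow_natCast, ← zpow_mul]

theorem div_smul_eq (F : ℍ → ℂ) (n : ℕ) (γ : SL(2, ℤ)) (τ : ℍ) :
    F (γ • τ) / Δ (γ • τ) ^ n = (F ∣[(12 * n : ℤ)] γ) τ / Δ τ ^ n := by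
  have h1 : (F ∣[(12 * n : ℤ)] γ) τ = F (γ • τ) * denom γ τ ^ (-(12 * (n : ℤ))) :=
    ModularForm.SL_slash_apply _ _ _
  have hd : denom γ (τ : ℂ) ≠ 0 := denom_ne_zero _ τ
  have h4 := discriminant_ne_zero τ
  rw [disc_pow_smul, h1, _root_.zpow_neg]
  have hd' : denom γ (τ : ℂ) ^ (12 * (n : ℤ)) ≠ 0 := zpow_ne_zero _ hd
  field_simp

theorem mdiff_div_disc {F : ℍ → ℂ} (hF : MDiff F) (n : ℕ) : MDiff (fun τ => F τ / Δ τ ^ n) :=
  hF.div (mdiff_discriminant.pow n) fun τ => pow_ne_zero _ (discriminant_ne_zero τ)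

/-- `F / Δ^n` as an element of `HolRing` -/
def divD {F : ℍ → ℂ} (hF : MDiff F) (n : ℕ) : HolRing := ⟨fun τ => F τ / Δ τ ^ n,
  mdiff_div_disc hF n⟩

theorem divD_apply {F : ℍ → ℂ} (hF : MDiff F) (n : ℕ) (τ : ℍ) :
    (divD hF n : ℍ → ℂ) τ = F τ / Δ τ ^ n := rfl

section Div

variable {G : Subgroup SL(2, ℤ)}

theorem divD_mem_MB {f : ℍ → ℂ} {n : ℕ} {χ : G →* ℂˣ} (hf : f ∈ mform χ (12 * n)) :
    (divD hf.1 n : ℍ → ℂ) ∈ MB := by
  refine ⟨(divD hf.1 n).2, n, fun γ => ?_⟩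
  have h1 : (Δ ^ n * fun τ : ℍ => (divD hf.1 n : ℍ → ℂ) (γ • τ)) = f ∣[(12 * n : ℤ)] γ := by
    ext τ
    rw [Pi.mul_apply, Pi.pow_apply, divD_apply, div_smul_eq]
    have h4 := pow_ne_zero n (discriminant_ne_zero τ)
    field_simp
  rw [h1]
  exact hf.2.2 γ

theorem divD_inv {f : ℍ → ℂ} {n : ℕ} (hf : f ∈ mform (1 : G →* ℂˣ) (12 * n)) :
    IsInvG G (divD hf.1 n : ℍ → ℂ) := by
  intro γ hγ τ
  rw [divD_apply, div_smul_eq]
  have h1 := hf.2.1 ⟨γ, hγ⟩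
  rw [MonoidHom.one_apply, Units.val_one, one_smul] at h1
  rw [h1]
  rfl

variable [G.FiniteIndex]

omit [G.FiniteIndex] in
/-- the cosets of `F^m / Δ^(nm)` are `m`-th powers -/
theorem exists_root_cosH {F : ℍ → ℂ} {n m : ℕ} {χ : G →* ℂˣ}
    (hF : F ∈ mform χ (12 * n)) {f : ℍ → ℂ} (hf : f ∈ mform (1 : G →* ℂˣ) (12 * (n * m : ℕ)))
    (hfF : f = F ^ m) (x : CS G) :
    ∃ g : HolRing, cosH x (divD_mem_MB hf) = g ^ m := by
  have hd : MDiff (F ∣[(12 * n : ℤ)] (Quotient.out x)⁻¹) := hF.1.slash _ _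
  refine ⟨divD hd n, ?_⟩
  apply Subtype.ext
  funext τ
  change f ((Quotient.out x)⁻¹ • τ) / Δ ((Quotient.out x)⁻¹ • τ) ^ (n * m) =
    ((F ∣[(12 * n : ℤ)] (Quotient.out x)⁻¹) τ / Δ τ ^ n) ^ m
  rw [← div_smul_eq, hfF, Pi.pow_apply, pow_mul, div_pow]

end Div

/-! ### Expansions -/

/-- the `q`-expansion as a Laurent series -/
theorem hasExp_of_hasQ {f : ℍ → ℂ} {P : PowerSeries ℂ} (h : HasQ 1 f P) :
    HasExp (RingHom.id ℂ) (qN 1) f (HahnSeries.ofPowerSeries ℤ ℂ P) := by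
  refine hasExp_ofPowerSeries fun τ _ => ?_
  have h1 := h τ
  simp only [RingHom.id_apply, qN_apply, Nat.cast_one]
  exact h1

theorem exists_hasExp_divD {G : Subgroup SL(2, ℤ)} (hT : ModularGroup.T ∈ G) {f : ℍ → ℂ} {n : ℕ}
    (hf : f ∈ mform (1 : G →* ℂˣ) (12 * n)) :
    ∃ F : LaurentSeries ℂ, HasExp (RingHom.id ℂ) (qN 1) (divD hf.1 n : ℍ → ℂ) F := by
  obtain ⟨h1, k, hk⟩ := divD_mem_MB hf
  have h2 : (fun τ : ℍ => qN 1 τ) =O[atImInfty] (Δ : ℍ → ℂ) := by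
    refine Asymptotics.IsBigO.trans ?_ exp_isBigO_discriminant
    refine Asymptotics.isBigO_of_le _ fun τ => ?_
    rw [qN_apply, Nat.cast_one, Periodic.norm_qParam]
    rw [Real.norm_of_nonneg (Real.exp_nonneg _)]
    simp
  have hb : IsBoundedAtImInfty (fun τ => qN 1 τ ^ k * (divD hf.1 n : ℍ → ℂ) τ) := by
    have h3 : IsBoundedAtImInfty (Δ ^ k * (divD hf.1 n : ℍ → ℂ)) := by simpa using hk 1
    have h4 : (fun τ => qN 1 τ ^ k * (divD hf.1 n : ℍ → ℂ) τ) =O[atImInfty]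
        (Δ ^ k * (divD hf.1 n : ℍ → ℂ) : ℍ → ℂ) :=
      (h2.pow k).mul (Asymptotics.isBigO_refl _ _)
    exact h4.trans h3
  refine exists_hasExp (N := 1) h1 (fun τ => ?_) k hb
  rw [Nat.cast_one, ← modular_T_smul]
  exact divD_inv hf _ hT τ

/-- the expansion of `Δ` over `ℂ` -/
def dSC : LaurentSeries ℂ := ModularCurve.coeffMap (Int.castRingHom ℂ) dSeries

theorem hasExp_disc : HasExp (RingHom.id ℂ) (qN 1) Δ dSC :=
  hasExp_discriminant.coeffMap (Int.castRingHom ℂ) (RingHom.ext_int _ _)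

theorem dSC_ne_zero : dSC ≠ 0 := by
  intro h
  refine dSeries_ne_zero ?_
  ext n
  have := congrArg (fun F : LaurentSeries ℂ => F.coeff n) h
  have h2 : (Int.castRingHom ℂ) (dSeries.coeff n) = 0 := this
  simpa using h2

theorem coeffMap_dSC (σ : ℂ →+* ℂ) : ModularCurve.coeffMap σ dSC = dSC := by
  ext n
  change σ ((Int.castRingHom ℂ) (dSeries.coeff n)) = (Int.castRingHom ℂ) (dSeries.coeff n)
  simp

theorem coeffMap_ofPowerSeries (σ : ℂ →+* ℂ) (P : PowerSeries ℂ) :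
    ModularCurve.coeffMap σ (HahnSeries.ofPowerSeries ℤ ℂ P) =
      HahnSeries.ofPowerSeries ℤ ℂ (P.map σ) := by
  ext n
  change σ ((HahnSeries.ofPowerSeries ℤ ℂ P).coeff n) = _
  rcases lt_or_ge n 0 with hn | hn
  · have h1 : ∀ Q : PowerSeries ℂ, (HahnSeries.ofPowerSeries ℤ ℂ Q).coeff n = 0 := by
      intro Q
      rw [HahnSeries.ofPowerSeries_apply]
      refine HahnSeries.embDomain_of_notMem_range ?_
      rintro ⟨k, hk⟩
      have : (k : ℤ) = n := hk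
      omega
    rw [h1, h1, map_zero]
  · lift n to ℕ using hn
    rw [HahnSeries.ofPowerSeries_apply_coeff, HahnSeries.ofPowerSeries_apply_coeff,
      PowerSeries.coeff_map]

theorem hasExp_conj_divD {G : Subgroup SL(2, ℤ)} (hT : ModularGroup.T ∈ G) (σ : ℂ →+* ℂ)
    {f f' : ℍ → ℂ} {n : ℕ} (hf : f ∈ mform (1 : G →* ℂˣ) (12 * n))
    (hf' : f' ∈ mform (1 : G →* ℂˣ) (12 * n)) {P : PowerSeries ℂ} (hP : HasQ 1 f P)
    (hP' : HasQ 1 f' (P.map σ)) {F : LaurentSeries ℂ}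
    (hF : HasExp (RingHom.id ℂ) (qN 1) (divD hf.1 n : ℍ → ℂ) F) :
    HasExp (RingHom.id ℂ) (qN 1) (divD hf'.1 n : ℍ → ℂ) (ModularCurve.coeffMap σ F) := by
  obtain ⟨F', hF'⟩ := exists_hasExp_divD hT hf'
  have hmul : ∀ {f : ℍ → ℂ} (hf : f ∈ mform (1 : G →* ℂˣ) (12 * n)),
      (divD hf.1 n : ℍ → ℂ) * Δ ^ n = f := by
    intro f hf
    ext τ
    rw [Pi.mul_apply, Pi.pow_apply, divD_apply, div_mul_cancel₀ _
      (pow_ne_zero _ (discriminant_ne_zero τ))]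
  have h1 := hF.mul (hasExp_disc.pow n)
  rw [hmul hf] at h1
  have h2 := hF'.mul (hasExp_disc.pow n)
  rw [hmul hf'] at h2
  have h3 := h1.unique (RingHom.id ℂ).injective (isParam_qN 1) (hasExp_of_hasQ hP)
  have h4 := h2.unique (RingHom.id ℂ).injective (isParam_qN 1) (hasExp_of_hasQ hP')
  have h5 : ModularCurve.coeffMap σ F = F' := by
    have h6 := congrArg (ModularCurve.coeffMap σ) h3
    rw [map_mul, map_pow, coeffMap_dSC, coeffMap_ofPowerSeries, ← h4] at h6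
    exact mul_right_cancel₀ (pow_ne_zero n dSC_ne_zero) h6
  rw [h5]
  exact hF'

/-! ### The main construction -/

theorem even_weight (n : ℕ) : Even (12 * n : ℤ) := ⟨6 * n, by ring⟩

/-- an even weight periodic function is invariant under all elements fixing `∞` -/
theorem slash_of_c_zero {k : ℤ} (hk : Even k) {F : ℍ → ℂ}
    (hper : Function.Periodic (F ∘ ofComplex) ((1 : ℝ) : ℂ)) (g : SL(2, ℤ)) (hg : g 1 0 = 0) :
    F ∣[k] g = F := by
  have hT1 : ∀ τ : ℍ, F (ModularGroup.T • τ) = F τ := by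
    intro τ
    rw [modular_T_smul]
    have h1 := hper (τ : ℂ)
    simp only [Function.comp_apply] at h1
    rw [ofComplex_apply] at h1
    rw [← h1]
    congr 1
    apply UpperHalfPlane.ext
    rw [ofComplex_apply_of_im_pos (by simpa using τ.im_pos)]
    simp [add_comm]
  have hTn : ∀ (n : ℤ) (τ : ℍ), F (ModularGroup.T ^ n • τ) = F τ := by
    intro n
    induction n using Int.induction_on with
    | zero => intro τ; rw [zpow_zero, one_smul]
    | succ n ih => intro τ; rw [zpow_add, zpow_one, mul_smul, ih, hT1]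
    | pred n ih =>
      intro τ
      rw [zpow_sub, zpow_one, mul_smul, ih]
      conv_rhs => rw [← smul_inv_smul ModularGroup.T τ, hT1]
  obtain ⟨n, hn⟩ := ModularGroup.exists_eq_T_zpow_of_c_eq_zero hg
  ext τ
  have h1 : (F ∣[k] g) τ = F (g • τ) * denom g τ ^ (-k) := ModularForm.SL_slash_apply _ _ _
  rw [h1, hn, hTn]
  have hdet := g.det_coe
  rw [Matrix.det_fin_two, hg, mul_zero, sub_zero] at hdet
  have h2 : denom g (τ : ℂ) = ((g 1 1 : ℤ) : ℂ) := by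
    rw [ModularGroup.denom_apply, hg]
    simp
  have h3 : (g 1 1 : ℤ) = 1 ∨ (g 1 1 : ℤ) = -1 := by
    rcases Int.eq_one_or_neg_one_of_mul_eq_one' hdet with h | h
    · exact Or.inl h.2
    · exact Or.inr h.2
  rw [h2]
  rcases h3 with h | h
  · rw [h]; simp
  · rw [h]
    push_cast
    rw [hk.neg.neg_zpow, one_zpow, mul_one]

theorem bounded_of_pow {f : ℍ → ℂ} {m : ℕ} (hm : 0 < m) (h : IsBoundedAtImInfty (f ^ m)) :
    IsBoundedAtImInfty f := by
  rw [UpperHalfPlane.isBoundedAtImInfty_iff] at h ⊢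
  obtain ⟨M, A, hM⟩ := h
  refine ⟨max 1 M, A, fun z hz => ?_⟩
  have h1 := hM z hz
  rw [Pi.pow_apply, norm_pow] at h1
  by_contra hcon
  push Not at hcon
  have h2 : 1 < ‖f z‖ := (le_max_left 1 M).trans_lt hcon
  have h3 : ‖f z‖ ≤ ‖f z‖ ^ m := le_self_pow₀ h2.le hm.ne'
  exact absurd ((le_max_right 1 M).trans_lt hcon) (not_lt.mpr (h3.trans h1))

variable {G : Subgroup SL(2, ℤ)} [G.FiniteIndex]

omit [G.FiniteIndex] in
theorem periodic_of_T {f : ℍ → ℂ} (h : ∀ τ : ℍ, f (ModularGroup.T • τ) = f τ) :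
    Function.Periodic (f ∘ ofComplex) ((1 : ℝ) : ℂ) := by
  intro z
  by_cases! hz : 0 < z.im
  · have hz' : 0 < (z + ((1 : ℝ) : ℂ)).im := by simpa using hz
    rw [Function.comp_apply, Function.comp_apply, ofComplex_apply_of_im_pos hz,
      ofComplex_apply_of_im_pos hz', ← h ⟨z, hz⟩]
    congr 1
    rw [modular_T_smul]
    apply UpperHalfPlane.ext
    simp [add_comm]
  · have hz' : (z + ((1 : ℝ) : ℂ)).im ≤ 0 := by simpa using hz
    rw [Function.comp_apply, Function.comp_apply, ofComplex_apply_of_im_nonpos hz,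
      ofComplex_apply_of_im_nonpos hz']

omit [G.FiniteIndex] in
/-- expansions of forms on `G` -/
theorem hasQ_mform_G (hT : ModularGroup.T ∈ G) {χ : G →* ℂˣ}
    (hχ : ∀ g : G, (g : SL(2, ℤ)) 1 0 = 0 → χ g = 1) {k : ℤ} {F : ℍ → ℂ}
    (hF : F ∈ mform χ k) : HasQ 1 F (qExpansion 1 F) := by
  have h1 : F ∣[k] ModularGroup.T = F := by
    have := hF.2.1 ⟨_, hT⟩
    rw [hχ ⟨_, hT⟩ (by simp [ModularGroup.coe_T]), Units.val_one, one_smul] at this
    exact this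
  have h2 : ∀ τ : ℍ, F (ModularGroup.T • τ) = F τ := by
    intro τ
    have h3 : (F ∣[k] ModularGroup.T) τ = F (ModularGroup.T • τ) *
      denom ModularGroup.T τ ^ (-k) := ModularForm.SL_slash_apply _ _ _
    have h4 : denom ModularGroup.T (τ : ℂ) = 1 := by
      rw [ModularGroup.denom_apply]
      simp [ModularGroup.coe_T]
    rw [h1, h4, one_zpow, mul_one] at h3
    exact h3.symm
  exact HasQ.of_periodic one_pos (periodic_of_T h2) hF.1 (by simpa using hF.2.2 1)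

theorem exists_conj {m : ℕ} (hm : 0 < m) (hG : ConjStable G) (hT : ModularGroup.T ∈ G)
    {χ : G →* ℂˣ} (hχ : χ ∈ XGen G m) (σ : ℂ ≃+* ℂ) {F : ℍ → ℂ} {n : ℕ}
    (hF : F ∈ mform χ (12 * n)) :
    ∃ χ' ∈ XGen G m, ∃ F' ∈ mform χ' (12 * n),
      qExpansion 1 F' = (qExpansion 1 F).map (σ : ℂ →+* ℂ) := by
  by_cases hF0 : F = 0
  · refine ⟨1, one_mem _, 0, zero_mem _, ?_⟩
    subst hF0
    rw [(HasQ.zero 1).qExpansion_eq one_pos, map_zero]
  set P := qExpansion 1 F with hP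
  have hFQ : HasQ 1 F P := hasQ_mform_G hT hχ.2 hF
  -- the form without character
  have hf : F ^ m ∈ mform (1 : G →* ℂˣ) (12 * (n * m : ℕ)) :=
    mform_congr (mform_pow hF m) hχ.1 (by push_cast; ring)
  obtain ⟨f', hf', hf'q⟩ := hG σ (n * m) _ hf
  have hfQ : HasQ 1 (F ^ m) (P ^ m) := hFQ.pow m
  have hf'Q : HasQ 1 f' ((P ^ m).map (σ : ℂ →+* ℂ)) := by
    have h1 := hasQ_mform_G hT (χ := (1 : G →* ℂˣ)) (fun _ _ => rfl) hf'
    rwa [hf'q, hfQ.qExpansion_eq one_pos] at h1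
  -- `P ≠ 0`
  have hP0 : P ≠ 0 := by
    intro h
    rw [h] at hFQ
    exact hF0 (hFQ.ext (HasQ.zero 1))
  have hP'0 : P.map (σ : ℂ →+* ℂ) ≠ 0 := by
    intro h
    rw [← map_zero (PowerSeries.map (σ : ℂ →+* ℂ))] at h
    exact hP0 (PowerSeries.map_injective _ (σ : ℂ →+* ℂ).injective h)
  have hf'0 : f' ≠ 0 := by
    intro h
    rw [h] at hf'Q
    have h1 := hf'Q.unique one_pos (HasQ.zero 1)
    rw [map_pow] at h1
    exact hP'0 (eq_zero_of_pow_eq_zero h1)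
  -- orders
  obtain ⟨E, hE⟩ := exists_hasExp_divD hT hf
  have hE' := hasExp_conj_divD hT (σ : ℂ →+* ℂ) hf hf' hfQ hf'Q hE
  have hord := fun τ₀ => order_dvd (G := G) σ (m := m) (f := divD hf.1 (n * m))
    (f' := divD hf'.1 (n * m)) (divD_mem_MB hf) (divD_inv hf)
    (fun x => exists_root_cosH hF hf rfl x) hE hE' τ₀
  have hh0 : (divD hf'.1 (n * m) : ℍ → ℂ) ≠ 0 := by
    intro h
    apply hf'0
    ext τ
    have h1 := congrFun h τ
    rw [divD_apply, Pi.zero_apply, div_eq_zero_iff,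
      or_iff_left (pow_ne_zero _ (discriminant_ne_zero τ))] at h1
    exact h1
  obtain ⟨g, hg, hgm⟩ := exists_pow_eq hm (divD hf'.1 (n * m)).2 hh0 (fun τ => by
    obtain ⟨j, hj⟩ := hord τ
    have h1 : ordH τ (divD hf'.1 (n * m) : ℍ → ℂ) ≠ ⊤ := by
      intro h2
      exact hh0 (congrArg Subtype.val (eq_zero_of_order_eq_top τ (divD hf'.1 (n * m)) h2))
    have h3 : j ≠ ⊤ := by
      rintro rfl
      apply h1
      rw [hj, nsmul_eq_mul, ENat.mul_top (by exact_mod_cast hm.ne')]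
    obtain ⟨j', rfl⟩ := ENat.ne_top_iff_exists.mp h3
    exact ⟨j', by
      change ordH τ (divD hf'.1 (n * m) : ℍ → ℂ) = _
      rw [hj, nsmul_eq_mul]
      push_cast
      rfl⟩)
  -- the root
  set G₀ : ℍ → ℂ := g * Δ ^ n with hG₀
  have hG₀d : MDiff G₀ := hg.mul (mdiff_discriminant.pow n)
  have hG₀m : G₀ ^ m = f' := by
    ext τ
    rw [hG₀, Pi.pow_apply, Pi.mul_apply, Pi.pow_apply, mul_pow, hgm, divD_apply, ← pow_mul,
      div_mul_cancel₀ _ (pow_ne_zero _ (discriminant_ne_zero τ))]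
  have hG₀0 : G₀ ≠ 0 := by
    rintro h
    rw [h, zero_pow hm.ne'] at hG₀m
    exact hf'0 hG₀m.symm
  have hslash : ∀ γ : SL(2, ℤ), (G₀ ∣[(12 * n : ℤ)] γ) ^ m =
      f' ∣[(12 * (n * m : ℕ) : ℤ)] γ := by
    intro γ
    rw [← hG₀m, ← slash_pow_SL2]
    congr 1
    push_cast
    ring
  have hmult : ∀ γ : G, ∃ ζ : ℂ, ζ ^ m = 1 ∧ G₀ ∣[(12 * n : ℤ)] (γ : SL(2, ℤ)) = ζ • G₀ := by
    intro γ
    have h1 : (⟨_, hG₀d.slash (12 * n) (Matrix.SpecialLinearGroup.mapGL ℝ (γ : SL(2, ℤ)))⟩ :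
        HolRing) ^ m = (⟨G₀, hG₀d⟩ : HolRing) ^ m := by
      apply Subtype.ext
      change (G₀ ∣[(12 * n : ℤ)] (γ : SL(2, ℤ))) ^ m = G₀ ^ m
      rw [hslash, hG₀m, hf'.2.1 γ]
      simp
    obtain ⟨ζ, h2, h3⟩ := exists_root_mul hm h1
    exact ⟨ζ, h2, congrArg Subtype.val h3⟩
  obtain ⟨χ', hχ'⟩ := exists_char hG₀0 fun γ => ⟨_, (hmult γ).choose_spec.2⟩
  have hχ'm : χ' ^ m = 1 := by
    ext γ
    have h1 : (G₀ ∣[(12 * n : ℤ)] (γ : SL(2, ℤ))) ^ m = G₀ ^ m := by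
      rw [hslash, hG₀m, hf'.2.1 γ]
      simp
    rw [hχ', smul_pow] at h1
    obtain ⟨τ, hτ⟩ := Function.ne_iff.mp hG₀0
    have h2 := congrFun h1 τ
    rw [Pi.smul_apply, smul_eq_mul, Pi.pow_apply] at h2
    have h3 := mul_right_cancel₀ (b := G₀ τ ^ m) (pow_ne_zero m hτ) (h2.trans (one_mul _).symm)
    rw [MonoidHom.pow_apply, MonoidHom.one_apply, Units.val_pow_eq_pow_val, Units.val_one]
    exact h3
  -- periodicity and expansion
  have hbdd : ∀ A : SL(2, ℤ), IsBoundedAtImInfty (G₀ ∣[(12 * n : ℤ)] A) := fun A =>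
    bounded_of_pow hm (by rw [hslash]; exact hf'.2.2 A)
  obtain ⟨ζ, hζm, hζ⟩ := hmult ⟨_, hT⟩
  have hT1 : ∀ τ : ℍ, G₀ ((1 : ℝ) +ᵥ τ) = ζ * G₀ τ := by
    intro τ
    rw [← modular_T_smul]
    have h3 : (G₀ ∣[(12 * n : ℤ)] ModularGroup.T) τ = G₀ (ModularGroup.T • τ) *
      denom ModularGroup.T τ ^ (-(12 * n : ℤ)) := ModularForm.SL_slash_apply _ _ _
    have h4 : denom ModularGroup.T (τ : ℂ) = 1 := by
      rw [ModularGroup.denom_apply]
      simp [ModularGroup.coe_T]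
    rw [h4, one_zpow, mul_one] at h3
    rw [← h3]
    exact congrFun hζ τ
  have hper : Function.Periodic (G₀ ∘ ofComplex) ((m : ℝ) : ℂ) := by
    intro z
    by_cases! hz : 0 < z.im
    · have hz' : 0 < (z + ((m : ℝ) : ℂ)).im := by simpa using hz
      have key : ∀ j : ℕ, G₀ (((j : ℕ) : ℝ) +ᵥ (⟨z, hz⟩ : ℍ)) = ζ ^ j * G₀ ⟨z, hz⟩ := by
        intro j
        induction j with
        | zero => simp
        | succ j ih =>
          have h5 : (((j + 1 : ℕ) : ℝ) +ᵥ (⟨z, hz⟩ : ℍ)) =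
              (1 : ℝ) +ᵥ (((j : ℕ) : ℝ) +ᵥ (⟨z, hz⟩ : ℍ)) := by
            rw [vadd_vadd]
            congr 1
            push_cast
            ring
          rw [h5, hT1, ih, pow_succ']
          ring
      rw [Function.comp_apply, Function.comp_apply, ofComplex_apply_of_im_pos hz,
        ofComplex_apply_of_im_pos hz']
      have h6 := key m
      rw [hζm, one_mul] at h6
      rw [← h6]
      congr 1
      apply UpperHalfPlane.ext
      simp [add_comm]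
    · have hz' : (z + ((m : ℝ) : ℂ)).im ≤ 0 := by simpa using hz
      rw [Function.comp_apply, Function.comp_apply, ofComplex_apply_of_im_nonpos hz,
        ofComplex_apply_of_im_nonpos hz']
  have hm' : (0 : ℝ) < m := by exact_mod_cast hm
  have hG₀Q : HasQ m G₀ (qExpansion m G₀) :=
    HasQ.of_periodic hm' hper hG₀d (by simpa using hbdd 1)
  have hf'Qm : HasQ m f' ((((P ^ m).map (σ : ℂ →+* ℂ))).expand m hm.ne') := by
    have := hf'Q.change_width m hm.ne'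
    rwa [mul_one] at this
  have hpow : (qExpansion m G₀) ^ m = ((P.map (σ : ℂ →+* ℂ)).expand m hm.ne') ^ m := by
    have h1 := hG₀Q.pow m
    rw [hG₀m] at h1
    rw [h1.unique hm' hf'Qm, map_pow, map_pow]
  obtain ⟨ξ, hξm, hξ⟩ := exists_root_mul hm hpow
  have hξ0 : ξ ≠ 0 := by
    rintro rfl
    rw [zero_pow hm.ne'] at hξm
    exact zero_ne_one hξm
  have hF'Q : HasQ 1 (ξ⁻¹ • G₀) (P.map (σ : ℂ →+* ℂ)) := by
    refine HasQ_of_expand hm.ne' ?_
    have h1 := hG₀Q.smul ξ⁻¹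
    rw [hξ, smul_smul, inv_mul_cancel₀ hξ0, one_smul] at h1
    exact h1
  have hF'0 : ξ⁻¹ • G₀ ≠ 0 := smul_ne_zero (inv_ne_zero hξ0) hG₀0
  have hF'mem : ξ⁻¹ • G₀ ∈ mform χ' (12 * n) :=
    Submodule.smul_mem _ _ ⟨hG₀d, hχ', hbdd⟩
  refine ⟨χ', ⟨hχ'm, fun γ hγ => ?_⟩, ξ⁻¹ • G₀, hF'mem, hF'Q.qExpansion_eq one_pos⟩
  have h1 := hF'mem.2.1 γ
  rw [slash_of_c_zero (even_weight n) (hF'Q.periodic one_pos) _ hγ] at h1
  obtain ⟨τ, hτ⟩ := Function.ne_iff.mp hF'0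
  have h2 := congrFun h1 τ
  rw [Pi.smul_apply (χ' γ : ℂ), smul_eq_mul] at h2
  have h3 := mul_right_cancel₀ hτ ((one_mul _).trans h2)
  exact Units.ext h3.symm

end Fermat.Agent.ESCore.Gal
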