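import Fermat.Agent.ESCore.GalAut

set_option autoImplicit false

/-!
# The Galois action on the characters (D2, D3)
-/

open UpperHalfPlane hiding I J
open Complex Function Filter Topology ModularForm Matrix.SpecialLinearGroup Cardinal
open scoped Manifold MatrixGroups ModularForm
open Fermat.Agent.ModFun Fermat.Agent.Eis16 Fermat.Agent.ES

noncomputable section

namespace Fermat.Agent.ESCore.Gal

/-! ### Descent to `Qb` -/

theorem exists_shift {x : ℂ} (hcon : ∀ y : Qb, ιC y ≠ x) (k : ℕ) :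
    ∃ σ : ℂ ≃+* ℂ, (∀ c : Qb, σ (ιC c) = ιC c) ∧ σ x = x + k := by
  have htr : ∀ z : ℂ, (∀ f : Polynomial Qb, f.eval₂ ιC z = 0 → f = 0) →
      Function.Injective (Polynomial.eval₂RingHom ιC z) := by
    intro z hz
    rw [injective_iff_map_eq_zero]
    intro f hf
    exact hz f hf
  have hx0 : ∀ f : Polynomial Qb, f.eval₂ ιC x = 0 → f = 0 := by
    intro f hf
    by_contra hf0
    obtain ⟨y, hy⟩ := exists_ιC_of_root hf0 hf
    exact hcon y hy
  have hxk : ∀ f : Polynomial Qb, f.eval₂ ιC (x + k) = 0 → f = 0 := by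
    intro f hf
    by_contra hf0
    obtain ⟨y, hy⟩ := exists_ιC_of_root hf0 hf
    exact hcon (y - k) (by rw [map_sub, hy, map_natCast]; ring)
  have hR : #(Polynomial Qb) ≤ ℵ₀ := by
    refine (Polynomial.cardinalMk_le_max).trans ?_
    exact max_le cardinal_Qb le_rfl
  have hC : ℵ₀ < #ℂ := by
    rw [Cardinal.mk_complex]
    exact Cardinal.aleph0_lt_continuum
  let i := Polynomial.eval₂RingHom ιC x
  let j := Polynomial.eval₂RingHom ιC (x + k)
  let A1 : Algebra (Polynomial Qb) ℂ := i.toAlgebra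
  let A2 : Algebra (Polynomial Qb) ℂ := j.toAlgebra
  have f1 : @FaithfulSMul (Polynomial Qb) ℂ A1.toSMul :=
    (@faithfulSMul_iff_algebraMap_injective (Polynomial Qb) ℂ _ _ A1).mpr (htr x hx0)
  have f2 : @FaithfulSMul (Polynomial Qb) ℂ A2.toSMul :=
    (@faithfulSMul_iff_algebraMap_injective (Polynomial Qb) ℂ _ _ A2).mpr (htr _ hxk)
  obtain ⟨σ, hσ⟩ := @ES.exists_ringEquiv_extend (Polynomial Qb) ℂ ℂ _ _ _ _ A1 A2 _ _ f1 f2
    hR hC rfl
  have hσ' : ∀ f : Polynomial Qb, σ (f.eval₂ ιC x) = f.eval₂ ιC (x + k) := hσ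
  refine ⟨σ, fun c => ?_, ?_⟩
  · have := hσ' (Polynomial.C c)
    simpa using this
  · have := hσ' Polynomial.X
    simpa using this

/-- a complex number fixed by a subgroup of finite index of `Aut(ℂ)` is algebraic -/
theorem exists_ιC_of_fixed {x : ℂ} (H : Subgroup (ℂ ≃+* ℂ)) [H.FiniteIndex]
    (h : ∀ σ ∈ H, σ x = x) : ∃ y : Qb, ιC y = x := by
  by_contra hcon
  push Not at hcon
  choose σ _ hσ using exists_shift hcon
  obtain ⟨i, j, hij, h1⟩ := Finite.exists_ne_map_eq_of_infinite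
    (fun k : ℕ => (σ k : (ℂ ≃+* ℂ) ⧸ H))
  have h2 : (σ i)⁻¹ * σ j ∈ H := QuotientGroup.eq.mp h1
  have h3 := h _ h2
  have h4 : σ j x = σ i x := by
    have h5 := congrArg (σ i) h3
    have h6 : σ i (((σ i)⁻¹ * σ j) x) = (σ i * ((σ i)⁻¹ * σ j)) x := rfl
    rw [h6, mul_inv_cancel_left] at h5
    exact h5
  rw [hσ, hσ] at h4
  have h5 : (j : ℂ) = i := add_left_cancel h4
  exact hij (by exact_mod_cast h5.symm)

/-- Galois descent for finite dimensional spaces of sequences. -/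
theorem span_algebraic_eq_top {W : Type*} [AddCommGroup W] [Module ℂ W]
    (c : W →ₗ[ℂ] (ℕ → ℂ)) (S₀ : Finset ℕ) (hinj : ∀ f : W, (∀ n ∈ S₀, c f n = 0) → f = 0)
    (H : Subgroup (ℂ ≃+* ℂ)) [H.FiniteIndex]
    (hσ : ∀ σ ∈ H, ∀ (f : W), ∃ g : W, ∀ n, c g n = σ (c f n)) :
    Submodule.span ℂ {f : W | ∀ n, ∃ y : Qb, c f n = ιC y} = ⊤ := by
  classical
  -- minimal separating set
  obtain ⟨S, hS, hmin⟩ : ∃ S : Finset ℕ, (∀ f : W, (∀ n ∈ S, c f n = 0) → f = 0) ∧
      ∀ T : Finset ℕ, T.card < S.card → ¬ (∀ f : W, (∀ n ∈ T, c f n = 0) → f = 0) := by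
    have hex : ∃ m : ℕ, ∃ S : Finset ℕ, S.card = m ∧ ∀ f : W, (∀ n ∈ S, c f n = 0) → f = 0 :=
      ⟨_, S₀, rfl, hinj⟩
    obtain ⟨S, hSc, hS⟩ := Nat.find_spec hex
    refine ⟨S, hS, fun T hT hT' => ?_⟩
    exact Nat.find_min hex (hSc ▸ hT) ⟨T, rfl, hT'⟩
  have key : ∀ s ∈ S, ∃ v : W, c v s = 1 ∧ ∀ n ∈ S, n ≠ s → c v n = 0 := by
    intro s hs
    have h1 := hmin (S.erase s) (Finset.card_erase_lt_of_mem hs)
    push Not at h1
    obtain ⟨f, hf, hf0⟩ := h1
    have hfs : c f s ≠ 0 := by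
      intro h0
      apply hf0
      refine hS f fun n hn => ?_
      by_cases hns : n = s
      · rw [hns, h0]
      · exact hf n (Finset.mem_erase.mpr ⟨hns, hn⟩)
    refine ⟨(c f s)⁻¹ • f, ?_, fun n hn hns => ?_⟩
    · simp [hfs]
    · simp [hf n (Finset.mem_erase.mpr ⟨hns, hn⟩)]
  choose! v hv1 hv0 using key
  have hrat : ∀ s ∈ S, v s ∈ {f : W | ∀ n, ∃ y : Qb, c f n = ιC y} := by
    intro s hs n
    obtain ⟨y, hy⟩ := exists_ιC_of_fixed (x := c (v s) n) H (by
      intro σ hσH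
      obtain ⟨g, hg⟩ := hσ σ hσH (v s)
      have : g - v s = 0 := by
        refine hS _ fun m hm => ?_
        by_cases hms : m = s
        · subst hms
          simp [hg, hv1 m hs]
        · simp [hg, hv0 s hs m hm hms]
      rw [← hg n, sub_eq_zero.mp this])
    exact ⟨y, hy.symm⟩
  rw [eq_top_iff]
  intro f _
  have hf : f = ∑ s ∈ S, c f s • v s := by
    rw [← sub_eq_zero]
    refine hS _ fun m hm => ?_
    rw [map_sub, map_sum, Pi.sub_apply, Finset.sum_apply, Finset.sum_eq_single m]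
    · simp [hv1 m hm]
    · intro b hb hbm
      simp [hv0 b hb m hm hbm.symm]
    · intro h; exact absurd hm h
  rw [hf]
  exact Submodule.sum_mem _ fun s hs => Submodule.smul_mem _ _ (Submodule.subset_span (hrat s hs))

/-! ### Extension of automorphisms -/

theorem exists_extend (σ : GQ) : ∃ τ : ℂ ≃+* ℂ, ∀ x : Qb, τ (ιC x) = ιC (σ x) := by
  have hC : ℵ₀ < #ℂ := by
    rw [Cardinal.mk_complex]
    exact Cardinal.aleph0_lt_continuum
  let A1 : Algebra Qb ℂ := ιC.toAlgebra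
  let A2 : Algebra Qb ℂ := (ιC.comp (σ.toRingEquiv.toRingHom : Qb →+* Qb)).toAlgebra
  have f1 : @FaithfulSMul Qb ℂ A1.toSMul :=
    (@faithfulSMul_iff_algebraMap_injective Qb ℂ _ _ A1).mpr ιC_injective
  have f2 : @FaithfulSMul Qb ℂ A2.toSMul :=
    (@faithfulSMul_iff_algebraMap_injective Qb ℂ _ _ A2).mpr
      (ιC_injective.comp σ.toRingEquiv.injective)
  obtain ⟨τ, hτ⟩ := @ES.exists_ringEquiv_extend Qb ℂ ℂ _ _ _ _ A1 A2 _ _ f1 f2 cardinal_Qb hC rfl
  exact ⟨τ, hτ⟩

/-- an extension of a Galois automorphism to `ℂ` -/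
def ext (σ : GQ) : ℂ ≃+* ℂ := (exists_extend σ).choose

theorem ext_ιC (σ : GQ) (x : Qb) : ext σ (ιC x) = ιC (σ x) := (exists_extend σ).choose_spec x

/-! ### Forms with algebraic coefficients -/

variable {G : Subgroup SL(2, ℤ)} [G.FiniteIndex] {m : ℕ}

/-- the coefficients of forms -/
def coeffLin (hT : ModularGroup.T ∈ G) (χ : XGen G m) (k : ℤ) :
    mform χ.1 k →ₗ[ℂ] (ℕ → ℂ) where
  toFun F n := (qExpansion 1 F.1).coeff n
  map_add' F H := by
    funext n
    have h := (hasQ_mform_G hT χ.2.2 F.2).add (hasQ_mform_G hT χ.2.2 H.2)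
    change (qExpansion 1 (F.1 + H.1)).coeff n = _
    rw [h.qExpansion_eq one_pos, map_add]
    rfl
  map_smul' a F := by
    funext n
    have h := (hasQ_mform_G hT χ.2.2 F.2).smul a
    change (qExpansion 1 (a • F.1)).coeff n = _
    rw [h.qExpansion_eq one_pos, map_smul]
    rfl

variable (hm : 0 < m) (hG : ConjStable G) (hT : ModularGroup.T ∈ G)

/-- the stabilizer of a character in `Aut(ℂ)` -/
def stab (χ : XGen G m) : Subgroup (ℂ ≃+* ℂ) where
  carrier := {σ | autX hm hG hT σ χ = χ}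
  mul_mem' := by
    intro σ τ hσ hτ
    change autX hm hG hT (σ * τ) χ = χ
    rw [map_mul, MulAut.mul_apply, hτ, hσ]
  one_mem' := by
    change autX hm hG hT 1 χ = χ
    rw [map_one]
    rfl
  inv_mem' := by
    intro σ hσ
    change autX hm hG hT σ⁻¹ χ = χ
    rw [map_inv]
    exact (MulEquiv.symm_apply_eq _).mpr (Eq.symm hσ)

theorem finiteIndex_stab (χ : XGen G m) : (stab hm hG hT χ).FiniteIndex := by
  haveI := finite_XGen (G := G) hm
  haveI : Finite (MulAut (XGen G m)) :=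
    Finite.of_injective (fun e : MulAut (XGen G m) => (e : XGen G m → XGen G m))
      DFunLike.coe_injective
  haveI : (autX hm hG hT).ker.FiniteIndex := inferInstance
  refine Subgroup.finiteIndex_of_le (H := (autX hm hG hT).ker) fun σ hσ => ?_
  change autX hm hG hT σ χ = χ
  rw [MonoidHom.mem_ker.mp hσ]
  rfl

include hm hG hT in
/-- **(D2)** the forms with character are spanned by those with algebraic coefficients -/
theorem span_algebraic (χ : XGen G m) (n : ℕ) :
    Submodule.span ℂ {F : mform χ.1 (12 * n) | ∀ j, ∃ y : Qb,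
      (qExpansion 1 F.1).coeff j = ιC y} = ⊤ := by
  haveI := finiteIndex_stab hm hG hT χ
  refine span_algebraic_eq_top (coeffLin hT χ (12 * n)) (Finset.range (n * G.index + 1))
    (fun F hF => ?_) (stab hm hG hT χ) fun σ hσ F => ?_
  · exact Subtype.ext (sturm_char hm hT χ.2 F.2 fun j hj => hF j (Finset.mem_range.mpr (by omega)))
  · obtain ⟨F', h1, h2⟩ := autXf_spec hm hG hT σ χ F.2
    have h3 : autXf hm hG hT σ χ = χ := hσ
    rw [h3] at h1
    refine ⟨⟨F', h1⟩, fun j => ?_⟩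
    change (qExpansion 1 F').coeff j = σ ((qExpansion 1 F.1).coeff j)
    rw [h2, PowerSeries.coeff_map]
    rfl

include hm hG hT in
/-- **Existence of forms with algebraic coefficients.** -/
theorem exists_alg_form (χ : XGen G m) :
    ∃ F ∈ mform χ.1 12, F ≠ 0 ∧ ∃ P : PowerSeries Qb, qExpansion 1 F = P.map ιC := by
  obtain ⟨F₀, hF₀, hF₀0⟩ := exists_form_G hm χ.2
  have hF₀' : F₀ ∈ mform χ.1 (12 * (1 : ℕ)) := mform_congr hF₀ rfl (by norm_num)
  obtain ⟨F, hF, hF0⟩ : ∃ F ∈ {F : mform χ.1 (12 * (1 : ℕ)) | ∀ j, ∃ y : Qb,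
      (qExpansion 1 F.1).coeff j = ιC y}, F ≠ 0 := by
    by_contra hcon
    push Not at hcon
    have h1 := span_algebraic hm hG hT χ 1
    have h2 : (⟨F₀, hF₀'⟩ : mform χ.1 (12 * (1 : ℕ))) ∈ Submodule.span ℂ
        {F : mform χ.1 (12 * (1 : ℕ)) | ∀ j, ∃ y : Qb, (qExpansion 1 F.1).coeff j = ιC y} := by
      rw [h1]
      trivial
    have h3 : Submodule.span ℂ {F : mform χ.1 (12 * (1 : ℕ)) | ∀ j, ∃ y : Qb,
        (qExpansion 1 F.1).coeff j = ιC y} = ⊥ := by
      rw [Submodule.span_eq_bot]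
      exact hcon
    rw [h3, Submodule.mem_bot] at h2
    exact hF₀0 (congrArg Subtype.val h2)
  choose y hy using hF
  refine ⟨F.1, mform_congr F.2 rfl (by norm_num), fun h => hF0 (Subtype.ext h),
    PowerSeries.mk y, ?_⟩
  ext j
  rw [PowerSeries.coeff_map, PowerSeries.coeff_mk]
  exact hy j

/-- the action depends only on the restriction to `Qb` -/
theorem autX_congr {σ τ : ℂ ≃+* ℂ} (h : ∀ x : Qb, σ (ιC x) = τ (ιC x)) :
    autX hm hG hT σ = autX (m := m) hm hG hT τ := by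
  refine MulEquiv.ext fun χ => ?_
  obtain ⟨F, hF, hF0, P, hP⟩ := exists_alg_form hm hG hT χ
  have hF' : F ∈ mform χ.1 (12 * (1 : ℕ)) := mform_congr hF rfl (by norm_num)
  obtain ⟨F₁, h1, h2⟩ := autXf_spec hm hG hT τ χ hF'
  refine autXf_eq hm hG hT σ hF' hF0 h1 ?_
  rw [h2, hP]
  ext n
  rw [PowerSeries.coeff_map, PowerSeries.coeff_map, PowerSeries.coeff_map, PowerSeries.coeff_map]
  exact (h _).symm

/-- **(D3) The Galois action on the characters.** -/
def galXG : GQ →* MulAut (XGen G m) where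
  toFun σ := autX hm hG hT (ext σ)
  map_one' := by
    rw [← map_one (autX (m := m) hm hG hT)]
    exact autX_congr hm hG hT fun x => ext_ιC 1 x
  map_mul' σ τ := by
    rw [← map_mul]
    refine autX_congr hm hG hT fun x => ?_
    rw [ext_ιC]
    change ιC (σ (τ x)) = ext σ (ext τ (ιC x))
    rw [ext_ιC, ext_ιC]

theorem galXG_spec (σ : GQ) (χ : XGen G m) {n : ℕ} {F : ℍ → ℂ} (hF : F ∈ mform χ.1 (12 * n))
    (hF0 : F ≠ 0) {P : PowerSeries Qb} (hP : qExpansion 1 F = P.map ιC) :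
    ∃ F' ∈ mform (galXG hm hG hT σ χ).1 (12 * n), F' ≠ 0 ∧
      qExpansion 1 F' = (gmap σ P).map ιC := by
  obtain ⟨F', h1, h2⟩ := autXf_spec hm hG hT (ext σ) χ hF
  refine ⟨F', h1, conj_ne_zero hT (ext σ) hF hF0 h2, ?_⟩
  rw [h2, hP]
  ext n
  rw [PowerSeries.coeff_map, PowerSeries.coeff_map, PowerSeries.coeff_map, gmap,
    PowerSeries.coeff_map]
  exact ext_ιC σ _

/-- **continuity of the Galois action** -/
theorem galXG_continuous : ∃ L : IntermediateField ℚ Qb, FiniteDimensional ℚ L ∧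
    ∀ σ : GQ, (∀ x ∈ L, σ x = x) → galXG (m := m) hm hG hT σ = 1 := by
  classical
  haveI := finite_XGen (G := G) hm
  haveI := Fintype.ofFinite (XGen G m)
  choose F hF hF0 P hP using fun χ : XGen G m => exists_alg_form hm hG hT χ
  set B := m * G.index with hB
  let S : Finset Qb := Finset.univ.biUnion fun χ : XGen G m =>
    (Finset.range (B + 1)).image fun j => (P χ).coeff j
  haveI := isAlgebraic_Qb
  refine ⟨IntermediateField.adjoin ℚ (S : Set Qb), ?_, fun σ hσ => ?_⟩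
  · haveI : Finite (S : Set Qb) := Set.Finite.to_subtype (Finset.finite_toSet S)
    exact IntermediateField.finiteDimensional_adjoin fun x _ => Algebra.IsIntegral.isIntegral x
  · refine MulEquiv.ext fun χ => ?_
    have hfix : ∀ j ≤ B, σ ((P χ).coeff j) = (P χ).coeff j := by
      intro j hj
      refine hσ _ (IntermediateField.subset_adjoin ℚ _ (Finset.mem_coe.mpr ?_))
      exact Finset.mem_biUnion.mpr ⟨χ, Finset.mem_univ _, Finset.mem_image.mpr
        ⟨j, Finset.mem_range.mpr (by omega), rfl⟩⟩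
    have hF1 : F χ ∈ mform χ.1 (12 * (1 : ℕ)) := mform_congr (hF χ) rfl (by norm_num)
    obtain ⟨F', h1, h2, h3⟩ := galXG_spec hm hG hT σ χ hF1 (hF0 χ) (hP χ)
    set χ' := galXG hm hG hT σ χ with hχ'
    have Q1 := hasQ_mform_G hT χ.2.2 hF1
    have Q2 := hasQ_mform_G hT χ'.2.2 h1
    have e1 : F χ ^ m ∈ mform (1 : G →* ℂˣ) (12 * m) :=
      mform_congr (mform_pow hF1 m) χ.2.1 (by push_cast; ring)
    have e2 : F' ^ m ∈ mform (1 : G →* ℂˣ) (12 * m) :=
      mform_congr (mform_pow h1 m) χ'.2.1 (by push_cast; ring)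
    have hdvd : (PowerSeries.X : PowerSeries ℂ) ^ (B + 1) ∣
        qExpansion 1 (F') ^ m - qExpansion 1 (F χ) ^ m := by
      refine dvd_trans ?_ (sub_dvd_pow_sub_pow _ _ m)
      rw [PowerSeries.X_pow_dvd_iff]
      intro j hj
      rw [map_sub, h3, hP, PowerSeries.coeff_map, PowerSeries.coeff_map, gmap,
        PowerSeries.coeff_map, sub_eq_zero]
      exact congrArg ιC (hfix j (by omega))
    have e3 : F' ^ m - F χ ^ m = 0 := by
      refine sturm_one hT (Submodule.sub_mem _ e2 e1) fun j hj => ?_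
      rw [((Q2.pow m).sub (Q1.pow m)).qExpansion_eq one_pos]
      refine PowerSeries.X_pow_dvd_iff.mp hdvd j ?_
      have h4 : ((12 * (m : ℤ)) * G.index).toNat / 12 = m * G.index := by
        have : ((12 * (m : ℤ)) * G.index) = ((12 * (m * G.index) : ℕ) : ℤ) := by
          push_cast
          ring
        rw [this, Int.toNat_natCast, Nat.mul_div_cancel_left _ (by norm_num)]
      rw [h4] at hj
      omega
    have e4 : (⟨F', h1.1⟩ : HolRing) ^ m = (⟨F χ, hF1.1⟩ : HolRing) ^ m :=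
      Subtype.ext (sub_eq_zero.mp e3)
    obtain ⟨ζ, hζ, h5⟩ := exists_root_mul hm e4
    have h6 : F' = ζ • F χ := congrArg Subtype.val h5
    have h7 : F' ∈ mform χ.1 (12 * (1 : ℕ)) := by
      rw [h6]
      exact Submodule.smul_mem _ _ hF1
    exact Subtype.ext (char_unique h1 h7 h2)

end Fermat.Agent.ESCore.Gal
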