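import Fermat.Agent.ESCore.Defs
import Fermat.Agent.ES.AutC
import Fermat.Prelude.Def_ModularCurve_LaurentCoeff

/-!
# Laurent series over `ℂ` algebraic over Laurent series with algebraic coefficients
-/

set_option autoImplicit false

open ModularCurve Cardinal

noncomputable section

namespace Fermat.Agent.ESCore

lemma cardinal_Qb : #Qb ≤ ℵ₀ := by
  have := isAlgebraic_Qb
  have := Algebra.IsAlgebraic.cardinalMk_le_max ℚ Qb
  simpa using this

lemma ιC_injective : Function.Injective ιC := RingHom.injective _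

/-- a complex number which is algebraic over `Qb` is in `Qb` -/
lemma exists_ιC_of_root {x : ℂ} {f : Polynomial Qb} (hf : f ≠ 0) (hx : f.eval₂ ιC x = 0) :
    ∃ y : Qb, ιC y = x := by
  have h1 : (f.map ιC).roots = f.roots.map ιC := by
    apply Polynomial.Splits.roots_map
    exact IsAlgClosed.splits f
  have h2 : x ∈ (f.map ιC).roots := by
    rw [Polynomial.mem_roots ((Polynomial.map_ne_zero_iff ιC_injective).mpr hf),
      Polynomial.IsRoot, Polynomial.eval_map, hx]
  rw [h1, Multiset.mem_map] at h2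
  obtain ⟨y, -, hy⟩ := h2
  exact ⟨y, hy⟩

/-- a complex number with finite orbit under `End(ℂ/Qb)` lies in `Qb` -/
lemma exists_ιC_of_finite {x : ℂ} (h : {y : ℂ | ∃ σ : ℂ →+* ℂ, (∀ c : Qb, σ (ιC c) = ιC c) ∧
    σ x = y}.Finite) : ∃ y : Qb, ιC y = x := by
  by_contra hcon
  push Not at hcon
  have htr : ∀ z : ℂ, (∀ f : Polynomial Qb, f.eval₂ ιC z = 0 → f = 0) →
      Function.Injective (Polynomial.eval₂RingHom ιC z) := by
    intro z hz
    rw [injective_iff_map_eq_zero]
    intro f hf
    exact hz f hf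
  have hx0 : ∀ f : Polynomial Qb, f.eval₂ ιC x = 0 → f = 0 := by
    intro f hf
    by_contra hf0
    obtain ⟨y, hy⟩ := exists_ιC_of_root hf0 hf
    exact hcon y hy
  have hxk : ∀ k : ℕ, ∀ f : Polynomial Qb, f.eval₂ ιC (x + k) = 0 → f = 0 := by
    intro k f hf
    by_contra hf0
    obtain ⟨y, hy⟩ := exists_ιC_of_root hf0 hf
    exact hcon (y - k) (by rw [map_sub, hy, map_natCast]; ring)
  have hR : #(Polynomial Qb) ≤ ℵ₀ := by
    refine (Polynomial.cardinalMk_le_max).trans ?_
    exact max_le cardinal_Qb le_rfl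
  have hk : ∀ k : ℕ, ∃ σ : ℂ →+* ℂ, (∀ c : Qb, σ (ιC c) = ιC c) ∧ σ x = x + k := by
    intro k
    obtain ⟨σ, hσ⟩ := ES.exists_ringHom_of_injective hR (Polynomial.eval₂RingHom ιC x)
      (Polynomial.eval₂RingHom ιC (x + k)) (htr x hx0) (htr _ (hxk k))
    refine ⟨σ, fun c => ?_, ?_⟩
    · have := hσ (Polynomial.C c)
      simpa using this
    · have := hσ Polynomial.X
      simpa using this
  apply Set.infinite_of_injective_forall_mem (f := fun k : ℕ => x + (k : ℂ)) _ _ h
  · intro a b hab
    have : (a : ℂ) = b := add_left_cancel hab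
    exact_mod_cast this
  · intro k
    exact hk k

/-- **algebraic Laurent series** -/
theorem exists_coeffMap_of_root {x : LaurentSeries ℂ} {f : Polynomial (LaurentSeries Qb)}
    (hf : f ≠ 0) (hx : f.eval₂ (coeffMap ιC) x = 0) :
    ∃ y : LaurentSeries Qb, coeffMap ιC y = x := by
  classical
  have hinj : Function.Injective (coeffMap ιC) := RingHom.injective _
  have hfin : {z : LaurentSeries ℂ | f.eval₂ (coeffMap ιC) z = 0}.Finite := by
    have h0 : (f.map (coeffMap ιC)) ≠ 0 := (Polynomial.map_ne_zero_iff hinj).mpr hf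
    refine ((f.map (coeffMap ιC)).roots.toFinset.finite_toSet).subset ?_
    intro z hz
    rw [Finset.mem_coe, Multiset.mem_toFinset, Polynomial.mem_roots h0, Polynomial.IsRoot,
      Polynomial.eval_map]
    exact hz
  have hroot : ∀ σ : ℂ →+* ℂ, (∀ c : Qb, σ (ιC c) = ιC c) →
      f.eval₂ (coeffMap ιC) (coeffMap σ x) = 0 := by
    intro σ hσ
    have h1 : (coeffMap σ).comp (coeffMap ιC) = coeffMap ιC := by
      ext y : 1
      rw [RingHom.comp_apply, coeffMap_coeffMap]
      apply coeffMap_congr
      ext c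
      exact hσ c
    have h2 := congrArg (coeffMap σ) hx
    rw [Polynomial.hom_eval₂, h1, map_zero] at h2
    exact h2
  have hc : ∀ n : ℤ, ∃ y : Qb, ιC y = x.coeff n := by
    intro n
    apply exists_ιC_of_finite
    refine (hfin.image (fun z => z.coeff n)).subset ?_
    rintro y ⟨σ, hσ, rfl⟩
    exact ⟨coeffMap σ x, hroot σ hσ, coeffMap_coeff σ x n⟩
  choose y hy using hc
  refine ⟨⟨y, ?_⟩, ?_⟩
  · have : Function.support y = Function.support x.coeff := by
      ext n
      rw [Function.mem_support, Function.mem_support, ← hy n, Ne, Ne, map_eq_zero]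
    rw [this]
    exact x.isPWO_support
  · ext n
    exact hy n

end Fermat.Agent.ESCore
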