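import Fermat.Agent.ESCore.HeckeChar

set_option autoImplicit false

/-!
# Multiplicative Hecke operators on forms with character
-/

open UpperHalfPlane ModularForm Matrix Matrix.SpecialLinearGroup CongruenceSubgroup
open scoped MatrixGroups Manifold

noncomputable section

namespace Fermat.Agent.ESCore

/-- multiplicative operator attached to a family of matrices -/
def opMul {ι : Type*} [Fintype ι] (δ : ι → GL (Fin 2) ℝ) (F : ℍ → ℂ) : ℍ → ℂ :=
  fun τ => ∏ x, F (δ x • τ)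

theorem opMul_mul {ι : Type*} [Fintype ι] (δ : ι → GL (Fin 2) ℝ) (F G : ℍ → ℂ) :
    opMul δ (F * G) = opMul δ F * opMul δ G := by
  ext τ
  simp [opMul, Finset.prod_mul_distrib]

theorem opMul_one {ι : Type*} [Fintype ι] (δ : ι → GL (Fin 2) ℝ) :
    opMul δ (1 : ℍ → ℂ) = 1 := by
  ext τ
  simp [opMul]

theorem opMul_pow {ι : Type*} [Fintype ι] (δ : ι → GL (Fin 2) ℝ) (F : ℍ → ℂ) (n : ℕ) :
    opMul δ (F ^ n) = opMul δ F ^ n := by
  ext τ
  simp [opMul, Finset.prod_pow]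

theorem opMul_ne_zero {ι : Type*} [Fintype ι] (δ : ι → GL (Fin 2) ℝ) {F : ℍ → ℂ}
    (τ : ℍ) (h : ∀ x, F (δ x • τ) ≠ 0) : opMul δ F τ ≠ 0 :=
  Finset.prod_ne_zero_iff.mpr fun x _ => h x

/-- the constant relating composition and slash -/
def slashConst (k : ℤ) (a d : ℤ) : ℂ := (((a * d : ℤ) : ℂ) ^ (k - 1) * (d : ℂ) ^ (-k))⁻¹

theorem IsTri.det_pos {A : GL (Fin 2) ℝ} {a b d : ℤ} (h : IsTri A a b d) :
    (A.det : ℝ) = ((a * d : ℤ) : ℝ) ∧ 0 < (A.det : ℝ) := by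
  have h1 : (A.det : ℝ) = ((a * d : ℤ) : ℝ) := by
    rw [Matrix.GeneralLinearGroup.val_det_apply, Matrix.det_fin_two, h.h00, h.h01, h.h10, h.h11]
    push_cast
    ring
  refine ⟨h1, ?_⟩
  rw [h1]
  exact_mod_cast mul_pos h.ha h.hd

theorem IsTri.sigma {A : GL (Fin 2) ℝ} {a b d : ℤ} (h : IsTri A a b d) :
    UpperHalfPlane.σ A = .refl ℝ ℂ := by
  rw [UpperHalfPlane.σ, if_pos h.det_pos.2]

theorem IsTri.comp_eq {A : GL (Fin 2) ℝ} {a b d : ℤ} (h : IsTri A a b d) (k : ℤ) (F : ℍ → ℂ)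
    (τ : ℍ) : F (A • τ) = slashConst k a d * (F ∣[k] A) τ := by
  rw [ModularForm.slash_apply, h.sigma, abs_of_pos h.det_pos.2, h.det_pos.1]
  have h1 : denom A τ = (d : ℂ) := by
    simp [UpperHalfPlane.denom, h.h10, h.h11]
  rw [h1, slashConst]
  have ha : (a : ℂ) ≠ 0 := by exact_mod_cast h.ha.ne'
  have hd : (d : ℂ) ≠ 0 := by exact_mod_cast h.hd.ne'
  have h2 : (((a * d : ℤ) : ℂ) ^ (k - 1) * (d : ℂ) ^ (-k)) ≠ 0 :=
    mul_ne_zero (zpow_ne_zero _ (by push_cast; exact mul_ne_zero ha hd)) (zpow_ne_zero _ hd)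
  simp only [ContinuousAlgEquiv.refl_apply]
  push_cast at h2 ⊢
  field_simp

/-- systems adapted to multiplicative operators -/
structure IsMulSys {N : ℕ} {ι : Type*} (S : CosetSys (gam N) ι) : Prop where
  tri : ∀ x, ∃ a b d : ℤ, IsTri (S.δ x) a b d
  cusp : ∀ x (A : SL(2, ℤ)), ∃ (A' : SL(2, ℤ)) (B : GL (Fin 2) ℝ),
    S.δ x * mapGL ℝ A = mapGL ℝ A' * B ∧ (B : Matrix (Fin 2) (Fin 2) ℝ) 1 0 = 0

theorem isMulSys_heckeSys {N l : ℕ} (hl : l.Prime) (hN : ¬ l ∣ N) :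
    IsMulSys (heckeSys hl hN) where
  tri := heckeSys_isTri hl hN
  cusp := by
    intro x A
    have hl1 : ¬ l ∣ 1 := fun h => hl.one_lt.ne' (Nat.dvd_one.mp h)
    have hA : A ∈ Gamma0 1 := by rw [Gamma0_mem]; exact Subsingleton.elim _ _
    obtain ⟨y, γ', h⟩ := (heckeSys (N := 1) hl hl1).act x ⟨A, hA⟩
    obtain ⟨a, b, d, h2⟩ := hdelta_isTri hl.ne_zero y
    exact ⟨γ', hdelta l y, h, h2.h10⟩

theorem isMulSys_heckeSysU {N q : ℕ} (hq : q.Prime) (hN : q ∣ N) :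
    IsMulSys (heckeSysU hq.ne_zero hN) where
  tri := heckeSysU_isTri hq.ne_zero hN
  cusp := by
    intro x A
    have hl1 : ¬ q ∣ 1 := fun h => hq.one_lt.ne' (Nat.dvd_one.mp h)
    have hA : A ∈ Gamma0 1 := by rw [Gamma0_mem]; exact Subsingleton.elim _ _
    obtain ⟨y, γ', h⟩ := (heckeSys (N := 1) hq hl1).act (some x) ⟨A, hA⟩
    obtain ⟨a, b, d, h2⟩ := hdelta_isTri hq.ne_zero y
    exact ⟨γ', hdelta q y, h, h2.h10⟩

theorem mdiff_prod {ι : Type*} (s : Finset ι) {f : ι → ℍ → ℂ} (h : ∀ i ∈ s, MDiff (f i)) :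
    MDiff (∏ i ∈ s, f i) := by
  classical
  induction s using Finset.induction_on with
  | empty => simpa using! (mdifferentiable_const (c := (1 : ℂ)))
  | insert i t hi IH =>
    rw [Finset.prod_insert hi]
    exact (h i (Finset.mem_insert_self _ _)).mul (IH fun j hj => h j (Finset.mem_insert_of_mem hj))

theorem bounded_prod {ι : Type*} (s : Finset ι) {f : ι → ℍ → ℂ}
    (h : ∀ i ∈ s, IsBoundedAtImInfty (f i)) : IsBoundedAtImInfty (∏ i ∈ s, f i) := by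
  classical
  induction s using Finset.induction_on with
  | empty => simpa using! (Filter.const_boundedAtFilter atImInfty (1 : ℂ))
  | insert i t hi IH =>
    rw [Finset.prod_insert hi]
    exact (h i (Finset.mem_insert_self _ _)).mul (IH fun j hj => h j (Finset.mem_insert_of_mem hj))

/-- `opMul` in terms of slashes -/
theorem opMul_eq {ι : Type*} [Fintype ι] (δ : ι → GL (Fin 2) ℝ)
    (hδ : ∀ x, ∃ a b d : ℤ, IsTri (δ x) a b d) (k : ℤ) :
    ∃ c : ℂ, ∀ F : ℍ → ℂ, opMul δ F = c • ∏ x, F ∣[k] δ x := by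
  choose a b d h using hδ
  refine ⟨∏ x, slashConst k (a x) (d x), fun F => ?_⟩
  ext τ
  simp only [opMul, Pi.smul_apply, Finset.prod_apply, smul_eq_mul]
  rw [← Finset.prod_mul_distrib]
  exact Finset.prod_congr rfl fun x _ => (h x).comp_eq k F τ

theorem opMul_mem {N : ℕ} {ι : Type*} [Fintype ι] {S : CosetSys (gam N) ι} (hS : IsMulSys S)
    {χ : Gamma0 N →* ℂˣ} {k : ℤ} {F : ℍ → ℂ} (hF : F ∈ mform χ k) :
    opMul S.δ F ∈ mform (S.trans (gam_injective N) χ) (k * Fintype.card ι) := by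
  obtain ⟨h1, h2, h3⟩ := hF
  obtain ⟨c, hc⟩ := opMul_eq S.δ hS.tri k
  have hsl : ∀ A : SL(2, ℤ), (∏ x, F ∣[k] S.δ x) ∣[k * (Fintype.card ι : ℤ)] A =
      ∏ x, F ∣[k] (S.δ x * mapGL ℝ A) := by
    intro A
    have hdet : |((mapGL ℝ A : GL (Fin 2) ℝ).det : ℝˣ).val| = 1 := by simp
    rw [← Finset.card_univ]
    change (∏ x, F ∣[k] S.δ x) ∣[k * (Finset.univ.card : ℤ)] (mapGL ℝ A : GL (Fin 2) ℝ) = _
    rw [ModularForm.prod_slash, hdet, _root_.one_zpow, one_smul]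
    exact Finset.prod_congr rfl fun x _ => (SlashAction.slash_mul k _ _ F).symm
  refine ⟨?_, fun γ => ?_, fun A => ?_⟩
  · rw [hc]
    exact (mdiff_prod _ fun x _ => h1.slash k (S.δ x)).const_smul c
  · rw [hc, ModularForm.SL_smul_slash, hsl]
    have h4 : ∀ x, F ∣[k] (S.δ x * mapGL ℝ (γ : SL(2, ℤ))) =
        (χ (S.coc γ x) : ℂ) • F ∣[k] S.δ (S.tgt γ x) := by
      intro x
      obtain ⟨a, b, d, ht⟩ := hS.tri (S.tgt γ x)
      have h5 := S.spec γ x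
      rw [gam_apply, gam_apply] at h5
      rw [h5, SlashAction.slash_mul]
      have h6 : F ∣[k] (mapGL ℝ (S.coc γ x : SL(2, ℤ)) : GL (Fin 2) ℝ) =
          (χ (S.coc γ x) : ℂ) • F := h2 (S.coc γ x)
      rw [h6, ModularForm.smul_slash, ht.sigma]
      rfl
    simp only [h4]
    rw [CosetSys.trans_apply']
    ext τ
    simp only [Pi.smul_apply, Finset.prod_apply, smul_eq_mul, Finset.prod_mul_distrib,
      Units.coe_prod]
    rw [(S.tgt_bijective γ).prod_comp fun x => (F ∣[k] S.δ x) τ]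
    ring
  · rw [hc, ModularForm.SL_smul_slash, hsl]
    refine Filter.BoundedAtFilter.smul c (bounded_prod _ fun x _ => ?_)
    obtain ⟨A', B, h5, h6⟩ := hS.cusp x A
    rw [h5, SlashAction.slash_mul]
    exact IsBoundedAtImInfty.slash k h6 (h3 A')

/-- The multiplicative Hecke operator: `F ↦ F(lτ) ∏_j F((τ+j)/l)`. -/
def heckeMul (l : ℕ) (F : ℍ → ℂ) : ℍ → ℂ := opMul (hdelta l) F

/-- The multiplicative operator `U_q`: `F ↦ ∏_j F((τ+j)/q)`. -/
def heckeMulU (q : ℕ) (F : ℍ → ℂ) : ℍ → ℂ := opMul (fun j : Fin q => heckeMatrix q j) F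

theorem heckeMul_apply (l : ℕ) (F : ℍ → ℂ) (τ : ℍ) :
    heckeMul l F τ = F (heckeDiagMatrix l • τ) * ∏ j : Fin l, F (heckeMatrix l j • τ) := by
  rw [heckeMul, opMul, Fintype.prod_option]
  rfl

theorem heckeMulU_apply (q : ℕ) (F : ℍ → ℂ) (τ : ℍ) :
    heckeMulU q F τ = ∏ j : Fin q, F (heckeMatrix q j • τ) := rfl

theorem heckeMul_mem {N l : ℕ} (hl : l.Prime) (hN : ¬ l ∣ N) {χ : Gamma0 N →* ℂˣ} {k : ℤ}
    {F : ℍ → ℂ} (hF : F ∈ mform χ k) :
    heckeMul l F ∈ mform (heckeChar hl hN χ) (k * (l + 1)) := by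
  have := opMul_mem (isMulSys_heckeSys hl hN) hF
  simpa using! this

theorem heckeMulU_mem {N q : ℕ} (hq : q.Prime) (hN : q ∣ N) {χ : Gamma0 N →* ℂˣ} {k : ℤ}
    {F : ℍ → ℂ} (hF : F ∈ mform χ k) :
    heckeMulU q F ∈ mform (heckeCharU hq.ne_zero hN χ) (k * q) := by
  have := opMul_mem (isMulSys_heckeSysU hq hN) hF
  simpa using! this

theorem coe_heckeMatrix_smul {l : ℕ} (hl : l ≠ 0) (j : ℕ) (τ : ℍ) :
    ((heckeMatrix l j • τ : ℍ) : ℂ) = (τ + j) / l := by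
  rw [UpperHalfPlane.coe_smul_of_det_pos (det_heckeMatrix_pos l j)]
  simp [UpperHalfPlane.num, UpperHalfPlane.denom, hl]

theorem coe_heckeDiagMatrix_smul {l : ℕ} (hl : l ≠ 0) (τ : ℍ) :
    ((heckeDiagMatrix l • τ : ℍ) : ℂ) = l * τ := by
  rw [UpperHalfPlane.coe_smul_of_det_pos (det_heckeDiagMatrix_pos l)]
  simp [UpperHalfPlane.num, UpperHalfPlane.denom, hl]

end Fermat.Agent.ESCore
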