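import Mathlib

/-!
# Formal local parameters

Over an algebraically closed field `K` of characteristic zero, a power series `a` of order
`e ≥ 1` becomes `X ^ e` after an automorphism of `K⟦X⟧` (which preserves orders). The automorphism
extends to Laurent series.
-/

set_option autoImplicit false

open PowerSeries

noncomputable section

namespace Fermat.Agent.ESCore

section Subst

variable {K : Type*} [Field K]

lemma hasSubst_of_const {b : K⟦X⟧} (hb : constantCoeff b = 0) : HasSubst b :=
  HasSubst.of_constantCoeff_zero' hb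

/-- substitution of a series with zero constant term and nonzero linear term is an automorphism -/
def substEquiv (b : K⟦X⟧) (hb : constantCoeff b = 0) (hb1 : IsUnit (coeff 1 b)) :
    K⟦X⟧ ≃ₐ[K] K⟦X⟧ :=
  AlgEquiv.ofAlgHom (substAlgHom (R := K) (hasSubst_of_const hb))
    (substAlgHom (R := K) (HasSubst.substInvOfIsUnit b hb1))
    (by
      apply AlgHom.ext
      intro f
      rw [AlgHom.comp_apply, AlgHom.id_apply, coe_substAlgHom, coe_substAlgHom,
        subst_comp_subst_apply (HasSubst.substInvOfIsUnit b hb1) (hasSubst_of_const hb),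
        subst_substInvOfIsUnit_left b hb hb1, X_subst])
    (by
      apply AlgHom.ext
      intro f
      rw [AlgHom.comp_apply, AlgHom.id_apply, coe_substAlgHom, coe_substAlgHom,
        subst_comp_subst_apply (hasSubst_of_const hb) (HasSubst.substInvOfIsUnit b hb1),
        subst_substInvOfIsUnit_right b hb hb1, X_subst])

lemma substEquiv_apply (b : K⟦X⟧) (hb : constantCoeff b = 0) (hb1 : IsUnit (coeff 1 b))
    (f : K⟦X⟧) : substEquiv b hb hb1 f = f.subst b := by
  change substAlgHom (R := K) (hasSubst_of_const hb) f = _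
  rw [coe_substAlgHom]

/-- ring automorphisms of `K⟦X⟧` preserve the order -/
lemma order_ringEquiv (α : K⟦X⟧ ≃+* K⟦X⟧) (f : K⟦X⟧) : (α f).order = f.order := by
  have hirr : Irreducible (α X) := (MulEquiv.irreducible_iff α).mpr X_irreducible
  have hass : Associated (α X) (X : K⟦X⟧) :=
    IsDiscreteValuationRing.associated_of_irreducible _ hirr X_irreducible
  rw [order_eq_emultiplicity_X, order_eq_emultiplicity_X,
    emultiplicity_eq_of_associated_left hass, emultiplicity_map_eq α]

/-- roots of unit power series -/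
lemma exists_pow_eq_series [CharZero K] [IsAlgClosed K] (u : K⟦X⟧) (hu : constantCoeff u ≠ 0)
    {e : ℕ} (he : 0 < e) : ∃ w : K⟦X⟧, w ^ e = u ∧ constantCoeff w ≠ 0 := by
  obtain ⟨d, hd⟩ := IsAlgClosed.exists_pow_nat_eq (constantCoeff u) he
  have hd0 : d ≠ 0 := by
    rintro rfl
    rw [zero_pow he.ne'] at hd
    exact hu hd.symm
  have hbin : (binomialSeries K ((1 : ℚ) / e)) ^ e = 1 + X := by
    have h1 : ∀ n : ℕ, (binomialSeries K ((1 : ℚ) / e)) ^ n = binomialSeries K ((n : ℚ) / e) := by
      intro n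
      induction n with
      | zero => simp
      | succ n ih =>
        rw [pow_succ, ih, ← binomialSeries_add]
        congr 1
        push_cast
        ring
    rw [h1, div_self (by exact_mod_cast he.ne')]
    have := binomialSeries_nat (R := ℚ) (A := K) 1
    simpa using this
  set v : K⟦X⟧ := C (constantCoeff u)⁻¹ * u - 1 with hv
  have hv0 : constantCoeff v = 0 := by
    rw [hv]; simp [hu]
  have hsub := hasSubst_of_const hv0
  refine ⟨C d * (binomialSeries K ((1 : ℚ) / e)).subst v, ?_, ?_⟩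
  · rw [mul_pow, ← subst_pow hsub, hbin, subst_add hsub, subst_X hsub]
    have h1 : (1 : K⟦X⟧).subst v = 1 := by
      rw [← coe_substAlgHom hsub, map_one]
    rw [h1, hv, ← map_pow, hd]
    have h2 : C (constantCoeff u) * C (constantCoeff u)⁻¹ = (1 : K⟦X⟧) := by
      rw [← map_mul, mul_inv_cancel₀ hu, map_one]
    linear_combination u * h2
  · have h1 : constantCoeff ((binomialSeries K ((1 : ℚ) / e)).subst v) ≠ 0 := by
      intro h0
      have h2 : constantCoeff (((binomialSeries K ((1 : ℚ) / e)).subst v) ^ e) = 0 := by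
        rw [map_pow, h0, zero_pow he.ne']
      rw [← subst_pow hsub, hbin, subst_add hsub, subst_X hsub] at h2
      have h1 : (1 : K⟦X⟧).subst v = 1 := by
        rw [← coe_substAlgHom hsub, map_one]
      rw [h1, map_add, map_one, hv0] at h2
      simp at h2
    rw [map_mul, constantCoeff_C]
    exact mul_ne_zero hd0 h1

/-- normal form of a power series of positive order under automorphisms of `K⟦X⟧` -/
theorem exists_algEquiv_eq_X_pow [CharZero K] [IsAlgClosed K] (a : K⟦X⟧) {e : ℕ} (he : 0 < e)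
    (ha : a.order = e) : ∃ α : K⟦X⟧ ≃ₐ[K] K⟦X⟧, α a = X ^ e := by
  obtain ⟨u, hu⟩ : (X : K⟦X⟧) ^ e ∣ a := by
    rw [X_pow_dvd_iff]
    intro m hm
    apply coeff_of_lt_order
    rw [ha]; exact_mod_cast hm
  have hu0 : constantCoeff u ≠ 0 := by
    intro h0
    have h1 : coeff e a = 0 := by
      rw [hu, ← zero_add e, coeff_X_pow_mul', if_pos (by omega)]
      simpa using h0
    exact (order_eq_nat.mp ha).1 h1
  obtain ⟨w, hw, hw0⟩ := exists_pow_eq_series u hu0 he
  have hb0 : constantCoeff (X * w) = 0 := by simp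
  have hb1 : IsUnit (coeff 1 (X * w)) := by
    rw [isUnit_iff_ne_zero]
    have : coeff 1 (X * w) = constantCoeff w := by
      simp
    rw [this]; exact hw0
  refine ⟨(substEquiv (X * w) hb0 hb1).symm, ?_⟩
  rw [AlgEquiv.symm_apply_eq, map_pow, substEquiv_apply, subst_X (hasSubst_of_const hb0), mul_pow,
    hw, hu]

end Subst

section Laurent

variable {K : Type*} [Field K]

open LaurentSeries HahnSeries

/-- extension of an automorphism of `K⟦X⟧` to Laurent series -/
def laurentExt (α : K⟦X⟧ ≃+* K⟦X⟧) : K⸨X⸩ ≃+* K⸨X⸩ :=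
  IsFractionRing.ringEquivOfRingEquiv α

lemma laurentExt_coe (α : K⟦X⟧ ≃+* K⟦X⟧) (f : K⟦X⟧) :
    laurentExt α (ofPowerSeries ℤ K f) = ofPowerSeries ℤ K (α f) :=
  IsFractionRing.ringEquivOfRingEquiv_algebraMap (K := K⸨X⸩) (L := K⸨X⸩) α f

lemma order_ofPowerSeries {f : K⟦X⟧} {n : ℕ} (hf : f.order = n) :
    (ofPowerSeries ℤ K f).order = n := by
  have hn := PowerSeries.order_eq_nat.mp hf
  apply le_antisymm
  · apply HahnSeries.order_le_of_coeff_ne_zero
    rw [LaurentSeries.coeff_coe_powerSeries]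
    exact hn.1
  · have hne : ofPowerSeries ℤ K f ≠ 0 := by
      intro h0
      apply hn.1
      rw [← LaurentSeries.coeff_coe_powerSeries, h0]
      rfl
    by_contra hlt
    push Not at hlt
    have h1 := mt HahnSeries.coeff_order_eq_zero.mp hne
    apply h1
    rw [PowerSeries.coeff_coe]
    split_ifs with h2
    · rfl
    · apply hn.2
      omega

lemma order_laurentExt (α : K⟦X⟧ ≃+* K⟦X⟧) (f : K⸨X⸩) : (laurentExt α f).order = f.order := by
  by_cases hf : f = 0
  · rw [hf, map_zero]
  -- write `f = g / h`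
  obtain ⟨g, h, hh, rfl⟩ := IsFractionRing.div_surjective (A := K⟦X⟧) f
  have hh0 : h ≠ 0 := nonZeroDivisors.ne_zero hh
  have hg0 : g ≠ 0 := by
    rintro rfl
    exact hf (by rw [map_zero, zero_div])
  have key : ∀ g h : K⟦X⟧, g ≠ 0 → h ≠ 0 →
      (algebraMap K⟦X⟧ K⸨X⸩ g / algebraMap K⟦X⟧ K⸨X⸩ h).order = g.order.toNat - h.order.toNat := by
    intro g h hg0 hh0
    have h1 : g.order = (g.order.toNat : ℕ∞) :=
      (ENat.natCast_toNat (mt PowerSeries.order_eq_top.mp hg0)).symm
    have h2 : h.order = (h.order.toNat : ℕ∞) :=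
      (ENat.natCast_toNat (mt PowerSeries.order_eq_top.mp hh0)).symm
    have e1 := order_ofPowerSeries h1
    have e2 := order_ofPowerSeries h2
    have hne1 : ofPowerSeries ℤ K g ≠ 0 := by
      rw [Ne, ← map_zero (ofPowerSeries ℤ K), ofPowerSeries_injective.eq_iff]; exact hg0
    have hne2 : ofPowerSeries ℤ K h ≠ 0 := by
      rw [Ne, ← map_zero (ofPowerSeries ℤ K), ofPowerSeries_injective.eq_iff]; exact hh0
    rw [LaurentSeries.coe_algebraMap]
    have h3 : (ofPowerSeries ℤ K g / ofPowerSeries ℤ K h) * ofPowerSeries ℤ K h =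
      ofPowerSeries ℤ K g := div_mul_cancel₀ _ hne2
    have h4 := congrArg HahnSeries.order h3
    rw [HahnSeries.order_mul (div_ne_zero hne1 hne2) hne2, e1, e2] at h4
    rw [← h4]; ring
  have hα : ∀ g : K⟦X⟧, g ≠ 0 → α g ≠ 0 := fun g hg => by
    rwa [Ne, map_eq_zero_iff α α.injective]
  rw [map_div₀, LaurentSeries.coe_algebraMap, laurentExt_coe, laurentExt_coe,
    ← LaurentSeries.coe_algebraMap, key _ _ (hα g hg0) (hα h hh0), key _ _ hg0 hh0,
    order_ringEquiv, order_ringEquiv]

/-- normal form of a Laurent series of nonzero order -/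
theorem exists_laurentExt_eq_single [CharZero K] [IsAlgClosed K] (a : K⸨X⸩) (n : ℤ) (hn : n ≠ 0)
    (ha : a.order = n) : ∃ α : K⟦X⟧ ≃ₐ[K] K⟦X⟧, laurentExt α.toRingEquiv a = single n 1 := by
  have ha0 : a ≠ 0 := by
    rintro rfl
    rw [HahnSeries.order_zero] at ha
    exact hn ha.symm
  have main : ∀ (a : K⸨X⸩) (m : ℕ), 0 < m → a ≠ 0 → a.order = m →
      ∃ α : K⟦X⟧ ≃ₐ[K] K⟦X⟧, laurentExt α.toRingEquiv a = single (m : ℤ) 1 := by
    intro a m hm ha0 ha
    have h1 : a = ofPowerSeries ℤ K (X ^ m * a.powerSeriesPart) :=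
      (LaurentSeries.X_order_mul_powerSeriesPart ha.symm).symm
    have h2 : (X ^ m * a.powerSeriesPart : K⟦X⟧).order = m := by
      have h3 : constantCoeff a.powerSeriesPart ≠ 0 := by
        rw [← PowerSeries.coeff_zero_eq_constantCoeff_apply, LaurentSeries.powerSeriesPart_coeff]
        simpa using mt HahnSeries.coeff_order_eq_zero.mp ha0
      have h4 : (a.powerSeriesPart : K⟦X⟧).order = 0 := by
        have := (PowerSeries.order_eq_nat (φ := a.powerSeriesPart) (n := 0)).mpr
          ⟨by rw [PowerSeries.coeff_zero_eq_constantCoeff_apply]; exact h3, by simp⟩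
        exact_mod_cast this
      rw [PowerSeries.order_mul, h4, PowerSeries.order_X_pow, add_zero]
    obtain ⟨α, hα⟩ := exists_algEquiv_eq_X_pow _ hm h2
    refine ⟨α, ?_⟩
    rw [h1, laurentExt_coe]
    change ofPowerSeries ℤ K (α _) = _
    rw [hα, ofPowerSeries_X_pow]
  rcases lt_or_gt_of_ne hn with h | h
  · obtain ⟨m, hm⟩ : ∃ m : ℕ, n = -m := ⟨n.natAbs, by omega⟩
    have hm0 : 0 < m := by omega
    have hinv : (a⁻¹).order = m := by
      have h1 : a * a⁻¹ = 1 := mul_inv_cancel₀ ha0
      have h2 := congrArg HahnSeries.order h1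
      rw [HahnSeries.order_mul ha0 (inv_ne_zero ha0), HahnSeries.order_one, ha] at h2
      omega
    obtain ⟨α, hα⟩ := main a⁻¹ m hm0 (inv_ne_zero ha0) hinv
    refine ⟨α, ?_⟩
    rw [map_inv₀] at hα
    rw [← inv_inv (laurentExt α.toRingEquiv a), hα, hm]
    apply inv_eq_of_mul_eq_one_left
    rw [HahnSeries.single_mul_single]
    simp
  · obtain ⟨m, hm⟩ : ∃ m : ℕ, n = m := ⟨n.natAbs, by omega⟩
    rw [hm] at ha ⊢
    exact main a m (by omega) ha0 ha

end Laurent

end Fermat.Agent.ESCore
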