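import Fermat.Agent.ESCore.Univ

set_option autoImplicit false

/-!
# Restriction of characters to a deeper level
-/

open CongruenceSubgroup Matrix.SpecialLinearGroup
open scoped MatrixGroups

noncomputable section

namespace Fermat.Agent.ESCore

theorem Gamma0_le_of_dvd {N N' : ℕ} (h : N ∣ N') : Gamma0 N' ≤ Gamma0 N := by
  intro g hg
  rw [Gamma0_mem] at hg ⊢
  rw [ZMod.intCast_zmod_eq_zero_iff_dvd] at hg ⊢
  exact (Int.natCast_dvd_natCast.mpr h).trans hg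

/-- restriction of characters to a deeper level -/
def resChar {N N' : ℕ} (h : N ∣ N') : (Gamma0 N →* ℂˣ) →* (Gamma0 N' →* ℂˣ) where
  toFun χ := χ.comp (Subgroup.inclusion (Gamma0_le_of_dvd h))
  map_one' := rfl
  map_mul' _ _ := rfl

theorem resChar_apply {N N' : ℕ} (h : N ∣ N') (χ : Gamma0 N →* ℂˣ) (γ : Gamma0 N') :
    resChar h χ γ = χ ⟨γ, Gamma0_le_of_dvd h γ.2⟩ := rfl

theorem resChar_mem {N N' m : ℕ} (h : N ∣ N') {χ : Gamma0 N →* ℂˣ} (hχ : χ ∈ XG N m) :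
    resChar h χ ∈ XG N' m := by
  refine ⟨?_, fun γ hγ => ?_⟩
  · ext γ
    have h1 := DFunLike.congr_fun hχ.1 ⟨γ, Gamma0_le_of_dvd h γ.2⟩
    rw [MonoidHom.pow_apply] at h1 ⊢
    exact congrArg Units.val h1
  · rw [resChar_apply]
    exact hχ.2 _ hγ

theorem mform_res {N N' : ℕ} (h : N ∣ N') {χ : Gamma0 N →* ℂˣ} {k : ℤ} {F : UpperHalfPlane → ℂ}
    (hF : F ∈ mform χ k) : F ∈ mform (resChar h χ) k :=
  ⟨hF.1, fun γ => hF.2.1 ⟨γ, Gamma0_le_of_dvd h γ.2⟩, hF.2.2⟩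

/-- restriction of characters to a deeper level -/
def resX {N N' : ℕ} (h : N ∣ N') (m : ℕ) : XG N m →* XG N' m where
  toFun χ := ⟨resChar h χ.1, resChar_mem h χ.2⟩
  map_one' := rfl
  map_mul' _ _ := rfl

theorem resX_coe {N N' m : ℕ} (h : N ∣ N') (χ : XG N m) : (resX h m χ).1 = resChar h χ.1 := rfl

/-- Restriction is Galois equivariant. -/
theorem galX_res {N N' m : ℕ} [NeZero N] [NeZero N'] (h : N ∣ N') (hm : 0 < m) (σ : GQ)
    (χ : XG N m) : galX N' hm σ (resX h m χ) = resX h m (galX N hm σ χ) := by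
  obtain ⟨F, hF, hF0, P, hP⟩ := algForms hm χ
  have hF1 : F ∈ mform χ.1 (12 * (1 : ℕ)) := mform_congr hF rfl (by norm_num)
  obtain ⟨G, hG, hG0, hGP⟩ := galSpec_galX hm σ χ 1 F hF1 hF0 P hP
  obtain ⟨G', hG', hG'0, hG'P⟩ := galSpec_galX hm σ (resX h m χ) 1 F (mform_res h hF1) hF0 P hP
  have hG2 := mform_res h hG
  have h1 : G = G' := Gal.fun_unique (T_mem_Gamma0 N') (resX h m (galX N hm σ χ)).2
    (galX N' hm σ (resX h m χ)).2 hG2 hG' (hGP.trans hG'P.symm)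
  subst h1
  exact Subtype.ext (Gal.char_unique hG' hG2 hG0)

/-- The kernel of restriction is killed by an integer independent of the order of characters. -/
theorem exists_pow_res {N N' : ℕ} [NeZero N'] (h : N ∣ N') : ∃ d : ℕ, d ≠ 0 ∧
    ∀ χ : Gamma0 N →* ℂˣ, resChar h χ = 1 → χ ^ d = 1 := by
  have hfi : (Gamma0 N').FiniteIndex := inferInstance
  let H : Subgroup (Gamma0 N) := (Gamma0 N').subgroupOf (Gamma0 N)
  have hH : H.FiniteIndex := inferInstance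
  refine ⟨H.index.factorial, Nat.factorial_ne_zero _, fun χ hχ => ?_⟩
  ext γ
  have h1 : γ ^ H.index.factorial ∈ H := by
    obtain ⟨i, hi0, hi, hi'⟩ := Subgroup.exists_pow_mem_of_index_ne_zero hH.index_ne_zero γ
    obtain ⟨j, hj⟩ := Nat.dvd_factorial hi0 hi
    rw [hj, pow_mul]
    exact H.pow_mem hi' j
  have h2 : χ (γ ^ H.index.factorial) = 1 :=
    DFunLike.congr_fun hχ ⟨(γ ^ H.index.factorial : Gamma0 N), h1⟩
  rw [MonoidHom.pow_apply, ← map_pow, h2]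
  rfl

end Fermat.Agent.ESCore
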