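import Fermat.Agent.ESCore.HauptOrd

/-!
# The Hauptmoduln `t2`, `t3`: construction, surjectivity, expansions at both cusps
-/

set_option autoImplicit false

open Matrix.SpecialLinearGroup CongruenceSubgroup ModularGroup
open scoped MatrixGroups ModularForm Manifold
open UpperHalfPlane hiding I J
open Complex (I)
open ModularForm (E₄ E₆)
open Fermat.Agent.Eis16 Fermat.Agent.ModFun

noncomputable section

namespace Fermat.Agent.ESCore

local notation "Δ" => ModularForm.discriminant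
local notation "𝕢" => Function.Periodic.qParam
local notation "ΓGL" p => (Subgroup.map (Matrix.SpecialLinearGroup.mapGL ℝ) (Gamma0 p))

/-! ### level 2 -/

lemma vF2_ne (τ : ℍ) : vF 2 τ ≠ 0 := by
  intro h
  have h1 := D_eq_v2u τ
  rw [h] at h1
  apply ModularForm.discriminant_ne_zero τ
  rw [h1]; ring

/-- `t2 = Δ(2τ)/Δ(τ)` -/
def haupt2 : HauptFn 2 16 where
  hκ := hκ2
  hp1 := by norm_num
  t := fun τ => uF 2 τ / vF 2 τ
  mdiff := (hasQ_u2.mdiff one_pos).div (hasQ_v2.mdiff one_pos) vF2_ne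
  mul_v τ := div_mul_cancel₀ _ (vF2_ne τ)

/-- the Hauptmodul of level 2 -/
def t2 : ℍ → ℂ := haupt2.t

lemma t2_eq (τ : ℍ) : t2 τ = uF 2 τ / vF 2 τ := rfl

theorem Dp_eq_vu2 (τ : ℍ) : Dp 2 τ = vF 2 τ * uF 2 τ ^ 2 := by
  have h := D_eq_v2u (S • up 2 τ)
  rw [D_S, vF_S 2 hκ2, uF_S 2 hκ2, dn_up] at h
  have h2 : ((up 2 τ : ℍ) : ℂ) ^ 12 ≠ 0 := pow_ne_zero _ (up 2 τ).ne_zero
  have h3 : Dp 2 τ = Δ (up 2 τ) := rfl
  rw [h3]
  apply mul_left_cancel₀ h2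
  rw [h]
  push_cast
  ring

theorem t2_eq_div (τ : ℍ) : t2 τ = Δ (up 2 τ) / Δ τ := by
  have h3 : Δ (up 2 τ) = Dp 2 τ := rfl
  have h := vF2_ne τ
  have h0 := ModularForm.discriminant_ne_zero τ
  have h4 := D_eq_v2u τ
  rw [h4] at h0
  have hu : uF 2 τ ≠ 0 := fun hu => h0 (by rw [hu]; ring)
  rw [h3, Dp_eq_vu2, h4, t2_eq]
  field_simp

/-- `j t2 = (1 + 256 t2)³` -/
theorem J_mul_t2 (τ : ℍ) : J τ * t2 τ = (1 + 256 * t2 τ) ^ 3 := by
  have h := vF2_ne τ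
  have h0 := ModularForm.discriminant_ne_zero τ
  have h4 := D_eq_v2u τ
  have h5 := E4_eq 2 hκ2 τ
  rw [h4] at h0
  have hu : uF 2 τ ≠ 0 := fun hu => h0 (by rw [hu]; ring)
  rw [J, h4, h5, t2_eq]
  push_cast
  field_simp
  ring

theorem J_sub_mul_t2 (τ : ℍ) :
    (J τ - 1728) * t2 τ = (1 - 512 * t2 τ) ^ 2 * (1 + 64 * t2 τ) := by
  linear_combination J_mul_t2 τ

/-! ### level 3 -/

lemma coL_US3 : CoL (US 3) [0, 1, 9, 27, 73, 126] :=
  ((coL_sigSer3).sub (coL_sigSer3.expand 3 _) (by decide)).congr (by decide)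

lemma coL_VS3 : CoL (VS 3 3) [1, -3, -27, 159, -219, -378] :=
  ((coL_one 5).add ((((coL_sigSer3.expand 3 three_ne_zero).smul ((3 : ℕ) ^ 4 : ℤ)).sub coL_sigSer3
    (by decide)).smul 3) (by decide)).congr (by decide)

lemma hκ3 : (3 : ℤ) * (((3 : ℕ) : ℤ) ^ 4 - 1) = 240 := by norm_num

lemma hasQ_u3 : HasQ 1 (uF 3) (toC (US 3)) := hasQ_uF 3
lemma hasQ_v3 : HasQ 1 (vF 3) (toC (VS 3 3)) := hasQ_vF 3 hκ3

/-- `u v³ = Δ (v + 27 u)` at level 3 -/
theorem uv3_eq (τ : ℍ) : uF 3 τ * vF 3 τ ^ 3 = Δ τ * (vF 3 τ + 27 * uF 3 τ) := by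
  have key := eq_zero_of_sturm 3 16 (uF 3 * vF 3 ^ 3 - Δ * (vF 3 + (27 : ℂ) • uF 3)) (by
      intro g hg τ
      simp only [Pi.sub_apply, Pi.mul_apply, Pi.pow_apply, Pi.add_apply, Pi.smul_apply,
        smul_eq_mul]
      rw [vF_smul 3 g hg, uF_smul 3 g hg, D_smul]; ring)
    (US 3 * VS 3 3 ^ 3 - DZ * (VS 3 3 + PowerSeries.C 27 * US 3)) (by
      rw [map_sub, map_mul, map_mul, map_pow, map_add, map_mul, toC_C]
      refine ((hasQ_u3.mul (hasQ_v3.pow 3)).sub (hasQ_Delta.mul (hasQ_v3.add ?_)))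
      have := hasQ_u3.smul (27 : ℂ)
      rw [PowerSeries.smul_eq_C_mul] at this
      exact_mod_cast this)
    ((1 / 9 : ℂ) • (vF 3 * uF 3 ^ 3 - Dp 3 * ((27 : ℂ) • uF 3 + vF 3))) _
    ((((hasQ_v3.mul (hasQ_u3.pow 3)).sub ((hasQ_Dp 3).mul
      ((hasQ_u3.smul (27 : ℂ)).add hasQ_v3)))).smul (1 / 9 : ℂ)) (by
      intro τ
      simp only [Pi.sub_apply, Pi.mul_apply, Pi.pow_apply, Pi.add_apply, Pi.smul_apply,
        smul_eq_mul]
      rw [vF_S 3 hκ3, uF_S 3 hκ3, D_S, D_eq_dn 3 τ]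
      push_cast
      ring) (by
      have h : CoL (US 3 * VS 3 3 ^ 3 - DZ * (VS 3 3 + PowerSeries.C 27 * US 3))
          [0, 0, 0, 0, 0, 0] := by
        have h3 : VS 3 3 ^ 3 = VS 3 3 * VS 3 3 * VS 3 3 := by ring
        rw [h3]
        exact ((coL_US3.mul ((coL_VS3.mul coL_VS3 (by decide)).mul coL_VS3 (by decide))
          (by decide)).sub (coL_DZ.mul (coL_VS3.add (coL_US3.smul 27) (by decide)) (by decide))
          (by decide)).congr (by decide)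
      intro n hn
      rw [h n (by simp only [List.length_cons, List.length_nil]; omega)]
      interval_cases n <;> rfl)
  have := congrFun key τ
  simp only [Pi.sub_apply, Pi.mul_apply, Pi.pow_apply, Pi.add_apply, Pi.smul_apply,
        smul_eq_mul, Pi.zero_apply] at this
  linear_combination this

/-- `t3 = (η(3τ)/η(τ))^12` -/
def haupt3 : HauptFn 3 3 where
  hκ := hκ3
  hp1 := by norm_num
  t := fun τ => (uF 3 τ * vF 3 τ ^ 2 / Δ τ - 1) / 27
  mdiff := by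
    have hu := hasQ_u3.mdiff one_pos
    have hv := hasQ_v3.mdiff one_pos
    have h1 : MDiff (fun τ => uF 3 τ * vF 3 τ ^ 2 / Δ τ) :=
      (hu.mul (hv.pow 2)).div mdiff_discriminant ModularForm.discriminant_ne_zero
    exact (h1.sub mdifferentiable_const).div mdifferentiable_const (fun _ => by norm_num)
  mul_v τ := by
    have h := uv3_eq τ
    have h0 := ModularForm.discriminant_ne_zero τ
    field_simp
    linear_combination h

/-- the Hauptmodul of level 3 -/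
def t3 : ℍ → ℂ := haupt3.t

lemma t3_mul_v (τ : ℍ) : t3 τ * vF 3 τ = uF 3 τ := haupt3.mul_v τ

lemma D_mul_t3 (τ : ℍ) : Δ τ * (1 + 27 * t3 τ) = uF 3 τ * vF 3 τ ^ 2 := by
  have h : t3 τ = (uF 3 τ * vF 3 τ ^ 2 / Δ τ - 1) / 27 := rfl
  have h0 := ModularForm.discriminant_ne_zero τ
  rw [h]
  field_simp
  ring

/-- `j t3 = (1 + 27 t3) (1 + 243 t3)³` -/
theorem J_mul_t3 (τ : ℍ) : J τ * t3 τ = (1 + 27 * t3 τ) * (1 + 243 * t3 τ) ^ 3 := by
  have h0 := ModularForm.discriminant_ne_zero τ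
  have h1 := t3_mul_v τ
  have h2 := D_mul_t3 τ
  have h5 := E4_eq 3 hκ3 τ
  have h6 : E₄ τ = vF 3 τ * (1 + 243 * t3 τ) := by
    rw [h5, ← h1]; push_cast; ring
  rw [J, h6]
  field_simp
  rw [← h1] at h2
  linear_combination (-(1 + 243 * t3 τ) ^ 3) * h2

theorem J_sub_mul_t3 (τ : ℍ) :
    (J τ - 1728) * t3 τ = (1 - 486 * t3 τ - 19683 * t3 τ ^ 2) ^ 2 := by
  linear_combination J_mul_t3 τ

end Fermat.Agent.ESCore
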