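import Mathlib

set_option autoImplicit false

/-!
# Two-dimensional pseudo-representations with an odd involution
-/

noncomputable section

namespace Fermat.Agent.ESCore

/-- A two-dimensional pseudo-representation `t` with determinant `χ`. -/
structure IsPseudo {G R : Type*} [Group G] [CommRing R] (t : G → R) (χ : G →* Rˣ) : Prop where
  one : t 1 = 2
  mul : ∀ g h, t g * t h = t (g * h) + χ g * t (g⁻¹ * h)

namespace IsPseudo

/-! ### Abstract algebra -/

section Abstract

variable {R A : Type*} [CommRing R] [Ring A] [Algebra R A] (T : A →ₗ[R] R) (e f : A)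

/-- trace identities -/
structure TraceId : Prop where
  comm : ∀ x y, T (x * y) = T (y * x)
  sum : e + f = 1
  ee : e * e = e
  ff : f * f = f
  hA : ∀ x y, T (e * x * e * y) = T (e * x) * T (e * y)
  hD : ∀ x y, T (f * x * f * y) = T (f * x) * T (f * y)

variable {T e f}

/-- the off-diagonal form -/
def bet (T : A →ₗ[R] R) (e f : A) (x y : A) : R := T (e * x * f * y)

theorem TraceId.a_mul (h : TraceId T e f) (x y : A) :
    T (e * (x * y)) = T (e * x) * T (e * y) + bet T e f x y := by
  rw [bet, ← h.hA, ← map_add]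
  congr 1
  have : e * (x * y) = e * x * (e + f) * y := by rw [h.sum, mul_one, mul_assoc]
  rw [this, mul_add, add_mul]

theorem TraceId.bet_swap (h : TraceId T e f) (x y : A) :
    T (f * y * e * x) = bet T e f x y := by
  rw [bet, mul_assoc (f * y) e x, h.comm, mul_assoc (e * x) f y]

theorem TraceId.d_mul (h : TraceId T e f) (x y : A) :
    T (f * (x * y)) = T (f * x) * T (f * y) + bet T e f y x := by
  rw [← h.bet_swap, ← h.hD, ← map_add]
  congr 1
  have : f * (x * y) = f * x * (f + e) * y := by
    rw [add_comm, h.sum, mul_one, mul_assoc]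
  rw [this, mul_add, add_mul]

/-- `f z f` acts as the scalar `d z` -/
theorem TraceId.hB (h : TraceId T e f) (x z y : A) :
    T (e * x * f * z * f * y) = T (f * z) * bet T e f x y := by
  have h1 := h.hD z (y * (e * x))
  have h2 : f * z * f * (y * (e * x)) = (f * z * f * y) * (e * x) := by
    rw [mul_assoc (f * z * f) y (e * x)]
  rw [h2, h.comm] at h1
  have h3 : e * x * (f * z * f * y) = e * x * f * z * f * y := by
    simp only [mul_assoc]
  rw [h3] at h1
  rw [h1]
  congr 1
  rw [← mul_assoc f y (e * x), h.comm, bet]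
  congr 1
  simp only [mul_assoc]

theorem TraceId.bet_mul_left (h : TraceId T e f) (x y z : A) :
    bet T e f (x * y) z = T (e * x) * bet T e f y z + T (f * y) * bet T e f x z := by
  have h1 := h.hA x (y * (f * z))
  have h2 := h.hB x y z
  have h3 : bet T e f (x * y) z = T (e * x * e * (y * (f * z))) + T (e * x * f * y * f * z) := by
    rw [bet, ← map_add]
    congr 1
    have : e * (x * y) * f * z = e * x * (e + f) * y * f * z := by
      rw [h.sum, mul_one]
      simp only [mul_assoc]
    rw [this, mul_add]
    simp only [add_mul, mul_assoc]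
  rw [h3, h1, h2, bet]
  congr 3
  simp only [mul_assoc]

theorem TraceId.bet_mul_right (h : TraceId T e f) (x y z : A) :
    bet T e f x (y * z) = bet T e f x y * T (e * z) + T (f * y) * bet T e f x z := by
  have h1 := h.hA (x * (f * y)) z
  have h2 := h.hB x y z
  have h3 : bet T e f x (y * z) = T (e * (x * (f * y)) * e * z) + T (e * x * f * y * f * z) := by
    rw [bet, ← map_add]
    congr 1
    have : e * x * f * (y * z) = e * x * f * y * (e + f) * z := by
      rw [h.sum, mul_one]
      simp only [mul_assoc]
    rw [this, mul_add]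
    simp only [add_mul, mul_assoc]
  rw [h3, h1, h2, bet]
  congr 3
  simp only [mul_assoc]

/-- the rank one identity -/
theorem TraceId.rank_one (h : TraceId T e f) (x y x' y' : A) :
    bet T e f x y * bet T e f x' y' = bet T e f x' y * bet T e f x y' := by
  have h1 := h.hA (x * (f * y)) (x' * (f * y'))
  have h2 := h.hB x (y * (e * x')) y'
  have h3 : e * (x * (f * y)) * e * (x' * (f * y')) = e * x * f * (y * (e * x')) * f * y' := by
    simp only [mul_assoc]
  rw [h3, h2] at h1
  have h4 : T (e * (x * (f * y))) = bet T e f x y := by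
    rw [bet]
    congr 1
    simp only [mul_assoc]
  have h5 : T (e * (x' * (f * y'))) = bet T e f x' y' := by
    rw [bet]
    congr 1
    simp only [mul_assoc]
  have h6 : T (f * (y * (e * x'))) = bet T e f x' y := by
    rw [← h.bet_swap]
    congr 1
    simp only [mul_assoc]
  rw [h4, h5, h6] at h1
  exact h1.symm

end Abstract

/-! ### Group elements -/

section Group

variable {G R : Type*} [Group G] [CommRing R] {t : G → R} {χ : G →* Rˣ}

theorem inv_eq (h : IsPseudo t χ) (g : G) : χ g * t g⁻¹ = t g := by
  have h1 := h.mul g 1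
  rw [h.one, mul_one, mul_one] at h1
  linear_combination -h1

theorem comm (h : IsPseudo t χ) (g k : G) : t (g * k) = t (k * g) := by
  have h1 := h.mul g k
  have h2 := h.mul k g
  have h3 := h.inv_eq (g⁻¹ * k)
  rw [mul_inv_rev, inv_inv, map_mul, map_inv] at h3
  have h4 : (χ k : R) * t (k⁻¹ * g) = χ g * t (g⁻¹ * k) := by
    rw [← h3, Units.val_mul, ← mul_assoc, ← mul_assoc, Units.mul_inv, one_mul]
  linear_combination h2 - h1 + h4

theorem det_eq (h : IsPseudo t χ) (g : G) : t g * t g = t (g * g) + 2 * χ g := by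
  have h1 := h.mul g g
  rw [inv_mul_cancel, h.one] at h1
  linear_combination h1

/-- the linear extension of `t` -/
def lin (t : G → R) : MonoidAlgebra R G →ₗ[R] R where
  toFun x := Finsupp.linearCombination R t x.coeff
  map_add' x y := by rw [MonoidAlgebra.coeff_add, map_add]
  map_smul' r x := by rw [MonoidAlgebra.coeff_smul, map_smul, RingHom.id_apply]

theorem lin_single (t : G → R) (g : G) (r : R) : lin t (MonoidAlgebra.single g r) = r * t g := by
  change Finsupp.linearCombination R t (MonoidAlgebra.single g r).coeff = _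
  rw [MonoidAlgebra.coeff_single, Finsupp.linearCombination_single, smul_eq_mul]

theorem lin_comm (h : IsPseudo t χ) (x y : MonoidAlgebra R G) : lin t (x * y) = lin t (y * x) := by
  induction x using MonoidAlgebra.induction_linear with
  | zero => rw [zero_mul, mul_zero]
  | add x x' hx hx' => rw [add_mul, mul_add, map_add, map_add, hx, hx']
  | single g r =>
    induction y using MonoidAlgebra.induction_linear with
    | zero => rw [zero_mul, mul_zero]
    | add x x' hx hx' => rw [add_mul, mul_add, map_add, map_add, hx, hx']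
    | single k s =>
      rw [MonoidAlgebra.single_mul_single, MonoidAlgebra.single_mul_single, lin_single,
        lin_single, h.comm, mul_comm r s]

variable {c : G} {i2 : R}

/-- the key identity on group elements -/
theorem key_A (h : IsPseudo t χ) (hc : c * c = 1) (hχ : (χ c : R) = -1) (g k : G) :
    (t g + t (c * g)) * (t k + t (c * k)) =
      t (g * k) + t (c * g * k) + t (g * c * k) + t (c * g * c * k) := by
  have hci : c⁻¹ = c := inv_eq_of_mul_eq_one_left hc
  have h1 := h.mul g k
  have h2 := h.mul g (c * k)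
  have h3 := h.mul (c * g) k
  have h4 := h.mul (c * g) (c * k)
  rw [map_mul, Units.val_mul, hχ, mul_inv_rev, hci] at h3 h4
  have e1 : g⁻¹ * c * (c * k) = g⁻¹ * k := by
    rw [mul_assoc, ← mul_assoc c c k, hc, one_mul]
  rw [e1] at h4
  simp only [mul_assoc] at h1 h2 h3 h4 ⊢
  linear_combination h1 + h2 + h3 + h4

theorem key_D (h : IsPseudo t χ) (hc : c * c = 1) (hχ : (χ c : R) = -1) (g k : G) :
    (t g - t (c * g)) * (t k - t (c * k)) =
      t (g * k) - t (c * g * k) - t (g * c * k) + t (c * g * c * k) := by
  have hci : c⁻¹ = c := inv_eq_of_mul_eq_one_left hc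
  have h1 := h.mul g k
  have h2 := h.mul g (c * k)
  have h3 := h.mul (c * g) k
  have h4 := h.mul (c * g) (c * k)
  rw [map_mul, Units.val_mul, hχ, mul_inv_rev, hci] at h3 h4
  have e1 : g⁻¹ * c * (c * k) = g⁻¹ * k := by
    rw [mul_assoc, ← mul_assoc c c k, hc, one_mul]
  rw [e1] at h4
  simp only [mul_assoc] at h1 h2 h3 h4 ⊢
  linear_combination h1 - h2 - h3 + h4

/-- the element `1 ± c` of the group ring, divided by two -/
def idem (c : G) (u i2 : R) : MonoidAlgebra R G :=
  i2 • (1 + u • MonoidAlgebra.single c 1)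

theorem idem_mul_self (hc : c * c = 1) (h2 : 2 * i2 = 1) {u : R} (hu : u * u = 1) :
    idem c u i2 * idem c u i2 = idem c u i2 := by
  set C : MonoidAlgebra R G := MonoidAlgebra.single c 1
  have hC : C * C = 1 := by
    rw [MonoidAlgebra.single_mul_single, hc, one_mul]
    rfl
  have h1 : (1 + u • C) * (1 + u • C) = (2 : R) • (1 + u • C) := by
    rw [mul_add, add_mul, add_mul, one_mul, one_mul, mul_one, smul_mul_smul_comm, hC, hu, one_smul,
      two_smul]
    abel
  rw [idem, smul_mul_smul_comm, h1, smul_smul]
  congr 1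
  linear_combination i2 * h2

theorem lin_idem_mul (t : G → R) (u : R) (g : G) (r : R) :
    lin t (idem c u i2 * MonoidAlgebra.single g r) = i2 * r * (t g + u * t (c * g)) := by
  rw [idem, smul_mul_assoc, add_mul, one_mul, smul_mul_assoc, MonoidAlgebra.single_mul_single,
    map_smul, map_add, map_smul, lin_single, lin_single, smul_eq_mul, smul_eq_mul]
  ring

theorem lin_idem_mul_mul (t : G → R) (u : R) (g k : G) (r s : R) :
    lin t (idem c u i2 * MonoidAlgebra.single g r * idem c u i2 * MonoidAlgebra.single k s) =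
      i2 * i2 * r * s * (t (g * k) + u * t (c * g * k) + u * t (g * c * k) +
        u * u * t (c * g * c * k)) := by
  rw [idem]
  simp only [smul_mul_assoc, mul_smul_comm, add_mul, mul_add, one_mul, mul_one,
    MonoidAlgebra.single_mul_single, map_smul, map_add, lin_single, smul_eq_mul, smul_add]
  ring

/-- the trace identities in the group ring -/
theorem traceId (h : IsPseudo t χ) (hc : c * c = 1) (hχ : (χ c : R) = -1) (h2 : 2 * i2 = 1) :
    TraceId (lin t) (idem c 1 i2) (idem c (-1) i2) where
  comm := h.lin_comm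
  sum := by
    rw [idem, idem, ← smul_add, neg_smul, one_smul, add_add_add_comm, add_neg_cancel, add_zero,
      ← two_smul R (1 : MonoidAlgebra R G), smul_smul, mul_comm, h2, one_smul]
  ee := idem_mul_self hc h2 (one_mul 1)
  ff := idem_mul_self hc h2 (by ring)
  hA := by
    intro x y
    induction x using MonoidAlgebra.induction_linear with
    | zero => simp only [mul_zero, zero_mul, map_zero]
    | add x x' hx hx' => simp only [mul_add, add_mul, map_add, hx, hx']
    | single g r =>
      induction y using MonoidAlgebra.induction_linear with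
      | zero => simp only [mul_zero, map_zero]
      | add x x' hx hx' => simp only [mul_add, map_add, hx, hx']
      | single k s =>
        rw [lin_idem_mul_mul, lin_idem_mul, lin_idem_mul]
        linear_combination (-i2 * i2 * r * s) * h.key_A hc hχ g k
  hD := by
    intro x y
    induction x using MonoidAlgebra.induction_linear with
    | zero => simp only [mul_zero, zero_mul, map_zero]
    | add x x' hx hx' => simp only [mul_add, add_mul, map_add, hx, hx']
    | single g r =>
      induction y using MonoidAlgebra.induction_linear with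
      | zero => simp only [mul_zero, map_zero]
      | add x x' hx hx' => simp only [mul_add, map_add, hx, hx']
      | single k s =>
        rw [lin_idem_mul_mul, lin_idem_mul, lin_idem_mul]
        linear_combination (-i2 * i2 * r * s) * h.key_D hc hχ g k

/-! ### The matrix coefficients -/

variable (t c i2)

/-- upper left coefficient -/
def aa (g : G) : R := i2 * (t g + t (c * g))

/-- lower right coefficient -/
def dd (g : G) : R := i2 * (t g - t (c * g))

/-- product of the off-diagonal coefficients -/
def bb (g k : G) : R := aa t c i2 (g * k) - aa t c i2 g * aa t c i2 k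

variable {t c i2}

theorem aa_eq (g : G) : lin t (idem c 1 i2 * MonoidAlgebra.single g 1) = aa t c i2 g := by
  rw [lin_idem_mul, aa]
  ring

theorem dd_eq (g : G) : lin t (idem c (-1) i2 * MonoidAlgebra.single g 1) = dd t c i2 g := by
  rw [lin_idem_mul, dd]
  ring

theorem single_mul' (g k : G) : (MonoidAlgebra.single (g * k) 1 : MonoidAlgebra R G) =
    MonoidAlgebra.single g 1 * MonoidAlgebra.single k 1 := by
  rw [MonoidAlgebra.single_mul_single, one_mul]

section Id

variable (h : IsPseudo t χ) (hc : c * c = 1) (hχ : (χ c : R) = -1) (h2 : 2 * i2 = 1)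
include h hc hχ h2

theorem bb_eq (g k : G) : bet (lin t) (idem c 1 i2) (idem c (-1) i2)
    (MonoidAlgebra.single g 1) (MonoidAlgebra.single k 1) = bb t c i2 g k := by
  have h1 := (h.traceId hc hχ h2).a_mul (MonoidAlgebra.single g 1) (MonoidAlgebra.single k 1)
  rw [← single_mul', aa_eq, aa_eq, aa_eq] at h1
  rw [bb, h1]
  ring

theorem dd_mul (g k : G) : dd t c i2 (g * k) = dd t c i2 g * dd t c i2 k + bb t c i2 k g := by
  have h1 := (h.traceId hc hχ h2).d_mul (MonoidAlgebra.single g 1) (MonoidAlgebra.single k 1)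
  rw [← single_mul', dd_eq, dd_eq, dd_eq, h.bb_eq hc hχ h2] at h1
  exact h1

theorem bb_mul_left (g k l : G) : bb t c i2 (g * k) l =
    aa t c i2 g * bb t c i2 k l + dd t c i2 k * bb t c i2 g l := by
  have h1 := (h.traceId hc hχ h2).bet_mul_left (MonoidAlgebra.single g 1)
    (MonoidAlgebra.single k 1) (MonoidAlgebra.single l 1)
  rw [← single_mul', dd_eq, aa_eq, h.bb_eq hc hχ h2, h.bb_eq hc hχ h2, h.bb_eq hc hχ h2] at h1
  exact h1

theorem bb_mul_right (g k l : G) : bb t c i2 g (k * l) =
    bb t c i2 g k * aa t c i2 l + dd t c i2 k * bb t c i2 g l := by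
  have h1 := (h.traceId hc hχ h2).bet_mul_right (MonoidAlgebra.single g 1)
    (MonoidAlgebra.single k 1) (MonoidAlgebra.single l 1)
  rw [← single_mul', dd_eq, aa_eq, h.bb_eq hc hχ h2, h.bb_eq hc hχ h2, h.bb_eq hc hχ h2] at h1
  exact h1

theorem rank_one' (g k g' k' : G) : bb t c i2 g k * bb t c i2 g' k' =
    bb t c i2 g' k * bb t c i2 g k' := by
  have h1 := (h.traceId hc hχ h2).rank_one (MonoidAlgebra.single g 1)
    (MonoidAlgebra.single k 1) (MonoidAlgebra.single g' 1) (MonoidAlgebra.single k' 1)
  rw [h.bb_eq hc hχ h2, h.bb_eq hc hχ h2, h.bb_eq hc hχ h2, h.bb_eq hc hχ h2] at h1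
  exact h1

theorem t_c : t c = 0 := by
  have hci : c⁻¹ = c := inv_eq_of_mul_eq_one_left hc
  have h1 := h.inv_eq c
  rw [hci, hχ] at h1
  linear_combination i2 * (-h1) - t c * h2

theorem aa_one : aa t c i2 1 = 1 := by
  rw [aa, mul_one, h.t_c hc hχ h2, h.one]
  linear_combination h2

theorem dd_one : dd t c i2 1 = 1 := by
  rw [dd, mul_one, h.t_c hc hχ h2, h.one]
  linear_combination h2

theorem bb_one_left (g : G) : bb t c i2 1 g = 0 := by
  rw [bb, one_mul, h.aa_one hc hχ h2]
  ring

theorem bb_one_right (g : G) : bb t c i2 g 1 = 0 := by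
  rw [bb, mul_one, h.aa_one hc hχ h2]
  ring

end Id

/-! ### The representations -/

open Matrix

/-- the matrix representation when the off-diagonal part does not vanish -/
def rep (h : IsPseudo t χ) (hc : c * c = 1) (hχ : (χ c : R) = -1) (h2 : 2 * i2 = 1) (g₀ k₀ : G)
    {v : R} (hv : bb t c i2 g₀ k₀ * v = 1) : G →* Matrix (Fin 2) (Fin 2) R where
  toFun g := !![aa t c i2 g, bb t c i2 g k₀ * v; bb t c i2 g₀ g, dd t c i2 g]
  map_one' := by
    rw [h.aa_one hc hχ h2, h.dd_one hc hχ h2, h.bb_one_left hc hχ h2, h.bb_one_right hc hχ h2,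
      zero_mul]
    exact Matrix.one_fin_two.symm
  map_mul' g k := by
    have e1 : aa t c i2 (g * k) = aa t c i2 g * aa t c i2 k + bb t c i2 g k := by
      rw [bb]; ring
    have e2 := h.rank_one' hc hχ h2 g k₀ g₀ k
    have e3 := h.bb_mul_left hc hχ h2 g k k₀
    have e4 := h.bb_mul_right hc hχ h2 g₀ g k
    have e5 := h.dd_mul hc hχ h2 g k
    have e6 := h.rank_one' hc hχ h2 g₀ g k k₀
    rw [Matrix.mul_fin_two]
    congr 1
    ext i j
    fin_cases i <;> fin_cases j <;> simp only [Matrix.cons_val',
      Matrix.cons_val_zero, Matrix.cons_val_one, Matrix.cons_val_fin_one, Fin.zero_eta,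
      Fin.mk_one, Fin.isValue]
    · rw [e1]
      linear_combination (-bb t c i2 g k) * hv - v * e2
    · rw [e3]; ring
    · rw [e4]
    · rw [e5]
      linear_combination (-bb t c i2 k g) * hv - v * e6

theorem rep_apply (h : IsPseudo t χ) (hc : c * c = 1) (hχ : (χ c : R) = -1) (h2 : 2 * i2 = 1)
    (g₀ k₀ : G) {v : R} (hv : bb t c i2 g₀ k₀ * v = 1) (g : G) :
    h.rep hc hχ h2 g₀ k₀ hv g =
      !![aa t c i2 g, bb t c i2 g k₀ * v; bb t c i2 g₀ g, dd t c i2 g] := rfl

/-- the diagonal representation when the off-diagonal part vanishes -/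
def repDiag (h : IsPseudo t χ) (hc : c * c = 1) (hχ : (χ c : R) = -1) (h2 : 2 * i2 = 1)
    (hb : ∀ g k, bb t c i2 g k = 0) : G →* Matrix (Fin 2) (Fin 2) R where
  toFun g := !![aa t c i2 g, 0; 0, dd t c i2 g]
  map_one' := by
    rw [h.aa_one hc hχ h2, h.dd_one hc hχ h2]
    exact Matrix.one_fin_two.symm
  map_mul' g k := by
    have e1 : aa t c i2 (g * k) = aa t c i2 g * aa t c i2 k := by
      have := hb g k
      rw [bb, sub_eq_zero] at this
      exact this
    have e5 := h.dd_mul hc hχ h2 g k
    rw [hb, add_zero] at e5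
    rw [Matrix.mul_fin_two, e1, e5]
    simp

theorem repDiag_apply (h : IsPseudo t χ) (hc : c * c = 1) (hχ : (χ c : R) = -1)
    (h2 : 2 * i2 = 1) (hb : ∀ g k, bb t c i2 g k = 0) (g : G) :
    h.repDiag hc hχ h2 hb g = !![aa t c i2 g, 0; 0, dd t c i2 g] := rfl

theorem aa_add_dd (h2 : 2 * i2 = 1) (g : G) : aa t c i2 g + dd t c i2 g = t g := by
  rw [aa, dd]
  linear_combination t g * h2

open Polynomial in
theorem charpoly_of_trace (h : IsPseudo t χ) (h2 : 2 * i2 = 1)
    {ρ : G →* Matrix (Fin 2) (Fin 2) R} (htr : ∀ g, (ρ g).trace = t g) (g : G) :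
    (ρ g).charpoly = X ^ 2 - C (t g) * X + C (χ g : R) := by
  have e1 : (ρ g).det = χ g := by
    have h3 := htr g
    have h4 := htr (g * g)
    rw [map_mul, Matrix.trace_fin_two, Matrix.mul_apply, Matrix.mul_apply, Fin.sum_univ_two,
      Fin.sum_univ_two] at h4
    rw [Matrix.trace_fin_two] at h3
    have h5 := h.det_eq g
    rw [Matrix.det_fin_two]
    linear_combination i2 * (ρ g 0 0 + ρ g 1 1 + t g) * h3 - i2 * h4 + i2 * h5 +
      (χ g - ρ g 0 0 * ρ g 1 1 + ρ g 0 1 * ρ g 1 0) * h2
  rcases subsingleton_or_nontrivial R with hR | hR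
  · exact Subsingleton.elim _ _
  · rw [Matrix.charpoly_fin_two, htr, e1]

end Group

end IsPseudo

end Fermat.Agent.ESCore
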