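import Mathlib
import Fermat.Agent.ESCore.Pseudo

set_option autoImplicit false

/-!
# From pseudo-representations to representations over a discrete valuation ring
-/

open IsLocalRing

noncomputable section

namespace Fermat.Agent.ESCore

open IsPseudo

section Field

variable {G R K : Type*} [Group G] [CommRing R] [Field K] [Algebra R K]

/-- **The representation over the field of fractions, with bounds.** -/
theorem exists_rep_bounded [CharZero R] [FaithfulSMul R K] [IsFractionRing R K] {t : G → K} {χ : G →* Kˣ}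
    (h : IsPseudo t χ) {c : G} (hc : c * c = 1) (hχ : (χ c : K) = -1)
    (hint : ∀ g, ∃ x : R, algebraMap R K x = t g) (h20 : (2 : K) ≠ 0) [IsDomain R] :
    ∃ ρ : G →* Matrix (Fin 2) (Fin 2) K, (∀ g, (ρ g).trace = t g) ∧
      ∃ D : R, D ≠ 0 ∧ ∀ (J : Submodule R K) (σ : G), (∀ g, t (σ * g) - t g ∈ J) →
        ∀ i j, D • (ρ σ - 1) i j ∈ J := by
  have h2 : (2 : K) * (2 : K)⁻¹ = 1 := mul_inv_cancel₀ h20
  have h2R : (2 : R) ≠ 0 := two_ne_zero
  set i2 : K := (2 : K)⁻¹ with hi2
  have hsm : ∀ (D : R) (x : K), D • x = algebraMap R K D * x := fun D x => Algebra.smul_def D x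
  -- the bounds for `aa`
  have ha : ∀ (J : Submodule R K) (σ : G), (∀ g, t (σ * g) - t g ∈ J) →
      ∀ k l, (2 : R) • (aa t c i2 (k * σ * l) - aa t c i2 (k * l)) ∈ J := by
    intro J σ hσ k l
    have e1 : t (k * σ * l) = t (σ * (l * k)) := by
      rw [h.comm (k * σ) l, h.comm σ, mul_assoc]
    have e2 : t (k * l) = t (l * k) := h.comm k l
    have e3 : t (c * (k * σ * l)) = t (σ * (l * c * k)) := by
      have : c * (k * σ * l) = (c * k * σ) * l := by simp only [mul_assoc]
      rw [this, h.comm (c * k * σ) l, h.comm σ]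
      congr 1
      simp only [mul_assoc]
    have e4 : t (c * (k * l)) = t (l * c * k) := by
      rw [← mul_assoc, h.comm (c * k) l, mul_assoc]
    have e5 : (2 : R) • (aa t c i2 (k * σ * l) - aa t c i2 (k * l)) =
        (t (σ * (l * k)) - t (l * k)) + (t (σ * (l * c * k)) - t (l * c * k)) := by
      rw [hsm, map_ofNat, aa, aa, e1, e2, e3, e4]
      linear_combination ((t (σ * (l * k)) - t (l * k)) + (t (σ * (l * c * k)) -
        t (l * c * k))) * h2
    rw [e5]
    exact J.add_mem (hσ _) (hσ _)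
  have hd : ∀ (J : Submodule R K) (σ : G), (∀ g, t (σ * g) - t g ∈ J) →
      (2 : R) • (dd t c i2 σ - 1) ∈ J := by
    intro J σ hσ
    have e3 : t (c * σ) = t (σ * c) := h.comm c σ
    have e5 : (2 : R) • (dd t c i2 σ - 1) = (t (σ * 1) - t 1) - (t (σ * c) - t c) := by
      rw [hsm, map_ofNat, dd, e3, mul_one, h.one, h.t_c hc hχ h2]
      linear_combination (t σ - t (σ * c)) * h2
    rw [e5]
    exact J.sub_mem (hσ _) (hσ _)
  have haint : ∀ g, ∃ x : R, algebraMap R K x = 2 * aa t c i2 g := by
    intro g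
    obtain ⟨x, hx⟩ := hint g
    obtain ⟨y, hy⟩ := hint (c * g)
    refine ⟨x + y, ?_⟩
    rw [map_add, hx, hy, aa]
    linear_combination (-(t g + t (c * g))) * h2
  have hb1 : ∀ (J : Submodule R K) (σ : G), (∀ g, t (σ * g) - t g ∈ J) → ∀ k,
      (4 : R) • bb t c i2 σ k ∈ J := by
    intro J σ hσ k
    obtain ⟨x, hx⟩ := haint k
    have e1 := ha J σ hσ 1 k
    have e2 := ha J σ hσ 1 1
    rw [one_mul, one_mul] at e1
    rw [one_mul, mul_one, mul_one, h.aa_one hc hχ h2] at e2
    have e3 : (4 : R) • bb t c i2 σ k = (2 : R) • ((2 : R) • (aa t c i2 (σ * k) - aa t c i2 k)) -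
        x • ((2 : R) • (aa t c i2 σ - 1)) := by
      simp only [hsm, map_ofNat, hx, bb]
      ring
    rw [e3]
    exact J.sub_mem (J.smul_mem _ e1) (J.smul_mem _ e2)
  have hb2 : ∀ (J : Submodule R K) (σ : G), (∀ g, t (σ * g) - t g ∈ J) → ∀ k,
      (4 : R) • bb t c i2 k σ ∈ J := by
    intro J σ hσ k
    obtain ⟨x, hx⟩ := haint k
    have e1 := ha J σ hσ k 1
    have e2 := ha J σ hσ 1 1
    rw [mul_one, mul_one] at e1
    rw [one_mul, mul_one, mul_one, h.aa_one hc hχ h2] at e2
    have e3 : (4 : R) • bb t c i2 k σ = (2 : R) • ((2 : R) • (aa t c i2 (k * σ) - aa t c i2 k)) -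
        x • ((2 : R) • (aa t c i2 σ - 1)) := by
      simp only [hsm, map_ofNat, hx, bb]
      ring
    rw [e3]
    exact J.sub_mem (J.smul_mem _ e1) (J.smul_mem _ e2)
  have ha1 : ∀ (J : Submodule R K) (σ : G), (∀ g, t (σ * g) - t g ∈ J) →
      (2 : R) • (aa t c i2 σ - 1) ∈ J := by
    intro J σ hσ
    have e2 := ha J σ hσ 1 1
    rwa [one_mul, mul_one, mul_one, h.aa_one hc hχ h2] at e2
  by_cases hb : ∀ g k, bb t c i2 g k = 0
  · refine ⟨h.repDiag hc hχ h2 hb, fun g => ?_, 2, h2R, fun J σ hσ i j => ?_⟩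
    · rw [repDiag_apply, Matrix.trace_fin_two]
      exact aa_add_dd h2 g
    · rw [repDiag_apply]
      fin_cases i <;> fin_cases j
      · simpa using ha1 J σ hσ
      · simp
      · simp
      · simpa using hd J σ hσ
  · push Not at hb
    obtain ⟨g₀, k₀, hgk⟩ := hb
    obtain ⟨⟨x, y⟩, hxy⟩ := IsLocalization.surj (nonZeroDivisors R) ((bb t c i2 g₀ k₀)⁻¹)
    have hy0 : (y : R) ≠ 0 := nonZeroDivisors.coe_ne_zero y
    have h4 : (4 : R) ≠ 0 := by
      have e : (4 : R) = 2 * 2 := by norm_num
      rw [e]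
      exact mul_ne_zero h2R h2R
    refine ⟨h.rep hc hχ h2 g₀ k₀ (mul_inv_cancel₀ hgk), fun g => ?_, 4 * y,
      mul_ne_zero h4 hy0, fun J σ hσ i j => ?_⟩
    · rw [rep_apply, Matrix.trace_fin_two]
      exact aa_add_dd h2 g
    · rw [rep_apply]
      fin_cases i <;> fin_cases j
      · have e1 : (4 * (y : R)) • (aa t c i2 σ - 1) =
            (2 * (y : R)) • ((2 : R) • (aa t c i2 σ - 1)) := by
          rw [smul_smul]
          congr 1
          ring
        simpa [e1] using J.smul_mem (2 * (y : R)) (ha1 J σ hσ)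
      · have e1 : (4 * (y : R)) • (bb t c i2 σ k₀ * (bb t c i2 g₀ k₀)⁻¹) =
            x • ((4 : R) • bb t c i2 σ k₀) := by
          simp only [hsm, map_mul, map_ofNat, ← hxy]
          ring
        simpa [e1] using J.smul_mem x (hb1 J σ hσ k₀)
      · have e1 : (4 * (y : R)) • (bb t c i2 g₀ σ) = (y : R) • ((4 : R) • bb t c i2 g₀ σ) := by
          rw [smul_smul]
          congr 1
          ring
        simpa [e1] using J.smul_mem (y : R) (hb2 J σ hσ g₀)
      · have e1 : (4 * (y : R)) • (dd t c i2 σ - 1) =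
            (2 * (y : R)) • ((2 : R) • (dd t c i2 σ - 1)) := by
          rw [smul_smul]
          congr 1
          ring
        simpa [e1] using J.smul_mem (2 * (y : R)) (hd J σ hσ)

end Field

section Lattice

variable {G R K : Type*} [Group G] [CommRing R] [IsDomain R] [IsPrincipalIdealRing R] [Field K]
  [Algebra R K] [IsFractionRing R K]

/-- **Bounded representations are conjugate to integral ones.** -/
theorem exists_integral_conj (ρ : G →* Matrix (Fin 2) (Fin 2) K) {D : R} (hD : D ≠ 0)
    (hρ : ∀ g i j, ∃ x : R, algebraMap R K x = D • ρ g i j) :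
    ∃ (F : Matrix (Fin 2) (Fin 2) K →ₐ[K] Matrix (Fin 2) (Fin 2) K)
      (r : G →* Matrix (Fin 2) (Fin 2) R), (∀ M, (F M).charpoly = M.charpoly) ∧
      ∀ g, (r g).map (algebraMap R K) = F (ρ g) := by
  have hDK : algebraMap R K D ≠ 0 := by
    intro h
    exact hD ((IsFractionRing.injective R K) (by rw [h, map_zero]))
  let f0 : (Fin 2 → R) →ₗ[R] (Fin 2 → K) :=
    { toFun := fun x i => (algebraMap R K D)⁻¹ * algebraMap R K (x i)
      map_add' := fun x y => by
        funext i
        simp only [Pi.add_apply, map_add]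
        ring
      map_smul' := fun a x => by
        funext i
        simp only [Pi.smul_apply, smul_eq_mul, map_mul, RingHom.id_apply, Algebra.smul_def]
        ring }
  let u : G × Fin 2 → (Fin 2 → K) := fun gi => (ρ gi.1).mulVec (Pi.single gi.2 1)
  let L : Submodule R (Fin 2 → K) := Submodule.span R (Set.range u)
  have hu : ∀ g i, u (g, i) ∈ L := fun g i => Submodule.subset_span ⟨(g, i), rfl⟩
  have hLf : L ≤ f0.range := by
    rw [Submodule.span_le]
    rintro _ ⟨⟨g, i⟩, rfl⟩
    choose x hx using fun j => hρ g j i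
    refine ⟨x, ?_⟩
    funext j
    change (algebraMap R K D)⁻¹ * algebraMap R K (x j) = (ρ g).mulVec (Pi.single i 1) j
    rw [hx j, Algebra.smul_def, inv_mul_cancel_left₀ hDK, Matrix.mulVec_single_one]
    rfl
  have hLN : IsNoetherian R L := isNoetherian_of_le hLf
  have hLfin : Module.Finite R L := inferInstance
  have hLfree : Module.Free R L := inferInstance
  let b₀ := Module.Free.chooseBasis R L
  have hli : LinearIndependent K (fun i => (b₀ i : Fin 2 → K)) := by
    rw [← LinearIndependent.iff_fractionRing R K]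
    exact b₀.linearIndependent.map' L.subtype (Submodule.ker_subtype L)
  have hLspan : ∀ w ∈ L, w ∈ Submodule.span K (Set.range fun i => (b₀ i : Fin 2 → K)) := by
    intro w hw
    have h1 := b₀.sum_repr ⟨w, hw⟩
    have h2 : w = ∑ i, (b₀.repr ⟨w, hw⟩ i) • (b₀ i : Fin 2 → K) := by
      have h3 := congrArg L.subtype h1
      rw [map_sum] at h3
      simp only [map_smul] at h3
      exact h3.symm
    rw [h2]
    refine Submodule.sum_mem _ fun i _ => ?_
    rw [← algebraMap_smul K]
    exact Submodule.smul_mem _ _ (Submodule.subset_span ⟨i, rfl⟩)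
  have hsp : ⊤ ≤ Submodule.span K (Set.range fun i => (b₀ i : Fin 2 → K)) := by
    intro w _
    have h1 : w = ∑ i, w i • (Pi.single i 1 : Fin 2 → K) := pi_eq_sum_univ' w
    rw [h1]
    refine Submodule.sum_mem _ fun i _ => Submodule.smul_mem _ _ (hLspan _ ?_)
    have h2 := hu 1 i
    have h3 : u (1, i) = Pi.single i 1 := by
      change (ρ 1).mulVec _ = _
      rw [map_one, Matrix.one_mulVec]
    rwa [h3] at h2
  let bK₀ := Module.Basis.mk hli hsp
  have hcard : Fintype.card (Module.Free.ChooseBasisIndex R L) = 2 := by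
    rw [← Module.finrank_eq_card_basis bK₀]
    simp
  let e : Module.Free.ChooseBasisIndex R L ≃ Fin 2 := Fintype.equivFinOfCardEq hcard
  let b := b₀.reindex e
  let bK := bK₀.reindex e
  have hbK : ∀ i, bK i = (b i : Fin 2 → K) := by
    intro i
    change bK₀.reindex e i = (b₀.reindex e i : Fin 2 → K)
    rw [Module.Basis.reindex_apply, Module.Basis.reindex_apply, Module.Basis.mk_apply]
  -- stability
  have hstab : ∀ g, ∀ w ∈ L, (ρ g).mulVec w ∈ L := by
    intro g w hw
    induction hw using Submodule.span_induction with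
    | mem x hx =>
      obtain ⟨⟨k, i⟩, rfl⟩ := hx
      change (ρ g).mulVec ((ρ k).mulVec _) ∈ L
      rw [Matrix.mulVec_mulVec, ← map_mul]
      exact hu (g * k) i
    | zero => rw [Matrix.mulVec_zero]; exact L.zero_mem
    | add x y _ _ hx hy => rw [Matrix.mulVec_add]; exact L.add_mem hx hy
    | smul a x _ hx =>
      rw [← algebraMap_smul K a x, Matrix.mulVec_smul, algebraMap_smul]
      exact L.smul_mem _ hx
  let F : Matrix (Fin 2) (Fin 2) K →ₐ[K] Matrix (Fin 2) (Fin 2) K :=
    (LinearMap.toMatrixAlgEquiv bK).toAlgHom.comp (Matrix.toLinAlgEquiv' (R := K)).toAlgHom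
  have hF : ∀ M, F M = LinearMap.toMatrix bK bK (Matrix.toLin' M) := fun M => rfl
  have hint : ∀ g i j, ∃ x : R, algebraMap R K x = F (ρ g) i j := by
    intro g i j
    refine ⟨b.repr ⟨(ρ g).mulVec (b j), hstab g _ (b j).2⟩ i, ?_⟩
    set y : L := ⟨(ρ g).mulVec (b j), hstab g _ (b j).2⟩ with hy
    have h1 : (ρ g).mulVec (bK j) = ∑ i, algebraMap R K (b.repr y i) • bK i := by
      have h2 := congrArg L.subtype (b.sum_repr y)
      rw [map_sum] at h2
      simp only [map_smul] at h2
      rw [hbK]
      change (y : Fin 2 → K) = _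
      have h3 : (y : Fin 2 → K) = L.subtype y := rfl
      rw [h3, ← h2]
      refine Finset.sum_congr rfl fun k _ => ?_
      rw [hbK, algebraMap_smul]
      rfl
    rw [hF, LinearMap.toMatrix_apply, Matrix.toLin'_apply, h1, map_sum, Finsupp.finset_sum_apply]
    simp only [map_smul, Module.Basis.repr_self, Finsupp.smul_apply, smul_eq_mul]
    rw [Finset.sum_eq_single i]
    · rw [Finsupp.single_eq_same, mul_one]
    · intro k _ hk
      rw [Finsupp.single_apply, if_neg hk, mul_zero]
    · intro h
      exact absurd (Finset.mem_univ i) h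
  choose r₀ hr₀ using hint
  have hmap : ∀ g, (Matrix.of fun i j => r₀ g i j).map (algebraMap R K) = F (ρ g) := by
    intro g
    ext i j
    exact hr₀ g i j
  have hinj : Function.Injective fun M : Matrix (Fin 2) (Fin 2) R => M.map (algebraMap R K) :=
    Matrix.map_injective (IsFractionRing.injective R K)
  refine ⟨F,
    { toFun := fun g => Matrix.of fun i j => r₀ g i j
      map_one' := ?_
      map_mul' := fun g k => ?_ }, fun M => ?_, hmap⟩
  · apply hinj
    change (Matrix.of fun i j => r₀ 1 i j).map (algebraMap R K) = (1 : Matrix _ _ R).map _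
    rw [hmap, map_one, map_one]
    exact (Matrix.map_one _ (map_zero _) (map_one _)).symm
  · apply hinj
    change (Matrix.of fun i j => r₀ (g * k) i j).map (algebraMap R K) =
      ((Matrix.of fun i j => r₀ g i j) * (Matrix.of fun i j => r₀ k i j)).map (algebraMap R K)
    rw [hmap, Matrix.map_mul, hmap, hmap, map_mul, map_mul]
  · rw [hF, LinearMap.charpoly_toMatrix, Matrix.charpoly_toLin']

end Lattice

end Fermat.Agent.ESCore
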