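import Mathlib
import Fermat.Agent.UnivDef.Burnside

set_option autoImplicit false
set_option linter.unusedSectionVars false

/-!
# The Boston-Lenstra-Ribet lemma

A representation `ρ` of a group `G` (any finite dimension) all of whose elements satisfy
`ρ(g)² - t(g) ρ(g) + χ(g) = 0` with `χ` a character yields a two dimensional representation `ρ'`
with characteristic polynomials `X² - t(g) X + χ(g)`.
-/

open Polynomial Module

noncomputable section

namespace Fermat.Agent.ESCore

section Quad

variable {k G W : Type*} [Field k] [Group G] [AddCommGroup W] [Module k W]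
  {ρ : G →* Module.End k W} {t : G → k} {χ : G →* kˣ}

/-- the graph of the involution -/
def pairs (ρ : G →* Module.End k W) (χ : G →* kˣ) :
    Submodule k (Module.End k W × Module.End k W) :=
  Submodule.span k (Set.range fun g : G => (ρ g, (χ g : k) • ρ g⁻¹))

theorem pairs_mul {x y : Module.End k W × Module.End k W} (hx : x ∈ pairs ρ χ)
    (hy : y ∈ pairs ρ χ) : (x.1 * y.2, y.1 * x.2) ∈ pairs ρ χ := by
  induction hx, hy using Submodule.span_induction₂ with
  | mem_mem x y hx hy =>
    obtain ⟨g, rfl⟩ := hx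
    obtain ⟨h, rfl⟩ := hy
    have h1 : (ρ g * ((χ h : k) • ρ h⁻¹), ρ h * ((χ g : k) • ρ g⁻¹)) =
        (χ h : k) • (ρ (g * h⁻¹), (χ (g * h⁻¹) : k) • ρ (g * h⁻¹)⁻¹) := by
      refine Prod.ext ?_ ?_
      · simp only [Prod.smul_fst, map_mul, mul_smul_comm]
      · simp only [Prod.smul_snd, map_mul, mul_smul_comm, mul_inv_rev, inv_inv, smul_smul,
          map_inv, Units.val_mul]
        congr 1
        rw [mul_comm, mul_assoc]
        simp
    change (ρ g * ((χ h : k) • ρ h⁻¹), ρ h * ((χ g : k) • ρ g⁻¹)) ∈ pairs ρ χ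
    rw [h1]
    exact Submodule.smul_mem _ _ (Submodule.subset_span ⟨_, rfl⟩)
  | zero_left y hy =>
    have := (pairs ρ χ).zero_mem
    simp only [Prod.fst_zero, Prod.snd_zero, zero_mul, mul_zero]
    exact this
  | zero_right x hx =>
    have := (pairs ρ χ).zero_mem
    simp only [Prod.fst_zero, Prod.snd_zero, zero_mul, mul_zero]
    exact this
  | add_left x y z _ _ _ h1 h2 =>
    have := add_mem h1 h2
    simpa [add_mul, mul_add] using this
  | add_right x y z _ _ _ h1 h2 =>
    have := add_mem h1 h2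
    simpa [add_mul, mul_add] using this
  | smul_left r x y _ _ h1 =>
    have := Submodule.smul_mem _ r h1
    simpa using this
  | smul_right r x y _ _ h1 =>
    have := Submodule.smul_mem _ r h1
    simpa using this

/-- `x + x*` is a scalar -/
theorem pairs_add (h : ∀ g, ρ g * ρ g = t g • ρ g - (χ g : k) • 1)
    {x : Module.End k W × Module.End k W} (hx : x ∈ pairs ρ χ) :
    ∃ s : k, x.1 + x.2 = s • (1 : Module.End k W) := by
  induction hx using Submodule.span_induction with
  | mem x hx =>
    obtain ⟨g, rfl⟩ := hx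
    refine ⟨t g, ?_⟩
    have h1 := congrArg (fun y => y * ρ g⁻¹) (h g)
    have h2 : ρ g * ρ g⁻¹ = 1 := by rw [← map_mul, mul_inv_cancel, map_one]
    simp only [sub_mul, smul_mul_assoc, one_mul, mul_assoc, h2, mul_one] at h1
    change ρ g + (χ g : k) • ρ g⁻¹ = t g • 1
    rw [h1]
    abel
  | zero => exact ⟨0, by simp⟩
  | add x y _ _ hx hy =>
    obtain ⟨a, ha⟩ := hx
    obtain ⟨b, hb⟩ := hy
    refine ⟨a + b, ?_⟩
    rw [add_smul, ← ha, ← hb]
    simp only [Prod.fst_add, Prod.snd_add]
    abel
  | smul r x _ hx =>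
    obtain ⟨a, ha⟩ := hx
    refine ⟨r * a, ?_⟩
    rw [← smul_smul, ← ha]
    simp

/-- `x x*` is a scalar -/
theorem pairs_norm (h : ∀ g, ρ g * ρ g = t g • ρ g - (χ g : k) • 1)
    {x : Module.End k W × Module.End k W} (hx : x ∈ pairs ρ χ) :
    ∃ s : k, x.1 * x.2 = s • (1 : Module.End k W) := by
  induction hx using Submodule.span_induction with
  | mem x hx =>
    obtain ⟨g, rfl⟩ := hx
    refine ⟨χ g, ?_⟩
    have h2 : ρ g * ρ g⁻¹ = 1 := by rw [← map_mul, mul_inv_cancel, map_one]
    change ρ g * ((χ g : k) • ρ g⁻¹) = _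
    rw [mul_smul_comm, h2]
  | zero => exact ⟨0, by simp⟩
  | add x y hx' hy' hx hy =>
    obtain ⟨a, ha⟩ := hx
    obtain ⟨b, hb⟩ := hy
    obtain ⟨c, hc⟩ := pairs_add h (pairs_mul hx' hy')
    refine ⟨a + b + c, ?_⟩
    rw [add_smul, add_smul, ← ha, ← hb, ← hc]
    simp only [Prod.fst_add, Prod.snd_add, add_mul, mul_add]
    abel
  | smul r x _ hx =>
    obtain ⟨a, ha⟩ := hx
    refine ⟨r * r * a, ?_⟩
    simp only [Prod.smul_fst, Prod.smul_snd, smul_mul_assoc, mul_smul_comm, ha, smul_smul,
      mul_assoc]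

/-- Every element of the enveloping algebra satisfies a quadratic equation. -/
theorem quad_of_mem_span (h : ∀ g, ρ g * ρ g = t g • ρ g - (χ g : k) • 1)
    {x : Module.End k W} (hx : x ∈ Submodule.span k (Set.range ρ)) :
    ∃ a b : k, x * x = a • x + b • (1 : Module.End k W) := by
  obtain ⟨x', hx'⟩ : ∃ x', (x, x') ∈ pairs ρ χ := by
    induction hx using Submodule.span_induction with
    | mem x hx =>
      obtain ⟨g, rfl⟩ := hx
      exact ⟨_, Submodule.subset_span ⟨g, rfl⟩⟩
    | zero => exact ⟨0, (pairs ρ χ).zero_mem⟩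
    | add x y _ _ hx hy =>
      obtain ⟨a, ha⟩ := hx
      obtain ⟨b, hb⟩ := hy
      exact ⟨a + b, add_mem ha hb⟩
    | smul r x _ hx =>
      obtain ⟨a, ha⟩ := hx
      exact ⟨r • a, Submodule.smul_mem _ r ha⟩
  obtain ⟨s, hs⟩ := pairs_add h hx'
  obtain ⟨n, hn⟩ := pairs_norm h hx'
  refine ⟨s, -n, ?_⟩
  have h1 : x' = s • 1 - x := by rw [← hs]; simp
  simp only at hn
  rw [h1, mul_sub, mul_smul_comm, mul_one] at hn
  rw [neg_smul, ← hn]
  abel

/-- If every endomorphism is quadratic then the dimension is at most two. -/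
theorem finrank_le_two_of_quad [FiniteDimensional k W]
    (hq : ∀ x : Module.End k W, ∃ a b : k, x * x = a • x + b • (1 : Module.End k W)) :
    finrank k W ≤ 2 := by
  by_contra hcon
  push Not at hcon
  obtain ⟨n, hn⟩ : ∃ n, finrank k W = n + 3 := ⟨finrank k W - 3, by omega⟩
  let b := Module.finBasisOfFinrankEq k W hn
  let i0 : Fin (n + 3) := ⟨0, by omega⟩
  let i1 : Fin (n + 3) := ⟨1, by omega⟩
  let i2 : Fin (n + 3) := ⟨2, by omega⟩
  have h10 : i1 ≠ i0 := fun h => by simpa [i0, i1] using congrArg Fin.val h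
  have h20 : i2 ≠ i0 := fun h => by simpa [i0, i2] using congrArg Fin.val h
  have h21 : i2 ≠ i1 := fun h => by simpa [i1, i2] using congrArg Fin.val h
  let x : Module.End k W := b.constr k fun i : Fin (n + 3) =>
    if i = i0 then b i1 else if i = i1 then b i2 else 0
  obtain ⟨α, β, hx⟩ := hq x
  have h0 : x (b i0) = b i1 := by
    rw [Basis.constr_basis, if_pos rfl]
  have h1 : x (b i1) = b i2 := by
    rw [Basis.constr_basis, if_neg h10, if_pos rfl]
  have h2 := LinearMap.congr_fun hx (b i0)
  rw [Module.End.mul_apply, h0, h1, LinearMap.add_apply, LinearMap.smul_apply,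
    LinearMap.smul_apply, h0, Module.End.one_apply] at h2
  have h3 := congrArg (fun v => b.repr v i2) h2
  simp only [map_add, map_smul, Basis.repr_self, Finsupp.add_apply, Finsupp.smul_apply,
    smul_eq_mul] at h3
  rw [Finsupp.single_eq_same, Finsupp.single_eq_of_ne h21, Finsupp.single_eq_of_ne h20] at h3
  simp at h3

/-- existence of an irreducible subrepresentation -/
theorem exists_irreducible_sub [FiniteDimensional k W] [Nontrivial W] (ρ : G →* Module.End k W) :
    ∃ V : Submodule k W, V ≠ ⊥ ∧ (∀ g, ∀ x ∈ V, ρ g x ∈ V) ∧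
      ∀ U : Submodule k W, U ≤ V → (∀ g, ∀ x ∈ U, ρ g x ∈ U) → U = ⊥ ∨ U = V := by
  have hne : ∃ n : ℕ, ∃ V : Submodule k W, V ≠ ⊥ ∧ (∀ g, ∀ x ∈ V, ρ g x ∈ V) ∧ finrank k V = n :=
    ⟨_, ⊤, top_ne_bot, fun _ _ _ => Submodule.mem_top, rfl⟩
  classical
  obtain ⟨V, h1, h2, h3⟩ := Nat.find_spec hne
  refine ⟨V, h1, h2, fun U hU hinv => ?_⟩
  by_contra hcon
  push Not at hcon
  have h4 : finrank k U < Nat.find hne := by
    rw [← h3]
    exact Submodule.finrank_lt_finrank_of_lt (lt_of_le_of_ne hU hcon.2)
  exact Nat.find_min hne h4 ⟨U, hcon.1, hinv, rfl⟩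

/-- two by two matrices: comparison of a quadratic relation with Cayley-Hamilton -/
theorem charpoly_eq_of_quad {M : Matrix (Fin 2) (Fin 2) k} {a b : k}
    (h : M * M = a • M - b • 1) (hns : ∀ c : k, M ≠ c • 1) :
    M.trace = a ∧ M.det = b := by
  have e00 := congrFun (congrFun h 0) 0
  have e01 := congrFun (congrFun h 0) 1
  have e10 := congrFun (congrFun h 1) 0
  have e11 := congrFun (congrFun h 1) 1
  simp only [Matrix.mul_apply, Fin.sum_univ_two, Matrix.sub_apply, Matrix.smul_apply,
    smul_eq_mul, Matrix.one_apply_eq, mul_one, ne_eq, zero_ne_one, not_false_eq_true,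
    Matrix.one_apply_ne, mul_zero, sub_zero, one_ne_zero] at e00 e01 e10 e11
  have htr : M 0 0 + M 1 1 = a := by
    by_contra hcon
    have hcon' : M 0 0 + M 1 1 - a ≠ 0 := sub_ne_zero.mpr hcon
    have h01 : M 0 1 = 0 := by
      have : (M 0 0 + M 1 1 - a) * M 0 1 = 0 := by linear_combination e01
      exact (mul_eq_zero.mp this).resolve_left hcon'
    have h10 : M 1 0 = 0 := by
      have : (M 0 0 + M 1 1 - a) * M 1 0 = 0 := by linear_combination e10
      exact (mul_eq_zero.mp this).resolve_left hcon'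
    have h00 : M 0 0 = M 1 1 := by
      have : (M 0 0 + M 1 1 - a) * (M 0 0 - M 1 1) = 0 := by linear_combination e00 - e11
      exact sub_eq_zero.mp ((mul_eq_zero.mp this).resolve_left hcon')
    refine hns (M 0 0) ?_
    ext i j
    fin_cases i <;> fin_cases j <;> simp [h01, h10, h00]
  refine ⟨by rw [Matrix.trace_fin_two, htr], ?_⟩
  rw [Matrix.det_fin_two]
  subst htr
  linear_combination (-1 : k) * e00

end Quad

/-- **Boston-Lenstra-Ribet lemma.** -/
theorem blr {k G W : Type*} [Field k] [IsAlgClosed k] [Group G] [AddCommGroup W] [Module k W]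
    [FiniteDimensional k W] [Nontrivial W] (ρ : G →* Module.End k W) (t : G → k) (χ : G →* kˣ)
    (h : ∀ g, ρ g * ρ g = t g • ρ g - (χ g : k) • 1) :
    ∃ ρ' : G →* Matrix (Fin 2) (Fin 2) k,
      (∀ g, (ρ' g).charpoly = X ^ 2 - C (t g) * X + C (χ g : k)) ∧
      ∀ g, ρ g = 1 → χ g = 1 → ρ' g = 1 := by
  obtain ⟨V, hV0, hVinv, hVirr⟩ := exists_irreducible_sub ρ
  have hVnt : Nontrivial V := (Submodule.nontrivial_iff_ne_bot).mpr hV0
  -- the subrepresentation
  let ρ₀ : G →* Module.End k V :=
    { toFun := fun g => (ρ g).restrict (hVinv g)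
      map_one' := by
        refine LinearMap.ext fun v => Subtype.ext ?_
        simp
      map_mul' := fun a b => by
        refine LinearMap.ext fun v => Subtype.ext ?_
        simp }
  have hρ₀ : ∀ g (v : V), ((ρ₀ g v : V) : W) = ρ g v := fun g v => rfl
  have h₀ : ∀ g, ρ₀ g * ρ₀ g = t g • ρ₀ g - (χ g : k) • 1 := by
    intro g
    refine LinearMap.ext fun v => Subtype.ext ?_
    have := LinearMap.congr_fun (h g) (v : W)
    exact this
  by_cases hscal : ∀ g, ∃ c : k, ρ₀ g = c • 1
  · -- all scalar
    choose ψ hψ using hscal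
    have hinj : ∀ a b : k, a • (1 : Module.End k V) = b • 1 → a = b := by
      intro a b hab
      obtain ⟨v, hv⟩ := exists_ne (0 : V)
      have := LinearMap.congr_fun hab v
      simp only [LinearMap.smul_apply, Module.End.one_apply] at this
      exact smul_left_injective k hv this
    have hone : ψ 1 = 1 := hinj _ _ (by rw [← hψ, map_one, one_smul])
    have hmul : ∀ a b, ψ (a * b) = ψ a * ψ b := fun a b => hinj _ _ (by
      rw [← hψ, map_mul, hψ, hψ, smul_mul_smul_comm, one_mul])
    have hne : ∀ g, ψ g ≠ 0 := by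
      intro g hg
      have := hmul g g⁻¹
      rw [mul_inv_cancel, hone, hg, zero_mul] at this
      exact one_ne_zero this
    have hrel : ∀ g, ψ g * ψ g = t g * ψ g - χ g := by
      intro g
      refine hinj _ _ ?_
      have := h₀ g
      rw [hψ g, smul_mul_smul_comm, one_mul, smul_smul, ← sub_smul] at this
      exact this
    let ψ' : G → k := fun g => χ g * (ψ g)⁻¹
    have hψ' : ∀ g, ψ g + ψ' g = t g := by
      intro g
      have h1 := hne g
      have h2 := hrel g
      simp only [ψ']
      field_simp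
      linear_combination h2
    have hprod : ∀ g, ψ g * ψ' g = χ g := by
      intro g
      have h1 := hne g
      simp only [ψ']
      field_simp
    refine ⟨{ toFun := fun g => !![ψ g, 0; 0, ψ' g]
              map_one' := ?_
              map_mul' := fun a b => ?_ }, fun g => ?_, fun g hg hχ => ?_⟩
    · simp only [ψ', hone, map_one, Units.val_one, inv_one, mul_one]
      exact Matrix.one_fin_two.symm
    · simp only [ψ', hmul, map_mul, Units.val_mul, mul_inv, Matrix.mul_fin_two]
      simp only [mul_zero, zero_mul, add_zero, zero_add]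
      congr 3
      ring_nf
    · change (!![ψ g, 0; 0, ψ' g] : Matrix (Fin 2) (Fin 2) k).charpoly = _
      rw [Matrix.charpoly_fin_two, Matrix.trace_fin_two_of, Matrix.det_fin_two_of, hψ', hprod]
      simp
    · change (!![ψ g, 0; 0, ψ' g] : Matrix (Fin 2) (Fin 2) k) = 1
      have h1 : ψ g = 1 := by
        refine hinj _ _ ?_
        rw [← hψ, one_smul]
        refine LinearMap.ext fun v => Subtype.ext ?_
        rw [hρ₀, hg]
        rfl
      simp only [ψ', h1, hχ, Units.val_one, inv_one, mul_one]
      exact Matrix.one_fin_two.symm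
  · -- irreducible of dimension two
    push Not at hscal
    obtain ⟨g₀, hg₀⟩ := hscal
    have hirr : ∀ U : Submodule k V, (∀ σ : G, ∀ x ∈ U, ρ₀ σ x ∈ U) → U = ⊥ ∨ U = ⊤ := by
      intro U hU
      have h1 := hVirr (U.map V.subtype) (Submodule.map_subtype_le V U) (by
        rintro g _ ⟨x, hx, rfl⟩
        exact ⟨ρ₀ g x, hU g x hx, rfl⟩)
      rcases h1 with h1 | h1
      · left
        rw [eq_bot_iff]
        intro x hx
        have h2 : (x : W) ∈ U.map V.subtype := ⟨x, hx, rfl⟩
        rw [h1, Submodule.mem_bot] at h2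
        rw [Submodule.mem_bot]
        exact Subtype.ext h2
      · right
        rw [eq_top_iff]
        intro x _
        have h2 : (x : W) ∈ U.map V.subtype := by rw [h1]; exact x.2
        obtain ⟨y, hy, hyx⟩ := h2
        have : y = x := Subtype.ext hyx
        rwa [← this]
    have hspan := Fermat.Agent.UnivDef.span_range_eq_top_algClosed ρ₀ hirr
    have hle := finrank_le_two_of_quad (k := k) (W := V) fun x =>
      quad_of_mem_span (ρ := ρ₀) (t := t) (χ := χ) h₀ (by rw [hspan]; trivial)
    have hge : finrank k V = 2 := by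
      refine le_antisymm hle ?_
      by_contra hcon
      push Not at hcon
      have h1 : 0 < finrank k V := Module.finrank_pos
      have h2 : finrank k V = 1 := by omega
      obtain ⟨v, hv, hv'⟩ := finrank_eq_one_iff'.mp h2
      obtain ⟨c, hc⟩ := hv' (ρ₀ g₀ v)
      refine hg₀ c (LinearMap.ext fun w => ?_)
      obtain ⟨d, rfl⟩ := hv' w
      rw [map_smul, ← hc, LinearMap.smul_apply, Module.End.one_apply, smul_comm]
    let b := Module.finBasisOfFinrankEq k V hge
    let e := LinearMap.toMatrixAlgEquiv b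
    let ρ' : G →* Matrix (Fin 2) (Fin 2) k := (e : Module.End k V →* Matrix (Fin 2) (Fin 2) k).comp ρ₀
    have hρ' : ∀ g, ρ' g = e (ρ₀ g) := fun g => rfl
    have hrel : ∀ g, ρ' g * ρ' g = t g • ρ' g - (χ g : k) • 1 := by
      intro g
      rw [hρ', ← map_mul, h₀ g, map_sub, map_smul, map_smul, map_one]
    have hns : ∀ g, (∀ c : k, ρ₀ g ≠ c • 1) → ∀ c : k, ρ' g ≠ c • 1 := by
      intro g hg c hc
      refine hg c (e.injective ?_)
      rw [← hρ', hc, map_smul, map_one]
    have key : ∀ g, (ρ' g).trace = t g ∧ (ρ' g).det = χ g := by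
      intro g
      by_cases hg : ∀ c : k, ρ₀ g ≠ c • 1
      · exact charpoly_eq_of_quad (hrel g) (hns g hg)
      · push Not at hg
        obtain ⟨c, hc⟩ := hg
        have hc' : ρ' g = c • 1 := by rw [hρ', hc, map_smul, map_one]
        have hc0 : c ≠ 0 := by
          intro h0
          have h1 : ρ' g * ρ' g⁻¹ = 1 := by rw [← map_mul, mul_inv_cancel, map_one]
          rw [hc', h0, zero_smul, zero_mul] at h1
          exact zero_ne_one h1
        have h1 : ∀ d : k, ρ₀ (g * g₀) ≠ d • 1 := by
          intro d hd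
          rw [map_mul, hc, smul_mul_assoc, one_mul] at hd
          refine hg₀ (c⁻¹ * d) ?_
          rw [← smul_smul, ← hd, smul_smul, inv_mul_cancel₀ hc0, one_smul]
        have h2 := (charpoly_eq_of_quad (hrel (g * g₀)) (hns _ h1)).2
        have h3 := (charpoly_eq_of_quad (hrel g₀) (hns _ hg₀)).2
        have h4 : (ρ' g).det = χ g := by
          rw [map_mul, Matrix.det_mul, h3, map_mul, Units.val_mul] at h2
          exact mul_right_cancel₀ (χ g₀).ne_zero h2
        have h5 : (ρ' g).det = c * c := by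
          rw [hc', Matrix.det_smul, Matrix.det_one, Fintype.card_fin]
          ring
        have h6 : (ρ' g).trace = c + c := by
          rw [hc', Matrix.trace_smul, Matrix.trace_one, Fintype.card_fin, smul_eq_mul]
          push_cast
          ring
        refine ⟨?_, h4⟩
        rw [h6]
        have h7 := congrFun (congrFun (hrel g) 0) 0
        rw [hc', smul_mul_smul_comm, one_mul] at h7
        simp only [Matrix.smul_apply, Matrix.sub_apply, Matrix.one_apply_eq, smul_eq_mul,
          mul_one] at h7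
        rw [← h4, h5] at h7
        have h8 : c * (c + c) = c * t g := by linear_combination h7
        exact mul_left_cancel₀ hc0 h8
    refine ⟨ρ', fun g => ?_, fun g hg _ => ?_⟩
    · rw [Matrix.charpoly_fin_two, (key g).1, (key g).2]
    · have h1 : ρ₀ g = 1 := by
        refine LinearMap.ext fun v => Subtype.ext ?_
        rw [hρ₀, hg]
        rfl
      rw [hρ', h1, map_one]

end Fermat.Agent.ESCore
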