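import Fermat.Agent.ESCore.EigenQuotient
import Fermat.Agent.ESCore.BLR
import Fermat.Agent.ESCore.Defs
import Fermat.Agent.FrobDensity.Density
import Fermat.Prelude.Def_GaloisRep_Residual

set_option autoImplicit false

/-!
# From a quadratic Frobenius relation on a finite module to a two-dimensional representation
-/

open Polynomial

noncomputable section

namespace Fermat.Agent.ESCore

/-- Powers of an element satisfying a quadratic equation. -/
theorem pow_quad {k E : Type*} [Field k] [Ring E] [Algebra k E] {f : E} {s b : k}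
    (h : f * f = s • f - b • 1) (i : ℕ) :
    ∃ u : k, f ^ i * f ^ i = u • f ^ i - b ^ i • 1 := by
  set g : E := s • 1 - f with hg
  have hfg : f * g = b • 1 := by
    rw [hg, mul_sub, h, mul_smul_comm, mul_one]
    abel
  have hgf : g * f = b • 1 := by
    rw [hg, sub_mul, h, smul_mul_assoc, one_mul]
    abel
  have hcomm : Commute f g := by
    rw [Commute, SemiconjBy, hfg, hgf]
  have hsum : f + g = s • 1 := by rw [hg]; abel
  have key : ∀ i : ℕ, (∃ u : k, f ^ i + g ^ i = u • 1) ∧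
      ∃ u : k, f ^ (i + 1) + g ^ (i + 1) = u • 1 := by
    intro i
    induction i with
    | zero =>
      refine ⟨⟨2, ?_⟩, ⟨s, by simpa using hsum⟩⟩
      rw [pow_zero, pow_zero, ← two_smul k (1 : E)]
    | succ i ih =>
      obtain ⟨⟨u, hu⟩, ⟨v, hv⟩⟩ := ih
      refine ⟨⟨v, hv⟩, ⟨s * v - b * u, ?_⟩⟩
      have h1 : f ^ (i + 2) + g ^ (i + 2) =
          (f ^ (i + 1) + g ^ (i + 1)) * (f + g) - (f ^ i + g ^ i) * (f * g) := by
        have e1 : f ^ (i + 1) * g = f ^ i * (f * g) := by rw [pow_succ, mul_assoc]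
        have e2 : g ^ (i + 1) * f = g ^ i * (f * g) := by rw [pow_succ, mul_assoc, hcomm.eq]
        rw [pow_succ f (i + 1), pow_succ g (i + 1), mul_add, add_mul, add_mul, e1, e2, add_mul]
        abel
      rw [show i + 1 + 1 = i + 2 from rfl, h1, hu, hv, hsum, hfg]
      simp only [smul_mul_assoc, mul_smul_comm, one_mul, smul_smul, ← sub_smul]
  obtain ⟨⟨u, hu⟩, -⟩ := key i
  refine ⟨u, ?_⟩
  have h2 : g ^ i = u • 1 - f ^ i := by rw [← hu]; abel
  have h3 : f ^ i * g ^ i = b ^ i • 1 := by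
    rw [← hcomm.mul_pow, hfg, _root_.smul_pow, one_pow]
  rw [h2, mul_sub, mul_smul_comm, mul_one] at h3
  rw [← h3]
  abel

/-- two elements of the Galois group with the same restriction to `L` have the same image -/
theorem eq_of_restrict_eq {M : Type*} [Group M] {ρ : GQ →* M} {L : IntermediateField ℚ Qb}
    (hL : ∀ σ : GQ, (∀ x ∈ L, σ x = x) → ρ σ = 1) {σ τ : GQ} (h : ∀ x ∈ L, σ x = τ x) :
    ρ σ = ρ τ := by
  have h1 : ρ (τ⁻¹ * σ) = 1 := hL _ fun x hx => by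
    rw [AlgEquiv.mul_apply, h x hx, ← AlgEquiv.mul_apply, inv_mul_cancel, AlgEquiv.one_apply]
  rw [map_mul, map_inv] at h1
  exact (inv_mul_eq_one.mp h1).symm

theorem eq_of_restrict_eq' {M : Type*} [Monoid M] {ρ : GQ →* M} {L : IntermediateField ℚ Qb}
    (hL : ∀ σ : GQ, (∀ x ∈ L, σ x = x) → ρ σ = 1) {σ τ : GQ} (h : ∀ x ∈ L, σ x = τ x) :
    ρ σ = ρ τ := by
  have h1 : ρ (τ⁻¹ * σ) = 1 := hL _ fun x hx => by
    rw [AlgEquiv.mul_apply, h x hx, ← AlgEquiv.mul_apply, inv_mul_cancel, AlgEquiv.one_apply]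
  calc ρ σ = ρ (τ * (τ⁻¹ * σ)) := by rw [mul_inv_cancel_left]
    _ = ρ τ := by rw [map_mul, h1, mul_one]

section Rep

variable {A V₀ k₀ : Type} [CommRing A] [AddCommGroup V₀] [Module A V₀] [Module.Finite A V₀]
  [Field k₀] [Algebra A k₀] {ι : Type} {T : ι → Module.End A V₀} {a : ι → k₀}

/-- **The two-dimensional representation attached to an eigensystem occurring in a finite Galois
module on which the Frobenius elements satisfy a quadratic relation.** -/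
theorem exists_matrixRep [IsAlgClosed k₀] (hcomm : ∀ i j, T i * T j = T j * T i)
    (hE : ∀ t ∈ jointAlg T a, t.1 = 0 → t.2 = 0)
    (ρ₀ : GQ →* Module.End A V₀) (hρT : ∀ σ i, T i * ρ₀ σ = ρ₀ σ * T i)
    (hfin : GaloisFactorsThroughFiniteLevel ρ₀)
    (χ : GQ →* k₀ˣ) (hχ : GaloisFactorsThroughFiniteLevel χ) (bad : Finset ℕ)
    (hrel : ∀ l : ℕ, l.Prime → l ∉ bad → ∀ B : ValuationSubring Qb, B.LiesOverPrime l →
      ∀ σ : GQ, B.IsFrobeniusAt σ l → ∃ t ∈ jointAlg T a, ∃ d ∈ jointAlg T a,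
        ρ₀ σ * ρ₀ σ = t.1 * ρ₀ σ - d.1 ∧ d.2 = χ σ) :
    ∃ ρ' : GQ →* Matrix (Fin 2) (Fin 2) k₀,
      (∀ σ, ∀ t ∈ jointAlg T a, ∀ d ∈ jointAlg T a, ρ₀ σ * ρ₀ σ = t.1 * ρ₀ σ - d.1 →
        d.2 = χ σ → (ρ' σ).charpoly = X ^ 2 - C t.2 * X + C d.2) ∧
      ∀ σ, ρ₀ σ = 1 → χ σ = 1 → ρ' σ = 1 := by
  obtain ⟨W, _, _, _, _, F, -, hF1, hF⟩ := exists_eigenQuotient hcomm hE
  have hmem : ∀ σ, ρ₀ σ ∈ Subalgebra.centralizer A (Set.range T) := by
    intro σ
    rw [Subalgebra.mem_centralizer_iff]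
    rintro _ ⟨i, rfl⟩
    exact hρT σ i
  have hjmem : ∀ t ∈ jointAlg T a, t.1 ∈ Subalgebra.centralizer A (Set.range T) := by
    intro t ht
    rw [Subalgebra.mem_centralizer_iff]
    rintro _ ⟨i, rfl⟩
    refine LinearMap.ext fun v => ?_
    exact mem_centralizer_comm (T_mem_centralizer hcomm i) ht v
  let ρ : GQ →* Module.End k₀ W :=
    { toFun := fun σ => F ⟨ρ₀ σ, hmem σ⟩
      map_one' := by
        rw [← map_one F]
        congr 1
        exact Subtype.ext (map_one ρ₀)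
      map_mul' := fun σ τ => by
        rw [← map_mul F]
        congr 1
        exact Subtype.ext (map_mul ρ₀ σ τ) }
  have hρ1 : ∀ σ, ρ₀ σ = 1 → ρ σ = 1 := by
    intro σ h
    change F ⟨ρ₀ σ, hmem σ⟩ = 1
    rw [← map_one F]
    congr 1
    exact Subtype.ext h
  have hrel' : ∀ σ, ∀ t ∈ jointAlg T a, ∀ d ∈ jointAlg T a, ρ₀ σ * ρ₀ σ = t.1 * ρ₀ σ - d.1 →
      ρ σ * ρ σ = t.2 • ρ σ - d.2 • 1 := by
    intro σ t ht d hd h
    have h1 : (⟨ρ₀ σ, hmem σ⟩ * ⟨ρ₀ σ, hmem σ⟩ : Subalgebra.centralizer A (Set.range T)) =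
        ⟨t.1, hjmem t ht⟩ * ⟨ρ₀ σ, hmem σ⟩ - ⟨d.1, hjmem d hd⟩ := Subtype.ext h
    have h2 := congrArg F h1
    rw [map_mul, map_sub, map_mul, hF t ht, hF d hd, smul_mul_assoc, one_mul] at h2
    exact h2
  -- the relation for all elements
  have hall : ∀ σ, ∃ s : k₀, ρ σ * ρ σ = s • ρ σ - (χ σ : k₀) • 1 := by
    intro σ
    obtain ⟨L₁, hL₁, h₁⟩ := hfin
    obtain ⟨L₂, hL₂, h₂⟩ := hχ
    haveI : FiniteDimensional ℚ (L₁ ⊔ L₂ : IntermediateField ℚ Qb) := inferInstance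
    obtain ⟨l, hl, hlT, B, hB, φ, hφ, i, j, hi, -⟩ :=
      FrobDensity.exists_frobenius_pow (L₁ ⊔ L₂) σ bad
    obtain ⟨t, ht, d, hd, h3, h4⟩ := hrel l hl hlT B hB φ hφ
    have h5 := hrel' φ t ht d hd h3
    rw [h4] at h5
    obtain ⟨u, hu⟩ := pow_quad h5 i
    have h6 : ρ₀ (φ ^ i) = ρ₀ σ := eq_of_restrict_eq' h₁ fun x hx => hi x
      ((le_sup_left : L₁ ≤ L₁ ⊔ L₂) hx)
    have h7 : χ (φ ^ i) = χ σ := eq_of_restrict_eq' h₂ fun x hx => hi x
      ((le_sup_right : L₂ ≤ L₁ ⊔ L₂) hx)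
    have h8 : ρ (φ ^ i) = ρ σ := by
      change F ⟨ρ₀ (φ ^ i), hmem _⟩ = F ⟨ρ₀ σ, hmem σ⟩
      congr 1
      exact Subtype.ext h6
    refine ⟨u, ?_⟩
    rw [← h8, ← h7, map_pow, map_pow, Units.val_pow_eq_pow_val]
    exact hu
  choose s hs using hall
  obtain ⟨ρ', h1, h2⟩ := blr ρ s χ hs
  refine ⟨ρ', fun σ t ht d hd h3 h4 => ?_, fun σ h3 h4 => h2 σ (hρ1 σ h3) h4⟩
  have h5 := hrel' σ t ht d hd h3
  have h6 := hs σ
  rw [h5, h4] at h6
  have h7 : (t.2 - s σ) • ρ σ = 0 := by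
    rw [sub_smul, sub_eq_zero]
    exact sub_left_injective h6
  have h8 : t.2 = s σ := by
    rw [← sub_eq_zero]
    have h9 : (t.2 - s σ) • (1 : Module.End k₀ W) = 0 := by
      have h10 : ρ σ * ρ σ⁻¹ = 1 := by rw [← map_mul, mul_inv_cancel, map_one]
      rw [← h10, ← smul_mul_assoc, h7, zero_mul]
    exact (smul_eq_zero.mp h9).resolve_right one_ne_zero
  rw [h1 σ, h8, h4]

end Rep

end Fermat.Agent.ESCore
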