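import Mathlib
import Fermat.Agent.ESCore.Pseudo
import Fermat.Agent.ESCore.MatrixRep
import Fermat.Agent.UnivDef.Burnside
import Fermat.Agent.UnivDef.MatrixRep

set_option autoImplicit false

/-!
# Representations and their traces
-/

open IsLocalRing

noncomputable section

namespace Fermat.Agent.ESCore

open UnivDef

section TraceEq

variable {A : Type} [CommRing A] [IsLocalRing A] [IsHausdorff (maximalIdeal A) A]

theorem trace_pow_eq {R G : Type*} [CommRing R] [Group G] {t : G → R} {ε : G →* Rˣ}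
    (ht : IsPseudo t ε) (r : G →* Matrix (Fin 2) (Fin 2) R) {φ : G}
    (h1 : (r φ).trace = t φ) (h2 : (r φ).det = ε φ) (i : ℕ) :
    (r (φ ^ i)).trace = t (φ ^ i) ∧ (r (φ ^ (i + 1))).trace = t (φ ^ (i + 1)) := by
  induction i with
  | zero =>
    refine ⟨?_, by simpa using h1⟩
    rw [pow_zero, map_one, ht.one, Matrix.trace_one]
    simp
  | succ i ih =>
    refine ⟨ih.2, ?_⟩
    have e1 : t (φ ^ (i + 2)) = t φ * t (φ ^ (i + 1)) - ε φ * t (φ ^ i) := by
      have h3 := ht.mul φ (φ ^ (i + 1))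
      rw [← pow_succ', pow_succ' φ i, inv_mul_cancel_left] at h3
      rw [← pow_succ'] at h3
      linear_combination -h3
    have e2 : (r (φ ^ (i + 2))) = (r φ).trace • r (φ ^ (i + 1)) - (r φ).det • r (φ ^ i) := by
      have h4 : r φ * r φ = (r φ).trace • r φ - (r φ).det • 1 := by
        ext a b
        fin_cases a <;> fin_cases b <;>
          simp [Matrix.mul_apply, Fin.sum_univ_two, Matrix.trace_fin_two, Matrix.det_fin_two] <;>
          ring
      have h5 : φ ^ (i + 2) = φ * φ * φ ^ i := by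
        rw [mul_assoc, ← pow_succ', ← pow_succ']
      rw [h5, map_mul, map_mul, h4, sub_mul, smul_mul_assoc, smul_mul_assoc, one_mul, ← map_mul,
        ← pow_succ']
    change (r (φ ^ (i + 2))).trace = t (φ ^ (i + 2))
    rw [e2, Matrix.trace_sub, Matrix.trace_smul, Matrix.trace_smul, ih.1, ih.2, h1, h2, e1,
      smul_eq_mul, smul_eq_mul]

/-- **Traces are determined by the Frobenius elements.** -/
theorem trace_eq_of_frob {r : GQ →* Matrix (Fin 2) (Fin 2) A} (hr : IsContMat r)
    {t : GQ → A} {ε : GQ →* Aˣ} (ht : IsPseudo t ε)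
    (htc : ∀ n : ℕ, ∃ L : IntermediateField ℚ Qb, FiniteDimensional ℚ L ∧
      ∀ σ : GQ, (∀ x ∈ L, σ x = x) → ∀ g, t (σ * g) - t g ∈ maximalIdeal A ^ n)
    (bad : Finset ℕ) (hfrob : ∀ l : ℕ, l.Prime → l ∉ bad → ∀ B : ValuationSubring Qb,
      B.LiesOverPrime l → ∀ σ : GQ, B.IsFrobeniusAt σ l →
        (r σ).trace = t σ ∧ (r σ).det = ε σ) (σ : GQ) : (r σ).trace = t σ := by
  rw [← sub_eq_zero]
  refine IsHausdorff.haus (I := maximalIdeal A) inferInstance _ fun n => ?_
  rw [SModEq.zero, smul_eq_mul, Ideal.mul_top]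
  obtain ⟨L₁, hL₁, h₁⟩ := hr n
  obtain ⟨L₂, hL₂, h₂⟩ := htc n
  obtain ⟨l, hl, hlbad, B, hB, φ, hφ, i, -, hi, -⟩ :=
    FrobDensity.exists_frobenius_pow (L₁ ⊔ L₂) σ bad
  have hδ : ∀ x ∈ L₁ ⊔ L₂, (σ⁻¹ * φ ^ i : GQ) x = x := by
    intro x hx
    rw [AlgEquiv.mul_apply, hi x hx, ← AlgEquiv.mul_apply, inv_mul_cancel, AlgEquiv.one_apply]
  set δ : GQ := σ⁻¹ * φ ^ i with hδdef
  have hσδ : σ * δ = φ ^ i := by rw [hδdef, mul_inv_cancel_left]
  have e1 := h₁ δ fun x hx => hδ x ((le_sup_left : L₁ ≤ L₁ ⊔ L₂) hx)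
  have e2 := h₂ δ fun x hx => hδ x ((le_sup_right : L₂ ≤ L₁ ⊔ L₂) hx)
  obtain ⟨h3, h4⟩ := hfrob l hl hlbad B hB φ hφ
  have h5 := (trace_pow_eq ht r h3 h4 i).1
  have h6 : t (φ ^ i) - t σ ∈ maximalIdeal A ^ n := by
    rw [← hσδ, ht.comm]
    exact e2 σ
  have h7 : (r σ).trace - (r (φ ^ i)).trace ∈ maximalIdeal A ^ n := by
    rw [← hσδ, map_mul, ← Matrix.trace_sub]
    have h8 : r σ - r σ * r δ = -(r σ * (r δ - 1)) := by
      rw [mul_sub, mul_one, neg_sub]
    rw [h8, Matrix.trace_neg, neg_mem_iff, Matrix.trace]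
    refine Ideal.sum_mem _ fun j _ => ?_
    rw [Matrix.diag_apply, Matrix.mul_apply]
    exact Ideal.sum_mem _ fun k _ => Ideal.mul_mem_left _ _ (e1 k j)
  have h8 : (r σ).trace - t σ = ((r σ).trace - (r (φ ^ i)).trace) + (t (φ ^ i) - t σ) := by
    rw [h5]
    ring
  rw [h8]
  exact add_mem h7 h6

end TraceEq

section Span

variable {A : Type} [CommRing A] [IsLocalRing A]

/-- Nakayama for spans of matrices -/
theorem span_eq_top_of_residue {n : ℕ} {ι : Type*} (s : ι → Matrix (Fin n) (Fin n) A)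
    (h : Submodule.span (ResidueField A) (Set.range fun i => (s i).map (residue A)) = ⊤) :
    Submodule.span A (Set.range s) = ⊤ := by
  have h1 : ∀ M : Matrix (Fin n) (Fin n) (ResidueField A),
      ∃ N ∈ Submodule.span A (Set.range s), N.map (residue A) = M := by
    intro M
    have hM : M ∈ Submodule.span (ResidueField A)
        (Set.range fun i => (s i).map (residue A)) := by rw [h]; trivial
    induction hM using Submodule.span_induction with
    | mem x hx =>
      obtain ⟨i, rfl⟩ := hx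
      exact ⟨s i, Submodule.subset_span ⟨i, rfl⟩, rfl⟩
    | zero => exact ⟨0, Submodule.zero_mem _, Matrix.map_zero _ (map_zero _)⟩
    | add x y _ _ hx hy =>
      obtain ⟨a, ha, rfl⟩ := hx
      obtain ⟨b, hb, rfl⟩ := hy
      exact ⟨a + b, Submodule.add_mem _ ha hb, Matrix.map_add _ (map_add _) _ _⟩
    | smul c x _ hx =>
      obtain ⟨a, ha, rfl⟩ := hx
      obtain ⟨c', rfl⟩ := residue_surjective c
      refine ⟨c' • a, Submodule.smul_mem _ _ ha, ?_⟩
      ext i j
      simp [Matrix.map_apply, Matrix.smul_apply]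
  have h2 : (⊤ : Submodule A (Matrix (Fin n) (Fin n) A)) ≤
      Submodule.span A (Set.range s) := by
    refine Submodule.le_of_le_smul_of_le_jacobson_bot (I := maximalIdeal A)
      (Module.finite_def.mp inferInstance) (IsLocalRing.maximalIdeal_le_jacobson _) ?_
    intro M _
    obtain ⟨N, hN, hNM⟩ := h1 (M.map (residue A))
    have h3 : M = N + (M - N) := by rw [add_sub_cancel]
    rw [h3]
    refine Submodule.add_mem_sup hN ?_
    have h4 : ∀ i j, (M - N) i j ∈ maximalIdeal A := by
      intro i j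
      rw [← residue_eq_zero_iff, Matrix.sub_apply, map_sub, sub_eq_zero]
      exact (congrFun (congrFun hNM i) j).symm
    rw [Matrix.matrix_eq_sum_single (M - N)]
    refine Submodule.sum_mem _ fun i _ => Submodule.sum_mem _ fun j _ => ?_
    have h5 : Matrix.single i j ((M - N) i j) = ((M - N) i j) • Matrix.single i j (1 : A) := by
      rw [Matrix.smul_single, smul_eq_mul, mul_one]
    rw [h5]
    exact Submodule.smul_mem_smul (h4 i j) Submodule.mem_top
  exact eq_top_iff.mpr h2

/-- the trace form is non-degenerate -/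
theorem eq_zero_of_trace_mul {R : Type*} [CommRing R] {n : ℕ} {M : Matrix (Fin n) (Fin n) R}
    (h : ∀ N : Matrix (Fin n) (Fin n) R, (M * N).trace = 0) : M = 0 := by
  ext i j
  have h1 := h (Matrix.single j i 1)
  rw [Matrix.trace_mul_single] at h1
  simpa using h1

/-- an element acting trivially on traces acts trivially -/
theorem eq_one_of_trace {G : Type*} [Group G] {n : ℕ} (r : G →* Matrix (Fin n) (Fin n) A)
    (h : Submodule.span A (Set.range r) = ⊤) {σ : G}
    (hσ : ∀ g, (r (σ * g)).trace = (r g).trace) : r σ = 1 := by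
  rw [← sub_eq_zero]
  refine eq_zero_of_trace_mul fun N => ?_
  have hN : N ∈ Submodule.span A (Set.range r) := by rw [h]; trivial
  induction hN using Submodule.span_induction with
  | mem x hx =>
    obtain ⟨g, rfl⟩ := hx
    rw [sub_mul, one_mul, Matrix.trace_sub, ← map_mul, hσ, sub_self]
  | zero => rw [mul_zero, Matrix.trace_zero]
  | add x y _ _ hx hy => rw [mul_add, Matrix.trace_add, hx, hy, add_zero]
  | smul c x _ hx => rw [mul_smul_comm, Matrix.trace_smul, hx, smul_zero]

/-- matrices of a residually absolutely irreducible representation span -/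
theorem span_matOf_eq_top (ρ : GaloisRepAdic A) (h : ρ.residual.IsAbsolutelyIrreducible)
    (b : Module.Basis (Fin 2) A ρ.V) : Submodule.span A (Set.range (matOf ρ b)) = ⊤ := by
  refine span_eq_top_of_residue (fun σ => matOf ρ b σ) ?_
  have h1 := span_matrix_eq_top ρ.residual h (basisResidual ρ b)
  rw [← h1]
  congr 1
  ext x
  simp only [Set.mem_range]
  constructor
  · rintro ⟨g, rfl⟩
    exact ⟨g, toMatrix_residual ρ b g⟩
  · rintro ⟨g, rfl⟩
    exact ⟨g, (toMatrix_residual ρ b g).symm⟩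

/-- **Unramifiedness from the trace.** -/
theorem isUnramifiedAt_of_trace [IsHausdorff (maximalIdeal A) A] (ρ : GaloisRepAdic A)
    (habs : ρ.residual.IsAbsolutelyIrreducible)
    {t : GQ → A} {ε : GQ →* Aˣ} (ht : IsPseudo t ε)
    (htc : ∀ n : ℕ, ∃ L : IntermediateField ℚ Qb, FiniteDimensional ℚ L ∧
      ∀ σ : GQ, (∀ x ∈ L, σ x = x) → ∀ g, t (σ * g) - t g ∈ maximalIdeal A ^ n)
    (bad : Finset ℕ) (hfrob : ∀ l : ℕ, l.Prime → l ∉ bad → ∀ B : ValuationSubring Qb,
      B.LiesOverPrime l → ∀ σ : GQ, B.IsFrobeniusAt σ l →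
        LinearMap.charpoly (ρ.ρ σ) = Polynomial.X ^ 2 - Polynomial.C (t σ) * Polynomial.X +
          Polynomial.C (ε σ : A))
    {q : ℕ} (hq : ∀ B : ValuationSubring Qb, B.LiesOverPrime q →
      ∀ σ ∈ B.inertiaSubgroupIn ℚ, ∀ g, t (σ * g) = t g) : ρ.IsUnramifiedAt q := by
  let b : Module.Basis (Fin 2) A ρ.V :=
    (Module.finBasis A ρ.V).reindex (finCongr ρ.finrank_eq)
  have h1 : ∀ σ, (matOf ρ b σ).trace = t σ := by
    refine trace_eq_of_frob (isContMat_matOf ρ b) ht htc bad fun l hl hlbad B hB σ hσ => ?_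
    have h2 := hfrob l hl hlbad B hB σ hσ
    rw [← LinearMap.charpoly_toMatrix (ρ.ρ σ) b] at h2
    change (matOf ρ b σ).charpoly = _ at h2
    rw [Matrix.charpoly_fin_two] at h2
    constructor
    · have h3 := congrArg (fun P : Polynomial A => P.coeff 1) h2
      simp only [Polynomial.coeff_add, Polynomial.coeff_sub, Polynomial.coeff_X_pow,
        Polynomial.coeff_C_mul, Polynomial.coeff_X_one, Polynomial.coeff_C_succ, mul_one,
        add_zero] at h3
      simpa using h3
    · have h3 := congrArg (fun P : Polynomial A => P.coeff 0) h2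
      simpa using h3
  intro B hB σ hσ
  have h2 : matOf ρ b σ = 1 := by
    refine eq_one_of_trace (matOf ρ b) (span_matOf_eq_top ρ habs b) fun g => ?_
    rw [h1, h1]
    exact hq B hB σ hσ g
  have h3 : LinearMap.toMatrix b b (ρ.ρ σ) = LinearMap.toMatrix b b 1 := by
    rw [LinearMap.toMatrix_one]
    exact h2
  exact (LinearMap.toMatrix b b).injective h3

end Span

end Fermat.Agent.ESCore
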