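import Mathlib
import Fermat.Agent.ESCore.Pseudo

set_option autoImplicit false

/-!
# Limits of traces: from a tower of finite modules to a pseudo-representation
-/

open IsLocalRing

noncomputable section

namespace Fermat.Agent.ESCore

section Lim

variable {O : Type*} [CommRing O] [IsLocalRing O] [IsNoetherianRing O]

/-- ideals of a noetherian local ring are closed -/
theorem mem_of_forall_sup_pow (J : Ideal O) {x : O}
    (h : ∀ k : ℕ, x ∈ J ⊔ maximalIdeal O ^ k) : x ∈ J := by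
  haveI : IsHausdorff (maximalIdeal O) (O ⧸ J) := inferInstance
  rw [← Ideal.Quotient.eq_zero_iff_mem]
  refine IsHausdorff.haus (I := maximalIdeal O) inferInstance _ fun k => ?_
  rw [SModEq.zero]
  obtain ⟨y, hy, z, hz, hyz⟩ := Submodule.mem_sup.mp (h k)
  have h1 : Ideal.Quotient.mk J x = z • (1 : O ⧸ J) := by
    rw [← hyz, map_add, Ideal.Quotient.eq_zero_iff_mem.mpr hy, zero_add]
    change _ = Ideal.Quotient.mk J z * 1
    rw [mul_one]
  rw [h1]
  exact Submodule.smul_mem_smul hz Submodule.mem_top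

variable [IsAdicComplete (maximalIdeal O) O]

theorem span_pow_le {p : O} (hp : p ∈ maximalIdeal O) (n : ℕ) :
    Ideal.span {p ^ n} ≤ maximalIdeal O ^ n := by
  rw [Ideal.span_singleton_le_iff_mem]
  exact Ideal.pow_mem_pow hp n

omit [IsNoetherianRing O] in
theorem eq_of_forall_sub_mem {p : O} (hp : p ∈ maximalIdeal O) {x y : O}
    (h : ∀ n : ℕ, x - y ∈ Ideal.span {p ^ n}) : x = y := by
  rw [← sub_eq_zero]
  refine IsHausdorff.haus (I := maximalIdeal O) inferInstance _ fun k => ?_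
  rw [SModEq.zero, smul_eq_mul, Ideal.mul_top]
  have h1 : Ideal.span {p ^ k} ≤ maximalIdeal O ^ k := by
    rw [Ideal.span_singleton_le_iff_mem]
    exact Ideal.pow_mem_pow hp k
  exact h1 (h k)

/-- **Limits.** -/
theorem exists_lim {p : O} (hp : p ∈ maximalIdeal O) (F : ℕ → Set O)
    (hne : ∀ n, (F n).Nonempty) (hanti : ∀ n, F (n + 1) ⊆ F n)
    (hcong : ∀ n, ∀ x ∈ F n, ∀ y ∈ F n, x - y ∈ Ideal.span {p ^ n}) :
    ∃ t, ∀ n, ∀ x ∈ F n, t - x ∈ Ideal.span {p ^ n} := by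
  choose x hx using hne
  have hanti' : Antitone F := antitone_nat_of_succ_le hanti
  obtain ⟨t, ht⟩ := IsPrecomplete.prec (I := maximalIdeal O) (M := O) inferInstance (f := x)
    (fun {m n} hmn => by
      rw [SModEq.sub_mem, smul_eq_mul, Ideal.mul_top]
      exact span_pow_le hp m (hcong m _ (hx m) _ (hanti' hmn (hx n))))
  refine ⟨t, fun n y hy => mem_of_forall_sup_pow _ fun k => ?_⟩
  have h1 : t - x (max n k) ∈ maximalIdeal O ^ k := by
    have h2 := ht (max n k)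
    rw [SModEq.sub_mem, smul_eq_mul, Ideal.mul_top] at h2
    have h3 := Ideal.pow_le_pow_right (le_max_right n k) h2
    rw [← neg_mem_iff, neg_sub]
    exact h3
  have h2 : x (max n k) - y ∈ Ideal.span {p ^ n} :=
    hcong n _ (hanti' (le_max_left n k) (hx _)) _ hy
  have h3 : t - y = (x (max n k) - y) + (t - x (max n k)) := by ring
  rw [h3]
  exact Submodule.add_mem_sup h2 h1

end Lim

section TrS

variable {G A : Type*} [Group G] [Ring A] (ρ χ : G →* A)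

/-- the trace operator -/
def trS (g : G) : A := ρ g + χ g * ρ g⁻¹

theorem trS_one : trS ρ χ 1 = 2 := by
  rw [trS, inv_one, map_one, map_one, one_mul]
  norm_num

variable {ρ χ}

theorem trS_mul (h1 : ∀ g h, Commute (χ g) (ρ h)) (h2 : ∀ g h, Commute (χ g) (χ h))
    (h3 : ∀ g h, Commute (trS ρ χ g) (ρ h)) (g h : G) :
    trS ρ χ g * trS ρ χ h = trS ρ χ (g * h) + χ g * trS ρ χ (g⁻¹ * h) := by
  have e1 : χ g * χ (g⁻¹ * h) = χ h := by rw [← map_mul, mul_inv_cancel_left]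
  have e2 : trS ρ χ g * (χ h * ρ h⁻¹) = χ h * (ρ h⁻¹ * trS ρ χ g) := by
    have : Commute (trS ρ χ g) (χ h) := by
      refine Commute.add_left (h1 h g).symm ?_
      exact Commute.mul_left (h2 g h) (h1 h g⁻¹).symm
    rw [← mul_assoc, this.eq, mul_assoc, (h3 g h⁻¹).eq]
  have e3 : ρ h⁻¹ * (χ g * ρ g⁻¹) = χ g * (ρ h⁻¹ * ρ g⁻¹) := by
    rw [← mul_assoc, (h1 g h⁻¹).symm.eq, mul_assoc]
  have e4 : trS ρ χ g * trS ρ χ h = trS ρ χ g * ρ h + trS ρ χ g * (χ h * ρ h⁻¹) := by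
    rw [← mul_add]
    rfl
  rw [e4, e2, trS, trS, trS, mul_add (ρ h⁻¹), e3, mul_add (χ g), ← mul_assoc (χ g) (χ (g⁻¹ * h)),
    e1, mul_inv_rev, mul_inv_rev, inv_inv, map_mul χ g h, map_mul ρ g h, map_mul ρ h⁻¹ g⁻¹,
    map_mul ρ g⁻¹ h, map_mul ρ h⁻¹ g, add_mul, mul_add (χ h), mul_assoc (χ g) (ρ g⁻¹) (ρ h),
    mul_assoc (χ g) (χ h), ← mul_assoc (χ h) (χ g), (h2 h g).eq, mul_assoc (χ g) (χ h)]
  abel

theorem trS_one_mul {g : G} (h1 : ρ g = 1) (h2 : χ g = 1) (h : G) :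
    trS ρ χ (g * h) = trS ρ χ h := by
  have h3 : ρ g⁻¹ = 1 := by
    have h4 : ρ g⁻¹ * ρ g = 1 := by rw [← map_mul, inv_mul_cancel, map_one]
    rwa [h1, mul_one] at h4
  rw [trS, trS, map_mul, h1, one_mul, map_mul, h2, one_mul, mul_inv_rev, map_mul, h3, mul_one]

theorem trS_mul_one {g : G} (h1 : ρ g = 1) (h2 : χ g = 1) (h : G) :
    trS ρ χ (h * g) = trS ρ χ h := by
  have h3 : ρ g⁻¹ = 1 := by
    have h4 : ρ g⁻¹ * ρ g = 1 := by rw [← map_mul, inv_mul_cancel, map_one]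
    rwa [h1, mul_one] at h4
  rw [trS, trS, map_mul, h1, mul_one, map_mul, h2, mul_one, mul_inv_rev, map_mul, h3, one_mul]

/-- the trace operator of a Frobenius element satisfying a quadratic relation -/
theorem trS_of_quad {T U : A} {σ : G} (h : ρ σ * ρ σ = T * ρ σ - U) (hU : χ σ = U) :
    trS ρ χ σ = T := by
  have h1 : (ρ σ * ρ σ) * ρ σ⁻¹ = (T * ρ σ - U) * ρ σ⁻¹ := by rw [h]
  rw [mul_assoc, ← map_mul, mul_inv_cancel, map_one, mul_one, sub_mul, mul_assoc, ← map_mul,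
    mul_inv_cancel, map_one, mul_one] at h1
  rw [trS, h1, hU]
  abel

/-- the trace operators of powers -/
theorem trS_pow_mem (B : Subring A) (h1 : ∀ g h, Commute (χ g) (ρ h)) {σ : G}
    (hs : trS ρ χ σ ∈ B) (hχ : χ σ ∈ B) (i : ℕ) :
    trS ρ χ (σ ^ i) ∈ B ∧ trS ρ χ (σ ^ (i + 1)) ∈ B := by
  induction i with
  | zero =>
    refine ⟨?_, by simpa using hs⟩
    rw [pow_zero, trS_one]
    exact ofNat_mem B 2
  | succ i ih =>
    refine ⟨ih.2, ?_⟩
    have key : trS ρ χ (σ ^ (i + 1 + 1)) =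
        trS ρ χ σ * trS ρ χ (σ ^ (i + 1)) - χ σ * trS ρ χ (σ ^ i) := by
      have e1 : χ σ * ρ σ⁻¹ * ρ (σ ^ (i + 1)) = χ σ * ρ (σ ^ i) := by
        rw [mul_assoc, ← map_mul, pow_succ', inv_mul_cancel_left]
      have e2 : ρ σ * (χ (σ ^ (i + 1)) * ρ (σ ^ (i + 1))⁻¹) =
          χ σ * (χ (σ ^ i) * ρ (σ ^ i)⁻¹) := by
        rw [← mul_assoc, (h1 _ σ).symm.eq, mul_assoc, ← map_mul, ← mul_assoc, ← map_mul,
          ← pow_succ']
        congr 2
        rw [pow_succ, mul_inv_rev, mul_inv_cancel_left]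
      have e3 : χ σ * ρ σ⁻¹ * (χ (σ ^ (i + 1)) * ρ (σ ^ (i + 1))⁻¹) =
          χ (σ ^ (i + 1 + 1)) * ρ (σ ^ (i + 1 + 1))⁻¹ := by
        rw [mul_assoc, ← mul_assoc (ρ σ⁻¹), (h1 _ σ⁻¹).symm.eq, mul_assoc, ← map_mul,
          ← mul_assoc, ← map_mul, ← pow_succ']
        congr 2
        rw [pow_succ σ (i + 1), mul_inv_rev]
      simp only [trS, add_mul, mul_add, e1, e2, e3]
      rw [← map_mul, ← pow_succ']
      abel
    rw [key]
    exact sub_mem (mul_mem hs ih.2) (mul_mem hχ ih.1)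

end TrS

/-- **From a tower of modules to a pseudo-representation.** -/
theorem exists_pseudo_of_tower {G O P : Type*} [Group G] [Ring P] [CommRing O] [IsLocalRing O]
    [IsNoetherianRing O] [IsAdicComplete (maximalIdeal O) O] {p : O} (hp : p ∈ maximalIdeal O)
    {A : ℕ → Type*} [∀ n, Ring (A n)] (α : ∀ n, P →+* A n) (ρ χ : ∀ n, G →* A n)
    (hχ : ∀ n g, ∃ f, α n f = χ n g) (hs : ∀ n g, ∃ f, α n f = trS (ρ n) (χ n) g)
    (hcomm : ∀ n g f, Commute (α n f) (ρ n g)) (hcomm' : ∀ n f f', Commute (α n f) (α n f'))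
    (hcs : ∀ n g f, α (n + 1) f = trS (ρ (n + 1)) (χ (n + 1)) g → α n f = trS (ρ n) (χ n) g)
    (hcχ : ∀ n g f, α (n + 1) f = χ (n + 1) g → α n f = χ n g)
    (π : P →+* O) (hF : ∀ n f, α n f = 0 → π f ∈ Ideal.span {p ^ n}) :
    ∃ (t : G → O) (ε : G →* Oˣ), IsPseudo t ε ∧
      (∀ n g f, α n f = trS (ρ n) (χ n) g → t g - π f ∈ Ideal.span {p ^ n}) ∧
      (∀ n g f, α n f = χ n g → (ε g : O) - π f ∈ Ideal.span {p ^ n}) ∧
      (∀ n g, ρ n g = 1 → χ n g = 1 → (∀ h, t (g * h) - t h ∈ Ideal.span {p ^ n}) ∧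
        (ε g : O) - 1 ∈ Ideal.span {p ^ n}) := by
  have hF' : ∀ n f f', α n f = α n f' → π f - π f' ∈ Ideal.span {p ^ n} := by
    intro n f f' h
    rw [← map_sub]
    refine hF n _ ?_
    rw [map_sub, h, sub_self]
  have ht : ∀ g, ∃ t : O, ∀ n, ∀ x ∈ {x | ∃ f, α n f = trS (ρ n) (χ n) g ∧ π f = x},
      t - x ∈ Ideal.span {p ^ n} := by
    intro g
    refine exists_lim hp _ (fun n => ?_) (fun n => ?_) fun n => ?_
    · obtain ⟨f, hf⟩ := hs n g
      exact ⟨_, f, hf, rfl⟩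
    · rintro _ ⟨f, hf, rfl⟩
      exact ⟨f, hcs n g f hf, rfl⟩
    · rintro _ ⟨f, hf, rfl⟩ _ ⟨f', hf', rfl⟩
      exact hF' n _ _ (hf.trans hf'.symm)
  have he : ∀ g, ∃ t : O, ∀ n, ∀ x ∈ {x | ∃ f, α n f = χ n g ∧ π f = x},
      t - x ∈ Ideal.span {p ^ n} := by
    intro g
    refine exists_lim hp _ (fun n => ?_) (fun n => ?_) fun n => ?_
    · obtain ⟨f, hf⟩ := hχ n g
      exact ⟨_, f, hf, rfl⟩
    · rintro _ ⟨f, hf, rfl⟩
      exact ⟨f, hcχ n g f hf, rfl⟩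
    · rintro _ ⟨f, hf, rfl⟩ _ ⟨f', hf', rfl⟩
      exact hF' n _ _ (hf.trans hf'.symm)
  choose t ht using ht
  choose e he using he
  have ht' : ∀ n g f, α n f = trS (ρ n) (χ n) g → t g - π f ∈ Ideal.span {p ^ n} :=
    fun n g f h => ht g n _ ⟨f, h, rfl⟩
  have he' : ∀ n g f, α n f = χ n g → e g - π f ∈ Ideal.span {p ^ n} :=
    fun n g f h => he g n _ ⟨f, h, rfl⟩
  have hmulmem : ∀ n (x y x' y' : O), x - x' ∈ Ideal.span {p ^ n} →
      y - y' ∈ Ideal.span {p ^ n} → x * y - x' * y' ∈ Ideal.span {p ^ n} := by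
    intro n x y x' y' h1 h2
    have : x * y - x' * y' = y * (x - x') + x' * (y - y') := by ring
    rw [this]
    exact add_mem (Ideal.mul_mem_left _ _ h1) (Ideal.mul_mem_left _ _ h2)
  let ε₀ : G →* O :=
    { toFun := e
      map_one' := by
        refine eq_of_forall_sub_mem hp fun n => ?_
        have h1 := he' n 1 1 (by rw [map_one, map_one])
        rwa [map_one] at h1
      map_mul' := by
        intro g h
        refine eq_of_forall_sub_mem hp fun n => ?_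
        obtain ⟨f, hf⟩ := hχ n g
        obtain ⟨f', hf'⟩ := hχ n h
        have h1 := he' n (g * h) (f * f') (by rw [map_mul, map_mul, hf, hf'])
        have h2 := hmulmem n _ _ _ _ (he' n g f hf) (he' n h f' hf')
        rw [map_mul] at h1
        have := sub_mem h1 h2
        rwa [sub_sub_sub_cancel_right] at this }
  have hcχρ : ∀ n g h, Commute (χ n g) (ρ n h) := by
    intro n g h
    obtain ⟨f, hf⟩ := hχ n g
    rw [← hf]
    exact hcomm n h f
  have hcχχ : ∀ n g h, Commute (χ n g) (χ n h) := by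
    intro n g h
    obtain ⟨f, hf⟩ := hχ n g
    obtain ⟨f', hf'⟩ := hχ n h
    rw [← hf, ← hf']
    exact hcomm' n f f'
  have hcsρ : ∀ n g h, Commute (trS (ρ n) (χ n) g) (ρ n h) := by
    intro n g h
    obtain ⟨f, hf⟩ := hs n g
    rw [← hf]
    exact hcomm n h f
  refine ⟨t, ε₀.toHomUnits, ⟨?_, fun g h => ?_⟩, ht', he', fun n g h1 h2 => ⟨fun h => ?_, ?_⟩⟩
  · refine eq_of_forall_sub_mem hp fun n => ?_
    have h1 := ht' n 1 2 (by rw [trS_one, map_ofNat])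
    rwa [map_ofNat] at h1
  · change t g * t h = t (g * h) + e g * t (g⁻¹ * h)
    refine eq_of_forall_sub_mem hp fun n => ?_
    obtain ⟨f₁, h₁⟩ := hs n g
    obtain ⟨f₂, h₂⟩ := hs n h
    obtain ⟨f₃, h₃⟩ := hχ n g
    obtain ⟨f₄, h₄⟩ := hs n (g⁻¹ * h)
    have h5 := ht' n (g * h) (f₁ * f₂ - f₃ * f₄) (by
      rw [map_sub, map_mul, map_mul, h₁, h₂, h₃, h₄, trS_mul (hcχρ n) (hcχχ n) (hcsρ n),
        add_sub_cancel_right])
    rw [map_sub, map_mul, map_mul] at h5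
    have h6 := hmulmem n _ _ _ _ (ht' n g f₁ h₁) (ht' n h f₂ h₂)
    have h7 := hmulmem n _ _ _ _ (he' n g f₃ h₃) (ht' n _ f₄ h₄)
    have h8 := sub_mem (sub_mem h6 h5) h7
    have h9 : t g * t h - (t (g * h) + e g * t (g⁻¹ * h)) =
        t g * t h - π f₁ * π f₂ - (t (g * h) - (π f₁ * π f₂ - π f₃ * π f₄)) -
          (e g * t (g⁻¹ * h) - π f₃ * π f₄) := by ring
    rw [h9]
    exact h8
  · obtain ⟨f, hf⟩ := hs n h
    have h3 := ht' n (g * h) f (by rw [trS_one_mul h1 h2, hf])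
    have h4 := sub_mem h3 (ht' n h f hf)
    rwa [sub_sub_sub_cancel_right] at h4
  · have h3 := he' n g 1 (by rw [map_one, h2])
    rwa [map_one] at h3

end Fermat.Agent.ESCore
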