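import Mathlib
import Fermat.Agent.ESCore.PseudoLim
import Fermat.Agent.ESCore.MatrixRep

set_option autoImplicit false

/-!
# Towers of characters, Hecke algebras and pseudo-representations
-/

open IsLocalRing

noncomputable section

namespace Fermat.Agent.ESCore.Tower

/-! ### Characters separate points modulo `m` -/

theorem exists_eq_smul_of_forall_char {L : Type*} [AddCommGroup L] [Module.Finite ℤ L] {m : ℕ}
    (hm : m ≠ 0) {w : L} (h : ∀ φ : Multiplicative L →* ℂˣ, φ ^ m = 1 →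
      φ (Multiplicative.ofAdd w) = 1) : ∃ v : L, w = m • v := by
  by_contra hcon
  let f : L →+ L := (Module.toAddMonoidEnd ℕ L) m
  have hf : ∀ v, f v = m • v := fun v => rfl
  let Q := L ⧸ f.range
  have hw : (QuotientAddGroup.mk w : Q) ≠ 0 := by
    intro h0
    rw [QuotientAddGroup.eq_zero_iff] at h0
    obtain ⟨v, hv⟩ := h0
    exact hcon ⟨v, by rw [← hv, hf]⟩
  have hQ : ∀ x : Q, m • x = 0 := by
    intro x
    obtain ⟨v, rfl⟩ := QuotientAddGroup.mk_surjective x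
    rw [← QuotientAddGroup.mk_nsmul, QuotientAddGroup.eq_zero_iff]
    exact ⟨v, hf v⟩
  haveI : Module.Finite ℤ Q :=
    Module.Finite.of_surjective (QuotientAddGroup.mk' f.range).toIntLinearMap
      QuotientAddGroup.mk_surjective
  haveI : Finite Q := by
    refine Module.finite_of_fg_torsion Q fun x => ?_
    refine ⟨⟨(m : ℤ), mem_nonZeroDivisors_of_ne_zero (by exact_mod_cast hm)⟩, ?_⟩
    change (m : ℤ) • x = 0
    rw [natCast_zsmul, hQ]
  obtain ⟨φ, hφ⟩ := CommGroup.exists_apply_ne_one_of_hasEnoughRootsOfUnity (Multiplicative Q) ℂ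
    (a := Multiplicative.ofAdd (QuotientAddGroup.mk w : Q)) (by
      intro h0
      exact hw (Multiplicative.ofAdd.injective h0))
  apply hφ
  refine h (φ.comp (AddMonoidHom.toMultiplicative (QuotientAddGroup.mk' f.range))) ?_
  refine MonoidHom.ext fun x => ?_
  rw [MonoidHom.pow_apply, MonoidHom.comp_apply, ← map_pow, MonoidHom.one_apply]
  have h1 : (AddMonoidHom.toMultiplicative (QuotientAddGroup.mk' f.range)) x ^ m = 1 :=
    hQ (QuotientAddGroup.mk (Multiplicative.toAdd x))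
  rw [h1, map_one]

/-! ### The algebra generated by the Hecke operators on the tower and on the lattice -/

variable {Γ : Type} [Group Γ] {ι : Type} {X : ℕ → Subgroup (Γ →* ℂˣ)}
  (Tx : ι → ∀ n, Module.End ℤ (Additive (X n))) {𝕋 : Type} [CommRing 𝕋] (Tt : ι → 𝕋)
  {L : Type} [AddCommGroup L] [Module 𝕋 L] (per : Γ →* Multiplicative L)

/-- the generators -/
def genR (i : ι) : (∀ n, Module.End ℤ (Additive (X n))) × 𝕋 := (fun n => Tx i n, Tt i)

/-- the algebra generated by the pairs of Hecke operators -/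
def algP : Subalgebra ℤ ((∀ n, Module.End ℤ (Additive (X n))) × 𝕋) :=
  Algebra.adjoin ℤ (Set.range (genR Tx Tt))

variable {Tx Tt}

theorem genR_mem (i : ι) : genR Tx Tt i ∈ algP Tx Tt := Algebra.subset_adjoin ⟨i, rfl⟩

theorem algP_comm (h : ∀ i j n, Commute (Tx i n) (Tx j n))
    {f f' : (∀ n, Module.End ℤ (Additive (X n))) × 𝕋} (hf : f ∈ algP Tx Tt)
    (hf' : f' ∈ algP Tx Tt) (n : ℕ) : Commute (f.1 n) (f'.1 n) := by
  induction hf using Algebra.adjoin_induction with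
  | mem x hx =>
    obtain ⟨i, rfl⟩ := hx
    induction hf' using Algebra.adjoin_induction with
    | mem y hy =>
      obtain ⟨j, rfl⟩ := hy
      exact h i j n
    | algebraMap r => exact (Algebra.commutes r (Tx i n)).symm
    | add x y _ _ hx hy => exact hx.add_right hy
    | mul x y _ _ hx hy => exact hx.mul_right hy
  | algebraMap r => exact Algebra.commutes r (f'.1 n)
  | add x y _ _ hx hy => exact hx.add_left hy
  | mul x y _ _ hx hy => exact hx.mul_left hy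

theorem algP_commute {n : ℕ} {e : Module.End ℤ (Additive (X n))} (h : ∀ i, Commute (Tx i n) e)
    {f : (∀ n, Module.End ℤ (Additive (X n))) × 𝕋} (hf : f ∈ algP Tx Tt) :
    Commute (f.1 n) e := by
  induction hf using Algebra.adjoin_induction with
  | mem x hx =>
    obtain ⟨i, rfl⟩ := hx
    exact h i
  | algebraMap r => exact Algebra.commutes r e
  | add x y _ _ hx hy => exact hx.add_left hy
  | mul x y _ _ hx hy => exact hx.mul_left hy

/-- multiplication by an element of the Hecke algebra, multiplicatively -/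
def smulHom (L : Type) [AddCommGroup L] [Module 𝕋 L] (t : 𝕋) :
    Multiplicative L →* Multiplicative L :=
  AddMonoidHom.toMultiplicative (DistribMulAction.toAddMonoidHom L t)

theorem smulHom_ofAdd (t : 𝕋) (v : L) :
    smulHom L t (Multiplicative.ofAdd v) = Multiplicative.ofAdd (t • v) := rfl

theorem algP_latX
    (hTx : ∀ i n (φ : Multiplicative L →* ℂˣ) (x : Additive (X n)), x.toMul.1 = φ.comp per →
      (Tx i n x).toMul.1 = (φ.comp (smulHom L (Tt i))).comp per)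
    {f : (∀ n, Module.End ℤ (Additive (X n))) × 𝕋} (hf : f ∈ algP Tx Tt) {n : ℕ}
    (φ : Multiplicative L →* ℂˣ) (x : Additive (X n)) (hx : x.toMul.1 = φ.comp per) :
    (f.1 n x).toMul.1 = (φ.comp (smulHom L f.2)).comp per := by
  induction hf using Algebra.adjoin_induction generalizing x φ with
  | mem y hy =>
    obtain ⟨i, rfl⟩ := hy
    exact hTx i n φ x hx
  | algebraMap r =>
    change (r • x).toMul.1 = _
    rw [toMul_zsmul, Subgroup.coe_zpow, hx]
    ext γ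
    have h1 : φ (Multiplicative.ofAdd ((algebraMap ℤ 𝕋 r) • Multiplicative.toAdd (per γ))) =
        φ (per γ) ^ r := by
      rw [algebraMap_smul, ofAdd_zsmul, map_zpow]
      rfl
    rw [MonoidHom.zpow_apply]
    exact congrArg Units.val h1.symm
  | add y z _ _ hy hz =>
    change (y.1 n x + z.1 n x).toMul.1 = _
    rw [toMul_add, Subgroup.coe_mul, hy φ x hx, hz φ x hx]
    ext γ
    have h1 : φ (Multiplicative.ofAdd ((y.2 + z.2) • Multiplicative.toAdd (per γ))) =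
        φ (Multiplicative.ofAdd (y.2 • Multiplicative.toAdd (per γ))) *
          φ (Multiplicative.ofAdd (z.2 • Multiplicative.toAdd (per γ))) := by
      rw [add_smul, ofAdd_add, map_mul]
    exact congrArg Units.val h1.symm
  | mul y z _ _ hy hz =>
    change (y.1 n (z.1 n x)).toMul.1 = _
    rw [hy (φ.comp (smulHom L z.2)) _ (hz φ x hx)]
    ext γ
    have h1 : φ (Multiplicative.ofAdd ((y.2 * z.2) • Multiplicative.toAdd (per γ))) =
        φ (Multiplicative.ofAdd (z.2 • y.2 • Multiplicative.toAdd (per γ))) := by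
      rw [smul_smul, mul_comm]
    exact congrArg Units.val h1.symm

/-- **Faithfulness up to a bounded exponent.** -/
theorem exists_faithful [IsNoetherianRing 𝕋] [Module.Finite 𝕋 L] [Module.Finite ℤ L]
    (hfaith : Module.annihilator 𝕋 L = ⊥) (hsurj : Function.Surjective per) {p : ℕ} (hp : p ≠ 0)
    (hX : ∀ n (φ : Multiplicative L →* ℂˣ), φ ^ (p ^ n) = 1 → φ.comp per ∈ X n)
    (hTx : ∀ i n (φ : Multiplicative L →* ℂˣ) (x : Additive (X n)), x.toMul.1 = φ.comp per →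
      (Tx i n x).toMul.1 = (φ.comp (smulHom L (Tt i))).comp per) :
    ∃ c : ℕ, ∀ n, ∀ f ∈ algP Tx Tt, f.1 (n + c) = 0 → f.2 ∈ Ideal.span {(p : 𝕋) ^ n} := by
  obtain ⟨r, e, he⟩ := Module.Finite.exists_fin (R := 𝕋) (M := L)
  let ψ : 𝕋 →ₗ[𝕋] (Fin r → L) := LinearMap.pi fun i => LinearMap.toSpanSingleton 𝕋 L (e i)
  have hψ : ∀ t i, ψ t i = t • e i := fun t i => rfl
  have hψinj : ∀ t, ψ t = 0 → t = 0 := by
    intro t ht
    have h1 : t ∈ Module.annihilator 𝕋 L := by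
      rw [Module.mem_annihilator]
      intro v
      have hv : v ∈ Submodule.span 𝕋 (Set.range e) := by rw [he]; trivial
      induction hv using Submodule.span_induction with
      | mem x hx =>
        obtain ⟨i, rfl⟩ := hx
        rw [← hψ, ht]
        rfl
      | zero => exact smul_zero t
      | add x y _ _ hx hy => rw [smul_add, hx, hy, add_zero]
      | smul a x _ hx => rw [smul_comm, hx, smul_zero]
    rw [hfaith] at h1
    exact (Submodule.mem_bot 𝕋).mp h1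
  obtain ⟨k, hk⟩ := Ideal.exists_pow_inf_eq_pow_smul (Ideal.span {(p : 𝕋)}) ψ.range
  refine ⟨k, fun n f hf h0 => ?_⟩
  have h1 : ∀ v : L, ∃ w : L, f.2 • v = (p ^ (n + k)) • w := by
    intro v
    refine exists_eq_smul_of_forall_char (pow_ne_zero _ hp) fun φ hφ => ?_
    obtain ⟨γ, hγ⟩ := hsurj (Multiplicative.ofAdd v)
    have h2 := algP_latX per hTx hf φ (Additive.ofMul ⟨φ.comp per, hX _ φ hφ⟩) rfl
    rw [h0, LinearMap.zero_apply] at h2
    have h3 := DFunLike.congr_fun h2 γ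
    change (1 : ℂˣ) = φ (smulHom L f.2 (per γ)) at h3
    rw [hγ, smulHom_ofAdd] at h3
    exact h3.symm
  have h2 : ψ f.2 ∈ (Ideal.span {(p : 𝕋)} ^ (n + k)) • (⊤ : Submodule 𝕋 (Fin r → L)) := by
    choose w hw using fun i => h1 (e i)
    have h3 : ψ f.2 = ((p : 𝕋) ^ (n + k)) • w := by
      funext i
      rw [hψ, hw i, Pi.smul_apply, ← Nat.cast_pow, Nat.cast_smul_eq_nsmul]
    rw [h3]
    exact Submodule.smul_mem_smul
      (Ideal.pow_mem_pow (Ideal.mem_span_singleton_self _) _) Submodule.mem_top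
  have h3 := hk (n + k) (Nat.le_add_left _ _)
  have h4 : ψ f.2 ∈ (Ideal.span {(p : 𝕋)} ^ (n + k)) • (⊤ : Submodule 𝕋 (Fin r → L)) ⊓ ψ.range :=
    ⟨h2, ⟨_, rfl⟩⟩
  rw [h3, Nat.add_sub_cancel] at h4
  have h5 : ψ f.2 ∈ (Ideal.span {(p : 𝕋)} ^ n) • ψ.range :=
    Submodule.smul_mono le_rfl inf_le_right h4
  rw [LinearMap.range_eq_map, ← Submodule.map_smul''] at h5
  obtain ⟨t, ht, ht'⟩ := h5
  rw [smul_eq_mul, Ideal.mul_top, Ideal.span_singleton_pow] at ht
  have h6 : t = f.2 := by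
    rw [← sub_eq_zero]
    exact hψinj _ (by rw [map_sub, ht', sub_self])
  rw [← h6]
  exact ht

/-! ### Galois actions on the tower -/

variable (Tx Tt) in
/-- Galois actions on the tower -/
structure GalTower (ρ χ : ∀ n, GQ →* Module.End ℤ (Additive (X n))) (bad : Finset ℕ) :
    Prop where
  mono : ∀ n, X n ≤ X (n + 1)
  Tx_compat : ∀ i n (x : Additive (X n)) (y : Additive (X (n + 1))), x.toMul.1 = y.toMul.1 →
    (Tx i n x).toMul.1 = (Tx i (n + 1) y).toMul.1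
  ρ_compat : ∀ σ n (x : Additive (X n)) (y : Additive (X (n + 1))), x.toMul.1 = y.toMul.1 →
    (ρ n σ x).toMul.1 = (ρ (n + 1) σ y).toMul.1
  χ_compat : ∀ σ n (x : Additive (X n)) (y : Additive (X (n + 1))), x.toMul.1 = y.toMul.1 →
    (χ n σ x).toMul.1 = (χ (n + 1) σ y).toMul.1
  Tcomm : ∀ i j n, Commute (Tx i n) (Tx j n)
  ρcomm : ∀ i n σ, Commute (Tx i n) (ρ n σ)
  ρfin : ∀ n, ∃ L : IntermediateField ℚ Qb, FiniteDimensional ℚ L ∧
    ∀ σ : GQ, (∀ x ∈ L, σ x = x) → ρ n σ = 1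
  χfin : ∀ n, ∃ L : IntermediateField ℚ Qb, FiniteDimensional ℚ L ∧
    ∀ σ : GQ, (∀ x ∈ L, σ x = x) → χ n σ = 1
  χmem : ∀ n σ, ∃ f ∈ algP Tx Tt, f.1 n = χ n σ
  frob : ∀ (n : ℕ) (l : ℕ), l.Prime → l ∉ bad → ∀ B : ValuationSubring Qb, B.LiesOverPrime l →
    ∀ σ : GQ, B.IsFrobeniusAt σ l → ∃ T ∈ algP Tx Tt,
      ρ n σ * ρ n σ = T.1 n * ρ n σ - χ n σ

variable {ρ χ : ∀ n, GQ →* Module.End ℤ (Additive (X n))} {bad : Finset ℕ}

/-- inclusion of the characters -/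
def incl (h : GalTower Tx Tt ρ χ bad) (n : ℕ) : Additive (X n) →+ Additive (X (n + 1)) :=
  MonoidHom.toAdditive (Subgroup.inclusion (h.mono n))

theorem incl_coe (h : GalTower Tx Tt ρ χ bad) (n : ℕ) (x : Additive (X n)) :
    (incl h n x).toMul.1 = x.toMul.1 := rfl

theorem incl_injective (h : GalTower Tx Tt ρ χ bad) (n : ℕ) : Function.Injective (incl h n) := by
  intro x y hxy
  have h1 : (incl h n x).toMul.1 = (incl h n y).toMul.1 := by rw [hxy]
  exact Additive.toMul.injective (Subtype.ext h1)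

theorem eq_incl (h : GalTower Tx Tt ρ χ bad) {n : ℕ} {x : Additive (X n)}
    {y : Additive (X (n + 1))} (hxy : x.toMul.1 = y.toMul.1) : y = incl h n x :=
  Additive.toMul.injective (Subtype.ext hxy.symm)

theorem Tx_incl (h : GalTower Tx Tt ρ χ bad) (i : ι) (n : ℕ) (x : Additive (X n)) :
    Tx i (n + 1) (incl h n x) = incl h n (Tx i n x) :=
  eq_incl h (h.Tx_compat i n x (incl h n x) rfl)

theorem ρ_incl (h : GalTower Tx Tt ρ χ bad) (σ : GQ) (n : ℕ) (x : Additive (X n)) :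
    ρ (n + 1) σ (incl h n x) = incl h n (ρ n σ x) :=
  eq_incl h (h.ρ_compat σ n x (incl h n x) rfl)

theorem χ_incl (h : GalTower Tx Tt ρ χ bad) (σ : GQ) (n : ℕ) (x : Additive (X n)) :
    χ (n + 1) σ (incl h n x) = incl h n (χ n σ x) :=
  eq_incl h (h.χ_compat σ n x (incl h n x) rfl)

theorem algP_incl (h : GalTower Tx Tt ρ χ bad)
    {f : (∀ n, Module.End ℤ (Additive (X n))) × 𝕋} (hf : f ∈ algP Tx Tt) (n : ℕ)
    (x : Additive (X n)) : f.1 (n + 1) (incl h n x) = incl h n (f.1 n x) := by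
  induction hf using Algebra.adjoin_induction generalizing x with
  | mem y hy =>
    obtain ⟨i, rfl⟩ := hy
    exact Tx_incl h i n x
  | algebraMap r => exact (map_zsmul (incl h n) r x).symm
  | add y z _ _ hy hz =>
    change y.1 (n + 1) _ + z.1 (n + 1) _ = incl h n (y.1 n x + z.1 n x)
    rw [hy, hz, map_add]
  | mul y z _ _ hy hz =>
    change y.1 (n + 1) (z.1 (n + 1) _) = incl h n (y.1 n (z.1 n x))
    rw [hz, hy]

theorem trS_incl (h : GalTower Tx Tt ρ χ bad) (σ : GQ) (n : ℕ) (x : Additive (X n)) :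
    trS (ρ (n + 1)) (χ (n + 1)) σ (incl h n x) = incl h n (trS (ρ n) (χ n) σ x) := by
  change ρ (n + 1) σ _ + χ (n + 1) σ (ρ (n + 1) σ⁻¹ _) =
    incl h n (ρ n σ x + χ n σ (ρ n σ⁻¹ x))
  rw [ρ_incl, ρ_incl, χ_incl, map_add]

theorem χcomm (h : GalTower Tx Tt ρ χ bad) (n : ℕ) (g k : GQ) : Commute (χ n g) (ρ n k) := by
  obtain ⟨f, hf, hf'⟩ := h.χmem n g
  rw [← hf']
  exact algP_commute (fun i => h.ρcomm i n k) hf

/-- the trace operators lie in the Hecke algebra -/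
theorem trS_mem (h : GalTower Tx Tt ρ χ bad) (n : ℕ) (g : GQ) :
    ∃ f ∈ algP Tx Tt, f.1 n = trS (ρ n) (χ n) g := by
  obtain ⟨L₁, hL₁, h₁⟩ := h.ρfin n
  obtain ⟨L₂, hL₂, h₂⟩ := h.χfin n
  obtain ⟨l, hl, hlbad, B, hB, φ, hφ, i, -, hi, -⟩ :=
    FrobDensity.exists_frobenius_pow (L₁ ⊔ L₂) g bad
  have hδ : ∀ x ∈ L₁ ⊔ L₂, (g⁻¹ * φ ^ i : GQ) x = x := by
    intro x hx
    rw [AlgEquiv.mul_apply, hi x hx, ← AlgEquiv.mul_apply, inv_mul_cancel, AlgEquiv.one_apply]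
  have e1 : ρ n (g⁻¹ * φ ^ i) = 1 :=
    h₁ _ fun x hx => hδ x ((le_sup_left : L₁ ≤ L₁ ⊔ L₂) hx)
  have e2 : χ n (g⁻¹ * φ ^ i) = 1 :=
    h₂ _ fun x hx => hδ x ((le_sup_right : L₂ ≤ L₁ ⊔ L₂) hx)
  have e3 : trS (ρ n) (χ n) (φ ^ i) = trS (ρ n) (χ n) g := by
    have := trS_mul_one e1 e2 g
    rwa [mul_inv_cancel_left] at this
  obtain ⟨T, hT, hT'⟩ := h.frob n l hl hlbad B hB φ hφ
  obtain ⟨U, hU, hU'⟩ := h.χmem n φ
  let R : Subring (Module.End ℤ (Additive (X n))) := (algP Tx Tt).toSubring.map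
    ((Pi.evalRingHom (fun n => Module.End ℤ (Additive (X n))) n).comp (RingHom.fst _ 𝕋))
  have hR : ∀ f ∈ algP Tx Tt, f.1 n ∈ R := fun f hf => ⟨f, hf, rfl⟩
  have h3 := (trS_pow_mem R (χcomm h n) (σ := φ) (by
    rw [trS_of_quad hT' rfl]
    exact hR T hT) (by
    rw [← hU']
    exact hR U hU) i).1
  rw [e3] at h3
  obtain ⟨f, hf, hf'⟩ := h3
  exact ⟨f, hf, hf'⟩

/-- **The pseudo-representation attached to the tower**, strong form. -/
theorem exists_pseudo_strong (h : GalTower Tx Tt ρ χ bad) {p : ℕ} {c : ℕ}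
    (hF : ∀ n, ∀ f ∈ algP Tx Tt, f.1 (n + c) = 0 → f.2 ∈ Ideal.span {(p : 𝕋) ^ n})
    {O : Type} [CommRing O] [IsLocalRing O] [IsNoetherianRing O]
    [IsAdicComplete (maximalIdeal O) O] (hp : (p : O) ∈ maximalIdeal O) (π : 𝕋 →+* O) :
    ∃ (t : GQ → O) (ε : GQ →* Oˣ), IsPseudo t ε ∧
      (∀ σ, ∀ f ∈ algP Tx Tt, ∀ n, f.1 (n + c) = trS (ρ (n + c)) (χ (n + c)) σ →
        t σ - π f.2 ∈ Ideal.span {(p : O) ^ n}) ∧
      (∀ σ, ∀ f ∈ algP Tx Tt, ∀ n, f.1 (n + c) = χ (n + c) σ →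
        (ε σ : O) - π f.2 ∈ Ideal.span {(p : O) ^ n}) ∧
      (∀ n : ℕ, ∃ L : IntermediateField ℚ Qb, FiniteDimensional ℚ L ∧
        ∀ σ : GQ, (∀ x ∈ L, σ x = x) → (∀ g, t (σ * g) - t g ∈ Ideal.span {(p : O) ^ n}) ∧
          (ε σ : O) - 1 ∈ Ideal.span {(p : O) ^ n}) ∧
      (∀ σ : GQ, (∀ n, ρ n σ = 1) → (∀ n, χ n σ = 1) → (∀ g, t (σ * g) = t g) ∧ ε σ = 1) := by
  let α : ∀ n, algP Tx Tt →+* Module.End ℤ (Additive (X (n + c))) := fun n =>
    (Pi.evalRingHom (fun n => Module.End ℤ (Additive (X n))) (n + c)).comp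
      ((RingHom.fst _ 𝕋).comp (algP Tx Tt).val.toRingHom)
  have hα : ∀ n f, α n f = f.1.1 (n + c) := fun n f => rfl
  let π' : algP Tx Tt →+* O := π.comp ((RingHom.snd _ 𝕋).comp (algP Tx Tt).val.toRingHom)
  have hπ' : ∀ f, π' f = π f.1.2 := fun f => rfl
  have hext : ∀ n (f : algP Tx Tt) (a : Module.End ℤ (Additive (X (n + c + 1))))
      (b : Module.End ℤ (Additive (X (n + c)))), (∀ x, a (incl h _ x) = incl h _ (b x)) →
      f.1.1 (n + c + 1) = a → f.1.1 (n + c) = b := by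
    intro n f a b hab hfa
    refine LinearMap.ext fun x => incl_injective h _ ?_
    rw [← hab, ← algP_incl h f.2, hfa]
  have hshift : ∀ (n : ℕ) (f : algP Tx Tt)
      (a : ∀ m, Module.End ℤ (Additive (X m))), α (n + 1) f = a (n + 1 + c) →
        f.1.1 (n + c + 1) = a (n + c + 1) := by
    intro n f a h1
    have h2 : n + 1 + c = n + c + 1 := by ring
    have h3 : f.1.1 (n + 1 + c) = a (n + 1 + c) := h1
    exact h2 ▸ h3
  obtain ⟨t, ε, hps, h1, h2, h3⟩ := exists_pseudo_of_tower (p := (p : O)) hp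
    (A := fun n => Module.End ℤ (Additive (X (n + c)))) α
    (fun n => ρ (n + c)) (fun n => χ (n + c))
    (fun n g => by
      obtain ⟨f, hf, hf'⟩ := h.χmem (n + c) g
      exact ⟨⟨f, hf⟩, hf'⟩)
    (fun n g => by
      obtain ⟨f, hf, hf'⟩ := trS_mem h (n + c) g
      exact ⟨⟨f, hf⟩, hf'⟩)
    (fun n g f => algP_commute (fun i => h.ρcomm i (n + c) g) f.2)
    (fun n f f' => algP_comm h.Tcomm f.2 f'.2 (n + c))
    (fun n g f hf => hext n f _ _ (fun x => trS_incl h g (n + c) x)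
      (hshift n f (fun m => trS (ρ m) (χ m) g) hf))
    (fun n g f hf => hext n f _ _ (fun x => χ_incl h g (n + c) x)
      (hshift n f (fun m => χ m g) hf))
    π' (fun n f hf => by
      have h4 := hF n f.1 f.2 hf
      rw [Ideal.mem_span_singleton] at h4 ⊢
      obtain ⟨y, hy⟩ := h4
      refine ⟨π y, ?_⟩
      rw [hπ', hy, map_mul, map_pow, map_natCast])
  refine ⟨t, ε, hps, fun σ f hf n hf' => h1 n σ ⟨f, hf⟩ hf', fun σ f hf n hf' =>
    h2 n σ ⟨f, hf⟩ hf', fun n => ?_, fun σ h4 h5 => ?_⟩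
  · obtain ⟨L₁, hL₁, h₁⟩ := h.ρfin (n + c)
    obtain ⟨L₂, hL₂, h₂⟩ := h.χfin (n + c)
    refine ⟨L₁ ⊔ L₂, inferInstance, fun σ hσ => ?_⟩
    exact h3 n σ (h₁ σ fun x hx => hσ x ((le_sup_left : L₁ ≤ L₁ ⊔ L₂) hx))
      (h₂ σ fun x hx => hσ x ((le_sup_right : L₂ ≤ L₁ ⊔ L₂) hx))
  · refine ⟨fun g => eq_of_forall_sub_mem hp fun n => (h3 n σ (h4 _) (h5 _)).1 g, ?_⟩
    exact Units.ext (eq_of_forall_sub_mem hp fun n => (h3 n σ (h4 _) (h5 _)).2)

/-- **The pseudo-representation attached to the tower.** -/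
theorem exists_pseudo (h : GalTower Tx Tt ρ χ bad) {p : ℕ} {c : ℕ}
    (hF : ∀ n, ∀ f ∈ algP Tx Tt, f.1 (n + c) = 0 → f.2 ∈ Ideal.span {(p : 𝕋) ^ n})
    {O : Type} [CommRing O] [IsLocalRing O] [IsNoetherianRing O]
    [IsAdicComplete (maximalIdeal O) O] (hp : (p : O) ∈ maximalIdeal O) (π : 𝕋 →+* O) :
    ∃ (t : GQ → O) (ε : GQ →* Oˣ), IsPseudo t ε ∧
      (∀ σ, ∀ f ∈ algP Tx Tt, (∀ n, c ≤ n → f.1 n = trS (ρ n) (χ n) σ) → t σ = π f.2) ∧
      (∀ σ, ∀ f ∈ algP Tx Tt, (∀ n, c ≤ n → f.1 n = χ n σ) → (ε σ : O) = π f.2) ∧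
      (∀ n : ℕ, ∃ L : IntermediateField ℚ Qb, FiniteDimensional ℚ L ∧
        ∀ σ : GQ, (∀ x ∈ L, σ x = x) → (∀ g, t (σ * g) - t g ∈ Ideal.span {(p : O) ^ n}) ∧
          (ε σ : O) - 1 ∈ Ideal.span {(p : O) ^ n}) ∧
      (∀ σ : GQ, (∀ n, ρ n σ = 1) → (∀ n, χ n σ = 1) → (∀ g, t (σ * g) = t g) ∧ ε σ = 1) := by
  obtain ⟨t, ε, hps, h1, h2, h3, h4⟩ := exists_pseudo_strong h hF hp π
  refine ⟨t, ε, hps, fun σ f hf hf' => ?_, fun σ f hf hf' => ?_, h3, h4⟩
  · exact eq_of_forall_sub_mem hp fun n => h1 σ f hf n (hf' (n + c) (Nat.le_add_left _ _))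
  · exact eq_of_forall_sub_mem hp fun n => h2 σ f hf n (hf' (n + c) (Nat.le_add_left _ _))

end Fermat.Agent.ESCore.Tower
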