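import Mathlib
import Fermat.Agent.ESCore.Tower
import Fermat.Agent.ESCore.ModP
import Fermat.Agent.ESCore.GalGamma0
import Fermat.Prelude.Def_GaloisRep_ComplexConjugation

set_option autoImplicit false

/-!
# The pseudo-representation over the Hecke algebra of weight two
-/

open IsLocalRing CongruenceSubgroup Matrix.SpecialLinearGroup
open scoped MatrixGroups

noncomputable section

namespace Fermat.Agent.ESCore.Univ

open ModP Tower

/-! ### Generalities -/

/-- the homomorphism `ℤ/m → A` for a ring in which `m = 0` -/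
def zEnd {A : Type*} [Ring A] (m : ℕ) (h : (m : A) = 0) : ZMod m →+* A :=
  (Ideal.Quotient.lift (Ideal.span {(m : ℤ)}) (Int.castRingHom A) (by
    intro a ha
    obtain ⟨b, rfl⟩ := Ideal.mem_span_singleton.mp ha
    rw [map_mul, map_natCast, h, zero_mul])).comp
    (Int.quotientSpanNatEquivZMod m).symm.toRingHom

theorem zEnd_val {A : Type*} [Ring A] {m : ℕ} [NeZero m] (h : (m : A) = 0) (x : ZMod m) :
    zEnd m h x = (x.val : A) := by
  conv_lhs => rw [← ZMod.natCast_zmod_val x]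
  exact map_natCast _ _

/-- complex conjugation inverts roots of unity -/
theorem complexConjugation_root {m : ℕ} (hm : m ≠ 0) {ζ : Qb} (hζ : ζ ^ m = 1) :
    complexConjugation ζ = ζ⁻¹ := by
  apply complexEmbedding.injective
  change complexEmbedding (complexConjugation ζ) = complexEmbedding ζ⁻¹
  rw [complexEmbedding_complexConjugation, map_inv₀]
  have h1 : (complexEmbedding ζ) ^ m = 1 := by rw [← map_pow, hζ, map_one]
  have h2 := Complex.norm_eq_one_of_pow_eq_one h1 hm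
  rw [Complex.inv_def, Complex.normSq_eq_norm_sq, h2]
  simp

theorem cyc_complexConjugation (m : ℕ) [NeZero m] : cyc m complexConjugation = -1 := by
  obtain ⟨ζ, hζ⟩ := exists_primitiveRoot m
  have hm : m ≠ 0 := NeZero.ne m
  have h1 : complexConjugation ζ = ζ ^ (m - 1) := by
    rw [complexConjugation_root hm hζ.pow_eq_one]
    refine inv_eq_of_mul_eq_one_left ?_
    rw [← pow_succ, Nat.sub_add_cancel (Nat.pos_of_ne_zero hm), hζ.pow_eq_one]
  have h2 := cyc_eq_of hζ h1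
  apply Units.ext
  rw [h2, Units.val_neg, Units.val_one, Nat.cast_sub (Nat.pos_of_ne_zero hm)]
  simp

section Cyc

variable {N m : ℕ}

theorem natCast_end_eq_zero : (m : Module.End ℤ (Additive (XG N m))) = 0 := by
  refine LinearMap.ext fun x => ?_
  change ((m : ℕ) : Module.End ℤ (Additive (XG N m))) x = 0
  rw [← nsmul_one, LinearMap.smul_apply, Module.End.one_apply]
  apply Additive.toMul.injective
  apply Subtype.ext
  rw [toMul_nsmul, Subgroup.coe_pow]
  exact x.toMul.2.1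

/-- the cyclotomic character acting on the characters -/
def cycE (N m : ℕ) [NeZero m] : GQ →* Module.End ℤ (Additive (XG N m)) :=
  ((zEnd m natCast_end_eq_zero : ZMod m →+* Module.End ℤ (Additive (XG N m))) :
    ZMod m →* Module.End ℤ (Additive (XG N m))).comp ((Units.coeHom (ZMod m)).comp (cyc m))

theorem cycE_eq [NeZero m] (σ : GQ) :
    cycE N m σ = (((cyc m σ : ZMod m).val : ℕ) : Module.End ℤ (Additive (XG N m))) :=
  zEnd_val natCast_end_eq_zero _

theorem cycE_of_eq [NeZero m] {σ : GQ} {k : ℤ} (h : (cyc m σ : ZMod m) = k) :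
    cycE N m σ = (k : Module.End ℤ (Additive (XG N m))) := by
  change zEnd m natCast_end_eq_zero (cyc m σ : ZMod m) = _
  rw [h, map_intCast]

theorem cycE_apply_coe [NeZero m] (σ : GQ) (x : Additive (XG N m)) :
    (cycE N m σ x).toMul.1 = x.toMul.1 ^ ((cyc m σ : ZMod m).val) := by
  rw [cycE_eq]
  rfl

end Cyc

/-- compatibility of the cyclotomic characters -/
theorem cyc_castHom {m m' : ℕ} [NeZero m] [NeZero m'] (h : m ∣ m') (σ : GQ) :
    ZMod.castHom h (ZMod m) (cyc m' σ : ZMod m') = (cyc m σ : ZMod m) := by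
  obtain ⟨ζ, hζ⟩ := exists_primitiveRoot m
  have h1 : ζ ^ m' = 1 := by
    obtain ⟨k, rfl⟩ := h
    rw [pow_mul, hζ.pow_eq_one, one_pow]
  have h2 := cyc_spec (m := m') σ h1
  have h3 := cyc_eq_of hζ h2
  rw [h3]
  conv_lhs => rw [← ZMod.natCast_zmod_val (cyc m' σ : ZMod m')]
  rw [map_natCast]

/-! ### The tower -/

section Main

variable {N : ℕ} [NeZero N] {S : Finset ℕ} {p : ℕ}

/-- the indices of the Hecke operators -/
def Idx (N : ℕ) (S : Finset ℕ) : Type := {l : ℕ // l.Prime ∧ ¬ l ∣ N ∧ l ∉ S}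

/-- the Hecke operators on the tower -/
def TxS (N : ℕ) (S : Finset ℕ) (p : ℕ) (i : Idx N S) (n : ℕ) :
    Module.End ℤ (Additive (XG N (p ^ n))) :=
  heckeXL i.2.1 i.2.2.1 (p ^ n)

/-- the Hecke operators -/
def TtS (N : ℕ) [NeZero N] (S : Finset ℕ) (i : Idx N S) :
    CuspForm.heckeAlgebra N 2 (↑S : Set ℕ) :=
  CuspForm.heckeAlgebra.T i.2.1 i.2.2.1 i.2.2.2

variable (N S) in
/-- the periods -/
def perM : Gamma0 N →* Multiplicative (LatM N (↑S : Set ℕ)) := mulHom (perHom N).rangeRestrict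

theorem perM_surjective : Function.Surjective (perM N S) := by
  intro v
  obtain ⟨γ, hγ⟩ := AddMonoidHom.rangeRestrict_surjective (perHom N) (Multiplicative.toAdd v)
  exact ⟨γ.toMul, congrArg Multiplicative.ofAdd hγ⟩

theorem perM_par {γ : Gamma0 N} (hγ : (γ : SL(2, ℤ)) 1 0 = 0) : perM N S γ = 1 := by
  have h1 := (γ : SL(2, ℤ)).det_coe
  rw [Matrix.det_fin_two, hγ, mul_zero, sub_zero] at h1
  have h2 : ((γ : SL(2, ℤ)) : Matrix (Fin 2) (Fin 2) ℤ).trace ^ 2 = 4 := by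
    rw [Matrix.trace_fin_two]
    rcases Int.eq_one_or_neg_one_of_mul_eq_one' h1 with ⟨ha, hb⟩ | ⟨ha, hb⟩ <;> rw [ha, hb] <;>
      norm_num
  have h3 : (perHom N).rangeRestrict (Additive.ofMul γ) = 0 := by
    apply Subtype.ext
    refine LinearMap.ext fun f => ?_
    exact ES.pml_mem_parabolicHoms f γ h2
  exact congrArg Multiplicative.ofAdd h3

/-- the inclusion of the lattice -/
def latSub (N : ℕ) [NeZero N] (S : Set ℕ) :
    LatM N S →+ (CuspForm (Gamma0 N) 2 →ₗ[ℂ] ℂ) := (perLat N).subtype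

theorem heckeChar_perM (i : Idx N S) (γ : Gamma0 N) :
    heckeChar i.2.1 i.2.2.1 (perM N S) γ = smulHom _ (TtS N S i) (perM N S γ) := by
  have h0 := perHom_comp_of_sum (hdelta i.1) (hdelta_pos i.1)
    (t := CuspForm.heckeTLin 2 i.2.1 i.2.2.1) (fun f => heckeT_eq_sum_hdelta i.1 f) γ
    ((heckeSys i.2.1 i.2.2.1).coc γ)
    (Equiv.ofBijective _ ((heckeSys i.2.1 i.2.2.1).tgt_bijective γ))
    (fun x => (heckeSys i.2.1 i.2.2.1).spec γ x)
  change ∏ x, perM N S ((heckeSys i.2.1 i.2.2.1).coc γ x) = _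
  apply Multiplicative.toAdd.injective
  rw [toAdd_prod]
  apply Subtype.ext
  have h3 : (∑ x, Multiplicative.toAdd (perM N S ((heckeSys i.2.1 i.2.2.1).coc γ x))).1 =
      ∑ x, (Multiplicative.toAdd (perM N S ((heckeSys i.2.1 i.2.2.1).coc γ x))).1 :=
    map_sum (latSub N (↑S : Set ℕ))
      (fun x => Multiplicative.toAdd (perM N S ((heckeSys i.2.1 i.2.2.1).coc γ x))) Finset.univ
  rw [h3]
  exact h0.symm

theorem TxS_latX (i : Idx N S) (n : ℕ) (φ : Multiplicative (LatM N (↑S : Set ℕ)) →* ℂˣ)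
    (x : Additive (XG N (p ^ n))) (hx : x.toMul.1 = φ.comp (perM N S)) :
    (TxS N S p i n x).toMul.1 = (φ.comp (smulHom _ (TtS N S i))).comp (perM N S) := by
  change heckeChar i.2.1 i.2.2.1 x.toMul.1 = _
  rw [hx, heckeChar_comp, MonoidHom.comp_assoc]
  congr 1
  ext1 γ
  exact heckeChar_perM i γ

theorem faithful_S (hp : p ≠ 0) : ∃ c : ℕ, ∀ n, ∀ f ∈ algP (TxS N S p) (TtS N S),
    f.1 (n + c) = 0 → f.2 ∈ Ideal.span {(p : CuspForm.heckeAlgebra N 2 (↑S : Set ℕ)) ^ n} := by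
  have : Module.Finite ℤ (CuspForm.heckeAlgebra N 2 (↑S : Set ℕ)) :=
    ES.moduleFinite_heckeAlgebra 2 _
  have : IsNoetherianRing (CuspForm.heckeAlgebra N 2 (↑S : Set ℕ)) :=
    IsNoetherianRing.of_finite ℤ _
  have : Module.Finite ℤ (LatM N (↑S : Set ℕ)) := by
    have h2 : AddGroup.FG (perLat N) := (AddGroup.fg_iff_addSubgroup_fg _).mpr perLat_fg
    have h3 : Module.Finite ℤ (perLat N) := Module.Finite.iff_addGroup_fg.mpr h2
    exact h3
  refine exists_faithful (perM N S) (LatM_faithful _) perM_surjective hp (fun n φ hφ => ?_)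
    TxS_latX
  refine ⟨?_, fun γ hγ => ?_⟩
  · ext γ
    rw [MonoidHom.pow_apply, MonoidHom.comp_apply, ← MonoidHom.pow_apply, hφ]
    rfl
  · rw [MonoidHom.comp_apply, perM_par hγ, map_one]

/-! ### The Galois action on the tower -/

omit [NeZero N] in
theorem XG_mono {m m' : ℕ} (h : m ∣ m') : XG N m ≤ XG N m' := by
  intro χ hχ
  obtain ⟨k, rfl⟩ := h
  refine ⟨?_, hχ.2⟩
  ext γ
  have h1 := DFunLike.congr_fun hχ.1 γ
  rw [MonoidHom.pow_apply, MonoidHom.one_apply] at h1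
  rw [MonoidHom.pow_apply, pow_mul, h1, one_pow, MonoidHom.one_apply]

theorem galX_compat {m m' : ℕ} (hm : 0 < m) (hm' : 0 < m') (h : m ∣ m') (σ : GQ)
    (χ : XG N m) (χ' : XG N m') (e : χ.1 = χ'.1) :
    (galX N hm σ χ).1 = (galX N hm' σ χ').1 := by
  obtain ⟨F, hF, hF0, P, hP⟩ := algForms hm χ
  have hF1 : F ∈ mform χ.1 (12 * (1 : ℕ)) := mform_congr hF rfl (by norm_num)
  have hF2 : F ∈ mform χ'.1 (12 * (1 : ℕ)) := mform_congr hF1 e rfl
  obtain ⟨G, hG, hG0, hGP⟩ := galSpec_galX hm σ χ 1 F hF1 hF0 P hP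
  obtain ⟨G', hG', hG'0, hG'P⟩ := galSpec_galX hm' σ χ' 1 F hF2 hF0 P hP
  have h1 : G = G' := Gal.fun_unique (T_mem_Gamma0 N) (XG_mono h (galX N hm σ χ).2)
    (galX N hm' σ χ').2 hG hG' (hGP.trans hG'P.symm)
  subst h1
  exact Gal.char_unique hG hG' hG0

variable (N) in
/-- the Galois action on the tower -/
def rhoT (hp : 0 < p) (n : ℕ) : GQ →* Module.End ℤ (Additive (XG N (p ^ n))) :=
  galRep (galX N (pow_pos hp n))

variable (N) in
/-- the cyclotomic action on the tower -/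
def chiT (hp : 0 < p) (n : ℕ) : GQ →* Module.End ℤ (Additive (XG N (p ^ n))) :=
  haveI : NeZero (p ^ n) := ⟨(pow_pos hp n).ne'⟩
  cycE N (p ^ n)

theorem galTower (hp : p.Prime) (hpS : p ∈ S) (hNS : ∀ q : ℕ, q.Prime → q ∣ N → q ∈ S)
    (hKL : ∀ l : ℕ, l.Prime → ¬ l ∣ N → l ≠ p → ∀ B : ValuationSubring Qb,
      B.LiesOverPrime l → ∀ n, KLProp N (p ^ n) B) :
    GalTower (TxS N S p) (TtS N S) (rhoT N hp.pos) (chiT N hp.pos) S := by
  have hne : ∀ n, NeZero (p ^ n) := fun n => ⟨(pow_pos hp.pos n).ne'⟩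
  have hnd : ∀ l : ℕ, l.Prime → l ≠ p → ∀ n, ¬ l ∣ p ^ n := by
    intro l hl hlp n h
    exact hlp ((Nat.prime_dvd_prime_iff_eq hl hp).mp (hl.dvd_of_dvd_pow h))
  have hdiv : ∀ n, p ^ n ∣ p ^ (n + 1) := fun n => pow_dvd_pow p (Nat.le_succ n)
  have hcomm : ∀ n (l : ℕ) (hl : l.Prime) (hN : ¬ l ∣ N) (σ : GQ) (χ : XG N (p ^ n)),
      heckeX hl hN (p ^ n) (galX N (pow_pos hp.pos n) σ χ) =
        galX N (pow_pos hp.pos n) σ (heckeX hl hN (p ^ n) χ) := fun n l hl hN σ χ =>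
    heckeX_gal_comm (algForms (pow_pos hp.pos n)) (galSpec_galX (pow_pos hp.pos n)) hl hN σ χ
  refine
    { mono := fun n => XG_mono (hdiv n)
      Tx_compat := fun i n x y hxy => ?_
      ρ_compat := fun σ n x y hxy =>
        galX_compat (pow_pos hp.pos n) (pow_pos hp.pos (n + 1)) (hdiv n) σ x.toMul y.toMul hxy
      χ_compat := fun σ n x y hxy => ?_
      Tcomm := fun i j n => LinearMap.ext fun χ =>
        congrArg Additive.ofMul (heckeX_comm i.2.1 i.2.2.1 j.2.1 j.2.2.1 _ (Additive.toMul χ))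
      ρcomm := fun i n σ => LinearMap.ext fun χ =>
        congrArg Additive.ofMul (hcomm n i.1 i.2.1 i.2.2.1 σ (Additive.toMul χ))
      ρfin := fun n => ?_
      χfin := fun n => ?_
      χmem := fun n σ => ?_
      frob := fun n l hl hlS B hB σ hσ => ?_ }
  · change heckeChar _ _ x.toMul.1 = heckeChar _ _ y.toMul.1
    rw [hxy]
  · have := hne n
    have := hne (n + 1)
    change (cycE N (p ^ n) σ x).toMul.1 = (cycE N (p ^ (n + 1)) σ y).toMul.1
    rw [cycE_apply_coe, cycE_apply_coe, hxy, ← cyc_castHom (hdiv n)]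
    have h1 : ∀ γ, y.toMul.1 γ ^ (p ^ n) = 1 := by
      intro γ
      have h3 := DFunLike.congr_fun x.toMul.2.1 γ
      rw [MonoidHom.pow_apply, hxy] at h3
      exact h3
    set z := (cyc (p ^ (n + 1)) σ : ZMod (p ^ (n + 1))) with hz
    have h2 : (ZMod.castHom (hdiv n) (ZMod (p ^ n)) z).val = z.val % p ^ n := by
      conv_lhs => rw [← ZMod.natCast_zmod_val z]
      rw [map_natCast, ZMod.val_natCast]
    ext γ
    rw [h2, MonoidHom.pow_apply, MonoidHom.pow_apply, ← pow_eq_pow_mod _ (h1 γ)]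
  · obtain ⟨L, hL, h1⟩ := galX_continuous (N := N) (pow_pos hp.pos n)
    exact ⟨L, hL, fun σ hσ => galRep_eq_one (h1 σ hσ)⟩
  · have := hne n
    obtain ⟨L, hL, h1⟩ := cyc_finite (p ^ n)
    refine ⟨L, hL, fun σ hσ => ?_⟩
    change cycE N (p ^ n) σ = 1
    rw [cycE_of_eq (k := 1) (by rw [h1 σ hσ, Units.val_one, Int.cast_one]), Int.cast_one]
  · have := hne n
    refine ⟨algebraMap ℤ _ ((cyc (p ^ n) σ : ZMod (p ^ n)).val : ℤ),
      Subalgebra.algebraMap_mem _ _, ?_⟩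
    change ((((cyc (p ^ n) σ : ZMod (p ^ n)).val : ℕ) : ℤ) : Module.End ℤ _) = cycE N (p ^ n) σ
    rw [cycE_eq, Int.cast_natCast]
  · have := hne n
    have hlN : ¬ l ∣ N := fun h => hlS (hNS l hl h)
    have hlp : l ≠ p := fun h => hlS (h ▸ hpS)
    refine ⟨genR (TxS N S p) (TtS N S) ⟨l, hl, hlN, hlS⟩, genR_mem _, ?_⟩
    refine LinearMap.ext fun χ => ?_
    have h1 := ES_relation_aux (pow_pos hp.pos n) (algForms (pow_pos hp.pos n))
      (galSpec_galX (pow_pos hp.pos n)) hl hlN hB (hKL l hl hlN hlp B hB n) hσ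
      (Additive.toMul χ)
    have h2 : heckeXL hl hlN (p ^ n) (rhoT N hp.pos n σ χ) =
        rhoT N hp.pos n (σ * σ) χ + l • χ := congrArg Additive.ofMul h1
    have h3 : chiT N hp.pos n σ χ = l • χ := by
      change cycE N (p ^ n) σ χ = _
      rw [cycE_of_eq (k := l) (by
        rw [cyc_frob hB hl hσ (hnd l hl hlp n), Int.cast_natCast])]
      change (l : ℤ) • χ = _
      rw [natCast_zsmul]
    rw [← map_mul]
    change _ = heckeXL hl hlN (p ^ n) (rhoT N hp.pos n σ χ) - chiT N hp.pos n σ χ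
    rw [h2, h3, add_sub_cancel_right]

/-- **The pseudo-representation over a quotient of the Hecke algebra.** -/
theorem exists_pseudo (hp : p.Prime) (hpS : p ∈ S) (hNS : ∀ q : ℕ, q.Prime → q ∣ N → q ∈ S)
    (hKL : ∀ l : ℕ, l.Prime → ¬ l ∣ N → l ≠ p → ∀ B : ValuationSubring Qb,
      B.LiesOverPrime l → ∀ n, KLProp N (p ^ n) B)
    {O : Type} [CommRing O] [IsLocalRing O] [IsNoetherianRing O]
    [IsAdicComplete (maximalIdeal O) O] (hpO : (p : O) ∈ maximalIdeal O)
    (π : CuspForm.heckeAlgebra N 2 (↑S : Set ℕ) →+* O) :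
    ∃ (t : GQ → O) (ε : GQ →* Oˣ), IsPseudo t ε ∧
      (∀ (l : ℕ) (hl : l.Prime) (hlN : ¬ l ∣ N) (hlS : l ∉ (↑S : Set ℕ)),
        ∀ B : ValuationSubring Qb, B.LiesOverPrime l → ∀ σ : GQ, B.IsFrobeniusAt σ l →
          t σ = π (CuspForm.heckeAlgebra.T hl hlN hlS) ∧ (ε σ : O) = l) ∧
      (∀ n : ℕ, ∃ L : IntermediateField ℚ Qb, FiniteDimensional ℚ L ∧
        ∀ σ : GQ, (∀ x ∈ L, σ x = x) → (∀ g, t (σ * g) - t g ∈ Ideal.span {(p : O) ^ n}) ∧
          (ε σ : O) - 1 ∈ Ideal.span {(p : O) ^ n}) ∧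
      (∀ q : ℕ, q.Prime → ¬ q ∣ N → q ≠ p → ∀ B : ValuationSubring Qb, B.LiesOverPrime q →
        ∀ σ ∈ B.inertiaSubgroupIn ℚ, (∀ g, t (σ * g) = t g) ∧ ε σ = 1) ∧
      (ε complexConjugation : O) = -1 := by
  have hne : ∀ n, NeZero (p ^ n) := fun n => ⟨(pow_pos hp.pos n).ne'⟩
  have hnd : ∀ l : ℕ, l.Prime → l ≠ p → ∀ n, ¬ l ∣ p ^ n := by
    intro l hl hlp n h
    exact hlp ((Nat.prime_dvd_prime_iff_eq hl hp).mp (hl.dvd_of_dvd_pow h))
  obtain ⟨c, hc⟩ := faithful_S (N := N) (S := S) hp.ne_zero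
  obtain ⟨t, ε, hps, h1, h2, h3, h4⟩ :=
    Tower.exists_pseudo (galTower hp hpS hNS hKL) hc hpO π
  refine ⟨t, ε, hps, fun l hl hlN hlS B hB σ hσ => ?_, h3, fun q hq hqN hqp B hB σ hσ => ?_, ?_⟩
  · have hlp : l ≠ p := fun h => hlS (by rw [h]; exact hpS)
    have hχ : ∀ n, (algebraMap ℤ ((∀ n, Module.End ℤ (Additive (XG N (p ^ n)))) ×
        CuspForm.heckeAlgebra N 2 (↑S : Set ℕ)) (l : ℤ)).1 n = chiT N hp.pos n σ := by
      intro n
      have := hne n
      change ((l : ℤ) : Module.End ℤ (Additive (XG N (p ^ n)))) = cycE N (p ^ n) σ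
      rw [cycE_of_eq (k := l) (by
        rw [cyc_frob hB hl hσ (hnd l hl hlp n), Int.cast_natCast])]
    refine ⟨h1 σ (genR (TxS N S p) (TtS N S) ⟨l, hl, hlN, hlS⟩) (genR_mem _) fun n _ => ?_, ?_⟩
    · refine (trS_of_quad ?_ rfl).symm
      refine LinearMap.ext fun χ => ?_
      have h1 := ES_relation_aux (pow_pos hp.pos n) (algForms (pow_pos hp.pos n))
        (galSpec_galX (pow_pos hp.pos n)) hl hlN hB (hKL l hl hlN hlp B hB n) hσ
        (Additive.toMul χ)
      have h2 : heckeXL hl hlN (p ^ n) (rhoT N hp.pos n σ χ) =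
          rhoT N hp.pos n (σ * σ) χ + l • χ := congrArg Additive.ofMul h1
      have h3 : chiT N hp.pos n σ χ = l • χ := by
        rw [← hχ n]
        change (l : ℤ) • χ = _
        rw [natCast_zsmul]
      rw [← map_mul]
      change _ = heckeXL hl hlN (p ^ n) (rhoT N hp.pos n σ χ) - chiT N hp.pos n σ χ
      rw [h2, h3, add_sub_cancel_right]
    · rw [h2 σ _ (Subalgebra.algebraMap_mem _ (l : ℤ)) fun n _ => hχ n]
      change π ((l : ℤ) : CuspForm.heckeAlgebra N 2 (↑S : Set ℕ)) = _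
      rw [map_intCast, Int.cast_natCast]
  · refine h4 σ (fun n => ?_) fun n => ?_
    · refine galRep_eq_one ?_
      ext1 χ
      exact inertia_trivial_aux (pow_pos hp.pos n) (algForms (pow_pos hp.pos n))
        (galSpec_galX (pow_pos hp.pos n)) (hKL q hq hqN hqp B hB n) hσ χ
    · have := hne n
      change cycE N (p ^ n) σ = 1
      rw [cycE_of_eq (k := 1) (by
        rw [cyc_inertia hB hq hσ (hnd q hq hqp n), Units.val_one, Int.cast_one]), Int.cast_one]
  · have h5 := h2 complexConjugation (algebraMap ℤ _ (-1)) (Subalgebra.algebraMap_mem _ _)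
      fun n _ => by
        have := hne n
        change ((-1 : ℤ) : Module.End ℤ (Additive (XG N (p ^ n)))) =
          cycE N (p ^ n) complexConjugation
        rw [cycE_of_eq (k := -1) (by
          rw [cyc_complexConjugation, Units.val_neg, Units.val_one, Int.cast_neg, Int.cast_one])]
    rw [h5]
    change π ((-1 : ℤ) : CuspForm.heckeAlgebra N 2 (↑S : Set ℕ)) = _
    rw [map_intCast, Int.cast_neg, Int.cast_one]

end Main

end Fermat.Agent.ESCore.Univ
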