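import Fermat.Prelude.Def_CuspForm_HeckeGaloisRepDatum
import Fermat.Agent.ESCore.Univ
import Fermat.Agent.ESCore.TraceEq
import Fermat.Agent.ESCore.Integral

set_option autoImplicit false

/-!
# Assembly of S30 and S31 (modulo KL)
-/

open IsLocalRing Polynomial

noncomputable section

namespace Fermat.Agent.ESCore

section S31

variable {p : ℕ} {N : ℕ} [NeZero N] {S : Finset ℕ}
  {𝒪 : Type} [CommRing 𝒪] [IsDomain 𝒪] [IsDiscreteValuationRing 𝒪]
  [IsAdicComplete (IsLocalRing.maximalIdeal 𝒪) 𝒪]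
  {θ : CuspForm.heckeAlgebra N 2 (↑S : Set ℕ) →+* IsLocalRing.ResidueField 𝒪}
  {T : Type} [CommRing T] [IsLocalRing T] [IsNoetherianRing T]
  [IsAdicComplete (IsLocalRing.maximalIdeal T) T] [Algebra 𝒪 T] [IsLocalHom (algebraMap 𝒪 T)]
  [Module.Finite 𝒪 T] [Module.Free 𝒪 T]

theorem isUnramifiedAt_of_datum (hp : p.Prime)
    (hp𝒪 : (p : 𝒪) ∈ IsLocalRing.maximalIdeal 𝒪) (hpS : p ∈ S)
    (hNS : ∀ q : ℕ, q.Prime → q ∣ N → q ∈ S)
    (hKL : ∀ l : ℕ, l.Prime → ¬ l ∣ N → l ≠ p → ∀ B : ValuationSubring Qb,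
      B.LiesOverPrime l → ∀ n, KLProp N (p ^ n) B)
    (H : CuspForm.HeckeGaloisRepDatum N (↑S : Set ℕ) 𝒪 θ T)
    (q : ℕ) (hq : q.Prime) (hqS : q ∉ S) :
    H.ρ.IsUnramifiedAt q := by
  have hpT : (p : T) ∈ maximalIdeal T := by
    rw [← map_natCast (algebraMap 𝒪 T)]
    exact map_nonunit (algebraMap 𝒪 T) _ hp𝒪
  have hqN : ¬ q ∣ N := fun h => hqS (hNS q hq h)
  have hqp : q ≠ p := fun h => hqS (h ▸ hpS)
  obtain ⟨t, ε, hps, h1, h2, h3, -⟩ := Univ.exists_pseudo hp hpS hNS hKL hpT H.π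
  refine isUnramifiedAt_of_trace H.ρ H.residual_absIrr hps (fun n => ?_) S
    (fun l hl hlS B hB σ hσ => ?_) fun B hB σ hσ g => (h3 q hq hqN hqp B hB σ hσ).1 g
  · obtain ⟨L, hL, h4⟩ := h2 n
    exact ⟨L, hL, fun σ hσ g => span_pow_le hpT n ((h4 σ hσ).1 g)⟩
  · have hlN : ¬ l ∣ N := fun h => hlS (hNS l hl h)
    obtain ⟨h4, h5⟩ := h1 l hl hlN hlS B hB σ hσ
    rw [H.charpoly_frob l hl hlN hlS B hB σ hσ, h4, h5]

end S31

section S30

/-- algebra endomorphisms of the matrix ring have bounded denominators -/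
theorem exists_denominator {R K : Type*} [CommRing R] [IsDomain R] [Field K] [Algebra R K]
    [IsFractionRing R K] (F : Matrix (Fin 2) (Fin 2) K →ₐ[K] Matrix (Fin 2) (Fin 2) K) :
    ∃ D : R, D ≠ 0 ∧ ∀ (J : Submodule R K) (M : Matrix (Fin 2) (Fin 2) K),
      (∀ i j, M i j ∈ J) → ∀ k l, D • (F M) k l ∈ J := by
  classical
  obtain ⟨b, hb⟩ := IsLocalization.exist_integer_multiples_of_finset (nonZeroDivisors R)
    ((Finset.univ : Finset ((Fin 2 × Fin 2) × (Fin 2 × Fin 2))).image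
      fun x => F (Matrix.single x.1.1 x.1.2 1) x.2.1 x.2.2)
  refine ⟨b, nonZeroDivisors.coe_ne_zero b, fun J M hM k l => ?_⟩
  have h1 : F M = ∑ i, ∑ j, M i j • F (Matrix.single i j 1) := by
    conv_lhs => rw [Matrix.matrix_eq_sum_single M]
    simp only [map_sum]
    refine Finset.sum_congr rfl fun i _ => Finset.sum_congr rfl fun j _ => ?_
    rw [← map_smul, Matrix.smul_single, smul_eq_mul, mul_one]
  rw [h1]
  simp only [Matrix.sum_apply, Matrix.smul_apply, smul_eq_mul, Finset.smul_sum]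
  refine Submodule.sum_mem _ fun i _ => Submodule.sum_mem _ fun j _ => ?_
  obtain ⟨x, hx⟩ := hb (F (Matrix.single i j 1) k l)
    (Finset.mem_image.mpr ⟨((i, j), (k, l)), Finset.mem_univ _, rfl⟩)
  have h2 : (b : R) • (M i j * F (Matrix.single i j 1) k l) = x • M i j := by
    rw [Algebra.smul_def x, hx, ← mul_smul_comm]
    ring
  rw [h2]
  exact J.smul_mem _ (hM i j)

theorem exists_pow_dvd {R : Type*} [CommRing R] [IsDomain R] [IsDiscreteValuationRing R] {D : R}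
    (hD : D ≠ 0) (n : ℕ) : ∃ M : ℕ, ∀ x : R, D * x ∈ maximalIdeal R ^ M →
      x ∈ maximalIdeal R ^ n := by
  obtain ⟨ϖ, hϖ⟩ := IsDiscreteValuationRing.exists_irreducible R
  obtain ⟨d, hd⟩ := IsDiscreteValuationRing.associated_pow_irreducible hD hϖ
  refine ⟨d + n, fun x hx => ?_⟩
  rw [hϖ.maximalIdeal_eq, Ideal.span_singleton_pow, Ideal.mem_span_singleton] at hx ⊢
  rw [pow_add] at hx
  have h1 : ϖ ^ d * ϖ ^ n ∣ ϖ ^ d * x := hx.trans (mul_dvd_mul_right hd.dvd x)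
  exact (mul_dvd_mul_iff_left (pow_ne_zero d hϖ.ne_zero)).mp h1

variable {𝒪' : Type} [CommRing 𝒪'] [IsDomain 𝒪'] [IsDiscreteValuationRing 𝒪']
  [IsAdicComplete (IsLocalRing.maximalIdeal 𝒪') 𝒪'] [CharZero 𝒪']

open UnivDef in
/-- **The adic representation attached to an odd pseudo-representation over a discrete
valuation ring.** -/
theorem exists_adic_rep {p : ℕ} (hp𝒪 : (p : 𝒪') ∈ maximalIdeal 𝒪') {t : GQ → 𝒪'}
    {ε : GQ →* 𝒪'ˣ} (ht : IsPseudo t ε)
    (hcont : ∀ n : ℕ, ∃ L : IntermediateField ℚ Qb, FiniteDimensional ℚ L ∧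
        ∀ σ : GQ, (∀ x ∈ L, σ x = x) → (∀ g, t (σ * g) - t g ∈ Ideal.span {(p : 𝒪') ^ n}))
    (hodd : (ε complexConjugation : 𝒪') = -1) :
    ∃ ρ : GaloisRepAdic 𝒪', (∀ σ, LinearMap.charpoly (ρ.ρ σ) =
        X ^ 2 - C (t σ) * X + C (ε σ : 𝒪')) ∧
      ∀ σ, (∀ g, t (σ * g) = t g) → ρ.ρ σ = 1 := by
  let K := FractionRing 𝒪'
  have hinj : Function.Injective (algebraMap 𝒪' K) := IsFractionRing.injective 𝒪' K
  have : CharZero K := charZero_of_injective_algebraMap hinj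
  let t' : GQ → K := fun g => algebraMap 𝒪' K (t g)
  let χ' : GQ →* Kˣ := (Units.map (algebraMap 𝒪' K : 𝒪' →* K)).comp ε
  have ht' : IsPseudo t' χ' := by
    constructor
    · change algebraMap 𝒪' K (t 1) = 2
      rw [ht.one, map_ofNat]
    · intro g h
      change algebraMap 𝒪' K (t g) * algebraMap 𝒪' K (t h) = algebraMap 𝒪' K (t (g * h)) +
        algebraMap 𝒪' K (ε g) * algebraMap 𝒪' K (t (g⁻¹ * h))
      rw [← map_mul, ht.mul, map_add, map_mul]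
  have hχ : (χ' complexConjugation : K) = -1 := by
    change algebraMap 𝒪' K (ε complexConjugation) = -1
    rw [hodd, map_neg, map_one]
  have h20 : (2 : K) ≠ 0 := two_ne_zero
  obtain ⟨ρ, htr, D, hD, hbd⟩ := exists_rep_bounded (R := 𝒪') ht' complexConjugation_mul_self hχ
    (fun g => ⟨t g, rfl⟩) h20
  obtain ⟨F, r, hF, hr⟩ := exists_integral_conj ρ hD (fun g i j => by
    have h1 := hbd (Algebra.linearMap 𝒪' K).range g (fun k => ⟨t (g * k) - t k, by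
      rw [Algebra.linearMap_apply, map_sub]⟩) i j
    obtain ⟨x, hx⟩ := h1
    refine ⟨x + D * (1 : Matrix (Fin 2) (Fin 2) 𝒪') i j, ?_⟩
    rw [Algebra.linearMap_apply] at hx
    rw [map_add, hx, map_mul, Matrix.sub_apply, smul_sub, Matrix.one_apply, Matrix.one_apply,
      Algebra.smul_def D (if i = j then (1 : K) else 0)]
    split_ifs <;> simp)
  obtain ⟨D', hD', hbd'⟩ := exists_denominator (R := 𝒪') F
  have hkey : ∀ (I : Ideal 𝒪') (σ : GQ), (∀ g, t (σ * g) - t g ∈ I) →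
      ∀ i j, D' * D * (r σ - 1) i j ∈ I := by
    intro I σ hσ i j
    let J : Submodule 𝒪' K := Submodule.map (Algebra.linearMap 𝒪' K) I
    have h1 := hbd J σ (fun g => ⟨_, hσ g, by
      rw [Algebra.linearMap_apply, map_sub]⟩)
    have h2 := hbd' J (algebraMap 𝒪' K D • (ρ σ - 1)) (fun i j => by
      rw [Matrix.smul_apply, smul_eq_mul, ← Algebra.smul_def]
      exact h1 i j) i j
    obtain ⟨x, hx, hx'⟩ := h2
    have h3 : x = D' * D * (r σ - 1) i j := by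
      apply hinj
      rw [Algebra.linearMap_apply] at hx'
      rw [hx', map_smul, map_sub, map_one, ← hr, Matrix.smul_apply, Matrix.sub_apply,
        Matrix.sub_apply, Algebra.smul_def, smul_eq_mul, map_mul, map_mul, map_sub,
        Matrix.map_apply, Matrix.one_apply, Matrix.one_apply, mul_assoc]
      split_ifs <;> simp
    rw [← h3]
    exact hx
  have hcm : IsContMat r := by
    intro n
    obtain ⟨M, hM⟩ := exists_pow_dvd (mul_ne_zero hD' hD) n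
    obtain ⟨L, hL, h1⟩ := hcont M
    refine ⟨L, hL, fun σ hσ i j => hM _ ?_⟩
    exact span_pow_le hp𝒪 M (hkey _ σ (h1 σ hσ) i j)
  refine ⟨ofMat r hcm, fun σ => ?_, fun σ hσ => ?_⟩
  · rw [← LinearMap.charpoly_toMatrix _ (stdBasis r hcm), toMatrix_ofMat]
    apply Polynomial.map_injective _ hinj
    have h2 : (2 : K) * (2 : K)⁻¹ = 1 := mul_inv_cancel₀ h20
    have h3 := IsPseudo.charpoly_of_trace ht' h2 htr σ
    rw [← hF, ← hr] at h3
    rw [← Matrix.charpoly_map, h3]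
    simp only [Polynomial.map_add, Polynomial.map_sub, Polynomial.map_mul, Polynomial.map_pow,
      Polynomial.map_X, Polynomial.map_C]
    rfl
  · have h1 : r σ = 1 := by
      rw [← sub_eq_zero]
      ext i j
      have h2 := hkey ⊥ σ (fun g => by rw [hσ g, sub_self]; exact Submodule.zero_mem _) i j
      rw [Ideal.mem_bot] at h2
      exact (mul_eq_zero.mp h2).resolve_left (mul_ne_zero hD' hD)
    have h3 : LinearMap.toMatrix (stdBasis r hcm) (stdBasis r hcm) ((ofMat r hcm).ρ σ) =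
        LinearMap.toMatrix (stdBasis r hcm) (stdBasis r hcm) 1 := by
      rw [toMatrix_ofMat, LinearMap.toMatrix_one, h1]
    exact (LinearMap.toMatrix _ _).injective h3

/-- S30 modulo KL -/
theorem exists_galoisRep_of_point (p : ℕ) [Fact p.Prime] (N : ℕ) [NeZero N] (S : Finset ℕ)
    (hpS : p ∈ S) (hNS : ∀ q : ℕ, q.Prime → q ∣ N → q ∈ S)
    (hKL : ∀ l : ℕ, l.Prime → ¬ l ∣ N → l ≠ p → ∀ B : ValuationSubring Qb,
      B.LiesOverPrime l → ∀ n, KLProp N (p ^ n) B)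
    (hp𝒪' : (p : 𝒪') ∈ IsLocalRing.maximalIdeal 𝒪')
    (χ : CuspForm.heckeAlgebra N 2 (↑S : Set ℕ) →+* 𝒪') :
    ∃ ρ : GaloisRepAdic 𝒪',
        (∀ (ℓ : ℕ) (hℓ : ℓ.Prime) (hℓN : ¬ ℓ ∣ N) (hℓS : ℓ ∉ (↑S : Set ℕ)),
          ∀ A : ValuationSubring (AlgebraicClosure ℚ), A.LiesOverPrime ℓ →
            ∀ σ : AlgebraicClosure ℚ ≃ₐ[ℚ] AlgebraicClosure ℚ, A.IsFrobeniusAt σ ℓ →
              LinearMap.charpoly (ρ.ρ σ) =
                X ^ 2 - C (χ (CuspForm.heckeAlgebra.T hℓ hℓN hℓS)) * X + C ((ℓ : 𝒪'))) ∧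
        (∀ q : ℕ, q.Prime → ¬ q ∣ N → q ≠ p → ρ.IsUnramifiedAt q) := by
  have hp : p.Prime := Fact.out
  obtain ⟨t, ε, hps, h1, h2, h3, h4⟩ := Univ.exists_pseudo hp hpS hNS hKL hp𝒪' χ
  obtain ⟨ρ, h5, h6⟩ := exists_adic_rep hp𝒪' hps (fun n => by
    obtain ⟨L, hL, h⟩ := h2 n
    exact ⟨L, hL, fun σ hσ => (h σ hσ).1⟩) h4
  refine ⟨ρ, fun ℓ hℓ hℓN hℓS A hA σ hσ => ?_, fun q hq hqN hqp A hA σ hσ => ?_⟩
  · obtain ⟨h7, h8⟩ := h1 ℓ hℓ hℓN hℓS A hA σ hσ
    rw [h5, h7, h8]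
  · exact h6 σ (h3 q hq hqN hqp A hA σ hσ).1

end S30

end Fermat.Agent.ESCore
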