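import Fermat.Agent.ESCore.InertiaMult
import Fermat.Agent.LG.LG1

set_option autoImplicit false

/-!
# `LG1Prop` at the auxiliary level
-/

open CongruenceSubgroup Matrix.SpecialLinearGroup
open scoped MatrixGroups

noncomputable section

namespace Fermat.Agent.ESCore

open Fermat.Agent.LG

/-- the auxiliary level factor -/
def auxLev (q : ℕ) : ℕ := if q = 2 then 9 else 4

theorem auxLev_pos (q : ℕ) : 0 < auxLev q := by
  rw [auxLev]
  split <;> norm_num

theorem not_dvd_auxLev {q : ℕ} (hq : q.Prime) : ¬ q ∣ auxLev q := by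
  rw [auxLev]
  split
  · rename_i h
    subst h
    norm_num
  · rename_i h
    intro h1
    have h2 : q ∣ 2 ^ 2 := by simpa using h1
    exact h ((Nat.prime_dvd_prime_iff_eq hq Nat.prime_two).mp (hq.dvd_of_dvd_pow h2))

theorem goodLev_aux (q K : ℕ) : GoodLev q (auxLev q * K) := by
  rw [auxLev, GoodLev]
  split
  · rename_i h
    exact Or.inr ⟨h, dvd_mul_right _ _⟩
  · rename_i h
    exact Or.inl ⟨h, dvd_mul_right _ _⟩

theorem LG1Prop_of {A : ValuationSubring Qb} {q : ℕ} (hq : q.Prime) (hA : A.LiesOverPrime q)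
    {M N : ℕ} [NeZero M] [NeZero N] (hN : N = q * M) (hqM : ¬ q ∣ M) (hlev : GoodLev q M) {m : ℕ}
    (hm : 0 < m) (hqm : ¬ q ∣ m) : LG1Prop N m hm A := by
  intro σ hσ τ hτ χ hχ
  have h := lg1 hq hA hN hqM hlev hm hqm (χ := χ) hχ hσ hτ
  rw [map_mul, map_inv] at h
  have h1 : galX N hm (σ * τ) χ = galX N hm σ (galX N hm τ χ) := by rw [map_mul]; rfl
  rw [h1]
  rw [mul_inv_eq_iff_eq_mul] at h
  rw [h, mul_right_comm, inv_mul_cancel_right, mul_comm]

end Fermat.Agent.ESCore
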