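import Mathlib
import Fermat.Agent.ESCore.Defs
import Fermat.Agent.Eis16.QSer

set_option autoImplicit false

/-!
# Eisenstein series with character and their `q`-expansions
-/

open UpperHalfPlane hiding I
open Complex Function Filter Topology ModularForm EisensteinSeries CongruenceSubgroup
open scoped Manifold MatrixGroups ModularForm Real Matrix
open Fermat.Agent.Eis16

noncomputable section

namespace Fermat.Agent.ESCore.EisG

variable {N : ℕ}

/-- the Eisenstein series with weights -/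
def GP (k : ℕ) (φ : (Fin 2 → ZMod N) → ℂ) (z : ℍ) : ℂ :=
  ∑' v : Fin 2 → ℤ, φ (fun i => (v i : ZMod N)) * eisSummand k v z

/-- the action of `SL₂(ℤ)` on the weights -/
def act (A : SL(2, ℤ)) (φ : (Fin 2 → ZMod N) → ℂ) : (Fin 2 → ZMod N) → ℂ :=
  fun v => φ (v ᵥ* ((A⁻¹ : SL(2, ℤ)) : Matrix (Fin 2) (Fin 2) ℤ).map (Int.castRingHom (ZMod N)))

theorem coe_mul_inv (A : SL(2, ℤ)) : (A : Matrix (Fin 2) (Fin 2) ℤ) *
    ((A⁻¹ : SL(2, ℤ)) : Matrix (Fin 2) (Fin 2) ℤ) = 1 :=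
  congrArg (fun B : SL(2, ℤ) => (B : Matrix (Fin 2) (Fin 2) ℤ)) (mul_inv_cancel A)

theorem coe_inv_mul (A : SL(2, ℤ)) : ((A⁻¹ : SL(2, ℤ)) : Matrix (Fin 2) (Fin 2) ℤ) *
    (A : Matrix (Fin 2) (Fin 2) ℤ) = 1 :=
  congrArg (fun B : SL(2, ℤ) => (B : Matrix (Fin 2) (Fin 2) ℤ)) (inv_mul_cancel A)

/-- the action on the index set -/
def vecEquiv (A : SL(2, ℤ)) : (Fin 2 → ℤ) ≃ (Fin 2 → ℤ) where
  toFun v := v ᵥ* (A : Matrix (Fin 2) (Fin 2) ℤ)
  invFun v := v ᵥ* ((A⁻¹ : SL(2, ℤ)) : Matrix (Fin 2) (Fin 2) ℤ)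
  left_inv v := by
    change (v ᵥ* (A : Matrix (Fin 2) (Fin 2) ℤ)) ᵥ*
      ((A⁻¹ : SL(2, ℤ)) : Matrix (Fin 2) (Fin 2) ℤ) = v
    rw [Matrix.vecMul_vecMul, coe_mul_inv, Matrix.vecMul_one]
  right_inv v := by
    change (v ᵥ* ((A⁻¹ : SL(2, ℤ)) : Matrix (Fin 2) (Fin 2) ℤ)) ᵥ*
      (A : Matrix (Fin 2) (Fin 2) ℤ) = v
    rw [Matrix.vecMul_vecMul, coe_inv_mul, Matrix.vecMul_one]

theorem cast_vecMul (v : Fin 2 → ℤ) (M : Matrix (Fin 2) (Fin 2) ℤ) :
    (fun i => ((v ᵥ* M) i : ZMod N)) =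
      (fun i => (v i : ZMod N)) ᵥ* M.map (Int.castRingHom (ZMod N)) := by
  funext i
  exact RingHom.map_vecMul (Int.castRingHom (ZMod N)) M v i

theorem GP_slash (k : ℕ) (φ : (Fin 2 → ZMod N) → ℂ) (A : SL(2, ℤ)) :
    GP k φ ∣[(k : ℤ)] A = GP k (act A φ) := by
  ext z
  rw [SL_slash_apply, GP, GP, ← (vecEquiv A).tsum_eq (fun w => act A φ (fun i =>
    (w i : ZMod N)) * eisSummand k w z), ← tsum_mul_right]
  refine tsum_congr fun v => ?_
  rw [eisSummand_SL2_apply]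
  have hd : denom A (z : ℂ) ≠ 0 := denom_ne_zero _ z
  have h1 : act A φ (fun i => ((vecEquiv A v i : ℤ) : ZMod N)) =
      φ (fun i => (v i : ZMod N)) := by
    rw [act, ← cast_vecMul]
    congr 1
    funext i
    have h2 := (vecEquiv A).left_inv v
    exact congrArg (fun x : ℤ => (x : ZMod N)) (congrFun h2 i)
  rw [h1, zpow_neg]
  change _ = φ _ * eisSummand (k : ℤ) (v ᵥ* (A : Matrix (Fin 2) (Fin 2) ℤ)) z
  rw [mul_comm (denom A (z : ℂ) ^ (k : ℤ)), ← mul_assoc,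
    mul_inv_cancel_right₀ (zpow_ne_zero _ hd)]

variable [NeZero N] {k : ℕ}

theorem norm_le_sum (φ : (Fin 2 → ZMod N) → ℂ) (v : Fin 2 → ZMod N) :
    ‖φ v‖ ≤ ∑ w, ‖φ w‖ :=
  Finset.single_le_sum (f := fun w => ‖φ w‖) (fun _ _ => norm_nonneg _) (Finset.mem_univ v)

theorem tendstoLocallyUniformly_GP (hk : 3 ≤ k) (φ : (Fin 2 → ZMod N) → ℂ) :
    TendstoLocallyUniformly (fun (s : Finset (Fin 2 → ℤ)) (z : ℍ) =>
      ∑ v ∈ s, φ (fun i => (v i : ZMod N)) * eisSummand k v z) (GP k φ) atTop := by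
  have hk' : (2 : ℝ) < k := by norm_cast
  have p_sum : Summable fun x : Fin 2 → ℤ => ‖x‖ ^ (-(k : ℤ)) := by
    have := summable_one_div_norm_rpow hk'
    refine this.congr fun x => ?_
    rw [← Real.rpow_intCast]
    push_cast
    rfl
  rw [tendstoLocallyUniformly_iff_forall_isCompact]
  intro K hK
  obtain ⟨A, B, hB, HABK⟩ := subset_verticalStrip_of_isCompact hK
  refine (tendstoUniformlyOn_tsum (hu := (p_sum.mul_left
    (r ⟨⟨A, B⟩, hB⟩ ^ (-k : ℝ))).mul_left (∑ w, ‖φ w‖)) (fun p z hz => ?_)).mono HABK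
  rw [norm_mul]
  refine mul_le_mul (norm_le_sum φ _) ?_ (norm_nonneg _)
    (Finset.sum_nonneg fun _ _ => norm_nonneg _)
  have h1 := summand_bound_of_mem_verticalStrip (k := (k : ℝ)) (by positivity) p hB hz
  simp only [eisSummand, norm_zpow]
  rw [← Real.rpow_intCast, ← Real.rpow_intCast]
  push_cast
  exact h1

theorem GP_mdiff (hk : 3 ≤ k) (φ : (Fin 2 → ZMod N) → ℂ) : MDiff (GP k φ) := by
  have hloc : TendstoLocallyUniformlyOn (fun (s : Finset (Fin 2 → ℤ)) =>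
      ↑ₕ(fun (z : ℍ) => ∑ v ∈ s, φ (fun i => (v i : ZMod N)) * eisSummand k v z))
        (↑ₕ(GP k φ)) Filter.atTop {z : ℂ | 0 < z.im} := by
    rw [← upperHalfPlaneSet, ← range_coe, ← Set.image_univ]
    apply TendstoLocallyUniformlyOn.comp (s := ⊤) _ _ _ (OpenPartialHomeomorph.continuousOn_symm _)
    · simp only [Set.top_eq_univ, tendstoLocallyUniformlyOn_univ]
      exact tendstoLocallyUniformly_GP hk φ
    · simp only [Topology.IsOpenEmbedding.toOpenPartialHomeomorph_target, Set.top_eq_univ,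
        Set.mapsTo_range_iff, Set.mem_univ, forall_const]
  intro τ
  suffices DifferentiableAt ℂ (↑ₕ(GP k φ)) τ.1 by
    convert!
      MDifferentiableAt.comp τ (DifferentiableAt.mdifferentiableAt this) τ.mdifferentiable_coe
    exact funext fun z ↦ (comp_ofComplex (GP k φ) z).symm
  refine DifferentiableOn.differentiableAt ?_ (isOpen_upperHalfPlaneSet.mem_nhds τ.2)
  refine hloc.differentiableOn (Eventually.of_forall fun s => ?_) isOpen_upperHalfPlaneSet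
  refine DifferentiableOn.fun_sum fun v _ => ?_
  exact (eisSummand_extension_differentiableOn _ _).const_mul _

theorem act_T_pow (φ : (Fin 2 → ZMod N) → ℂ) (n : ℤ) :
    act (ModularGroup.T ^ (N * n : ℤ)) φ = φ := by
  funext v
  rw [act]
  congr 1
  rw [← zpow_neg, ModularGroup.coe_T_zpow]
  funext i
  rw [Matrix.vecMul, dotProduct, Fin.sum_univ_two]
  fin_cases i <;> simp

theorem GP_bdd (hk : 3 ≤ k) (φ : (Fin 2 → ZMod N) → ℂ) (A : SL(2, ℤ)) :
    IsBoundedAtImInfty (GP k φ ∣[(k : ℤ)] A) := by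
  rw [GP_slash]
  generalize act A φ = ψ
  rw [UpperHalfPlane.isBoundedAtImInfty_iff]
  have hk' : (2 : ℝ) < k := by norm_cast
  have p_sum : Summable fun x : Fin 2 → ℤ => ‖x‖ ^ (-(k : ℤ)) := by
    have := summable_one_div_norm_rpow hk'
    refine this.congr fun x => ?_
    rw [← Real.rpow_intCast]
    push_cast
    rfl
  refine ⟨∑' x : Fin 2 → ℤ, (∑ w, ‖ψ w‖) *
    (r ⟨⟨N, 2⟩, Nat.ofNat_pos⟩ ^ (-(k : ℤ)) * ‖x‖ ^ (-(k : ℤ))), 2, ?_⟩
  intro z hz
  obtain ⟨n, hn⟩ := (ModularGroup_T_zpow_mem_verticalStrip z (NeZero.pos N))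
  have h1 : GP k ψ z = GP k ψ ((ModularGroup.T ^ (N * n : ℤ)) • z) := by
    have h2 := congrFun (GP_slash k ψ (ModularGroup.T ^ (N * n : ℤ))) z
    rw [act_T_pow, SL_slash_apply] at h2
    have h3 : denom ((ModularGroup.T ^ (N * n : ℤ) : SL(2, ℤ))) (z : ℂ) = 1 := by
      rw [ModularGroup.denom_apply, ModularGroup.coe_T_zpow]
      simp
    rw [h3, one_zpow, mul_one] at h2
    exact h2.symm
  rw [h1, GP]
  have hsum := summable_norm_eisSummand (k := (k : ℤ)) (by exact_mod_cast hk)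
    ((ModularGroup.T ^ (N * n : ℤ)) • z)
  have hle : ∀ v : Fin 2 → ℤ, ‖ψ (fun i => (v i : ZMod N)) *
      eisSummand k v ((ModularGroup.T ^ (N * n : ℤ)) • z)‖ ≤ (∑ w, ‖ψ w‖) *
        (r ⟨⟨N, 2⟩, Nat.ofNat_pos⟩ ^ (-(k : ℤ)) * ‖v‖ ^ (-(k : ℤ))) := by
    intro v
    rw [norm_mul]
    refine mul_le_mul (norm_le_sum ψ _) ?_ (norm_nonneg _)
      (Finset.sum_nonneg fun _ _ => norm_nonneg _)
    have h4 := summand_bound_of_mem_verticalStrip (k := (k : ℝ)) (lt_trans two_pos hk').le v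
      two_pos (verticalStrip_anti_right N hz hn)
    simp only [eisSummand, norm_zpow]
    rw [← Real.rpow_intCast, ← Real.rpow_intCast, ← Real.rpow_intCast]
    push_cast
    exact h4
  have hs2 := ((p_sum.mul_left (r ⟨⟨N, 2⟩, Nat.ofNat_pos⟩ ^ (-(k : ℤ)))).mul_left
    (∑ w, ‖ψ w‖))
  exact tsum_of_norm_bounded hs2.hasSum hle

/-! ### Eisenstein series with character -/

/-- the Eisenstein series with character -/
def eisChi (k : ℕ) (χ : DirichletCharacter ℂ N) : ℍ → ℂ := GP k fun v => χ (v 0)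

omit [NeZero N] in
theorem act_chi (χ : DirichletCharacter ℂ N) (γ : Gamma0 N) :
    act (γ : SL(2, ℤ)) (fun v : Fin 2 → ZMod N => χ (v 0)) =
      fun v => χ (((γ : SL(2, ℤ)) 1 1 : ℤ) : ZMod N) * χ (v 0) := by
  funext v
  rw [act, ← map_mul]
  congr 1
  have h0 : (((γ : SL(2, ℤ)) 1 0 : ℤ) : ZMod N) = 0 := Gamma0_mem.mp γ.2
  rw [Matrix.vecMul, dotProduct, Fin.sum_univ_two, Matrix.map_apply, Matrix.map_apply,
    Matrix.SpecialLinearGroup.coe_inv, Matrix.adjugate_fin_two]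
  simp only [Matrix.of_apply, Matrix.cons_val', Matrix.cons_val_zero, Matrix.cons_val_one,
    Matrix.cons_val_fin_one, Int.coe_castRingHom, Int.cast_neg]
  rw [h0, neg_zero, mul_zero, add_zero, mul_comm]

theorem eisChi_slash (k : ℕ) (χ : DirichletCharacter ℂ N) (γ : Gamma0 N) :
    eisChi k χ ∣[(k : ℤ)] (γ : SL(2, ℤ)) =
      χ (((γ : SL(2, ℤ)) 1 1 : ℤ) : ZMod N) • eisChi k χ := by
  rw [eisChi, GP_slash, act_chi]
  funext z
  rw [Pi.smul_apply, smul_eq_mul, GP, GP, ← tsum_mul_left]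
  exact tsum_congr fun v => by ring

/-- the coefficients of the Eisenstein series -/
def eisCoeff (k : ℕ) (χ : DirichletCharacter ℂ N) : PowerSeries ℂ :=
  PowerSeries.mk fun m => ∑ x ∈ m.divisorsAntidiagonal, χ (x.1 : ZMod N) * (x.2 : ℂ) ^ (k - 1)

omit [NeZero N] in
theorem eisCoeff_coeff (k : ℕ) (χ : DirichletCharacter ℂ N) (m : ℕ) : (eisCoeff k χ).coeff m =
    ∑ x ∈ m.divisorsAntidiagonal, χ (x.1 : ZMod N) * (x.2 : ℂ) ^ (k - 1) :=
  PowerSeries.coeff_mk _ _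

omit [NeZero N] in
theorem eisCoeff_one (k : ℕ) (χ : DirichletCharacter ℂ N) : (eisCoeff k χ).coeff 1 = 1 := by
  rw [eisCoeff_coeff, Nat.divisorsAntidiagonal_one, Finset.sum_singleton]
  simp

omit [NeZero N] in
theorem eisCoeff_zero (k : ℕ) (χ : DirichletCharacter ℂ N) : (eisCoeff k χ).coeff 0 = 0 := by
  rw [eisCoeff_coeff, Nat.divisorsAntidiagonal_zero, Finset.sum_empty]

/-- the constant -/
def eisConst (k : ℕ) : ℂ := 2 * ((-2 * π * I) ^ k / (k - 1).factorial)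

theorem eisConst_ne_zero (k : ℕ) : eisConst k ≠ 0 := by
  rw [eisConst]
  refine mul_ne_zero two_ne_zero (div_ne_zero (pow_ne_zero _ ?_) ?_)
  · refine mul_ne_zero (mul_ne_zero (by norm_num) ?_) I_ne_zero
    exact_mod_cast Real.pi_ne_zero
  · exact_mod_cast Nat.factorial_ne_zero _

theorem summable_term (k : ℕ) (χ : DirichletCharacter ℂ N) {q : ℂ} (hq : ‖q‖ < 1) :
    Summable fun c : ℕ+ × ℕ+ => χ ((c.1 : ℕ) : ZMod N) * ((c.2 : ℕ) : ℂ) ^ k *
      q ^ ((c.1 : ℕ) * (c.2 : ℕ)) := by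
  refine Summable.of_norm_bounded (summable_prod_mul_pow k hq).norm fun c => ?_
  rw [norm_mul, norm_mul, norm_mul]
  have h1 : ‖χ ((c.1 : ℕ) : ZMod N)‖ ≤ 1 := DirichletCharacter.norm_le_one χ _
  have h2 : 0 ≤ ‖((c.2 : ℕ) : ℂ) ^ k‖ := norm_nonneg _
  refine mul_le_mul_of_nonneg_right ?_ (norm_nonneg _)
  calc ‖χ ((c.1 : ℕ) : ZMod N)‖ * ‖((c.2 : ℕ) : ℂ) ^ k‖ ≤ 1 * ‖((c.2 : ℕ) : ℂ) ^ k‖ :=
        mul_le_mul_of_nonneg_right h1 h2
    _ = _ := one_mul _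

theorem hasSum_coeff (k : ℕ) (χ : DirichletCharacter ℂ N) {q : ℂ} (hq : ‖q‖ < 1) :
    HasSum (fun m : ℕ => (eisCoeff k χ).coeff m * q ^ m)
      (∑' c : ℕ+ × ℕ+, χ ((c.1 : ℕ) : ZMod N) * ((c.2 : ℕ) : ℂ) ^ (k - 1) *
        q ^ ((c.1 : ℕ) * (c.2 : ℕ))) := by
  have h1 := (summable_term (k - 1) χ hq).hasSum
  rw [← sigmaAntidiagonalEquivProd.hasSum_iff] at h1
  have h2 := h1.sigma (γ := fun n : ℕ+ => Nat.divisorsAntidiagonal n)
    (g := fun m : ℕ+ => (eisCoeff k χ).coeff m * q ^ (m : ℕ)) (fun m => by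
      have h3 := hasSum_fintype (fun x : Nat.divisorsAntidiagonal (m : ℕ) =>
        χ ((x.1.1 : ℕ) : ZMod N) * ((x.1.2 : ℕ) : ℂ) ^ (k - 1) * q ^ (x.1.1 * x.1.2))
      have h5 : (eisCoeff k χ).coeff (m : ℕ) * q ^ (m : ℕ) =
          ∑ x : Nat.divisorsAntidiagonal (m : ℕ),
            χ ((x.1.1 : ℕ) : ZMod N) * ((x.1.2 : ℕ) : ℂ) ^ (k - 1) * q ^ (x.1.1 * x.1.2) := by
        rw [eisCoeff_coeff, Finset.sum_mul,
          ← Finset.sum_coe_sort (Nat.divisorsAntidiagonal (m : ℕ))]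
        refine Finset.sum_congr rfl fun x _ => ?_
        rw [(Nat.mem_divisorsAntidiagonal.mp x.2).1]
      rw [h5]
      exact h3)
  have h3 : ∀ n : ℕ, n ∉ Set.range ((↑) : ℕ+ → ℕ) →
      (eisCoeff k χ).coeff n * q ^ n = 0 := by
    intro n hn
    have h4 : n = 0 := by
      by_contra h0
      exact hn ⟨⟨n, Nat.pos_of_ne_zero h0⟩, rfl⟩
    rw [h4, eisCoeff_zero, zero_mul]
  exact (PNat.coe_injective.hasSum_iff h3).mp h2

/-- **The `q`-expansion.** -/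
theorem hasQ_eisChi (hk : 3 ≤ k) (hk2 : Even k) (hN : 1 < N) {χ : DirichletCharacter ℂ N}
    (hχ : χ (-1) = 1) : HasQ 1 (eisChi k χ) (eisConst k • eisCoeff k χ) := by
  intro z
  have hq := norm_exp_two_pi_I_lt_one z
  set q : ℂ := cexp (2 * π * I * z) with hqdef
  have hqp : Periodic.qParam 1 (z : ℂ) = q := by
    rw [Periodic.qParam, hqdef]
    congr 1
    push_cast
    ring
  have hsum0 : Summable fun v : Fin 2 → ℤ => χ ((v 0 : ℤ) : ZMod N) * eisSummand k v z := by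
    refine Summable.of_norm_bounded (summable_norm_eisSummand (k := (k : ℤ))
      (by exact_mod_cast hk) z) fun v => ?_
    rw [norm_mul]
    calc _ ≤ 1 * ‖eisSummand k v z‖ :=
          mul_le_mul_of_nonneg_right (DirichletCharacter.norm_le_one χ _) (norm_nonneg _)
      _ = _ := one_mul _
  have hsum1 : Summable fun x : ℤ × ℤ => χ ((x.1 : ℤ) : ZMod N) * eisSummand k ![x.1, x.2] z := by
    refine (finTwoArrowEquiv ℤ).summable_iff.mp <| hsum0.congr (fun v ↦ ?_)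
    simp [show ![v 0, v 1] = v from List.ofFn_inj.mp rfl]
  have h0 : eisChi k χ z = ∑' (c : ℤ) (d : ℤ), χ ((c : ℤ) : ZMod N) *
      eisSummand k ![c, d] z := by
    rw [eisChi, GP, ← (finTwoArrowEquiv ℤ).symm.tsum_eq, finTwoArrowEquiv_symm_apply]
    exact hsum1.tsum_prod
  have hχ0 : χ ((0 : ℤ) : ZMod N) = 0 := by
    rw [Int.cast_zero]
    have : Nontrivial (ZMod N) := ZMod.nontrivial_iff.mpr hN.ne'
    exact χ.map_nonunit not_isUnit_zero
  have heven : ∀ c : ℤ, ∑' d : ℤ, χ ((-c : ℤ) : ZMod N) * eisSummand k ![-c, d] z =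
      ∑' d : ℤ, χ ((c : ℤ) : ZMod N) * eisSummand k ![c, d] z := by
    intro c
    rw [← tsum_comp_neg]
    refine tsum_congr fun y => ?_
    have e1 : χ ((-c : ℤ) : ZMod N) = χ ((c : ℤ) : ZMod N) := by
      rw [Int.cast_neg, ← neg_one_mul, map_mul, hχ, one_mul]
    rw [e1]
    congr 1
    simp [eisSummand, ← neg_add _ (y : ℂ), -neg_add_rev, hk2.neg_pow]
  have h1 : eisChi k χ z = 2 * ∑' c : ℕ+, ∑' d : ℤ, χ (((c : ℕ) : ℤ) : ZMod N) *
      eisSummand k ![((c : ℕ) : ℤ), d] z := by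
    rw [h0, tsum_int_eq_zero_add_two_mul_tsum_pnat (fun n => heven n) hsum1.prod]
    simp only [hχ0, zero_mul, tsum_zero, zero_add, nsmul_eq_mul, Nat.cast_ofNat]
  have h2 : ∀ c : ℕ+, ∑' d : ℤ, χ (((c : ℕ) : ℤ) : ZMod N) *
      eisSummand k ![((c : ℕ) : ℤ), d] z = ((-2 * π * I) ^ k / (k - 1).factorial) *
        ∑' n : ℕ+, χ ((c : ℕ) : ZMod N) * ((n : ℕ) : ℂ) ^ (k - 1) *
          q ^ ((c : ℕ) * (n : ℕ)) := by
    intro c
    have H := EisensteinSeries.qExpansion_identity_pnat (k := k - 1) (by grind)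
      ⟨c * z, by simpa using z.2⟩
    rw [show k - 1 + 1 = k by grind] at H
    rw [tsum_mul_left]
    have e1 : ∑' d : ℤ, eisSummand k ![((c : ℕ) : ℤ), d] z =
        ∑' n : ℤ, 1 / (((c : ℂ) * z) + n) ^ k := by
      refine tsum_congr fun d => ?_
      simp [eisSummand]
    rw [e1]
    change χ (((c : ℕ) : ℤ) : ZMod N) * (∑' n : ℤ, 1 / (((⟨c * z, by simpa using z.2⟩ : ℍ) : ℂ) +
      n) ^ k) = _
    rw [H, mul_left_comm, ← tsum_mul_left]
    congr 1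
    refine tsum_congr fun n => ?_
    rw [← mul_assoc, Int.cast_natCast]
    congr 1
    change cexp (2 * π * I * (c * z)) ^ (n : ℕ) = q ^ ((c : ℕ) * (n : ℕ))
    rw [hqdef, ← Complex.exp_nat_mul, ← Complex.exp_nat_mul]
    congr 1
    push_cast
    ring
  have h3 : eisChi k χ z = eisConst k * ∑' c : ℕ+ × ℕ+, χ ((c.1 : ℕ) : ZMod N) *
      ((c.2 : ℕ) : ℂ) ^ (k - 1) * q ^ ((c.1 : ℕ) * (c.2 : ℕ)) := by
    rw [h1, tsum_congr h2, tsum_mul_left, (summable_term (k - 1) χ hq).tsum_prod, eisConst]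
    ring
  rw [h3, hqp]
  have h4 := (hasSum_coeff k χ hq).mul_left (eisConst k)
  refine h4.congr_fun fun m => ?_
  rw [PowerSeries.coeff_smul, smul_eq_mul, mul_assoc]

end Fermat.Agent.ESCore.EisG
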