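import Fermat.Agent.ESCore.GalG2

set_option autoImplicit false

/-!
# The Eichler–Shimura relation for groups between `Γ₁(N)` and `Γ₀(N)`
-/

open UpperHalfPlane hiding I J
open Complex Function Filter Topology ModularForm Matrix.SpecialLinearGroup CongruenceSubgroup
open scoped Manifold MatrixGroups ModularForm
open Fermat.Agent.Eis16 Fermat.Agent.ES

noncomputable section

namespace Fermat.Agent.ESCore.Gal

variable {N : ℕ} {G : Subgroup SL(2, ℤ)} {h1 : Gamma1 N ≤ G} {h0 : G ≤ Gamma0 N} {m : ℕ}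

/-- The coefficients of cusp forms on `G` (weights divisible by `12`) lie in finitely generated
groups. -/
def FgCoeff (G : Subgroup SL(2, ℤ)) : Prop :=
  ∀ (n : ℕ) (f : ℍ → ℂ), f ∈ mform (1 : G →* ℂˣ) (12 * n) →
    (∀ B : SL(2, ℤ), IsZeroAtImInfty (f ∣[(12 * n : ℤ)] B)) →
    ∃ M : Submodule ℤ ℂ, M.FG ∧ ∀ j, (qExpansion 1 f).coeff j ∈ M

/-- The uniqueness lemma KL for the group `G` at the place `A`. -/
def KLPropG (G : Subgroup SL(2, ℤ)) (m : ℕ) (A : ValuationSubring Qb) : Prop :=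
  ∀ (χ₁ χ₂ : XGen G m) (n : ℕ) (F₁ F₂ : ℍ → ℂ), F₁ ∈ mform χ₁.1 (12 * n) →
    F₂ ∈ mform χ₂.1 (12 * n) → ∀ P₁ P₂ : PowerSeries A,
    qExpansion 1 (F₁ ^ m) = (P₁.map A.subtype).map ιC →
    qExpansion 1 (F₂ ^ m) = (P₂.map A.subtype).map ιC →
    P₁.map (IsLocalRing.residue A) = P₂.map (IsLocalRing.residue A) →
    P₁.map (IsLocalRing.residue A) ≠ 0 → χ₁ = χ₂

theorem exists_scale_of_fg (A : ValuationSubring Qb) {P : PowerSeries Qb} (hP : P ≠ 0)
    {M : Submodule ℤ ℂ} (hM : M.FG) (hMc : ∀ n, ιC (P.coeff n) ∈ M) :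
    ∃ a : Qb, a ≠ 0 ∧ ∃ P' : PowerSeries A,
      P'.map A.subtype = a • P ∧ P'.map (IsLocalRing.residue A) ≠ 0 := by
  have hinj : Function.Injective (ιC.toAddMonoidHom.toIntLinearMap : Qb →ₗ[ℤ] ℂ) :=
    ιC.injective
  have hM' : (M.comap (ιC.toAddMonoidHom.toIntLinearMap : Qb →ₗ[ℤ] ℂ)).FG := by
    have hn : IsNoetherian ℤ M := isNoetherian_of_fg_of_noetherian M hM
    apply Submodule.fg_of_fg_map_injective _ hinj
    rw [Submodule.map_comap_eq]
    exact (isNoetherian_submodule.1 hn) _ inf_le_right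
  have hx : ∀ n, P.coeff n ∈ (M.comap (ιC.toAddMonoidHom.toIntLinearMap : Qb →ₗ[ℤ] ℂ)) := by
    intro n
    rw [Submodule.mem_comap]
    exact hMc n
  have hne : ∃ n, P.coeff n ≠ 0 := by
    by_contra hcon
    push Not at hcon
    exact hP (PowerSeries.ext fun n => by rw [hcon n, map_zero])
  obtain ⟨n₀, hn₀, hA⟩ := exists_max_of_fg A hM' hx hne
  refine ⟨(P.coeff n₀)⁻¹, inv_ne_zero hn₀, PowerSeries.mk fun n => ⟨P.coeff n * (P.coeff n₀)⁻¹,
    hA n⟩, ?_, ?_⟩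
  · ext n
    rw [PowerSeries.coeff_map, PowerSeries.coeff_mk, PowerSeries.coeff_smul, smul_eq_mul]
    exact mul_comm _ _
  · intro h
    have h1 := congrArg (PowerSeries.coeff n₀) h
    rw [PowerSeries.coeff_map, PowerSeries.coeff_mk, map_zero] at h1
    have h2 : (⟨P.coeff n₀ * (P.coeff n₀)⁻¹, hA n₀⟩ : A) = 1 := by
      apply Subtype.ext
      exact mul_inv_cancel₀ hn₀
    rw [h2, map_one] at h1
    exact one_ne_zero h1

/-- Rescaling a form with character. -/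
theorem scale_form (hm : 0 < m) (hT : ModularGroup.T ∈ G) (hFg : FgCoeff G)
    (A : ValuationSubring Qb) {χ : G →* ℂˣ}
    (hχ : χ ∈ XGen G m) {n : ℕ} {F : ℍ → ℂ} (hF : F ∈ mform χ (12 * n)) (hF0 : F ≠ 0)
    (hz : ∀ B : SL(2, ℤ), IsZeroAtImInfty (F ∣[(12 * n : ℤ)] B)) {P : PowerSeries Qb}
    (hP : qExpansion 1 F = P.map ιC) :
    ∃ b : Qb, b ≠ 0 ∧ ∃ R : PowerSeries A, R.map A.subtype = (b • P) ^ m ∧
      R.map (IsLocalRing.residue A) ≠ 0 := by
  have hFQ := hasQ_mform_G hT hχ.2 hF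
  have hP0 : P ≠ 0 := by
    rintro rfl
    rw [hP, map_zero] at hFQ
    exact hF0 (hFQ.ext (HasQ.zero 1))
  obtain ⟨M, hM, hMc⟩ := hFg (n * m) (F ^ m) (pow_mem_one hχ hF) (by
    intro B
    have h2 : (F ^ m) ∣[(12 * (n * m : ℕ) : ℤ)] B = (F ∣[(12 * n : ℤ)] B) ^ m := by
      rw [← slash_pow_SL2]
      congr 1
      push_cast
      ring
    rw [h2]
    exact isZero_pow (hz B) hm)
  have hPm : P ^ m ≠ 0 := pow_ne_zero m hP0
  obtain ⟨a, ha, R, hR1, hR2⟩ := exists_scale_of_fg A hPm hM fun j => by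
    have h2 := hMc j
    rw [(hFQ.pow m).qExpansion_eq one_pos, hP, ← map_pow, PowerSeries.coeff_map] at h2
    exact h2
  obtain ⟨b, hb⟩ := IsAlgClosed.exists_pow_nat_eq a hm
  refine ⟨b, ?_, R, ?_, hR2⟩
  · rintro rfl
    rw [zero_pow hm.ne'] at hb
    exact ha hb.symm
  · rw [hR1, smul_pow, hb]

theorem gmap_smul (σ : GQ) (b : Qb) (P : PowerSeries Qb) : gmap σ (b • P) = σ b • gmap σ P := by
  ext n
  rw [gmap, PowerSeries.coeff_map, PowerSeries.coeff_smul, PowerSeries.coeff_smul,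
    PowerSeries.coeff_map, smul_eq_mul, smul_eq_mul, map_mul]
  rfl

theorem map_smul_ser {R S : Type*} [CommRing R] [CommRing S] (f : R →+* S) (b : R)
    (P : PowerSeries R) : (b • P).map f = f b • P.map f := by
  ext n
  rw [PowerSeries.coeff_map, PowerSeries.coeff_smul, PowerSeries.coeff_smul,
    PowerSeries.coeff_map, smul_eq_mul, smul_eq_mul, map_mul]

theorem ser_comp1 (A : ValuationSubring Qb) {σ : GQ} (hσ : σ ∈ A.decompositionSubgroup ℚ) {l : ℕ}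
    (hl0 : l ≠ 0) (m : ℕ) {P Pd : PowerSeries Qb} {R R' : PowerSeries A} {b b' : Qb} (hb : b ≠ 0)
    (hR1 : R.map A.subtype = P ^ m) (hR'1 : R'.map A.subtype = (b' • Pd) ^ m)
    {q' : PowerSeries ℂ} (hq' : q' ^ m = ((gmap σ (b • Pd)).map ιC) ^ m) :
    (ιC (σ (b' / b)) • (PowerSeries.expand l hl0 q' * normSer l ((gmap σ P).map ιC))) ^ m =
      ((PowerSeries.expand l hl0 (R'.map (decMap A hσ)) * normSer l (R.map (decMap A hσ))).map
        A.subtype).map ιC := by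
  set q : PowerSeries ℂ := (gmap σ Pd).map ιC with hq
  set c : ℂ := ιC (σ (b' / b)) with hc
  have hcb : c * ιC (σ b) = ιC (σ b') := by
    rw [hc, ← map_mul, ← map_mul, div_mul_cancel₀ _ hb]
  have e1 : ((gmap σ (b • Pd)).map ιC) ^ m = ιC (σ b) ^ m • q ^ m := by
    rw [gmap_smul, map_smul_ser, smul_pow]
  have e2 : ((R'.map (decMap A hσ)).map A.subtype).map ιC = ιC (σ b') ^ m • q ^ m := by
    rw [map_decMap, hR'1, map_pow, map_pow, gmap_smul, map_smul_ser, smul_pow]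
  have e3 : ((R.map (decMap A hσ)).map A.subtype).map ιC = ((gmap σ P).map ιC) ^ m := by
    rw [map_decMap, hR1, map_pow, map_pow]
  rw [map_mul (PowerSeries.map A.subtype), map_mul (PowerSeries.map ιC), normSer_map, normSer_map,
    PowerSeries.map_expand, PowerSeries.map_expand, e2, e3, smul_pow, mul_pow,
    ← map_pow (PowerSeries.expand l hl0), hq', e1, ← normSer_pow hl0, map_smul, map_smul,
    ← hcb, mul_pow, mul_smul, smul_mul_assoc, smul_mul_assoc, smul_mul_assoc]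

theorem ser_comp2 (A : ValuationSubring Qb) {σ : GQ} (hσ : σ ∈ A.decompositionSubgroup ℚ) {l : ℕ}
    (m : ℕ) {P Pd : PowerSeries Qb} {R R' : PowerSeries A} {b' : Qb}
    (hR1 : R.map A.subtype = P ^ m) (hR'1 : R'.map A.subtype = (b' • Pd) ^ m) :
    ((gmap (σ * σ) P).map ιC * (ιC b' • Pd.map ιC) ^ l) ^ m =
      (((R.map (decMap A hσ)).map (decMap A hσ) * R' ^ l).map A.subtype).map ιC := by
  rw [map_mul (PowerSeries.map A.subtype),
    map_decMap, map_decMap, map_pow (PowerSeries.map A.subtype), hR1, hR'1, ← gmap_mul,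
    map_mul (PowerSeries.map ιC), mul_pow, map_pow (gmap (σ * σ)), map_pow (PowerSeries.map ιC),
    map_pow (PowerSeries.map ιC), map_pow (PowerSeries.map ιC), map_smul_ser]
  ring

theorem ser_comp3 (A : ValuationSubring Qb) {σ : GQ} {l : ℕ} [Fact l.Prime]
    [CharP (IsLocalRing.ResidueField A) l] (hσ : A.IsFrobeniusAt σ l)
    (hl0 : l ≠ 0) {R R' : PowerSeries A} (hR2 : R.map (IsLocalRing.residue A) ≠ 0)
    (hR'2 : R'.map (IsLocalRing.residue A) ≠ 0) :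
    (PowerSeries.expand l hl0 (R'.map (decMap A hσ.mem_decompositionSubgroup)) *
      normSer l (R.map (decMap A hσ.mem_decompositionSubgroup))).map (IsLocalRing.residue A) =
    ((R.map (decMap A hσ.mem_decompositionSubgroup)).map
      (decMap A hσ.mem_decompositionSubgroup) * R' ^ l).map (IsLocalRing.residue A) ∧
    (PowerSeries.expand l hl0 (R'.map (decMap A hσ.mem_decompositionSubgroup)) *
      normSer l (R.map (decMap A hσ.mem_decompositionSubgroup))).map (IsLocalRing.residue A) ≠ 0 := by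
  set dec := decMap A hσ.mem_decompositionSubgroup with hdec
  set r := R.map (IsLocalRing.residue A) with hr
  set r' := R'.map (IsLocalRing.residue A) with hr'
  have hres : ∀ R : PowerSeries A, (R.map dec).map (IsLocalRing.residue A) =
      (R.map (IsLocalRing.residue A)).map (frobenius _ l) := by
    intro R
    ext n
    rw [PowerSeries.coeff_map, PowerSeries.coeff_map, PowerSeries.coeff_map,
      PowerSeries.coeff_map, frobenius_def]
    exact residue_decMap A hσ _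
  have hfrob0 : ∀ s : PowerSeries (IsLocalRing.ResidueField A), s ≠ 0 →
      s.map (frobenius _ l) ≠ 0 := by
    intro s hs h
    apply hs
    ext n
    have h1 := congrArg (PowerSeries.coeff n) h
    rw [PowerSeries.coeff_map, map_zero, frobenius_def] at h1
    rw [map_zero]
    exact eq_zero_of_pow_eq_zero h1
  have hexp : ∀ s : PowerSeries (IsLocalRing.ResidueField A),
      PowerSeries.expand l hl0 (s.map (frobenius _ l)) = s ^ l := by
    intro s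
    rw [← PowerSeries.map_expand]
    exact (MvPowerSeries.map_frobenius_expand (p := l) (R := IsLocalRing.ResidueField A) hl0
      (f := s))
  constructor
  · rw [map_mul (PowerSeries.map (IsLocalRing.residue A)), normSer_map, PowerSeries.map_expand,
      hres, hres, ← hr', ← hr, hexp, normSer_charP, map_mul (PowerSeries.map (IsLocalRing.residue A)),
      hres, hres, map_pow (PowerSeries.map (IsLocalRing.residue A)), ← hr', ← hr, mul_comm]
  · rw [map_mul (PowerSeries.map (IsLocalRing.residue A)), normSer_map, PowerSeries.map_expand,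
      hres, hres, ← hr', ← hr, hexp]
    exact mul_ne_zero (pow_ne_zero _ hR'2) (normSer_ne_zero hl0 (hfrob0 _ hR2))

variable [G.FiniteIndex]
variable (hm : 0 < m) (hG : ConjStable G) (hD : DiaConj N G)

/-- A cuspidal form with algebraic coefficients. -/
theorem exists_cusp_alg (hm : 0 < m) (hG : ConjStable G) (hT : ModularGroup.T ∈ G)
    (χ : XGen G m) : ∃ F ∈ mform χ.1 (12 * (2 : ℕ)), F ≠ 0 ∧
      (∀ B : SL(2, ℤ), IsZeroAtImInfty (F ∣[(12 * (2 : ℕ) : ℤ)] B)) ∧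
      ∃ P : PowerSeries Qb, qExpansion 1 F = P.map ιC := by
  obtain ⟨F₀, hF₀, hF₀', P₀, hP₀⟩ := exists_alg_form hm hG hT χ
  have hQ₀ : HasQ 1 F₀ (P₀.map ιC) := by
    rw [← hP₀]
    exact hasQ_mform_G hT χ.2.2 hF₀
  set PD : PowerSeries Qb := DZ.map (Int.castRingHom Qb) with hPD
  have hQD : HasQ 1 dl (PD.map ιC) := by
    have : PD.map ιC = toC DZ := by
      ext n
      rw [hPD, PowerSeries.coeff_map, PowerSeries.coeff_map, coeff_toC]
      simp
    rw [this]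
    exact hasQ_Delta
  have hQ₁ : HasQ 1 (F₀ * dl) ((P₀ * PD).map ιC) := by
    rw [map_mul]
    exact hQ₀.mul hQD
  refine ⟨F₀ * dl, ?_, ?_, fun B => ?_, P₀ * PD, hQ₁.qExpansion_eq one_pos⟩
  · refine mform_congr (mform_mul hF₀ (dl_mem (G := G))) ?_ ?_
    · ext g
      simp
    · norm_num
  · intro h
    apply hF₀'
    ext τ
    have h1 := congrFun h τ
    rcases mul_eq_zero.1 h1 with h2 | h2
    · exact h2
    · exact absurd h2 (dl_ne_zero τ)
  · have h2 : (12 * (2 : ℕ) : ℤ) = 12 + 12 := by norm_num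
    rw [h2, ModularForm.mul_slash_SL2, dl_slash]
    exact isZero_mul_bounded (hF₀.2.2 B) dl_zero

/-- **The Eichler–Shimura relation** on `XDia`. -/
theorem ES_relation_G (hFg : FgCoeff G) {l : ℕ} (hl : l.Prime) (hN : ¬ l ∣ N)
    {A : ValuationSubring Qb} (hA : A.LiesOverPrime l) (hKL : KLPropG G m A) {σ : GQ}
    (hσ : A.IsFrobeniusAt σ l) (χ : XDia h1 h0 m) :
    heckeXD hl hN h1 h0 m (galXD h1 h0 hm hG hD σ χ) =
      galXD h1 h0 hm hG hD (σ * σ) χ * (diaX h1 h0 m (sigmaD N l) χ) ^ l := by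
  have := Fact.mk hl
  have hchar := charP_residueQ hl hA
  have hl0 := hl.ne_zero
  have hT := T_mem_G h1
  set dec := decMap A hσ.mem_decompositionSubgroup with hdec
  set δ : Gamma0 N := sigmaD N l with hδ
  obtain ⟨F₁, hF₁, hF₁0, hF₁z, P₁, hP₁⟩ := exists_cusp_alg hm hG hT ⟨χ.1, XDia_le χ.2⟩
  -- the form and its image under the diamond operator
  have hF₁δ : F₁ ∣[(12 * (2 : ℕ) : ℤ)] (δ : SL(2, ℤ)) ∈
      mform (diaChar h1 h0 δ χ.1) (12 * (2 : ℕ)) := slash_mem_mform h1 h0 hF₁ δ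
  obtain ⟨Pd, hPd⟩ := dia_algebraic hm hD χ hF₁ hP₁ δ
  obtain ⟨b, hb, R, hR1, hR2⟩ := scale_form hm hT hFg A (XDia_le χ.2) hF₁ hF₁0 hF₁z hP₁
  obtain ⟨b', hb', R', hR'1, hR'2⟩ := scale_form hm hT hFg A (mem_XDia.1 χ.2 δ) hF₁δ
    (slash_ne_zero hF₁0 _) (fun B => by
      rw [← SlashAction.slash_mul]
      exact hF₁z _) hPd
  have hF₁Q : HasQ 1 F₁ (P₁.map ιC) := by
    rw [← hP₁]; exact hasQ_mform_G hT (XDia_le χ.2).2 hF₁
  have hF₁δQ : HasQ 1 (F₁ ∣[(12 * (2 : ℕ) : ℤ)] (δ : SL(2, ℤ))) (Pd.map ιC) := by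
    rw [← hPd]; exact hasQ_mform_G hT (mem_XDia.1 χ.2 δ).2 hF₁δ
  set F : ℍ → ℂ := ιC b • F₁ with hFdef
  set P : PowerSeries Qb := b • P₁ with hPdef
  have hF : F ∈ mform χ.1 (12 * (2 : ℕ)) := Submodule.smul_mem _ _ hF₁
  have hF0 : F ≠ 0 := smul_ne_zero ((map_ne_zero ιC).2 hb) hF₁0
  have hFQ : HasQ 1 F (P.map ιC) := by
    rw [hPdef, map_smul_ser]
    exact hF₁Q.smul _
  obtain ⟨F', hF', hF'0, hF'P⟩ := galXD_spec hm hG hD σ χ hF hF0 (hFQ.qExpansion_eq one_pos)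
  obtain ⟨G₂, hG₂, hG₂0, hG₂P⟩ := galXD_spec hm hG hD (σ * σ) χ hF hF0
    (hFQ.qExpansion_eq one_pos)
  have hF'Q : HasQ 1 F' ((gmap σ P).map ιC) := by
    rw [← hF'P]
    exact hasQ_mform_G hT (XDia_le (galXD h1 h0 hm hG hD σ χ).2).2 hF'
  have hG₂Q : HasQ 1 G₂ ((gmap (σ * σ) P).map ιC) := by
    rw [← hG₂P]
    exact hasQ_mform_G hT (XDia_le (galXD h1 h0 hm hG hD (σ * σ) χ).2).2 hG₂
  -- the diamond operator on the conjugate form
  have hconj : qExpansion 1 F' = (qExpansion 1 F).map (ext σ : ℂ →+* ℂ) := by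
    rw [hF'P, hFQ.qExpansion_eq one_pos]
    ext j
    rw [PowerSeries.coeff_map, PowerSeries.coeff_map, PowerSeries.coeff_map, gmap,
      PowerSeries.coeff_map]
    exact (ext_ιC σ _).symm
  obtain ⟨-, hFδm, hFδQ⟩ := dia_conj hD χ.2
    (XDia_le (galXD h1 h0 hm hG hD σ χ).2) (ext σ) hF hF' hconj δ
  have hF'δ : F' ∣[(12 * (2 : ℕ) : ℤ)] (δ : SL(2, ℤ)) ∈
      mform (diaChar h1 h0 δ (galXD h1 h0 hm hG hD σ χ).1) (12 * (2 : ℕ)) :=
    slash_mem_mform h1 h0 hF' δ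
  have hF'δQ := hasQ_mform_G hT (mem_XDia.1 (galXD h1 h0 hm hG hD σ χ).2 δ).2 hF'δ
  have hFδq : qExpansion 1 (F ∣[(12 * (2 : ℕ) : ℤ)] (δ : SL(2, ℤ))) = (b • Pd).map ιC := by
    have h2 : F ∣[(12 * (2 : ℕ) : ℤ)] (δ : SL(2, ℤ)) =
        ιC b • F₁ ∣[(12 * (2 : ℕ) : ℤ)] (δ : SL(2, ℤ)) := ModularForm.SL_smul_slash _ _ _ _
    rw [h2, (hF₁δQ.smul (ιC b)).qExpansion_eq one_pos, map_smul_ser]
  have hpowδ : qExpansion 1 (F' ∣[(12 * (2 : ℕ) : ℤ)] (δ : SL(2, ℤ))) ^ m =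
      ((gmap σ (b • Pd)).map ιC) ^ m := by
    have h2 := (hF'δQ.pow m).unique one_pos hFδQ
    rw [h2, hFδq]
    congr 1
    ext j
    rw [PowerSeries.coeff_map, PowerSeries.coeff_map, PowerSeries.coeff_map, gmap,
      PowerSeries.coeff_map]
    exact ext_ιC σ _
  -- the two forms
  set H₁ : ℍ → ℂ := ιC (σ (b' / b)) • heckeMulG N l (12 * (2 : ℕ)) F' with hH₁
  set H₂ : ℍ → ℂ := G₂ * (ιC b' • F₁ ∣[(12 * (2 : ℕ) : ℤ)] (δ : SL(2, ℤ))) ^ l with hH₂
  have key := hKL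
    ⟨(heckeXD hl hN h1 h0 m (galXD h1 h0 hm hG hD σ χ)).1, XDia_le (heckeXD hl hN h1 h0 m
      (galXD h1 h0 hm hG hD σ χ)).2⟩
    ⟨(galXD h1 h0 hm hG hD (σ * σ) χ * (diaX h1 h0 m δ χ) ^ l).1, XDia_le (galXD h1 h0 hm hG hD
      (σ * σ) χ * (diaX h1 h0 m δ χ) ^ l).2⟩
    (2 * (l + 1)) H₁ H₂ ?_ ?_
    (PowerSeries.expand l hl0 (R'.map dec) * normSer l (R.map dec))
    ((R.map dec).map dec * R' ^ l) ?_ ?_ ?_ ?_
  · exact Subtype.ext (congrArg (fun z : XGen G m => z.1) key)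
  · refine Submodule.smul_mem _ _ ?_
    exact mform_congr (heckeMulG_mem hl hN h1 h0 hF') rfl (by push_cast; ring)
  · have h2 : ιC b' • F₁ ∣[(12 * (2 : ℕ) : ℤ)] (δ : SL(2, ℤ)) ∈
        mform (diaChar h1 h0 δ χ.1) (12 * (2 : ℕ)) := Submodule.smul_mem _ _ hF₁δ
    refine mform_congr (mform_mul hG₂ (mform_pow h2 l)) ?_ (by push_cast; ring)
    ext g
    simp
  · have h2 : HasQ 1 H₁ (ιC (σ (b' / b)) •
        (PowerSeries.expand l hl0 (qExpansion 1 (F' ∣[(12 * (2 : ℕ) : ℤ)] (δ : SL(2, ℤ)))) *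
        normSer l ((gmap σ P).map ιC))) := (hasQ_heckeMulG hl0 hF'Q hF'δQ).smul _
    rw [(h2.pow m).qExpansion_eq one_pos]
    exact ser_comp1 A hσ.mem_decompositionSubgroup hl0 m hb hR1 hR'1 hpowδ
  · have h2 : HasQ 1 H₂ ((gmap (σ * σ) P).map ιC * (ιC b' • Pd.map ιC) ^ l) :=
      hG₂Q.mul ((hF₁δQ.smul (ιC b')).pow l)
    rw [(h2.pow m).qExpansion_eq one_pos]
    exact ser_comp2 A hσ.mem_decompositionSubgroup m hR1 hR'1
  · exact (ser_comp3 A hσ hl0 hR2 hR'2).1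
  · exact (ser_comp3 A hσ hl0 hR2 hR'2).2

/-- **Triviality of inertia** on `XDia`. -/
theorem inertia_trivial_G (hFg : FgCoeff G) {A : ValuationSubring Qb} (hKL : KLPropG G m A)
    {σ : GQ} (hσ : σ ∈ A.inertiaSubgroupIn ℚ) (χ : XDia h1 h0 m) :
    galXD h1 h0 hm hG hD σ χ = χ := by
  have hT := T_mem_G h1
  obtain ⟨hdσ, hres⟩ := residue_decMap_inertia A hσ
  obtain ⟨F₁, hF₁, hF₁0, hF₁z, P₁, hP₁⟩ := exists_cusp_alg hm hG hT ⟨χ.1, XDia_le χ.2⟩
  obtain ⟨b, hb, R, hR1, hR2⟩ := scale_form hm hT hFg A (XDia_le χ.2) hF₁ hF₁0 hF₁z hP₁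
  have hF₁Q : HasQ 1 F₁ (P₁.map ιC) := by
    rw [← hP₁]; exact hasQ_mform_G hT (XDia_le χ.2).2 hF₁
  set F : ℍ → ℂ := ιC b • F₁ with hFdef
  have hF : F ∈ mform χ.1 (12 * (2 : ℕ)) := Submodule.smul_mem _ _ hF₁
  have hF0 : F ≠ 0 := smul_ne_zero ((map_ne_zero ιC).2 hb) hF₁0
  have hFQ : HasQ 1 F ((b • P₁).map ιC) := by
    rw [map_smul_ser]
    exact hF₁Q.smul _
  obtain ⟨F', hF', hF'0, hF'P⟩ := galXD_spec hm hG hD σ χ hF hF0 (hFQ.qExpansion_eq one_pos)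
  have hF'Q : HasQ 1 F' ((gmap σ (b • P₁)).map ιC) := by
    rw [← hF'P]
    exact hasQ_mform_G hT (XDia_le (galXD h1 h0 hm hG hD σ χ).2).2 hF'
  have hres' : (R.map (decMap A hdσ)).map (IsLocalRing.residue A) =
      R.map (IsLocalRing.residue A) := by
    ext n
    rw [PowerSeries.coeff_map, PowerSeries.coeff_map, PowerSeries.coeff_map]
    exact hres _
  have key := hKL ⟨(galXD h1 h0 hm hG hD σ χ).1, XDia_le (galXD h1 h0 hm hG hD σ χ).2⟩
    ⟨χ.1, XDia_le χ.2⟩ 2 F' F hF' hF (R.map (decMap A hdσ)) R ?_ ?_ hres' ?_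
  · exact Subtype.ext (congrArg (fun z : XGen G m => z.1) key)
  · rw [(hF'Q.pow m).qExpansion_eq one_pos, map_decMap, hR1, map_pow, map_pow]
  · rw [(hFQ.pow m).qExpansion_eq one_pos, hR1, map_pow]
  · rw [hres']
    exact hR2

/-- **The Galois action commutes with the Hecke operators.** -/
theorem galXD_hecke {l : ℕ} (hl : l.Prime) (hN : ¬ l ∣ N) (σ : GQ) (χ : XDia h1 h0 m) :
    heckeXD hl hN h1 h0 m (galXD h1 h0 hm hG hD σ χ) =
      galXD h1 h0 hm hG hD σ (heckeXD hl hN h1 h0 m χ) := by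
  have hl0 := hl.ne_zero
  have hT := T_mem_G h1
  set δ : Gamma0 N := sigmaD N l with hδ
  obtain ⟨F, hF, hF0, hFz, P, hP⟩ := exists_cusp_alg hm hG hT ⟨χ.1, XDia_le χ.2⟩
  have hFδ : F ∣[(12 * (2 : ℕ) : ℤ)] (δ : SL(2, ℤ)) ∈
      mform (diaChar h1 h0 δ χ.1) (12 * (2 : ℕ)) := slash_mem_mform h1 h0 hF δ
  obtain ⟨Pd, hPd⟩ := dia_algebraic hm hD χ hF hP δ
  have hFQ : HasQ 1 F (P.map ιC) := by
    rw [← hP]; exact hasQ_mform_G hT (XDia_le χ.2).2 hF
  have hFδQ : HasQ 1 (F ∣[(12 * (2 : ℕ) : ℤ)] (δ : SL(2, ℤ))) (Pd.map ιC) := by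
    rw [← hPd]; exact hasQ_mform_G hT (mem_XDia.1 χ.2 δ).2 hFδ
  obtain ⟨F', hF', hF'0, hF'P⟩ := galXD_spec hm hG hD σ χ hF hF0 hP
  have hF'Q : HasQ 1 F' ((gmap σ P).map ιC) := by
    rw [← hF'P]
    exact hasQ_mform_G hT (XDia_le (galXD h1 h0 hm hG hD σ χ).2).2 hF'
  have hconj : qExpansion 1 F' = (qExpansion 1 F).map (ext σ : ℂ →+* ℂ) := by
    rw [hF'P, hP]
    ext j
    rw [PowerSeries.coeff_map, PowerSeries.coeff_map, PowerSeries.coeff_map, gmap,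
      PowerSeries.coeff_map]
    exact (ext_ιC σ _).symm
  obtain ⟨-, hFδm, hFδQm⟩ := dia_conj hD χ.2
    (XDia_le (galXD h1 h0 hm hG hD σ χ).2) (ext σ) hF hF' hconj δ
  have hF'δ : F' ∣[(12 * (2 : ℕ) : ℤ)] (δ : SL(2, ℤ)) ∈
      mform (diaChar h1 h0 δ (galXD h1 h0 hm hG hD σ χ).1) (12 * (2 : ℕ)) :=
    slash_mem_mform h1 h0 hF' δ
  have hF'δQ := hasQ_mform_G hT (mem_XDia.1 (galXD h1 h0 hm hG hD σ χ).2 δ).2 hF'δ
  have hmapext : (Pd.map ιC).map (ext σ : ℂ →+* ℂ) = (gmap σ Pd).map ιC := by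
    ext j
    rw [PowerSeries.coeff_map, PowerSeries.coeff_map, PowerSeries.coeff_map, gmap,
      PowerSeries.coeff_map]
    exact ext_ιC σ _
  have hpowδ : qExpansion 1 (F' ∣[(12 * (2 : ℕ) : ℤ)] (δ : SL(2, ℤ))) ^ m =
      ((gmap σ Pd).map ιC) ^ m := by
    have h2 := (hF'δQ.pow m).unique one_pos hFδQm
    rw [h2, hPd, hmapext]
  obtain ⟨ζ, hζ, hζ'⟩ := exists_root_mul hm hpowδ
  have hζ0 : ζ ≠ 0 := by
    rintro rfl
    rw [zero_pow hm.ne'] at hζ
    exact zero_ne_one hζ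
  -- images under the Hecke operator
  have hTF : heckeMulG N l (12 * (2 : ℕ)) F ∈ mform (heckeXD hl hN h1 h0 m χ).1
      (12 * (2 * (l + 1) : ℕ)) := mform_congr (heckeMulG_mem hl hN h1 h0 hF) rfl (by push_cast; ring)
  have hTF' : heckeMulG N l (12 * (2 : ℕ)) F' ∈
      mform (heckeXD hl hN h1 h0 m (galXD h1 h0 hm hG hD σ χ)).1 (12 * (2 * (l + 1) : ℕ)) :=
    mform_congr (heckeMulG_mem hl hN h1 h0 hF') rfl (by push_cast; ring)
  have hTFQ : HasQ 1 (heckeMulG N l (12 * (2 : ℕ)) F)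
      ((PowerSeries.expand l hl0 Pd * normSer l P).map ιC) := by
    rw [map_mul (PowerSeries.map ιC), PowerSeries.map_expand, normSer_map]
    exact hasQ_heckeMulG hl0 hFQ hFδQ
  have hTF'Q : HasQ 1 (heckeMulG N l (12 * (2 : ℕ)) F')
      (ζ • ((gmap σ (PowerSeries.expand l hl0 Pd * normSer l P)).map ιC)) := by
    have h2 := hasQ_heckeMulG hl0 hF'Q hF'δQ
    rw [hζ', map_smul, smul_mul_assoc] at h2
    rw [map_mul (gmap σ), map_mul (PowerSeries.map ιC), gmap, PowerSeries.map_expand, normSer_map,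
      PowerSeries.map_expand, normSer_map]
    exact h2
  have hP0 : P ≠ 0 := by
    rintro rfl
    rw [map_zero] at hFQ
    exact hF0 (hFQ.ext (HasQ.zero 1))
  have hPd0 : Pd ≠ 0 := by
    rintro rfl
    rw [map_zero] at hFδQ
    exact slash_ne_zero hF0 _ (hFδQ.ext (HasQ.zero 1))
  have hexp0 : ∀ {R : Type} [CommRing R] [IsDomain R] {S : PowerSeries R}, S ≠ 0 →
      PowerSeries.expand l hl0 S ≠ 0 := by
    intro R _ _ S hS h
    apply hS
    ext n
    have h4 := congrArg (PowerSeries.coeff (l * n)) h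
    rwa [PowerSeries.coeff_expand_mul, map_zero] at h4
  have hS0 : PowerSeries.expand l hl0 Pd * normSer l P ≠ 0 :=
    mul_ne_zero (hexp0 hPd0) (normSer_ne_zero hl0 hP0)
  have hTF0 : heckeMulG N l (12 * (2 : ℕ)) F ≠ 0 := by
    intro h
    rw [h] at hTFQ
    have h2 := hTFQ.unique one_pos (HasQ.zero 1)
    rw [← map_zero (PowerSeries.map ιC)] at h2
    exact hS0 (PowerSeries.map_injective _ ιC.injective h2)
  obtain ⟨H, hH, hH0, hHP⟩ := galXD_spec hm hG hD σ (heckeXD hl hN h1 h0 m χ) hTF hTF0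
    (hTFQ.qExpansion_eq one_pos)
  have hHQ : HasQ 1 H ((gmap σ (PowerSeries.expand l hl0 Pd * normSer l P)).map ιC) := by
    rw [← hHP]
    exact hasQ_mform_G hT (XDia_le (galXD h1 h0 hm hG hD σ (heckeXD hl hN h1 h0 m χ)).2).2 hH
  have heq : heckeMulG N l (12 * (2 : ℕ)) F' = ζ • H := hTF'Q.ext (hHQ.smul ζ)
  have h2 : heckeMulG N l (12 * (2 : ℕ)) F' ∈
      mform (galXD h1 h0 hm hG hD σ (heckeXD hl hN h1 h0 m χ)).1 (12 * (2 * (l + 1) : ℕ)) := by
    rw [heq]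
    exact Submodule.smul_mem _ ζ hH
  refine Subtype.ext (char_unique hTF' h2 ?_)
  rw [heq]
  exact smul_ne_zero hζ0 hH0

end Fermat.Agent.ESCore.Gal
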