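import Mathlib
import Fermat.Agent.ESCore.EisG
import Fermat.Agent.ESCore.GalGamma0
import Fermat.Agent.ESCore.GalG3

set_option autoImplicit false

/-!
# Conjugation of forms on groups between `Γ₁(N)` and `Γ₀(N)`
-/

open UpperHalfPlane hiding I
open Complex Function Filter Topology ModularForm CongruenceSubgroup
open scoped Manifold MatrixGroups ModularForm
open Fermat.Agent.Eis16 Fermat.Agent.ES

noncomputable section

namespace Fermat.Agent.ESCore.Gal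

open EisG

variable {N : ℕ}

/-- the lower right entry modulo `N`, as a unit -/
def dU (N : ℕ) : Gamma0 N →* (ZMod N)ˣ := (Gamma0Map N).toHomUnits

theorem dU_coe (δ : Gamma0 N) : ((dU N δ : (ZMod N)ˣ) : ZMod N) = (((δ : SL(2, ℤ)) 1 1 : ℤ) : ZMod N) :=
  rfl

theorem mem_of_dU {G : Subgroup SL(2, ℤ)} (h1 : Gamma1 N ≤ G) {δ : Gamma0 N} (h : dU N δ = 1) :
    (δ : SL(2, ℤ)) ∈ G := by
  refine h1 ?_
  have h2 : δ ∈ Gamma1' N := by
    rw [Gamma1_mem']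
    exact congrArg Units.val h
  exact ⟨⟨δ, h2⟩, trivial, rfl⟩

/-- an element with given lower right entry -/
def dLift (a : (ZMod N)ˣ) : Gamma0 N := sigmaD N (a : ZMod N).val

theorem dU_dLift [NeZero N] (a : (ZMod N)ˣ) : dU N (dLift a) = a := by
  apply Units.ext
  have h1 : IsCoprime (((a : ZMod N).val : ℕ) : ℤ) N :=
    Nat.isCoprime_iff_coprime.mpr (ZMod.val_coe_unit_coprime a)
  rw [dU_coe, dLift, sigmaD_11 h1, Int.cast_natCast, ZMod.natCast_zmod_val]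

/-- the nebentypus character -/
def neb (χ : DirichletCharacter ℂ N) : Gamma0 N →* ℂˣ := χ.toUnitHom.comp (dU N)

theorem neb_coe (χ : DirichletCharacter ℂ N) (δ : Gamma0 N) :
    ((neb χ δ : ℂˣ) : ℂ) = χ (((δ : SL(2, ℤ)) 1 1 : ℤ) : ZMod N) := by
  rw [neb, MonoidHom.comp_apply, MulChar.coe_toUnitHom]
  rfl

theorem neb_par {χ : DirichletCharacter ℂ N} (hχ : χ (-1) = 1) {δ : Gamma0 N}
    (hδ : (δ : SL(2, ℤ)) 1 0 = 0) : neb χ δ = 1 := by
  apply Units.ext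
  have h1 := (δ : SL(2, ℤ)).det_coe
  rw [Matrix.det_fin_two, hδ, mul_zero, sub_zero] at h1
  rw [neb_coe, Units.val_one]
  rcases Int.eq_one_or_neg_one_of_mul_eq_one' h1 with ⟨-, hb⟩ | ⟨-, hb⟩ <;> rw [hb]
  · rw [Int.cast_one, map_one]
  · rw [Int.cast_neg, Int.cast_one, hχ]

theorem neb_mem [NeZero N] {χ : DirichletCharacter ℂ N} (hχ : χ (-1) = 1) :
    neb χ ∈ XGen (Gamma0 N) (Fintype.card (ZMod N)ˣ) := by
  refine ⟨?_, fun δ hδ => neb_par hχ hδ⟩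
  ext δ
  rw [MonoidHom.pow_apply, neb, MonoidHom.comp_apply, ← map_pow, pow_card_eq_one, map_one,
    MonoidHom.one_apply]

/-! ### The Eisenstein series as elements of `mform` -/

theorem eisChi_mem [NeZero N] {k : ℕ} (hk : 3 ≤ k) (χ : DirichletCharacter ℂ N) :
    eisChi k χ ∈ mform (neb χ) k := by
  refine ⟨GP_mdiff hk _, fun δ => ?_, fun A => GP_bdd hk _ A⟩
  rw [eisChi_slash, neb_coe]

/-- normalised Eisenstein series -/
def eisN (k : ℕ) (χ : DirichletCharacter ℂ N) : ℍ → ℂ := (eisConst k)⁻¹ • eisChi k χ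

theorem eisN_mem [NeZero N] {k : ℕ} (hk : 3 ≤ k) (χ : DirichletCharacter ℂ N) :
    eisN k χ ∈ mform (neb χ) k := Submodule.smul_mem _ _ (eisChi_mem hk χ)

theorem hasQ_eisN [NeZero N] {k : ℕ} (hk : 3 ≤ k) (hk2 : Even k) (hN : 1 < N)
    {χ : DirichletCharacter ℂ N} (hχ : χ (-1) = 1) : HasQ 1 (eisN k χ) (eisCoeff k χ) := by
  have h1 := (hasQ_eisChi hk hk2 hN hχ).smul (eisConst k)⁻¹
  rwa [smul_smul, inv_mul_cancel₀ (eisConst_ne_zero k), one_smul] at h1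

/-- conjugation of Dirichlet characters -/
def conjChi (σ : ℂ ≃+* ℂ) (χ : DirichletCharacter ℂ N) : DirichletCharacter ℂ N :=
  MulChar.ringHomComp χ (σ : ℂ →+* ℂ)

theorem conjChi_apply (σ : ℂ ≃+* ℂ) (χ : DirichletCharacter ℂ N) (a : ZMod N) :
    conjChi σ χ a = σ (χ a) := rfl

theorem map_eisCoeff (σ : ℂ ≃+* ℂ) (k : ℕ) (χ : DirichletCharacter ℂ N) :
    (eisCoeff k χ).map (σ : ℂ →+* ℂ) = eisCoeff k (conjChi σ χ) := by
  ext m
  rw [PowerSeries.coeff_map, eisCoeff_coeff, eisCoeff_coeff, map_sum]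
  refine Finset.sum_congr rfl fun x _ => ?_
  rw [map_mul, map_pow, map_natCast (σ : ℂ →+* ℂ)]
  rfl

/-- **Conjugation of forms with nebentypus.** -/
theorem exists_conj_neb [NeZero N] (hN : 1 < N) {χ : DirichletCharacter ℂ N} (hχ : χ (-1) = 1)
    (σ : ℂ ≃+* ℂ) {n : ℕ} {F : ℍ → ℂ} (hF : F ∈ mform (neb χ) (12 * n)) :
    ∃ F' ∈ mform (neb (conjChi σ χ)) (12 * n),
      qExpansion 1 F' = (qExpansion 1 F).map (σ : ℂ →+* ℂ) := by
  have hχ' : conjChi σ χ (-1) = 1 := by rw [conjChi_apply, hχ, map_one]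
  have hm : 0 < Fintype.card (ZMod N)ˣ := Fintype.card_pos
  have hT := T_mem_Gamma0 N
  have hE := hasQ_eisN (k := 12) (by norm_num) (by decide) hN hχ
  have hE' := hasQ_eisN (k := 12) (by norm_num) (by decide) hN hχ'
  have hE1 : eisN 12 χ ∈ mform (neb χ) (12 * (1 : ℕ)) :=
    mform_congr (eisN_mem (by norm_num) χ) rfl (by norm_num)
  have hE2 : eisN 12 (conjChi σ χ) ∈ mform (neb (conjChi σ χ)) (12 * (1 : ℕ)) :=
    mform_congr (eisN_mem (by norm_num) _) rfl (by norm_num)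
  have hne : eisN 12 χ ≠ 0 := by
    intro h
    rw [h] at hE
    have h2 := hE.unique one_pos (HasQ.zero 1)
    have h3 := eisCoeff_one 12 χ
    rw [h2, map_zero] at h3
    exact zero_ne_one h3
  have h1 : autXf hm (conjStable_Gamma0 N) hT σ ⟨neb χ, neb_mem hχ⟩ =
      ⟨neb (conjChi σ χ), neb_mem hχ'⟩ := by
    refine autXf_eq hm (conjStable_Gamma0 N) hT σ hE1 hne hE2 ?_
    rw [hE.qExpansion_eq one_pos, hE'.qExpansion_eq one_pos, map_eisCoeff]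
  obtain ⟨F', h2, h3⟩ := autXf_spec hm (conjStable_Gamma0 N) hT σ ⟨neb χ, neb_mem hχ⟩ hF
  rw [h1] at h2
  exact ⟨F', h2, h3⟩

/-! ### Decomposition according to the nebentypus -/

section Decomp

variable {G : Subgroup SL(2, ℤ)} [NeZero N]

/-- the component of `f` -/
def comp (N : ℕ) [NeZero N] (k : ℤ) (f : ℍ → ℂ) (χ : DirichletCharacter ℂ N) : ℍ → ℂ :=
  ((N.totient : ℂ))⁻¹ • ∑ a : (ZMod N)ˣ, χ ((a⁻¹ : (ZMod N)ˣ) : ZMod N) •
    (f ∣[k] (dLift a : SL(2, ℤ)))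

variable {k : ℤ} {f : ℍ → ℂ}

theorem slash_eq_of_dU (h1 : Gamma1 N ≤ G) (hf : ∀ g ∈ G, f ∣[k] (g : SL(2, ℤ)) = f)
    {δ δ' : Gamma0 N} (h : dU N δ = dU N δ') :
    f ∣[k] (δ : SL(2, ℤ)) = f ∣[k] (δ' : SL(2, ℤ)) := by
  have h2 : ((δ * δ'⁻¹ : Gamma0 N) : SL(2, ℤ)) ∈ G := by
    refine mem_of_dU h1 ?_
    rw [map_mul, map_inv, h, mul_inv_cancel]
  have h3 : (δ : SL(2, ℤ)) = ((δ * δ'⁻¹ : Gamma0 N) : SL(2, ℤ)) * (δ' : SL(2, ℤ)) := by
    rw [← Subgroup.coe_mul, inv_mul_cancel_right]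
  rw [h3, SlashAction.slash_mul, hf _ h2]

theorem comp_slash (h1 : Gamma1 N ≤ G) (hf : ∀ g ∈ G, f ∣[k] (g : SL(2, ℤ)) = f)
    (χ : DirichletCharacter ℂ N) (δ : Gamma0 N) :
    comp N k f χ ∣[k] (δ : SL(2, ℤ)) = χ (dU N δ : ZMod N) • comp N k f χ := by
  rw [comp, ModularForm.SL_smul_slash, SlashAction.sum_slash, smul_comm]
  congr 1
  rw [Finset.smul_sum]
  refine Fintype.sum_equiv (Equiv.mulRight (dU N δ)) _ _ fun a => ?_
  rw [ModularForm.SL_smul_slash, ← SlashAction.slash_mul, smul_smul, Equiv.coe_mulRight]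
  have e1 : χ (dU N δ : ZMod N) * χ (((a * dU N δ)⁻¹ : (ZMod N)ˣ) : ZMod N) =
      χ ((a⁻¹ : (ZMod N)ˣ) : ZMod N) := by
    rw [← map_mul, ← Units.val_mul, mul_inv_rev, mul_inv_cancel_left]
  rw [e1]
  congr 1
  rw [← Subgroup.coe_mul]
  refine slash_eq_of_dU h1 hf ?_
  rw [map_mul, dU_dLift, dU_dLift]

theorem comp_slash_G (h1 : Gamma1 N ≤ G) (h0 : G ≤ Gamma0 N)
    (hf : ∀ g ∈ G, f ∣[k] (g : SL(2, ℤ)) = f)
    (χ : DirichletCharacter ℂ N) {g : SL(2, ℤ)} (hg : g ∈ G) :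
    comp N k f χ ∣[k] g = comp N k f χ := by
  rw [comp, ModularForm.SL_smul_slash, SlashAction.sum_slash]
  congr 1
  refine Finset.sum_congr rfl fun a _ => ?_
  rw [ModularForm.SL_smul_slash, ← SlashAction.slash_mul]
  congr 1
  have e1 : f ∣[k] ((dLift a : SL(2, ℤ)) * g) =
      f ∣[k] (g * (dLift a : SL(2, ℤ))) := by
    have := slash_eq_of_dU h1 hf (δ := dLift a * ⟨g, h0 hg⟩) (δ' := ⟨g, h0 hg⟩ * dLift a)
      (by rw [map_mul, map_mul, mul_comm])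
    exact this
  rw [e1, SlashAction.slash_mul, hf g hg]

theorem sum_comp (h1 : Gamma1 N ≤ G) (hf : ∀ g ∈ G, f ∣[k] (g : SL(2, ℤ)) = f) :
    ∑ χ : DirichletCharacter ℂ N, comp N k f χ = f := by
  have hφ : ((N.totient : ℂ)) ≠ 0 := by
    exact_mod_cast (Nat.totient_pos.mpr (NeZero.pos N)).ne'
  simp only [comp]
  rw [← Finset.smul_sum, Finset.sum_comm]
  have h2 : ∀ a : (ZMod N)ˣ, ∑ χ : DirichletCharacter ℂ N,
      χ ((a⁻¹ : (ZMod N)ˣ) : ZMod N) • (f ∣[k] (dLift a : SL(2, ℤ))) =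
      if a = 1 then (N.totient : ℂ) • f else 0 := by
    intro a
    rw [← Finset.sum_smul, DirichletCharacter.sum_characters_eq]
    by_cases ha : a = 1
    · have h3 : f ∣[k] (dLift a : SL(2, ℤ)) = f := by
        have := slash_eq_of_dU h1 hf (δ := dLift a) (δ' := 1) (by rw [dU_dLift, ha, map_one])
        rw [this]
        exact SlashAction.slash_one k f
      rw [if_pos ha, if_pos (by rw [ha, inv_one, Units.val_one]), h3]
    · rw [if_neg ha, if_neg, zero_smul]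
      intro h4
      apply ha
      rw [← inv_eq_one]
      exact Units.ext h4
  rw [Finset.sum_congr rfl fun a _ => h2 a, Finset.sum_ite_eq' Finset.univ (1 : (ZMod N)ˣ),
    if_pos (Finset.mem_univ _), smul_smul, inv_mul_cancel₀ hφ, one_smul]

theorem comp_mdiff (hf : MDiff f) (χ : DirichletCharacter ℂ N) : MDiff (comp N k f χ) := by
  refine MDifferentiable.const_smul _ ?_
  have : MDiff (∑ a : (ZMod N)ˣ, χ ((a⁻¹ : (ZMod N)ˣ) : ZMod N) •
    (f ∣[k] (dLift a : SL(2, ℤ)))) := by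
    refine Finset.sum_induction _ (fun g : ℍ → ℂ => MDiff g) (fun _ _ h h' => h.add h')
      mdifferentiable_const fun a _ => ?_
    exact MDifferentiable.const_smul _ (hf.slash k _)
  exact this

theorem comp_bdd (hf : ∀ A : SL(2, ℤ), IsBoundedAtImInfty (f ∣[k] A))
    (χ : DirichletCharacter ℂ N) (A : SL(2, ℤ)) : IsBoundedAtImInfty (comp N k f χ ∣[k] A) := by
  rw [comp, ModularForm.SL_smul_slash, SlashAction.sum_slash]
  refine (Filter.const_boundedAtFilter _ _).mul ?_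
  refine Finset.sum_induction _ (fun g : ℍ → ℂ => IsBoundedAtImInfty g)
    (fun _ _ h h' => h.add h') (Filter.const_boundedAtFilter atImInfty (0 : ℂ)) fun a _ => ?_
  rw [ModularForm.SL_smul_slash, ← SlashAction.slash_mul]
  exact (Filter.const_boundedAtFilter _ _).mul (hf _)

theorem comp_zero (hf : ∀ A : SL(2, ℤ), IsZeroAtImInfty (f ∣[k] A))
    (χ : DirichletCharacter ℂ N) (A : SL(2, ℤ)) : IsZeroAtImInfty (comp N k f χ ∣[k] A) := by
  rw [comp, ModularForm.SL_smul_slash, SlashAction.sum_slash]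
  have h1 : IsZeroAtImInfty (∑ a : (ZMod N)ˣ, (χ ((a⁻¹ : (ZMod N)ˣ) : ZMod N) •
      (f ∣[k] (dLift a : SL(2, ℤ)))) ∣[k] A) := by
    refine Finset.sum_induction _ (fun g : ℍ → ℂ => IsZeroAtImInfty g)
      (fun _ _ h h' => by
        have := Filter.Tendsto.add h h'
        rwa [add_zero] at this) tendsto_const_nhds fun a _ => ?_
    rw [ModularForm.SL_smul_slash, ← SlashAction.slash_mul]
    have := (hf ((dLift a : SL(2, ℤ)) * A)).const_smul (χ ((a⁻¹ : (ZMod N)ˣ) : ZMod N))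
    rwa [smul_zero] at this
  have := h1.const_smul ((N.totient : ℂ)⁻¹)
  rwa [smul_zero] at this

theorem comp_mem (h1 : Gamma1 N ≤ G) (hf : f ∈ mform (1 : G →* ℂˣ) k)
    (χ : DirichletCharacter ℂ N) : comp N k f χ ∈ mform (neb χ) k := by
  have hinv : ∀ g ∈ G, f ∣[k] (g : SL(2, ℤ)) = f := fun g hg => by
    have := hf.2.1 ⟨g, hg⟩
    rw [MonoidHom.one_apply, Units.val_one, one_smul] at this
    exact this
  refine ⟨comp_mdiff hf.1 χ, fun δ => ?_, fun A => comp_bdd hf.2.2 χ A⟩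
  rw [comp_slash h1 hinv, neb_coe]
  rfl

end Decomp

/-! ### The three main properties -/

section Main

variable {G : Subgroup SL(2, ℤ)} [NeZero N]

theorem inv_of_mform {k : ℤ} {f : ℍ → ℂ} (hf : f ∈ mform (1 : G →* ℂˣ) k) :
    ∀ g ∈ G, f ∣[k] (g : SL(2, ℤ)) = f := fun g hg => by
  have := hf.2.1 ⟨g, hg⟩
  rwa [MonoidHom.one_apply, Units.val_one, one_smul] at this

theorem neg_one_mem_Gamma0 (N : ℕ) : (-1 : SL(2, ℤ)) ∈ Gamma0 N := by
  rw [Gamma0_mem]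
  simp

theorem slash_neg_one' (n : ℕ) (F : ℍ → ℂ) : F ∣[(12 * n : ℤ)] (-1 : SL(2, ℤ)) = F := by
  ext τ
  rw [ModularForm.SL_slash_apply]
  have h1 : (-1 : SL(2, ℤ)) • τ = τ := by
    rw [ModularGroup.SL_neg_smul, one_smul]
  have h2 : denom (-1 : SL(2, ℤ)) (τ : ℂ) = -1 := by
    rw [ModularGroup.denom_apply]
    simp
  rw [h1, h2, _root_.zpow_neg]
  have h3 : ((-1 : ℂ)) ^ (12 * n : ℤ) = 1 := Even.neg_one_zpow ⟨6 * n, by ring⟩
  rw [h3, inv_one, mul_one]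

/-- odd components vanish -/
theorem comp_eq_zero_of_odd (h1 : Gamma1 N ≤ G) {n : ℕ} {f : ℍ → ℂ}
    (hf : ∀ g ∈ G, f ∣[(12 * n : ℤ)] (g : SL(2, ℤ)) = f) {χ : DirichletCharacter ℂ N}
    (hχ : χ (-1) ≠ 1) : comp N (12 * n) f χ = 0 := by
  have h2 := comp_slash h1 hf χ ⟨-1, neg_one_mem_Gamma0 N⟩
  have h3 : ((dU N ⟨-1, neg_one_mem_Gamma0 N⟩ : (ZMod N)ˣ) : ZMod N) = -1 := by
    rw [dU_coe]
    simp
  rw [slash_neg_one', h3] at h2
  by_contra h0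
  obtain ⟨τ, hτ⟩ := Function.ne_iff.mp h0
  have h4 := congrFun h2 τ
  rw [Pi.smul_apply, smul_eq_mul] at h4
  exact hχ (mul_right_cancel₀ hτ (by rw [one_mul]; exact h4.symm))

/-- components for characters non-trivial on `G` vanish -/
theorem comp_eq_zero_of_ne (h1 : Gamma1 N ≤ G) (h0 : G ≤ Gamma0 N) {k : ℤ} {f : ℍ → ℂ}
    (hf : ∀ g ∈ G, f ∣[k] (g : SL(2, ℤ)) = f) {χ : DirichletCharacter ℂ N} {g : SL(2, ℤ)}
    (hg : g ∈ G) (hχ : χ (dU N ⟨g, h0 hg⟩ : ZMod N) ≠ 1) : comp N k f χ = 0 := by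
  have h2 := comp_slash h1 hf χ ⟨g, h0 hg⟩
  rw [comp_slash_G h1 h0 hf χ hg] at h2
  by_contra h3
  obtain ⟨τ, hτ⟩ := Function.ne_iff.mp h3
  have h4 := congrFun h2 τ
  rw [Pi.smul_apply, smul_eq_mul] at h4
  exact hχ (mul_right_cancel₀ hτ (by rw [one_mul]; exact h4.symm))

/-- the conjugates of the components -/
theorem exists_conj_comp (hN : 1 < N) (h1 : Gamma1 N ≤ G) (h0 : G ≤ Gamma0 N) (σ : ℂ ≃+* ℂ)
    {n : ℕ} {f : ℍ → ℂ} (hf : f ∈ mform (1 : G →* ℂˣ) (12 * n)) (χ : DirichletCharacter ℂ N) :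
    ∃ F' ∈ mform (neb (conjChi σ χ)) (12 * n),
      qExpansion 1 F' = (qExpansion 1 (comp N (12 * n) f χ)).map (σ : ℂ →+* ℂ) ∧
      F' ∈ mform (1 : G →* ℂˣ) (12 * n) := by
  by_cases h : comp N (12 * n) f χ = 0
  · refine ⟨0, Submodule.zero_mem _, ?_, Submodule.zero_mem _⟩
    rw [h, (HasQ.zero 1).qExpansion_eq one_pos, map_zero]
  have hodd : χ (-1) = 1 := by
    by_contra hχ
    exact h (comp_eq_zero_of_odd h1 (inv_of_mform hf) hχ)
  obtain ⟨F', h2, h3⟩ := exists_conj_neb hN hodd σ (comp_mem h1 hf χ)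
  refine ⟨F', h2, h3, h2.1, fun g => ?_, h2.2.2⟩
  have h4 := h2.2.1 ⟨g, h0 g.2⟩
  have h5 : χ (dU N ⟨g, h0 g.2⟩ : ZMod N) = 1 := by
    by_contra hχ
    exact h (comp_eq_zero_of_ne h1 h0 (inv_of_mform hf) g.2 hχ)
  rw [MonoidHom.one_apply, Units.val_one, one_smul]
  have h6 : ((neb (conjChi σ χ) ⟨g, h0 g.2⟩ : ℂˣ) : ℂ) = 1 := by
    rw [neb_coe, conjChi_apply]
    rw [dU_coe] at h5
    rw [h5, map_one]
  rw [h6, one_smul] at h4
  exact h4

theorem hasQ_sum {ι : Type*} (s : Finset ι) {F : ι → ℍ → ℂ} {P : ι → PowerSeries ℂ}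
    (h : ∀ i ∈ s, HasQ 1 (F i) (P i)) : HasQ 1 (∑ i ∈ s, F i) (∑ i ∈ s, P i) := by
  classical
  induction s using Finset.induction_on with
  | empty => exact HasQ.zero 1
  | insert a s ha ih =>
    rw [Finset.sum_insert ha, Finset.sum_insert ha]
    exact (h a (Finset.mem_insert_self _ _)).add
      (ih fun i hi => h i (Finset.mem_insert_of_mem hi))

theorem T_mem_of_le {G : Subgroup SL(2, ℤ)} (h1 : Gamma1 N ≤ G) : ModularGroup.T ∈ G :=
  h1 (by rw [Gamma1_mem]; simp [ModularGroup.coe_T])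

theorem hasQ_one (h1 : Gamma1 N ≤ G) {k : ℤ} {f : ℍ → ℂ} (hf : f ∈ mform (1 : G →* ℂˣ) k) :
    HasQ 1 f (qExpansion 1 f) :=
  hasQ_mform_G (T_mem_of_le h1) (fun _ _ => rfl) hf

theorem comp_mem_one (h1 : Gamma1 N ≤ G) (h0 : G ≤ Gamma0 N) {k : ℤ} {f : ℍ → ℂ}
    (hf : f ∈ mform (1 : G →* ℂˣ) k) (χ : DirichletCharacter ℂ N) :
    comp N k f χ ∈ mform (1 : G →* ℂˣ) k := by
  refine ⟨comp_mdiff hf.1 χ, fun g => ?_, fun A => comp_bdd hf.2.2 χ A⟩
  rw [comp_slash_G h1 h0 (inv_of_mform hf) χ g.2, MonoidHom.one_apply, Units.val_one, one_smul]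

/-- conjugation of forms together with diamond operators -/
theorem exists_conj_dia (hN : 1 < N) (h1 : Gamma1 N ≤ G) (h0 : G ≤ Gamma0 N) (σ : ℂ ≃+* ℂ)
    {n : ℕ} {f : ℍ → ℂ} (hf : f ∈ mform (1 : G →* ℂˣ) (12 * n)) :
    ∃ f' ∈ mform (1 : G →* ℂˣ) (12 * n),
      qExpansion 1 f' = (qExpansion 1 f).map (σ : ℂ →+* ℂ) ∧
      ∀ δ : Gamma0 N, qExpansion 1 (f' ∣[(12 * n : ℤ)] (δ : SL(2, ℤ))) =
        (qExpansion 1 (f ∣[(12 * n : ℤ)] (δ : SL(2, ℤ)))).map (σ : ℂ →+* ℂ) := by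
  choose F' hF'1 hF'2 hF'3 using exists_conj_comp hN h1 h0 σ hf
  have hinv := inv_of_mform hf
  have hQ : ∀ χ, HasQ 1 (comp N (12 * n) f χ) (qExpansion 1 (comp N (12 * n) f χ)) :=
    fun χ => hasQ_one h1 (comp_mem_one h1 h0 hf χ)
  have hQ' : ∀ χ, HasQ 1 (F' χ) ((qExpansion 1 (comp N (12 * n) f χ)).map (σ : ℂ →+* ℂ)) := by
    intro χ
    rw [← hF'2 χ]
    exact hasQ_one h1 (hF'3 χ)
  have key : ∀ δ : Gamma0 N, qExpansion 1 ((∑ χ, F' χ) ∣[(12 * n : ℤ)] (δ : SL(2, ℤ))) =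
        (qExpansion 1 (f ∣[(12 * n : ℤ)] (δ : SL(2, ℤ)))).map (σ : ℂ →+* ℂ) := by
    intro δ
    have e1 : f ∣[(12 * n : ℤ)] (δ : SL(2, ℤ)) =
        ∑ χ, χ (dU N δ : ZMod N) • comp N (12 * n) f χ := by
      conv_lhs => rw [← sum_comp h1 hinv, SlashAction.sum_slash]
      exact Finset.sum_congr rfl fun χ _ => comp_slash h1 hinv χ δ
    have e2 : (∑ χ, F' χ) ∣[(12 * n : ℤ)] (δ : SL(2, ℤ)) =
        ∑ χ, σ (χ (dU N δ : ZMod N)) • F' χ := by
      rw [SlashAction.sum_slash]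
      refine Finset.sum_congr rfl fun χ _ => ?_
      rw [(hF'1 χ).2.1 δ, neb_coe]
      rfl
    have e3 := (hasQ_sum Finset.univ fun χ _ => (hQ χ).smul (χ (dU N δ : ZMod N)))
    have e4 := (hasQ_sum Finset.univ fun χ _ => (hQ' χ).smul (σ (χ (dU N δ : ZMod N))))
    rw [e1, e2, e3.qExpansion_eq one_pos, e4.qExpansion_eq one_pos, map_sum]
    refine Finset.sum_congr rfl fun χ _ => ?_
    ext j
    rw [PowerSeries.coeff_smul, PowerSeries.coeff_map, PowerSeries.coeff_map,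
      PowerSeries.coeff_smul, smul_eq_mul, smul_eq_mul, map_mul]
    rfl
  refine ⟨∑ χ, F' χ, Submodule.sum_mem _ fun χ _ => hF'3 χ, ?_, key⟩
  have h2 := key 1
  rw [Subgroup.coe_one, SlashAction.slash_one, SlashAction.slash_one] at h2
  exact h2

theorem eq_Gamma0_of_one {G : Subgroup SL(2, ℤ)} (h1 : Gamma1 1 ≤ G) (h0 : G ≤ Gamma0 1) :
    G = Gamma0 1 := by
  refine le_antisymm h0 fun g _ => h1 ?_
  rw [Gamma1_mem]
  exact ⟨Subsingleton.elim _ _, Subsingleton.elim _ _, Subsingleton.elim _ _⟩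

/-- **(GH1) Conjugation preserves the forms on `G`.** -/
theorem conjStable_G (h1 : Gamma1 N ≤ G) (h0 : G ≤ Gamma0 N) : ConjStable G := by
  rcases (Nat.one_le_iff_ne_zero.mpr (NeZero.ne N)).lt_or_eq with hN | hN
  · intro σ n f hf
    obtain ⟨f', h2, h3, -⟩ := exists_conj_dia hN h1 h0 σ hf
    exact ⟨f', h2, h3⟩
  · subst hN
    rw [eq_Gamma0_of_one h1 h0]
    exact conjStable_Gamma0 1

/-- **(GH1) Conjugation commutes with the diamond operators.** -/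
theorem diaConj_G (h1 : Gamma1 N ≤ G) (h0 : G ≤ Gamma0 N) : DiaConj N G := by
  intro σ n f f' hf hf' hq δ
  rcases (Nat.one_le_iff_ne_zero.mpr (NeZero.ne N)).lt_or_eq with hN | hN
  · obtain ⟨f'', h2, h3, h4⟩ := exists_conj_dia hN h1 h0 σ hf
    have h5 : f' = f'' := by
      have e1 := hasQ_one h1 hf'
      have e2 := hasQ_one h1 h2
      rw [h3, ← hq] at e2
      exact e1.ext e2
    rw [h5]
    exact h4 δ
  · subst hN
    have h2 := eq_Gamma0_of_one h1 h0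
    have h3 : (δ : SL(2, ℤ)) ∈ G := by rw [h2]; exact δ.2
    rw [inv_of_mform hf _ h3, inv_of_mform hf' _ h3, hq]

end Main

end Fermat.Agent.ESCore.Gal
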