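import Mathlib
import Fermat.Agent.ESCore.ConjG
import Fermat.Agent.ES.Rational

set_option autoImplicit false

/-!
# Coefficients of cusp forms on `G` lie in finitely generated groups
-/

open UpperHalfPlane hiding I
open Complex Function Filter Topology ModularForm CongruenceSubgroup
open scoped Manifold MatrixGroups ModularForm
open Fermat.Agent.Eis16 Fermat.Agent.ES

noncomputable section

namespace Fermat.Agent.ESCore.Gal

open EisG

/-- sequences with values in a finitely generated group -/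
def FgSeq (c : ℕ → ℂ) : Prop := ∃ M : Submodule ℤ ℂ, M.FG ∧ ∀ j, c j ∈ M

theorem FgSeq.add {c d : ℕ → ℂ} (hc : FgSeq c) (hd : FgSeq d) : FgSeq (c + d) := by
  obtain ⟨M, hM, h1⟩ := hc
  obtain ⟨M', hM', h2⟩ := hd
  exact ⟨M ⊔ M', hM.sup hM', fun j => Submodule.add_mem_sup (h1 j) (h2 j)⟩

theorem FgSeq.zero : FgSeq 0 := ⟨⊥, Submodule.fg_bot, fun _ => Submodule.zero_mem _⟩

theorem FgSeq.smul {c : ℕ → ℂ} (hc : FgSeq c) (a : ℂ) : FgSeq (a • c) := by
  obtain ⟨M, hM, h1⟩ := hc
  exact ⟨M.map (LinearMap.mulLeft ℤ a), hM.map _, fun j => ⟨c j, h1 j, rfl⟩⟩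

theorem FgSeq.sum {ι : Type*} (s : Finset ι) {c : ι → ℕ → ℂ} (h : ∀ i ∈ s, FgSeq (c i)) :
    FgSeq (∑ i ∈ s, c i) :=
  Finset.sum_induction _ FgSeq (fun _ _ => FgSeq.add) FgSeq.zero h

variable {N : ℕ} [NeZero N]

theorem fgSeq_cuspForm {k : ℤ} (f : CuspForm (Gamma0 N) k) :
    FgSeq fun j => (qExpansion 1 f).coeff j := by
  have h1 : f ∈ Submodule.span ℂ ((CuspForm.intLattice N k :
      Submodule ℤ (CuspForm (CongruenceSubgroup.Gamma0 N) k)) :
        Set (CuspForm (CongruenceSubgroup.Gamma0 N) k)) := by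
    rw [hasIntegralStructure N k]
    trivial
  induction h1 using Submodule.span_induction with
  | mem x hx =>
    refine ⟨Submodule.span ℤ {1}, Submodule.fg_span_singleton 1, ?_⟩
    induction hx using Submodule.span_induction with
    | mem x hx =>
      intro j
      obtain ⟨m, hm⟩ := hx j
      refine Submodule.mem_span_singleton.mpr ⟨m, ?_⟩
      change m • (1 : ℂ) = ModularFormClass.qCoeff x j
      rw [hm, zsmul_one]
    | zero =>
      intro j
      change ModularFormClass.qCoeff (0 : CuspForm (Gamma0 N) k) j ∈ _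
      have : qcS (N := N) (k := k) 0 j = 0 := by rw [map_zero]; rfl
      rw [← qcS_apply, this]
      exact Submodule.zero_mem _
    | add x y _ _ hx hy =>
      intro j
      change (qcS (N := N) (k := k)) (x + y) j ∈ _
      rw [map_add]
      exact Submodule.add_mem _ (hx j) (hy j)
    | smul a x _ hx =>
      intro j
      change (qcS (N := N) (k := k)) (a • x) j ∈ _
      rw [map_zsmul]
      exact Submodule.smul_mem _ _ (hx j)
  | zero =>
    have h2 : (fun j => (qExpansion 1 (0 : CuspForm (Gamma0 N) k)).coeff j) = 0 := by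
      funext j
      change ModularFormClass.qCoeff (0 : CuspForm (Gamma0 N) k) j = 0
      rw [← qcS_apply, map_zero]
      rfl
    rw [h2]
    exact FgSeq.zero
  | add x y _ _ hx hy =>
    have h2 : (fun j => (qExpansion 1 (x + y : CuspForm (Gamma0 N) k)).coeff j) =
        (fun j => (qExpansion 1 x).coeff j) + fun j => (qExpansion 1 y).coeff j := by
      funext j
      change (qcS (N := N) (k := k)) (x + y) j = _
      rw [map_add]
      rfl
    rw [h2]
    exact hx.add hy
  | smul a x _ hx =>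
    have h2 : (fun j => (qExpansion 1 (a • x : CuspForm (Gamma0 N) k)).coeff j) =
        a • (fun j => (qExpansion 1 x).coeff j) := by
      funext j
      change (qcS (N := N) (k := k)) (a • x) j = _
      rw [map_smul]
      rfl
    rw [h2]
    exact hx.smul a

/-- a cusp form from a function -/
def toCF {k : ℤ} {f : ℍ → ℂ} (hf : f ∈ mform (1 : Gamma0 N →* ℂˣ) k)
    (hz : ∀ A : SL(2, ℤ), IsZeroAtImInfty (f ∣[k] A)) : CuspForm (Gamma0 N) k where
  toFun := f
  slash_action_eq' := (toMF hf).slash_action_eq'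
  holo' := hf.1
  zero_at_cusps' := fun {c} hc => by
    rw [Subgroup.IsArithmetic.isCusp_iff_isCusp_SL2Z] at hc
    rw [OnePoint.isZeroAt_iff_forall_SL2Z hc]
    intro g _
    exact hz g

theorem fgCoeff_Gamma0 : FgCoeff (Gamma0 N) := by
  intro n f hf hz
  exact fgSeq_cuspForm (toCF hf hz)

/-- division of sequences -/
theorem FgSeq.of_mul {f E g : PowerSeries ℂ} (h : f * E = g) (hE0 : E.coeff 0 = 0)
    (hE1 : E.coeff 1 = 1) (R : Subalgebra ℤ ℂ) (hR : (Subalgebra.toSubmodule R).FG)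
    (hER : ∀ j, E.coeff j ∈ R) (hg : FgSeq fun j => g.coeff j) : FgSeq fun j => f.coeff j := by
  obtain ⟨M, hM, hgM⟩ := hg
  refine ⟨Subalgebra.toSubmodule R * M, hR.mul hM, fun j => ?_⟩
  induction j using Nat.strong_induction_on with
  | _ n ih =>
    have h1 := congrArg (PowerSeries.coeff (n + 1)) h
    rw [PowerSeries.coeff_mul, Finset.Nat.sum_antidiagonal_eq_sum_range_succ
      (fun i j => f.coeff i * E.coeff j), Finset.sum_range_succ, Finset.sum_range_succ,
      Nat.sub_self, hE0, mul_zero, add_zero, Nat.add_sub_cancel_left, hE1, mul_one] at h1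
    have h2 : f.coeff n = g.coeff (n + 1) -
        ∑ i ∈ Finset.range n, f.coeff i * E.coeff (n + 1 - i) := by rw [← h1]; ring
    change f.coeff n ∈ _
    rw [h2]
    have h3 : ∀ x ∈ M, x ∈ Subalgebra.toSubmodule R * M := by
      intro x hx
      rw [← one_mul x]
      exact Submodule.mul_mem_mul R.one_mem hx
    refine Submodule.sub_mem _ (h3 _ (hgM _)) (Submodule.sum_mem _ fun i hi => ?_)
    have h4 : f.coeff i ∈ _ := ih i (Finset.mem_range.mp hi)
    have h5 : f.coeff i * E.coeff (n + 1 - i) ∈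
        Subalgebra.toSubmodule R * (Subalgebra.toSubmodule R * M) := by
      rw [mul_comm (f.coeff i)]
      exact Submodule.mul_mem_mul (hER _) h4
    rw [← mul_assoc, (Subalgebra.isIdempotentElem_toSubmodule R).eq] at h5
    exact h5

/-- the ring generated by the values of a character -/
theorem exists_ring (χ : DirichletCharacter ℂ N) : ∃ R : Subalgebra ℤ ℂ,
    (Subalgebra.toSubmodule R).FG ∧ ∀ a, χ a ∈ R := by
  refine ⟨Algebra.adjoin ℤ (Set.range χ), ?_, fun a => Algebra.subset_adjoin ⟨a, rfl⟩⟩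
  refine fg_adjoin_of_finite (Set.finite_range χ) ?_
  rintro _ ⟨a, rfl⟩
  by_cases ha : IsUnit a
  · obtain ⟨u, rfl⟩ := ha
    refine IsIntegral.of_pow (n := Fintype.card (ZMod N)ˣ) Fintype.card_pos ?_
    rw [← map_pow, ← Units.val_pow_eq_pow_val, pow_card_eq_one, Units.val_one, map_one]
    exact isIntegral_one
  · rw [χ.map_nonunit ha]
    exact isIntegral_zero

theorem eisCoeff_mem {χ : DirichletCharacter ℂ N} {R : Subalgebra ℤ ℂ} (hR : ∀ a, χ a ∈ R)
    (k j : ℕ) : (eisCoeff k χ).coeff j ∈ R := by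
  rw [eisCoeff_coeff]
  exact R.sum_mem fun x _ => R.mul_mem (hR _) (R.pow_mem (natCast_mem R _) _)

/-- **(GH1)** the coefficients of cusp forms on `G` -/
theorem fgCoeff_G {G : Subgroup SL(2, ℤ)} (h1 : Gamma1 N ≤ G) (h0 : G ≤ Gamma0 N) :
    FgCoeff G := by
  rcases (Nat.one_le_iff_ne_zero.mpr (NeZero.ne N)).lt_or_eq with hN | hN
  swap
  · subst hN
    rw [eq_Gamma0_of_one h1 h0]
    exact fgCoeff_Gamma0
  intro n f hf hz
  change FgSeq fun j => (qExpansion 1 f).coeff j
  have hinv := inv_of_mform hf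
  have hQ : ∀ χ, HasQ 1 (Gal.comp N (12 * n) f χ) (qExpansion 1 (Gal.comp N (12 * n) f χ)) :=
    fun χ => hasQ_one h1 (comp_mem_one h1 h0 hf χ)
  have h2 : (fun j => (qExpansion 1 f).coeff j) =
      ∑ χ : DirichletCharacter ℂ N,
        fun j => (qExpansion 1 (Gal.comp N (12 * n) f χ)).coeff j := by
    have h3 := hasQ_sum Finset.univ fun χ (_ : χ ∈ Finset.univ) => hQ χ
    rw [sum_comp h1 hinv] at h3
    rw [h3.qExpansion_eq one_pos]
    funext j
    rw [map_sum, Finset.sum_apply]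
  rw [h2]
  refine FgSeq.sum _ fun χ _ => ?_
  by_cases hodd : χ (-1) = 1
  swap
  · rw [comp_eq_zero_of_odd h1 hinv hodd, (HasQ.zero 1).qExpansion_eq one_pos]
    have h4 : (fun j => (PowerSeries.coeff j) (0 : PowerSeries ℂ)) = 0 := by
      funext j
      rw [map_zero]
      rfl
    rw [h4]
    exact FgSeq.zero
  have hodd' : χ⁻¹ (-1) = 1 := by
    rw [MulChar.inv_apply_eq_inv', hodd, inv_one]
  obtain ⟨R, hR, hRχ⟩ := exists_ring χ⁻¹
  have hE := hasQ_eisN (k := 12) (by norm_num) (by decide) hN hodd'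
  set F := Gal.comp N (12 * n) f χ with hF
  have hFm : F ∈ mform (neb χ) (12 * n) := comp_mem h1 hf χ
  have hEm : eisN 12 χ⁻¹ ∈ mform (neb χ⁻¹) (12 * (1 : ℕ)) :=
    mform_congr (eisN_mem (by norm_num) _) rfl (by norm_num)
  have hprod : F * eisN 12 χ⁻¹ ∈ mform (1 : Gamma0 N →* ℂˣ) (12 * (n + 1 : ℕ)) := by
    refine mform_congr (mform_mul hFm hEm) ?_ (by push_cast; ring)
    ext δ
    rw [MonoidHom.mul_apply, Units.val_mul, neb_coe, neb_coe, ← MulChar.mul_apply, mul_inv_cancel,
      MonoidHom.one_apply, Units.val_one]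
    have := (dU N δ).isUnit
    rw [dU_coe] at this
    exact MulChar.one_apply this
  have hzero : ∀ A : SL(2, ℤ), IsZeroAtImInfty
      ((F * eisN 12 χ⁻¹) ∣[(12 * (n + 1 : ℕ) : ℤ)] A) := by
    intro A
    have e1 : (12 * (n + 1 : ℕ) : ℤ) = 12 * n + 12 * (1 : ℕ) := by push_cast; ring
    rw [e1, ModularForm.mul_slash_SL2]
    have e2 := comp_zero hz χ A
    have e3 := hEm.2.2 A
    exact e2.mul_boundedAtFilter e3
  have hg := fgCoeff_Gamma0 (N := N) (n + 1) _ hprod hzero
  have hm : F * eisN 12 χ⁻¹ = F * eisN 12 χ⁻¹ := rfl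
  refine FgSeq.of_mul (E := eisCoeff 12 χ⁻¹) (g := qExpansion 1 (F * eisN 12 χ⁻¹)) ?_
    (eisCoeff_zero _ _) (eisCoeff_one _ _) R hR (fun j => eisCoeff_mem hRχ 12 j) hg
  rw [((hQ χ).mul hE).qExpansion_eq one_pos]

end Fermat.Agent.ESCore.Gal
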