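import Fermat.Agent.ESCore.GalX
import Fermat.Agent.ESCore.Relation

set_option autoImplicit false

/-!
# Characters of groups between `Γ₁(N)` and `Γ₀(N)`: diamond operators and Galois action

`XDia h1 h0 m` is the group of characters of `G` of order dividing `m` which are unramified at all
the cusps `⟨d⟩∞`; it is stable under Hecke and diamond operators, and the Galois action of
`Gal.galXG` restricts to it and commutes with the diamond operators.
-/

open UpperHalfPlane hiding I J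
open Complex Function Filter Topology ModularForm Matrix.SpecialLinearGroup CongruenceSubgroup
open scoped Manifold MatrixGroups ModularForm
open Fermat.Agent.Eis16 Fermat.Agent.ES
open P2MW.S_ModularForm_heckeT_slash_eq_self_of_mem_Gamma0.ModularForm.HeckeSlashInvariance

noncomputable section

namespace Fermat.Agent.ESCore.Gal

variable {N : ℕ} {G : Subgroup SL(2, ℤ)}

/-- The characters of `G` of order dividing `m` all of whose images under the diamond operators
are trivial on the elements fixing `∞`. -/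
def XDia (h1 : Gamma1 N ≤ G) (h0 : G ≤ Gamma0 N) (m : ℕ) : Subgroup (G →* ℂˣ) :=
  ⨅ δ : Gamma0 N, (XGen G m).comap (diaChar h1 h0 δ)

variable {h1 : Gamma1 N ≤ G} {h0 : G ≤ Gamma0 N} {m : ℕ}

theorem mem_XDia {χ : G →* ℂˣ} :
    χ ∈ XDia h1 h0 m ↔ ∀ δ : Gamma0 N, diaChar h1 h0 δ χ ∈ XGen G m := by
  simp only [XDia, Subgroup.mem_iInf, Subgroup.mem_comap]

theorem diaChar_one (χ : G →* ℂˣ) : diaChar h1 h0 1 χ = χ :=
  diaChar_of_mem h1 h0 1 G.one_mem χ

theorem XDia_le : XDia h1 h0 m ≤ XGen G m := by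
  intro χ hχ
  have := mem_XDia.1 hχ 1
  rwa [diaChar_one] at this

theorem diaChar_mem {χ : G →* ℂˣ} (hχ : χ ∈ XDia h1 h0 m) (δ : Gamma0 N) :
    diaChar h1 h0 δ χ ∈ XDia h1 h0 m := by
  rw [mem_XDia] at hχ ⊢
  intro δ'
  rw [← diaChar_mul]
  exact hχ _

/-- The diamond operators on `XDia`. -/
def diaX (h1 : Gamma1 N ≤ G) (h0 : G ≤ Gamma0 N) (m : ℕ) (δ : Gamma0 N) :
    XDia h1 h0 m →* XDia h1 h0 m where
  toFun χ := ⟨diaChar h1 h0 δ χ.1, diaChar_mem χ.2 δ⟩
  map_one' := Subtype.ext (map_one _)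
  map_mul' χ ψ := Subtype.ext (map_mul _ χ.1 ψ.1)

@[simp] theorem diaX_coe (δ : Gamma0 N) (χ : XDia h1 h0 m) :
    (diaX h1 h0 m δ χ).1 = diaChar h1 h0 δ χ.1 := rfl

theorem heckeCharG_mem_XGen {l : ℕ} (hl : l.Prime) (hN : ¬ l ∣ N) {χ : G →* ℂˣ}
    (hχ : χ ∈ XDia h1 h0 m) : heckeCharG hl hN h1 h0 χ ∈ XGen G m := by
  refine ⟨?_, fun γ hγ => ?_⟩
  · have e : heckeCharG hl hN h1 h0 (χ ^ m) = (heckeCharG hl hN h1 h0 χ) ^ m := map_pow _ _ _
    have e' : χ ^ m = 1 := (XDia_le hχ).1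
    rw [e', map_one] at e
    exact e.symm
  · -- the cocycle
    change ∏ x, χ ((heckeSysG hl hN h1 h0).coc γ x) = 1
    refine Finset.prod_eq_one fun x _ => ?_
    set S := heckeSysG hl hN h1 h0 with hS
    have hsp : (sigmaX N l x : SL(2, ℤ)) * ((heckeSys hl hN).coc ⟨γ, h0 γ.2⟩ x : SL(2, ℤ)) *
        (sigmaX N l ((heckeSys hl hN).tgt ⟨γ, h0 γ.2⟩ x) : SL(2, ℤ))⁻¹ =
        ((S.coc γ x : G) : SL(2, ℤ)) ∧ S.tgt γ x = (heckeSys hl hN).tgt ⟨γ, h0 γ.2⟩ x := by
      set S₀ := heckeSys hl hN with hS₀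
      set γ₀ : Gamma0 N := ⟨γ, h0 γ.2⟩ with hγ₀
      have e1 := S.spec γ x
      have e2 := S₀.spec γ₀ x
      -- compare in the twisted system for Gamma0
      have e3 : (S₀.twist (sigmaX N l)).δ x * gam N γ₀ = gam N (sigmaX N l x * S₀.coc γ₀ x *
          (sigmaX N l (S₀.tgt γ₀ x))⁻¹) * (S₀.twist (sigmaX N l)).δ (S₀.tgt γ₀ x) := by
        rw [CosetSys.twist_δ, CosetSys.twist_δ, map_mul, map_mul, map_inv]
        rw [mul_assoc, e2]
        group
      have e4 : (S₀.twist (sigmaX N l)).δ x * gam N γ₀ =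
          gam N ⟨(S.coc γ x : SL(2, ℤ)), h0 (S.coc γ x).2⟩ *
            (S₀.twist (sigmaX N l)).δ (S.tgt γ x) := e1
      obtain ⟨h5, h6⟩ := CosetSys.unique (gam_injective N) _ e3 e4
      exact ⟨congrArg Subtype.val h6, h5.symm⟩
    obtain ⟨hco, htg⟩ := hsp
    have htri := coc_tri (heckeSys hl hN) (heckeSys_isTri hl hN) ⟨γ, h0 γ.2⟩ hγ x
    cases x with
    | some j =>
      -- the target is again `some`
      have htgt : ∃ j', (heckeSys hl hN).tgt ⟨γ, h0 γ.2⟩ (some j) = some j' := by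
        cases hcase : (heckeSys hl hN).tgt ⟨γ, h0 γ.2⟩ (some j) with
        | some j' => exact ⟨j', rfl⟩
        | none =>
          exfalso
          have e2 := (heckeSys hl hN).spec ⟨γ, h0 γ.2⟩ (some j)
          rw [hcase] at e2
          set c := (heckeSys hl hN).coc ⟨γ, h0 γ.2⟩ (some j) with hc
          have e3 : heckeMatrix l j * mapGL ℝ (γ : SL(2, ℤ)) =
              mapGL ℝ (c : SL(2, ℤ)) * heckeDiagMatrix l := e2
          have e4 := congrArg (fun g : GL (Fin 2) ℝ => (g : Matrix (Fin 2) (Fin 2) ℝ) 1 1) e3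
          simp only [Units.val_mul, Matrix.mul_apply, Fin.sum_univ_two,
            val_heckeMatrix hl.ne_zero, val_heckeDiagMatrix hl.ne_zero, Matrix.of_apply,
            Matrix.cons_val', Matrix.cons_val_zero, Matrix.cons_val_one,
            Matrix.cons_val_fin_one, mapGL_apply, htri, Int.cast_zero, zero_mul, mul_zero,
            zero_add, mul_one] at e4
          have e5 : (l : ℤ) * (γ : SL(2, ℤ)) 1 1 = (c : SL(2, ℤ)) 1 1 := by exact_mod_cast e4
          have hdc : (c : SL(2, ℤ)) 0 0 * (c : SL(2, ℤ)) 1 1 -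
              (c : SL(2, ℤ)) 0 1 * (c : SL(2, ℤ)) 1 0 = 1 := by
            have := (c : SL(2, ℤ)).2
            rwa [Matrix.det_fin_two] at this
          rw [htri, mul_zero, sub_zero, ← e5] at hdc
          have h7 : (l : ℤ) ∣ 1 := ⟨(c : SL(2, ℤ)) 0 0 * (γ : SL(2, ℤ)) 1 1, by
            linear_combination (-1 : ℤ) * hdc⟩
          exact hl.one_lt.ne' (Nat.dvd_one.mp (by exact_mod_cast h7))
      obtain ⟨j', hj'⟩ := htgt
      rw [hj'] at hco
      have h7 : ((S.coc γ (some j) : G) : SL(2, ℤ)) =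
          ((heckeSys hl hN).coc ⟨γ, h0 γ.2⟩ (some j) : SL(2, ℤ)) := by
        rw [← hco]
        simp [sigmaX]
      exact (XDia_le hχ).2 _ (by rw [h7]; exact htri)
    | none =>
      have htgt : (heckeSys hl hN).tgt ⟨γ, h0 γ.2⟩ none = none := by
        cases hcase : (heckeSys hl hN).tgt ⟨γ, h0 γ.2⟩ none with
        | none => rfl
        | some j' =>
          exfalso
          have e2 := (heckeSys hl hN).spec ⟨γ, h0 γ.2⟩ none
          rw [hcase] at e2
          set c := (heckeSys hl hN).coc ⟨γ, h0 γ.2⟩ none with hc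
          have e3 : heckeDiagMatrix l * mapGL ℝ (γ : SL(2, ℤ)) =
              mapGL ℝ (c : SL(2, ℤ)) * heckeMatrix l j' := e2
          have e4 := congrArg (fun g : GL (Fin 2) ℝ => (g : Matrix (Fin 2) (Fin 2) ℝ) 0 0) e3
          simp only [Units.val_mul, Matrix.mul_apply, Fin.sum_univ_two,
            val_heckeMatrix hl.ne_zero, val_heckeDiagMatrix hl.ne_zero, Matrix.of_apply,
            Matrix.cons_val', Matrix.cons_val_zero, Matrix.cons_val_one,
            Matrix.cons_val_fin_one, mapGL_apply, zero_mul, mul_zero,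
            add_zero, mul_one] at e4
          have e5 : (l : ℤ) * (γ : SL(2, ℤ)) 0 0 = (c : SL(2, ℤ)) 0 0 := by exact_mod_cast e4
          have hdc : (c : SL(2, ℤ)) 0 0 * (c : SL(2, ℤ)) 1 1 -
              (c : SL(2, ℤ)) 0 1 * (c : SL(2, ℤ)) 1 0 = 1 := by
            have := (c : SL(2, ℤ)).2
            rwa [Matrix.det_fin_two] at this
          rw [htri, mul_zero, sub_zero, ← e5] at hdc
          have h7 : (l : ℤ) ∣ 1 := ⟨(c : SL(2, ℤ)) 1 1 * (γ : SL(2, ℤ)) 0 0, by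
            linear_combination (-1 : ℤ) * hdc⟩
          exact hl.one_lt.ne' (Nat.dvd_one.mp (by exact_mod_cast h7))
      rw [htgt] at hco
      set c := (heckeSys hl hN).coc ⟨γ, h0 γ.2⟩ none with hc
      -- `c ∈ G`
      have hcG : (c : SL(2, ℤ)) ∈ G := by
        have h7 : (c : SL(2, ℤ)) = ((sigmaX N l none)⁻¹ : Gamma0 N) *
            ((S.coc γ none : G) : SL(2, ℤ)) * (((sigmaX N l none)⁻¹ : Gamma0 N) : SL(2, ℤ))⁻¹ := by
          rw [← hco, Subgroup.coe_inv]
          group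
        rw [h7]
        exact conj_mem h1 h0 _ _
      have h8 : S.coc γ none = conjG h1 h0 (sigmaX N l none) ⟨c, hcG⟩ := Subtype.ext hco.symm
      rw [h8]
      exact (mem_XDia.1 hχ (sigmaX N l none)).2 ⟨c, hcG⟩ htri

theorem heckeCharG_mem_XDia {l : ℕ} (hl : l.Prime) (hN : ¬ l ∣ N) {χ : G →* ℂˣ}
    (hχ : χ ∈ XDia h1 h0 m) : heckeCharG hl hN h1 h0 χ ∈ XDia h1 h0 m := by
  rw [mem_XDia]
  intro δ
  rw [← heckeCharG_diaChar]
  exact heckeCharG_mem_XGen hl hN (diaChar_mem hχ δ)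

/-- The Hecke operators on `XDia`. -/
def heckeXD {l : ℕ} (hl : l.Prime) (hN : ¬ l ∣ N) (h1 : Gamma1 N ≤ G) (h0 : G ≤ Gamma0 N)
    (m : ℕ) : XDia h1 h0 m →* XDia h1 h0 m where
  toFun χ := ⟨heckeCharG hl hN h1 h0 χ.1, heckeCharG_mem_XDia hl hN χ.2⟩
  map_one' := Subtype.ext (map_one _)
  map_mul' χ ψ := Subtype.ext (map_mul _ χ.1 ψ.1)

@[simp] theorem heckeXD_coe {l : ℕ} (hl : l.Prime) (hN : ¬ l ∣ N) (χ : XDia h1 h0 m) :
    (heckeXD hl hN h1 h0 m χ).1 = heckeCharG hl hN h1 h0 χ.1 := rfl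

end Fermat.Agent.ESCore.Gal
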