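import Fermat.Agent.ESCore.GalG3
import Fermat.Agent.ESCore.ModP

set_option autoImplicit false

/-!
# The mod `p` representation attached to an eigencharacter of a group between `Γ₁(N)` and `Γ₀(N)`
-/

open Polynomial CongruenceSubgroup Matrix
open scoped MatrixGroups

noncomputable section

namespace Fermat.Agent.ESCore.Gal

open Fermat.Agent.ESCore.ModP

variable {N : ℕ} {G : Subgroup SL(2, ℤ)} {h1 : Gamma1 N ≤ G} {h0 : G ≤ Gamma0 N}

/-- the properties of the Galois action used in the construction of the representations -/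
structure GalDataG (h1 : Gamma1 N ≤ G) (h0 : G ≤ Gamma0 N) (m : ℕ)
    (gal : GQ →* MulAut (XDia h1 h0 m)) : Prop where
  fin : ∃ L : IntermediateField ℚ Qb, FiniteDimensional ℚ L ∧
      ∀ σ : GQ, (∀ x ∈ L, σ x = x) → gal σ = 1
  comm : ∀ (l : ℕ) (hl : l.Prime) (hN : ¬ l ∣ N) (σ : GQ) (χ : XDia h1 h0 m),
      heckeXD hl hN h1 h0 m (gal σ χ) = gal σ (heckeXD hl hN h1 h0 m χ)
  dia : ∀ (δ : Gamma0 N) (σ : GQ) (χ : XDia h1 h0 m),
      diaX h1 h0 m δ (gal σ χ) = gal σ (diaX h1 h0 m δ χ)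
  es : ∀ (l : ℕ) (hl : l.Prime) (hN : ¬ l ∣ N), ¬ l ∣ m → ∀ B : ValuationSubring Qb,
      B.LiesOverPrime l → ∀ σ : GQ, B.IsFrobeniusAt σ l → ∀ χ : XDia h1 h0 m,
        heckeXD hl hN h1 h0 m (gal σ χ) = gal (σ * σ) χ * (diaX h1 h0 m (sigmaD N l) χ) ^ l
  inertia : ∀ l : ℕ, l.Prime → ¬ l ∣ N → ¬ l ∣ m → ∀ B : ValuationSubring Qb,
      B.LiesOverPrime l → ∀ σ ∈ B.inertiaSubgroupIn ℚ, gal σ = 1

theorem galDataG [G.FiniteIndex] {m : ℕ} (hm : 0 < m) (hG : ConjStable G) (hD : DiaConj N G)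
    (hFg : FgCoeff G) (hKL : ∀ l : ℕ, l.Prime → ¬ l ∣ N → ¬ l ∣ m → ∀ B : ValuationSubring Qb,
      B.LiesOverPrime l → KLPropG G m B) :
    GalDataG h1 h0 m (galXD h1 h0 hm hG hD) where
  fin := galXD_continuous hm hG hD
  comm l hl hN σ χ := galXD_hecke hm hG hD hl hN σ χ
  dia δ σ χ := galXD_dia hm hG hD σ δ χ
  es l hl hN hlm B hB σ hσ χ := ES_relation_G hm hG hD hFg hl hN hB (hKL l hl hN hlm B hB) hσ χ
  inertia l hl hN hlm B hB σ hσ := by
    ext1 χ
    exact inertia_trivial_G hm hG hD hFg (hKL l hl hN hlm B hB) hσ χ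

section eChar

variable {p : ℕ} [NeZero p] {k : Type} [CommRing k] (c : G →* Multiplicative k)
  (hc : ∀ (δ : Gamma0 N) (γ : G), (γ : SL(2, ℤ)) 1 0 = 0 → diaChar h1 h0 δ c γ = 1)

/-- the character with values in `μ_p` attached to `λ : k → ℤ/p` -/
def eHomG (lam : k →+ ZMod p) : G →* ℂˣ :=
  (zHom p).comp ((AddMonoidHom.toMultiplicative lam).comp c)

theorem eHomG_apply (lam : k →+ ZMod p) (γ : G) :
    eHomG c lam γ = zHom p (Multiplicative.ofAdd (lam (Multiplicative.toAdd (c γ)))) := rfl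

include hc in
theorem eHomG_mem (lam : k →+ ZMod p) : eHomG c lam ∈ XDia h1 h0 p := by
  rw [mem_XDia]
  intro δ
  have e : diaChar h1 h0 δ (eHomG c lam) = eHomG (diaChar h1 h0 δ c) lam := rfl
  rw [e]
  constructor
  · ext γ
    rw [MonoidHom.pow_apply, eHomG_apply, ← map_pow, ← ofAdd_nsmul, nsmul_eq_mul,
      CharP.cast_eq_zero, zero_mul, ofAdd_zero, map_one, MonoidHom.one_apply]
  · intro γ hγ
    rw [eHomG_apply, hc δ γ hγ, toAdd_one, map_zero, ofAdd_zero, map_one]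

/-- the same as an element of `XDia` -/
def eXG (lam : k →+ ZMod p) : Additive (XDia h1 h0 p) :=
  Additive.ofMul ⟨eHomG c lam, eHomG_mem c hc lam⟩

theorem eXG_add (lam mu : k →+ ZMod p) : eXG c hc (lam + mu) = eXG c hc lam + eXG c hc mu := by
  apply Additive.toMul.injective
  apply Subtype.ext
  ext γ
  simp only [eXG, toMul_ofMul, toMul_add, Subgroup.coe_mul, MonoidHom.mul_apply, eHomG_apply,
    AddMonoidHom.add_apply, ofAdd_add, map_mul]

/-- `λ ↦ eX λ` as a homomorphism -/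
def eXGHom : (k →+ ZMod p) →+ Additive (XDia h1 h0 p) :=
  AddMonoidHom.mk' (eXG c hc) (eXG_add c hc)

theorem eXG_eq_zero {lam : k →+ ZMod p} (h : eXG c hc lam = 0) (γ : G) :
    lam (Multiplicative.toAdd (c γ)) = 0 := by
  have h1' : (⟨eHomG c lam, eHomG_mem c hc lam⟩ : XDia h1 h0 p) = 1 := Additive.ofMul.injective h
  have h2 : eHomG c lam = 1 := congrArg Subtype.val h1'
  have h3 : eHomG c lam γ = 1 := by rw [h2]; rfl
  rw [eHomG_apply, ← map_one (zHom p)] at h3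
  exact zHom_injective p h3

/-- `T_l` as an additive endomorphism -/
def heckeXDL {l : ℕ} (hl : l.Prime) (hN : ¬ l ∣ N) (h1 : Gamma1 N ≤ G) (h0 : G ≤ Gamma0 N)
    (m : ℕ) : Module.End ℤ (Additive (XDia h1 h0 m)) :=
  (MonoidHom.toAdditive (heckeXD hl hN h1 h0 m)).toIntLinearMap

/-- the diamond operators as additive endomorphisms -/
def diaXL (h1 : Gamma1 N ≤ G) (h0 : G ≤ Gamma0 N) (m : ℕ) (δ : Gamma0 N) :
    Module.End ℤ (Additive (XDia h1 h0 m)) :=
  (MonoidHom.toAdditive (diaX h1 h0 m δ)).toIntLinearMap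

theorem heckeXDL_eX {l : ℕ} (hl : l.Prime) (hN : ¬ l ∣ N) {a : k}
    (ha : ∀ γ, Multiplicative.toAdd (heckeCharG hl hN h1 h0 c γ) = a * Multiplicative.toAdd (c γ))
    (lam : k →+ ZMod p) :
    heckeXDL hl hN h1 h0 p (eXG c hc lam) = eXG c hc (lam.comp (AddMonoidHom.mulLeft a)) := by
  apply congrArg Additive.ofMul
  apply Subtype.ext
  change heckeCharG hl hN h1 h0 (eHomG c lam) = eHomG c (lam.comp (AddMonoidHom.mulLeft a))
  rw [eHomG, ← MonoidHom.comp_assoc, heckeCharG_comp]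
  ext γ
  rw [eHomG_apply, AddMonoidHom.comp_apply, AddMonoidHom.coe_mulLeft, ← ha]
  rfl

theorem diaXL_eX (δ : Gamma0 N) {a : k}
    (ha : ∀ γ, Multiplicative.toAdd (diaChar h1 h0 δ c γ) = a * Multiplicative.toAdd (c γ))
    (lam : k →+ ZMod p) :
    diaXL h1 h0 p δ (eXG c hc lam) = eXG c hc (lam.comp (AddMonoidHom.mulLeft a)) := by
  apply congrArg Additive.ofMul
  apply Subtype.ext
  change diaChar h1 h0 δ (eHomG c lam) = eHomG c (lam.comp (AddMonoidHom.mulLeft a))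
  ext γ
  rw [eHomG_apply, AddMonoidHom.comp_apply, AddMonoidHom.coe_mulLeft, ← ha]
  rfl

end eChar

section eField

variable {p : ℕ} [NeZero p] {k : Type} [Field k] {c : G →* Multiplicative k}
  (hc : ∀ (δ : Gamma0 N) (γ : G), (γ : SL(2, ℤ)) 1 0 = 0 → diaChar h1 h0 δ c γ = 1)
  {ι : Type} {T : ι → Module.End ℤ (Additive (XDia h1 h0 p))} {a : ι → k}

theorem jointAlg_eXG (hT : ∀ i lam, T i (eXG c hc lam) =
      eXG c hc (lam.comp (AddMonoidHom.mulLeft (a i))))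
    {t : Module.End ℤ (Additive (XDia h1 h0 p)) × k} (ht : t ∈ jointAlg T a) (lam : k →+ ZMod p) :
    t.1 (eXG c hc lam) = eXG c hc (lam.comp (AddMonoidHom.mulLeft t.2)) := by
  induction ht using Algebra.adjoin_induction generalizing lam with
  | mem x hx =>
    obtain ⟨i, rfl⟩ := hx
    exact hT i lam
  | algebraMap r =>
    change r • eXG c hc lam = _
    have h1 : r • eXG c hc lam = eXG c hc (r • lam) := (map_zsmul (eXGHom c hc) r lam).symm
    rw [h1]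
    congr 1
    ext x
    change r • lam x = lam ((algebraMap ℤ k r) * x)
    rw [← Algebra.smul_def, map_zsmul]
  | add x y _ _ hx hy =>
    change x.1 _ + y.1 _ = eXG c hc (lam.comp (AddMonoidHom.mulLeft (x.2 + y.2)))
    rw [hx, hy, ← eXG_add]
    congr 1
    ext z
    change lam (x.2 * z) + lam (y.2 * z) = lam ((x.2 + y.2) * z)
    rw [add_mul, map_add]
  | mul x y _ _ hx hy =>
    change x.1 (y.1 _) = eXG c hc (lam.comp (AddMonoidHom.mulLeft (x.2 * y.2)))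
    rw [hy, hx]
    congr 1
    ext z
    change lam (y.2 * (x.2 * z)) = lam (x.2 * y.2 * z)
    rw [mul_left_comm, mul_assoc]

theorem jointAlg_faithfulG [CharP k p] (hp : p.Prime) (hc1 : c ≠ 1)
    (hT : ∀ i lam, T i (eXG c hc lam) = eXG c hc (lam.comp (AddMonoidHom.mulLeft (a i))))
    {t : Module.End ℤ (Additive (XDia h1 h0 p)) × k} (ht : t ∈ jointAlg T a) (h0' : t.1 = 0) :
    t.2 = 0 := by
  haveI := Fact.mk hp
  letI : Algebra (ZMod p) k := ZMod.algebra k p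
  obtain ⟨γ, hγ⟩ : ∃ γ, c γ ≠ 1 := by
    by_contra hcon
    push Not at hcon
    exact hc1 (MonoidHom.ext hcon)
  have h1' : ∀ lam : k →+ ZMod p, lam (t.2 * Multiplicative.toAdd (c γ)) = 0 := by
    intro lam
    have h2 := jointAlg_eXG hc hT ht lam
    rw [h0', LinearMap.zero_apply] at h2
    exact eXG_eq_zero c hc h2.symm γ
  have h2 : t.2 * Multiplicative.toAdd (c γ) = 0 := by
    rw [← Module.forall_dual_apply_eq_zero_iff (ZMod p)]
    intro lam
    exact h1' lam.toAddMonoidHom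
  refine (mul_eq_zero.mp h2).resolve_right fun h3 => hγ ?_
  exact Multiplicative.toAdd.injective h3

end eField

/-- the Galois action on `XDia`, additively -/
def galRepG {m : ℕ} (gal : GQ →* MulAut (XDia h1 h0 m)) :
    GQ →* Module.End ℤ (Additive (XDia h1 h0 m)) where
  toFun σ := (MonoidHom.toAdditive (gal σ).toMonoidHom).toIntLinearMap
  map_one' := by
    rw [map_one]
    rfl
  map_mul' σ τ := by
    rw [map_mul]
    rfl

theorem galRepG_apply {m : ℕ} (gal : GQ →* MulAut (XDia h1 h0 m)) (σ : GQ)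
    (χ : Additive (XDia h1 h0 m)) :
    galRepG gal σ χ = Additive.ofMul (gal σ (Additive.toMul χ)) := rfl

theorem galRepG_eq_one {m : ℕ} {gal : GQ →* MulAut (XDia h1 h0 m)} {σ : GQ} (h : gal σ = 1) :
    galRepG gal σ = 1 := by
  refine LinearMap.ext fun χ => ?_
  rw [galRepG_apply, h]
  rfl

theorem finite_XDia [G.FiniteIndex] {m : ℕ} (hm : 0 < m) : Finite (XDia h1 h0 m) := by
  haveI := finite_XGen (G := G) hm
  exact Finite.of_injective (fun χ : XDia h1 h0 m => (⟨χ.1, XDia_le χ.2⟩ : XGen G m))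
    fun χ ψ h => Subtype.ext (congrArg (fun z : XGen G m => z.1) h)

theorem diaChar_congr {B : Type*} [CommGroup B] (δ δ' : Gamma0 N)
    (h : Gamma0Map N δ = Gamma0Map N δ') (c : G →* B) :
    diaChar h1 h0 δ c = diaChar h1 h0 δ' c := by
  have h2 : δ = (δ * δ'⁻¹) * δ' := by group
  have h3 : δ * δ'⁻¹ ∈ Gamma1' N := by
    rw [Gamma1_mem', map_mul, h, ← map_mul, mul_inv_cancel, map_one]
  have h4 : ((δ * δ'⁻¹ : Gamma0 N) : SL(2, ℤ)) ∈ G := h1 (by
    rw [Gamma1_mem]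
    exact (Gamma1_to_Gamma0_mem _).1 h3)
  conv_lhs => rw [h2, diaChar_mul, diaChar_of_mem h1 h0 _ h4]

theorem diaChar_comm {B : Type*} [CommGroup B] (δ δ' : Gamma0 N) (c : G →* B) :
    diaChar h1 h0 δ (diaChar h1 h0 δ' c) = diaChar h1 h0 δ' (diaChar h1 h0 δ c) := by
  rw [← diaChar_mul, ← diaChar_mul]
  exact diaChar_congr _ _ (by rw [map_mul, map_mul, mul_comm]) c

/-! ### The main theorem -/

theorem isUnit_Gamma0Map (δ : Gamma0 N) : IsUnit (Gamma0Map N δ) :=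
  (Group.isUnit δ).map (Gamma0Map N)

/-- the lower right entry as a unit -/
def dUnit (δ : Gamma0 N) : (ZMod N)ˣ := (isUnit_Gamma0Map δ).unit

theorem dUnit_coe (δ : Gamma0 N) : (dUnit δ : ZMod N) = Gamma0Map N δ := rfl

/-- the mod `p` cyclotomic character times the Galois character attached to a nebentypus -/
def detChar [NeZero N] (p : ℕ) [NeZero p] (k : Type) [CommRing k] [CharP k p]
    (e : (ZMod N)ˣ →* kˣ) : GQ →* kˣ := cycK p k * e.comp (cyc N)

/-- **The mod `p` representation attached to an eigencharacter** of a group between `Γ₁(N)` and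
`Γ₀(N)`. -/
theorem exists_rep_G [NeZero N] [G.FiniteIndex] {p : ℕ} [NeZero p] (hp : p.Prime)
    {k : Type} [Field k] [IsAlgClosed k] [CharP k p]
    {gal : GQ →* MulAut (XDia h1 h0 p)} (hgal : GalDataG h1 h0 p gal)
    (c : G →* Multiplicative k) (hc1 : c ≠ 1)
    (hc : ∀ (δ : Gamma0 N) (γ : G), (γ : SL(2, ℤ)) 1 0 = 0 → diaChar h1 h0 δ c γ = 1)
    (a : ℕ → k) (haT : ∀ (l : ℕ) (hl : l.Prime) (hN : ¬ l ∣ N) (γ : G),
      Multiplicative.toAdd (heckeCharG hl hN h1 h0 c γ) = a l * Multiplicative.toAdd (c γ))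
    (e : (ZMod N)ˣ →* kˣ) (he : ∀ (δ : Gamma0 N) (γ : G),
      Multiplicative.toAdd (diaChar h1 h0 δ c γ) = (e (dUnit δ) : k) * Multiplicative.toAdd (c γ)) :
    ∃ ρ' : GQ →* Matrix (Fin 2) (Fin 2) k,
      GaloisFactorsThroughFiniteLevel ρ' ∧
      (∀ l : ℕ, l.Prime → ¬ l ∣ N → l ≠ p → ∀ B : ValuationSubring Qb,
        B.LiesOverPrime l → ∀ σ ∈ B.inertiaSubgroupIn ℚ, ρ' σ = 1) ∧
      (∀ l : ℕ, l.Prime → ¬ l ∣ N → l ≠ p → ∀ B : ValuationSubring Qb,
        B.LiesOverPrime l → ∀ σ : GQ, B.IsFrobeniusAt σ l →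
          (ρ' σ).charpoly = X ^ 2 - C (a l) * X + C (detChar p k e σ : k)) ∧
      (∀ σ, (ρ' σ).det = (detChar p k e σ : k)) := by
  have : Finite (XDia h1 h0 p) := finite_XDia hp.pos
  have : Finite (Additive (XDia h1 h0 p)) := inferInstanceAs (Finite (XDia h1 h0 p))
  have : Module.Finite ℤ (Additive (XDia h1 h0 p)) := inferInstance
  -- the Hecke and diamond operators
  let ι : Type := {l : ℕ // l.Prime ∧ ¬ l ∣ N} ⊕ Gamma0 N
  let T : ι → Module.End ℤ (Additive (XDia h1 h0 p)) := fun i =>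
    Sum.elim (fun i => heckeXDL i.2.1 i.2.2 h1 h0 p) (fun δ => diaXL h1 h0 p δ) i
  let b : ι → k := fun i => Sum.elim (fun i => a i.1) (fun δ => (e (dUnit δ) : k)) i
  have hcomm : ∀ i j, T i * T j = T j * T i := by
    intro i j
    refine LinearMap.ext fun χ => ?_
    apply congrArg Additive.ofMul
    apply Subtype.ext
    rcases i with i | i <;> rcases j with j | j
    · exact heckeCharG_comm i.2.1 i.2.2 j.2.1 j.2.2 h1 h0 (Additive.toMul χ).1
    · exact heckeCharG_diaChar i.2.1 i.2.2 h1 h0 j (Additive.toMul χ).1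
    · exact (heckeCharG_diaChar j.2.1 j.2.2 h1 h0 i (Additive.toMul χ).1).symm
    · exact diaChar_comm i j (Additive.toMul χ).1
  have hT : ∀ i lam, T i (eXG c hc lam) = eXG c hc (lam.comp (AddMonoidHom.mulLeft (b i))) := by
    intro i lam
    rcases i with i | i
    · exact heckeXDL_eX c hc i.2.1 i.2.2 (haT i.1 i.2.1 i.2.2) lam
    · exact diaXL_eX c hc i (he i) lam
  have hE : ∀ t ∈ jointAlg T b, t.1 = 0 → t.2 = 0 := fun t ht h0 =>
    jointAlg_faithfulG hc hp hc1 hT ht h0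
  have hmemT : ∀ i, (T i, b i) ∈ jointAlg T b := fun i => Algebra.subset_adjoin ⟨i, rfl⟩
  have hd : ∀ l : ℕ, (algebraMap ℤ (Module.End ℤ (Additive (XDia h1 h0 p)) × k) l) *
      (T (Sum.inr (sigmaD N l)), b (Sum.inr (sigmaD N l))) ∈ jointAlg T b := fun l =>
    Subalgebra.mul_mem _ (Subalgebra.algebraMap_mem _ _) (hmemT _)
  have hrel : ∀ (l : ℕ) (hl : l.Prime) (hN : ¬ l ∣ N), l ≠ p → ∀ B : ValuationSubring Qb,
      B.LiesOverPrime l → ∀ σ : GQ, B.IsFrobeniusAt σ l →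
        galRepG gal σ * galRepG gal σ = T (Sum.inl ⟨l, hl, hN⟩) * galRepG gal σ -
          ((algebraMap ℤ (Module.End ℤ (Additive (XDia h1 h0 p)) × k) l) *
      (T (Sum.inr (sigmaD N l)), b (Sum.inr (sigmaD N l)))).1 := by
    intro l hl hN hlp B hB σ hσ
    refine LinearMap.ext fun χ => ?_
    have h1' := hgal.es l hl hN (fun h => hlp ((Nat.prime_dvd_prime_iff_eq hl hp).mp h))
      B hB σ hσ (Additive.toMul χ)
    have h2 : T (Sum.inl ⟨l, hl, hN⟩) (galRepG gal σ χ) = galRepG gal (σ * σ) χ +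
        l • (T (Sum.inr (sigmaD N l)) χ) := congrArg Additive.ofMul h1'
    rw [← map_mul]
    change _ = T (Sum.inl ⟨l, hl, hN⟩) (galRepG gal σ χ) -
      (l : ℤ) • (T (Sum.inr (sigmaD N l)) χ)
    rw [h2, natCast_zsmul, add_sub_cancel_right]
  have hfrob : ∀ (l : ℕ) (hl : l.Prime), ¬ l ∣ N → l ≠ p → ∀ B : ValuationSubring Qb,
      B.LiesOverPrime l → ∀ σ : GQ, B.IsFrobeniusAt σ l →
        ((algebraMap ℤ (Module.End ℤ (Additive (XDia h1 h0 p)) × k) l) *
      (T (Sum.inr (sigmaD N l)), b (Sum.inr (sigmaD N l)))).2 = detChar p k e σ := by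
    intro l hl hN hlp B hB σ hσ
    have h2 : cyc N σ = dUnit (sigmaD N l) := by
      apply Units.ext
      rw [cyc_frob (m := N) hB hl hσ hN, dUnit_coe]
      change (l : ZMod N) = (((sigmaD N l : SL(2, ℤ)) 1 1 : ℤ) : ZMod N)
      rw [sigmaD_11 (isCoprime_of_prime hl hN)]
      simp
    rw [detChar, MonoidHom.mul_apply, Units.val_mul, MonoidHom.comp_apply, h2,
      cycK_frob hB hl hσ fun h => hlp ((Nat.prime_dvd_prime_iff_eq hl hp).mp h)]
    change (algebraMap ℤ k l) * (e (dUnit (sigmaD N l)) : k) = _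
    congr 1
    exact Int.cast_natCast l
  obtain ⟨L₁, hL₁, h₁⟩ := hgal.fin
  obtain ⟨L₂, hL₂, h₂⟩ := cyc_finite p
  obtain ⟨L₃, hL₃, h₃⟩ := cyc_finite N
  have hcyc1 : ∀ σ, cyc p σ = 1 → cyc N σ = 1 → detChar p k e σ = 1 := fun σ h h' => by
    change Units.map _ (cyc p σ) * e (cyc N σ) = 1
    rw [h, map_one, h', map_one, one_mul]
  have hdetfin : GaloisFactorsThroughFiniteLevel (detChar p k e) := ⟨L₂ ⊔ L₃, inferInstance,
    fun σ hσ => hcyc1 σ (h₂ σ fun x hx => hσ x ((le_sup_left : L₂ ≤ L₂ ⊔ L₃) hx))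
      (h₃ σ fun x hx => hσ x ((le_sup_right : L₃ ≤ L₂ ⊔ L₃) hx))⟩
  obtain ⟨ρ', h3, h4⟩ := exists_matrixRep (T := T) (a := b) hcomm hE (galRepG gal)
    (fun σ i => LinearMap.ext fun χ => by
      rcases i with i | i
      · exact congrArg Additive.ofMul (hgal.comm i.1 i.2.1 i.2.2 σ (Additive.toMul χ))
      · exact congrArg Additive.ofMul (hgal.dia i σ (Additive.toMul χ)))
    ⟨L₁, hL₁, fun σ hσ => galRepG_eq_one (h₁ σ hσ)⟩
    (detChar p k e) hdetfin (N.primeFactors ∪ {p})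
    (fun l hl hlbad B hB σ hσ => by
      rw [Finset.mem_union, not_or, Finset.mem_singleton] at hlbad
      have hlN : ¬ l ∣ N := fun h => hlbad.1 (Nat.mem_primeFactors.mpr ⟨hl, h, NeZero.ne N⟩)
      exact ⟨(T (Sum.inl ⟨l, hl, hlN⟩), b (Sum.inl ⟨l, hl, hlN⟩)), hmemT _, _, hd l,
        hrel l hl hlN hlbad.2 B hB σ hσ, hfrob l hl hlN hlbad.2 B hB σ hσ⟩)
  have hρfin : ∃ L : IntermediateField ℚ Qb, FiniteDimensional ℚ L ∧
      ∀ σ : GQ, (∀ x ∈ L, σ x = x) → ρ' σ = 1 := ⟨L₁ ⊔ (L₂ ⊔ L₃), inferInstance, fun σ hσ => h4 σ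
    (galRepG_eq_one (h₁ σ fun x hx => hσ x ((le_sup_left : L₁ ≤ L₁ ⊔ (L₂ ⊔ L₃)) hx)))
    (hcyc1 σ (h₂ σ fun x hx => hσ x ((le_sup_left.trans le_sup_right :
        L₂ ≤ L₁ ⊔ (L₂ ⊔ L₃)) hx)) (h₃ σ fun x hx => hσ x ((le_sup_right.trans le_sup_right :
        L₃ ≤ L₁ ⊔ (L₂ ⊔ L₃)) hx)))⟩
  have hcp : ∀ l : ℕ, l.Prime → ¬ l ∣ N → l ≠ p → ∀ B : ValuationSubring Qb,
        B.LiesOverPrime l → ∀ σ : GQ, B.IsFrobeniusAt σ l →
          (ρ' σ).charpoly = X ^ 2 - C (a l) * X + C (detChar p k e σ : k) := by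
    intro l hl hlN hlp B hB σ hσ
    have h5 := h3 σ _ (hmemT (Sum.inl ⟨l, hl, hlN⟩)) _ (hd l)
      (hrel l hl hlN hlp B hB σ hσ) (hfrob l hl hlN hlp B hB σ hσ)
    rw [hfrob l hl hlN hlp B hB σ hσ] at h5
    exact h5
  refine ⟨ρ', hρfin, ?_, hcp, ?_⟩
  · intro l hl hlN hlp B hB σ hσ
    refine h4 σ (galRepG_eq_one (hgal.inertia l hl hlN
      (fun h => hlp ((Nat.prime_dvd_prime_iff_eq hl hp).mp h)) B hB σ hσ)) (hcyc1 σ ?_ ?_)
    · exact cyc_inertia hB hl hσ fun h => hlp ((Nat.prime_dvd_prime_iff_eq hl hp).mp h)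
    · exact cyc_inertia hB hl hσ hlN
  · -- determinants: powers of Frobenius elements
    intro σ
    obtain ⟨L, hL, hLρ⟩ := hρfin
    obtain ⟨L', hL', hLχ⟩ := hdetfin
    have : FiniteDimensional ℚ (L ⊔ L' : IntermediateField ℚ Qb) := inferInstance
    obtain ⟨l, hl, hlT, B, hB, φ, hφ, i, j, hi, -⟩ :=
      FrobDensity.exists_frobenius_pow (L ⊔ L') σ (N.primeFactors ∪ {p})
    rw [Finset.mem_union, not_or, Finset.mem_singleton] at hlT
    have hlN : ¬ l ∣ N := fun h => hlT.1 (Nat.mem_primeFactors.mpr ⟨hl, h, NeZero.ne N⟩)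
    have h5 := hcp l hl hlN hlT.2 B hB φ hφ
    have h6 : ρ' (φ ^ i) = ρ' σ := eq_of_restrict_eq' hLρ fun x hx => hi x
      ((le_sup_left : L ≤ L ⊔ L') hx)
    have h7 : detChar p k e (φ ^ i) = detChar p k e σ := eq_of_restrict_eq' hLχ fun x hx => hi x
      ((le_sup_right : L' ≤ L ⊔ L') hx)
    have h8 : (ρ' φ).det = (detChar p k e φ : k) := by
      rw [Matrix.det_eq_sign_charpoly_coeff, h5]
      simp
    rw [← h6, ← h7, map_pow, map_pow, Matrix.det_pow, h8, Units.val_pow_eq_pow_val]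

end Fermat.Agent.ESCore.Gal
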