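import Fermat.Agent.ESCore.FormalParam

/-!
# Local parameters on the upper half plane

Taylor expansion of holomorphic functions on `ℍ` at a point `τ₀`, normalised so that a given
function becomes `C (f τ₀) + X ^ e`.
-/

set_option autoImplicit false

open UpperHalfPlane ModularForm PowerSeries
open scoped Manifold Topology

noncomputable section

namespace Fermat.Agent.ESCore

/-- the ring of holomorphic functions on the upper half plane -/
def HolRing : Subalgebra ℂ (ℍ → ℂ) where
  carrier := {F | MDiff F}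
  mul_mem' := fun ha hb => ha.mul hb
  add_mem' := fun ha hb => ha.add hb
  algebraMap_mem' := fun _ => mdifferentiable_const

lemma analyticAt_holRing (g : HolRing) (τ : ℍ) :
    AnalyticAt ℂ (g.1 ∘ ofComplex) (τ : ℂ) := by
  have h := UpperHalfPlane.mdifferentiable_iff.mp g.2
  exact h.analyticAt ((isOpen_upperHalfPlaneSet).mem_nhds τ.im_pos)

/-- Taylor series of a function at a point -/
def taylor (f : ℂ → ℂ) (z₀ : ℂ) : PowerSeries ℂ :=
  PowerSeries.mk fun n => iteratedDeriv n f z₀ / n.factorial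

lemma coeff_taylor (f : ℂ → ℂ) (z₀ : ℂ) (n : ℕ) :
    coeff n (taylor f z₀) = iteratedDeriv n f z₀ / n.factorial := by
  rw [taylor, coeff_mk]

lemma taylor_mul {f g : ℂ → ℂ} {z₀ : ℂ} (hf : AnalyticAt ℂ f z₀) (hg : AnalyticAt ℂ g z₀) :
    taylor (f * g) z₀ = taylor f z₀ * taylor g z₀ := by
  ext n
  simp only [coeff_taylor, iteratedDeriv_mul hf.contDiffAt hg.contDiffAt, PowerSeries.coeff_mul,
    Finset.Nat.sum_antidiagonal_eq_sum_range_succ_mk, Nat.succ_eq_add_one, Finset.sum_div]
  refine Finset.sum_congr rfl fun i hi ↦ ?_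
  rw [Nat.cast_choose _ (by grind)]
  field_simp [Nat.factorial_ne_zero]

lemma taylor_add {f g : ℂ → ℂ} {z₀ : ℂ} (hf : AnalyticAt ℂ f z₀) (hg : AnalyticAt ℂ g z₀) :
    taylor (f + g) z₀ = taylor f z₀ + taylor g z₀ := by
  ext n
  simp only [coeff_taylor, map_add, iteratedDeriv_add hf.contDiffAt hg.contDiffAt, add_div]

lemma taylor_const (c : ℂ) (z₀ : ℂ) : taylor (fun _ => c) z₀ = C c := by
  ext n
  rw [coeff_taylor, coeff_C]
  split_ifs with h
  · subst h; simp
  · simp [iteratedDeriv_const, h]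

lemma order_taylor {f : ℂ → ℂ} {z₀ : ℂ} (hf : AnalyticAt ℂ f z₀) :
    (taylor f z₀).order = analyticOrderAt f z₀ := by
  have key : ∀ n : ℕ, ((n : ℕ∞) ≤ (taylor f z₀).order ↔ (n : ℕ∞) ≤ analyticOrderAt f z₀) := by
    intro n
    rw [natCast_le_analyticOrderAt_iff_iteratedDeriv_eq_zero hf]
    constructor
    · intro h i hi
      have h1 := coeff_of_lt_order i (lt_of_lt_of_le (by exact_mod_cast hi) h)
      rw [coeff_taylor, div_eq_zero_iff] at h1
      exact h1.resolve_right (by exact_mod_cast Nat.factorial_ne_zero i)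
    · intro h
      apply nat_le_order
      intro i hi
      rw [coeff_taylor, h i hi, zero_div]
  exact ENat.eq_of_forall_natCast_le_iff key

/-- Taylor expansion at `τ₀` as an algebra homomorphism -/
def taylorHom (τ₀ : ℍ) : HolRing →ₐ[ℂ] PowerSeries ℂ where
  toFun g := taylor (g.1 ∘ ofComplex) τ₀
  map_one' := by
    have : ((1 : HolRing).1 ∘ ofComplex) = fun _ => (1 : ℂ) := rfl
    rw [this, taylor_const, map_one]
  map_mul' a b := taylor_mul (analyticAt_holRing a τ₀) (analyticAt_holRing b τ₀)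
  map_zero' := by
    have : ((0 : HolRing).1 ∘ ofComplex) = fun _ => (0 : ℂ) := rfl
    rw [this, taylor_const, map_zero]
  map_add' a b := taylor_add (analyticAt_holRing a τ₀) (analyticAt_holRing b τ₀)
  commutes' c := taylor_const c τ₀

lemma taylorHom_apply (τ₀ : ℍ) (g : HolRing) :
    taylorHom τ₀ g = taylor (g.1 ∘ ofComplex) τ₀ := rfl

lemma order_taylorHom (τ₀ : ℍ) (g : HolRing) :
    (taylorHom τ₀ g).order = analyticOrderAt (g.1 ∘ ofComplex) (τ₀ : ℂ) :=
  order_taylor (analyticAt_holRing g τ₀)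

/-- a holomorphic function on `ℍ` vanishing to infinite order at a point is zero -/
lemma eq_zero_of_order_eq_top (τ₀ : ℍ) (g : HolRing)
    (h : analyticOrderAt (g.1 ∘ ofComplex) (τ₀ : ℂ) = ⊤) : g = 0 := by
  have hd := UpperHalfPlane.mdifferentiable_iff.mp g.2
  have hconn : IsPreconnected {z : ℂ | 0 < z.im} := (convex_halfSpace_im_gt 0).isPreconnected
  have h0 := (hd.analyticOnNhd isOpen_upperHalfPlaneSet).eqOn_zero_of_preconnected_of_eventuallyEq_zero
    hconn τ₀.im_pos (analyticOrderAt_eq_top.mp h)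
  apply Subtype.ext
  ext τ
  have := h0 τ.im_pos
  simpa using this

lemma taylorHom_injective (τ₀ : ℍ) : Function.Injective (taylorHom τ₀) := by
  rw [injective_iff_map_eq_zero]
  intro g hg
  apply eq_zero_of_order_eq_top τ₀
  rw [← order_taylorHom, hg, order_zero]

instance : IsDomain HolRing :=
  (taylorHom_injective UpperHalfPlane.I).isDomain (taylorHom UpperHalfPlane.I)

/-- **local parameter**: Taylor expansion at `τ₀` in a local parameter `u` with
`f = f τ₀ + u ^ e`. -/
theorem exists_local_param (f : HolRing) (τ₀ : ℍ) (e : ℕ) (he : 0 < e)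
    (h : analyticOrderAt (fun z => f.1 (ofComplex z) - f.1 τ₀) (τ₀ : ℂ) = e) :
    ∃ ψ : HolRing →ₐ[ℂ] PowerSeries ℂ, ψ f = C (f.1 τ₀) + X ^ e ∧
      ∀ g : HolRing, (ψ g).order = analyticOrderAt (g.1 ∘ ofComplex) (τ₀ : ℂ) := by
  have h1 : (taylorHom τ₀ (f - algebraMap ℂ HolRing (f.1 τ₀))).order = e := by
    rw [order_taylorHom, ← h]
    rfl
  obtain ⟨α, hα⟩ := exists_algEquiv_eq_X_pow _ he h1
  refine ⟨(α : PowerSeries ℂ →ₐ[ℂ] PowerSeries ℂ).comp (taylorHom τ₀), ?_, ?_⟩
  · rw [AlgHom.comp_apply]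
    change α (taylorHom τ₀ f) = _
    rw [map_sub, map_sub, AlgHom.commutes, AlgEquiv.commutes] at hα
    rw [← hα]
    change _ = C (f.1 τ₀) + (_ - C (f.1 τ₀))
    ring
  · intro g
    rw [AlgHom.comp_apply]
    change (α.toRingEquiv (taylorHom τ₀ g)).order = _
    rw [order_ringEquiv, order_taylorHom]

end Fermat.Agent.ESCore
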