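import Mathlib
import Fermat.Agent.ESCore.GalG1
import Fermat.Agent.ESCore.RepG
import Fermat.Agent.ESCore.Univ
import Fermat.Agent.ESCore.FgCoeffG
import Fermat.Agent.KL.BDG

set_option autoImplicit false

/-!
# The Hecke algebra of the first homology of a group between `Γ₁(N)` and `Γ₀(N)`
-/

open IsLocalRing CongruenceSubgroup Matrix.SpecialLinearGroup
open scoped MatrixGroups

noncomputable section

namespace Fermat.Agent.ESCore.UnivG

open ModP Tower Univ Gal

variable {N : ℕ} {G : Subgroup SL(2, ℤ)}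

/-- characters of `G` all of whose diamond translates are trivial on the elements fixing `∞` -/
def Par (h1 : Gamma1 N ≤ G) (h0 : G ≤ Gamma0 N) {B : Type*} [CommGroup B] (c : G →* B) : Prop :=
  ∀ (δ : Gamma0 N) (γ : G), (γ : SL(2, ℤ)) 1 0 = 0 → diaChar h1 h0 δ c γ = 1

/-- the conjugates of the elements of `G` fixing `∞` -/
def parSet (h1 : Gamma1 N ≤ G) (h0 : G ≤ Gamma0 N) : Set G :=
  {g | ∃ (δ : Gamma0 N) (γ : G), (γ : SL(2, ℤ)) 1 0 = 0 ∧ conjG h1 h0 δ γ = g}

/-- the first homology group of the (partially) compactified curve -/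
def L (h1 : Gamma1 N ≤ G) (h0 : G ≤ Gamma0 N) : Type :=
  Additive (Abelianization (G ⧸ Subgroup.normalClosure (parSet h1 h0)))

instance (h1 : Gamma1 N ≤ G) (h0 : G ≤ Gamma0 N) : AddCommGroup (L h1 h0) :=
  inferInstanceAs (AddCommGroup
    (Additive (Abelianization (G ⧸ Subgroup.normalClosure (parSet h1 h0)))))

/-- the projection on the homology -/
def u (h1 : Gamma1 N ≤ G) (h0 : G ≤ Gamma0 N) : G →* Multiplicative (L h1 h0) where
  toFun γ := Multiplicative.ofAdd (Additive.ofMul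
    (Abelianization.of (QuotientGroup.mk' (Subgroup.normalClosure (parSet h1 h0)) γ)))
  map_one' := by
    rw [map_one, map_one]
    rfl
  map_mul' x y := by
    rw [map_mul, map_mul]
    rfl

variable (h1 : Gamma1 N ≤ G) (h0 : G ≤ Gamma0 N)

theorem u_surjective : Function.Surjective (u h1 h0) := by
  intro x
  obtain ⟨y, hy⟩ := QuotientGroup.mk_surjective
    (Additive.toMul (Multiplicative.toAdd x) : Abelianization _)
  obtain ⟨z, hz⟩ := QuotientGroup.mk_surjective y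
  refine ⟨z, ?_⟩
  change Multiplicative.ofAdd (Additive.ofMul (Abelianization.of (QuotientGroup.mk z))) = x
  rw [hz]
  change Multiplicative.ofAdd (Additive.ofMul (QuotientGroup.mk y)) = x
  rw [hy]
  rfl

theorem u_par : Par h1 h0 (u h1 h0) := by
  intro δ γ hγ
  have h2 : conjG h1 h0 δ γ ∈ Subgroup.normalClosure (parSet h1 h0) :=
    Subgroup.subset_normalClosure ⟨δ, γ, hγ, rfl⟩
  change u h1 h0 (conjG h1 h0 δ γ) = 1
  change Multiplicative.ofAdd (Additive.ofMul
    (Abelianization.of (QuotientGroup.mk' (Subgroup.normalClosure (parSet h1 h0))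
      (conjG h1 h0 δ γ)))) = 1
  have h3 : QuotientGroup.mk' (Subgroup.normalClosure (parSet h1 h0)) (conjG h1 h0 δ γ) = 1 :=
    (QuotientGroup.eq_one_iff _).mpr h2
  rw [h3, map_one]
  rfl

variable {h1 h0}

/-- the universal property of the homology -/
theorem exists_lift {B : Type*} [CommGroup B] {c : G →* B} (hc : Par h1 h0 c) :
    ∃ φ : Multiplicative (L h1 h0) →* B, c = φ.comp (u h1 h0) := by
  have h2 : Subgroup.normalClosure (parSet h1 h0) ≤ c.ker := by
    refine Subgroup.normalClosure_le_normal ?_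
    rintro _ ⟨δ, γ, hγ, rfl⟩
    exact hc δ γ hγ
  let φ' : Abelianization (G ⧸ Subgroup.normalClosure (parSet h1 h0)) →* B :=
    Abelianization.lift (QuotientGroup.lift _ c h2)
  refine ⟨{ toFun := fun x => φ' (Additive.toMul (Multiplicative.toAdd x))
            map_one' := map_one φ'
            map_mul' := fun x y => map_mul φ' _ _ }, ?_⟩
  ext γ
  rfl

theorem comp_par {B B' : Type*} [CommGroup B] [CommGroup B'] {c : G →* B} (hc : Par h1 h0 c)
    (φ : B →* B') : Par h1 h0 (φ.comp c) := by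
  intro δ γ hγ
  rw [diaChar_comp, MonoidHom.comp_apply, hc δ γ hγ, map_one]

theorem dia_par {B : Type*} [CommGroup B] {c : G →* B} (hc : Par h1 h0 c) (δ : Gamma0 N) :
    Par h1 h0 (diaChar h1 h0 δ c) := by
  intro δ' γ hγ
  rw [← diaChar_mul]
  exact hc _ γ hγ

theorem mem_XDia_iff {m : ℕ} {χ : G →* ℂˣ} :
    χ ∈ XDia h1 h0 m ↔ χ ^ m = 1 ∧ Par h1 h0 χ := by
  rw [mem_XDia]
  constructor
  · intro h
    refine ⟨?_, fun δ => (h δ).2⟩
    have := (h 1).1
    rwa [diaChar_one] at this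
  · rintro ⟨h2, h3⟩ δ
    refine ⟨?_, h3 δ⟩
    have e : diaChar h1 h0 δ (χ ^ m) = (diaChar h1 h0 δ χ) ^ m := map_pow _ _ _
    rw [← e, h2, map_one]

variable (h1 h0)

theorem finite_L [NeZero N] : Module.Finite ℤ (L h1 h0) := by
  have : G.FiniteIndex := Subgroup.finiteIndex_of_le h1
  have hG : Group.FG SL(2, ℤ) := by
    rw [Group.fg_iff]
    exact ⟨{ModularGroup.S, ModularGroup.T}, SpecialLinearGroup.SL2Z_generators, by simp⟩
  have hfg : Group.FG G := inferInstance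
  have h2 : Group.FG (Multiplicative (L h1 h0)) :=
    Group.fg_of_surjective (f := u h1 h0) (u_surjective h1 h0)
  have h3 : AddGroup.FG (L h1 h0) := AddGroup.fg_iff_mul_fg.mpr h2
  exact Module.Finite.iff_addGroup_fg.mpr h3

theorem eq_zero_of_char [NeZero N] {w : L h1 h0}
    (h : ∀ m : ℕ, 0 < m → ∀ φ : Multiplicative (L h1 h0) →* ℂˣ, φ ^ m = 1 →
      φ (Multiplicative.ofAdd w) = 1) : w = 0 := by
  have := finite_L h1 h0
  have hI : ∀ n : ℤ, n ≠ 0 → ∃ r : Ideal.span {n}, (r : ℤ) • w = w := by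
    intro n hn
    rw [← Ideal.mem_iInf_smul_pow_eq_bot_iff, Submodule.mem_iInf]
    intro i
    obtain ⟨v, hv⟩ := exists_eq_smul_of_forall_char (L := L h1 h0) (m := (n ^ i).natAbs)
      (Int.natAbs_ne_zero.mpr (pow_ne_zero i hn)) (w := w) fun φ hφ =>
        h _ (Int.natAbs_pos.mpr (pow_ne_zero i hn)) φ hφ
    rw [hv, ← natCast_zsmul]
    refine Submodule.smul_mem_smul ?_ Submodule.mem_top
    rw [Ideal.span_singleton_pow, Ideal.mem_span_singleton]
    exact Int.dvd_natAbs.mpr dvd_rfl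
  obtain ⟨⟨r, hr⟩, h2⟩ := hI 2 two_ne_zero
  obtain ⟨a, rfl⟩ := Ideal.mem_span_singleton.mp hr
  have h3 : (2 * a - 1) • w = 0 := by rw [sub_smul, one_smul]; exact sub_eq_zero.mpr h2
  obtain ⟨⟨r, hr⟩, h4⟩ := hI (2 * a - 1) (by omega)
  obtain ⟨b, rfl⟩ := Ideal.mem_span_singleton.mp hr
  rw [← h4]
  change ((2 * a - 1) * b) • w = 0
  rw [mul_comm, mul_smul, h3, smul_zero]

section Hecke

variable [NeZero N]

theorem hecke_u_par {l : ℕ} (hl : l.Prime) (hN : ¬ l ∣ N) :
    Par h1 h0 (heckeCharG hl hN h1 h0 (u h1 h0)) := by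
  intro δ γ hγ
  apply Multiplicative.toAdd.injective
  refine eq_zero_of_char h1 h0 fun m hm φ hφ => ?_
  have h2 : φ.comp (u h1 h0) ∈ XDia h1 h0 m := by
    rw [mem_XDia_iff]
    refine ⟨?_, comp_par (u_par h1 h0) φ⟩
    ext γ
    rw [MonoidHom.pow_apply, MonoidHom.comp_apply, ← MonoidHom.pow_apply, hφ]
    rfl
  have h3 := (mem_XDia_iff.mp (heckeCharG_mem_XDia hl hN h2)).2 δ γ hγ
  rw [heckeCharG_comp, diaChar_comp] at h3
  exact h3

variable {h1 h0} in
/-- Hecke operators preserve the parabolic characters -/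
theorem hecke_par {B : Type*} [CommGroup B] {c : G →* B} (hc : Par h1 h0 c) {l : ℕ}
    (hl : l.Prime) (hN : ¬ l ∣ N) : Par h1 h0 (heckeCharG hl hN h1 h0 c) := by
  obtain ⟨φ, rfl⟩ := exists_lift hc
  rw [heckeCharG_comp]
  exact comp_par (hecke_u_par h1 h0 hl hN) φ

/-- The operator `T_l` on the homology -/
def tauL {l : ℕ} (hl : l.Prime) (hN : ¬ l ∣ N) : Module.End ℤ (L h1 h0) :=
  (AddMonoidHom.toMultiplicative.symm (exists_lift (hecke_u_par h1 h0 hl hN)).choose).toIntLinearMap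

theorem tauL_spec {l : ℕ} (hl : l.Prime) (hN : ¬ l ∣ N) (γ : G) :
    heckeCharG hl hN h1 h0 (u h1 h0) γ =
      Multiplicative.ofAdd (tauL h1 h0 hl hN (Multiplicative.toAdd (u h1 h0 γ))) :=
  DFunLike.congr_fun (exists_lift (hecke_u_par h1 h0 hl hN)).choose_spec γ

end Hecke

/-- The diamond operators on the homology -/
def deltaL (δ : Gamma0 N) : Module.End ℤ (L h1 h0) :=
  (AddMonoidHom.toMultiplicative.symm
    (exists_lift (dia_par (u_par h1 h0) δ)).choose).toIntLinearMap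

theorem deltaL_spec (δ : Gamma0 N) (γ : G) :
    diaChar h1 h0 δ (u h1 h0) γ =
      Multiplicative.ofAdd (deltaL h1 h0 δ (Multiplicative.toAdd (u h1 h0 γ))) :=
  DFunLike.congr_fun (exists_lift (dia_par (u_par h1 h0) δ)).choose_spec γ

theorem end_ext {f g : Module.End ℤ (L h1 h0)}
    (h : ∀ γ, f (Multiplicative.toAdd (u h1 h0 γ)) = g (Multiplicative.toAdd (u h1 h0 γ))) :
    f = g := by
  refine LinearMap.ext fun x => ?_
  obtain ⟨γ, hγ⟩ := u_surjective h1 h0 (Multiplicative.ofAdd x)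
  have := h γ
  rwa [hγ] at this

/-- An endomorphism of the homology as an endomorphism of the multiplicative group -/
def mulEnd (f : Module.End ℤ (L h1 h0)) : Multiplicative (L h1 h0) →* Multiplicative (L h1 h0) :=
  AddMonoidHom.toMultiplicative f.toAddMonoidHom

theorem mulEnd_apply (f : Module.End ℤ (L h1 h0)) (x : Multiplicative (L h1 h0)) :
    mulEnd h1 h0 f x = Multiplicative.ofAdd (f (Multiplicative.toAdd x)) := rfl

theorem dia_u (δ : Gamma0 N) :
    diaChar h1 h0 δ (u h1 h0) = (mulEnd h1 h0 (deltaL h1 h0 δ)).comp (u h1 h0) := by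
  ext1 γ
  exact deltaL_spec h1 h0 δ γ

theorem deltaL_comm (δ δ' : Gamma0 N) :
    deltaL h1 h0 δ * deltaL h1 h0 δ' = deltaL h1 h0 δ' * deltaL h1 h0 δ := by
  have key : ∀ δ δ' γ, (deltaL h1 h0 δ * deltaL h1 h0 δ') (Multiplicative.toAdd (u h1 h0 γ)) =
      Multiplicative.toAdd (diaChar h1 h0 δ' (diaChar h1 h0 δ (u h1 h0)) γ) := by
    intro δ δ' γ
    rw [dia_u, diaChar_comp, dia_u]
    rfl
  refine end_ext h1 h0 fun γ => ?_
  rw [key, key, diaChar_comm]

section Hecke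

variable [NeZero N]

theorem hecke_u {l : ℕ} (hl : l.Prime) (hN : ¬ l ∣ N) :
    heckeCharG hl hN h1 h0 (u h1 h0) = (mulEnd h1 h0 (tauL h1 h0 hl hN)).comp (u h1 h0) := by
  ext1 γ
  exact tauL_spec h1 h0 hl hN γ

theorem tauL_comm {l l' : ℕ} (hl : l.Prime) (hN : ¬ l ∣ N) (hl' : l'.Prime) (hN' : ¬ l' ∣ N) :
    tauL h1 h0 hl hN * tauL h1 h0 hl' hN' = tauL h1 h0 hl' hN' * tauL h1 h0 hl hN := by
  have key : ∀ {l l' : ℕ} (hl : l.Prime) (hN : ¬ l ∣ N) (hl' : l'.Prime) (hN' : ¬ l' ∣ N) (γ : G),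
      (tauL h1 h0 hl hN * tauL h1 h0 hl' hN') (Multiplicative.toAdd (u h1 h0 γ)) =
      Multiplicative.toAdd (heckeCharG hl' hN' h1 h0 (heckeCharG hl hN h1 h0 (u h1 h0)) γ) := by
    intro l l' hl hN hl' hN' γ
    rw [hecke_u, heckeCharG_comp, hecke_u]
    rfl
  refine end_ext h1 h0 fun γ => ?_
  rw [key, key, heckeCharG_comm]

theorem tauL_deltaL {l : ℕ} (hl : l.Prime) (hN : ¬ l ∣ N) (δ : Gamma0 N) :
    tauL h1 h0 hl hN * deltaL h1 h0 δ = deltaL h1 h0 δ * tauL h1 h0 hl hN := by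
  refine end_ext h1 h0 fun γ => ?_
  have e1 : (tauL h1 h0 hl hN * deltaL h1 h0 δ) (Multiplicative.toAdd (u h1 h0 γ)) =
      Multiplicative.toAdd (diaChar h1 h0 δ (heckeCharG hl hN h1 h0 (u h1 h0)) γ) := by
    rw [hecke_u, diaChar_comp, dia_u]
    rfl
  have e2 : (deltaL h1 h0 δ * tauL h1 h0 hl hN) (Multiplicative.toAdd (u h1 h0 γ)) =
      Multiplicative.toAdd (heckeCharG hl hN h1 h0 (diaChar h1 h0 δ (u h1 h0)) γ) := by
    rw [dia_u, heckeCharG_comp, hecke_u]
    rfl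
  rw [e1, e2, heckeCharG_diaChar]

/-! ### The Hecke algebra -/

variable (S : Finset ℕ)

/-- the generators of the Hecke algebra -/
def gen (i : Idx N S ⊕ Gamma0 N) : Module.End ℤ (L h1 h0) :=
  Sum.elim (fun i => tauL h1 h0 i.2.1 i.2.2.1) (fun δ => deltaL h1 h0 δ) i

theorem gen_comm (i j : Idx N S ⊕ Gamma0 N) :
    gen h1 h0 S i * gen h1 h0 S j = gen h1 h0 S j * gen h1 h0 S i := by
  rcases i with i | i <;> rcases j with j | j
  · exact tauL_comm h1 h0 _ _ _ _
  · exact tauL_deltaL h1 h0 _ _ _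
  · exact (tauL_deltaL h1 h0 _ _ _).symm
  · exact deltaL_comm h1 h0 _ _

/-- The Hecke algebra acting on the homology, generated by the `T_l`, `l ∤ N`, `l ∉ S` and the
diamond operators -/
def TG : Type := Algebra.adjoin ℤ (Set.range (gen h1 h0 S))

instance : CommRing (TG h1 h0 S) :=
  Algebra.adjoinCommRingOfComm ℤ (by
    rintro _ ⟨i, rfl⟩ _ ⟨j, rfl⟩
    exact gen_comm h1 h0 S i j)

instance : Module (TG h1 h0 S) (L h1 h0) :=
  inferInstanceAs (Module (Algebra.adjoin ℤ (Set.range (gen h1 h0 S))) (L h1 h0))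

/-- the inclusion in the endomorphism ring -/
def toEnd : TG h1 h0 S →+* Module.End ℤ (L h1 h0) :=
  (Algebra.adjoin ℤ (Set.range (gen h1 h0 S))).val.toRingHom

theorem toEnd_injective : Function.Injective (toEnd h1 h0 S) := Subtype.val_injective

theorem TG_smul (t : TG h1 h0 S) (x : L h1 h0) : t • x = toEnd h1 h0 S t x := rfl

/-- the generators -/
def genT (i : Idx N S ⊕ Gamma0 N) : TG h1 h0 S :=
  ⟨gen h1 h0 S i, Algebra.subset_adjoin ⟨i, rfl⟩⟩

theorem toEnd_genT (i : Idx N S ⊕ Gamma0 N) : toEnd h1 h0 S (genT h1 h0 S i) = gen h1 h0 S i := rfl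

theorem finite_TG : Module.Finite ℤ (TG h1 h0 S) := by
  have := finite_L h1 h0
  have h2 : Module.Finite ℤ (Module.End ℤ (L h1 h0)) := inferInstance
  let f : TG h1 h0 S →ₗ[ℤ] Module.End ℤ (L h1 h0) := (toEnd h1 h0 S).toAddMonoidHom.toIntLinearMap
  exact Module.Finite.of_injective f (toEnd_injective h1 h0 S)

theorem TG_faithful : Module.annihilator (TG h1 h0 S) (L h1 h0) = ⊥ := by
  rw [eq_bot_iff]
  intro t ht
  rw [Module.mem_annihilator] at ht
  rw [Ideal.mem_bot]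
  apply toEnd_injective h1 h0 S
  rw [map_zero]
  exact LinearMap.ext fun x => ht x

/-- the Hecke algebra is generated by the Hecke operators -/
theorem TG_induction {P : TG h1 h0 S → Prop} (hg : ∀ i, P (genT h1 h0 S i))
    (hz : ∀ n : ℤ, P n) (ha : ∀ x y, P x → P y → P (x + y)) (hm : ∀ x y, P x → P y → P (x * y))
    (x : TG h1 h0 S) : P x := by
  obtain ⟨x, hx⟩ := x
  induction hx using Algebra.adjoin_induction with
  | mem y hy =>
    obtain ⟨i, rfl⟩ := hy
    exact hg i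
  | algebraMap r => exact hz r
  | add y z hy hz' ihy ihz => exact ha ⟨y, hy⟩ ⟨z, hz'⟩ ihy ihz
  | mul y z hy hz' ihy ihz => exact hm ⟨y, hy⟩ ⟨z, hz'⟩ ihy ihz

end Hecke

end Fermat.Agent.ESCore.UnivG
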