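import Mathlib
import Fermat.Agent.ESCore.LatG

set_option autoImplicit false

/-!
# The pseudo-representation over the Hecke algebra of a group between `Γ₁(N)` and `Γ₀(N)`
-/

open IsLocalRing CongruenceSubgroup Matrix.SpecialLinearGroup
open scoped MatrixGroups

noncomputable section

namespace Fermat.Agent.ESCore.UnivG

open ModP Tower Univ Gal

variable {N : ℕ} {G : Subgroup SL(2, ℤ)} (h1 : Gamma1 N ≤ G) (h0 : G ≤ Gamma0 N)
  {S : Finset ℕ} {p : ℕ}

/-! ### The tower -/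

/-- Hecke operators and diamond operators on the characters -/
def TxG (S : Finset ℕ) (p : ℕ) (i : Idx N S ⊕ Gamma0 N) (n : ℕ) :
    Module.End ℤ (Additive (XDia h1 h0 (p ^ n))) :=
  Sum.elim (fun i => heckeXDL i.2.1 i.2.2.1 h1 h0 (p ^ n)) (fun δ => diaXL h1 h0 (p ^ n) δ) i

theorem TxG_latX [NeZero N] (i : Idx N S ⊕ Gamma0 N) (n : ℕ)
    (φ : Multiplicative (L h1 h0) →* ℂˣ) (x : Additive (XDia h1 h0 (p ^ n)))
    (hx : x.toMul.1 = φ.comp (u h1 h0)) :
    (TxG h1 h0 S p i n x).toMul.1 =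
      (φ.comp (smulHom (L h1 h0) (genT h1 h0 S i))).comp (u h1 h0) := by
  rcases i with i | δ
  · change heckeCharG i.2.1 i.2.2.1 h1 h0 x.toMul.1 = _
    rw [hx, heckeCharG_comp, hecke_u]
    rfl
  · change diaChar h1 h0 δ x.toMul.1 = _
    rw [hx, diaChar_comp, dia_u]
    rfl

theorem faithful_G [NeZero N] (hp : p ≠ 0) : ∃ c : ℕ, ∀ n,
    ∀ f ∈ algP (TxG h1 h0 S p) (genT h1 h0 S), f.1 (n + c) = 0 →
      f.2 ∈ Ideal.span {(p : TG h1 h0 S) ^ n} := by
  have := finite_TG h1 h0 S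
  have : IsNoetherianRing (TG h1 h0 S) := IsNoetherianRing.of_finite ℤ _
  have := finite_L h1 h0
  have : Module.Finite (TG h1 h0 S) (L h1 h0) := Module.Finite.of_restrictScalars_finite ℤ _ _
  refine exists_faithful (u h1 h0) (TG_faithful h1 h0 S) (u_surjective h1 h0) hp (fun n φ hφ => ?_)
    (fun i n φ x hx => TxG_latX h1 h0 i n φ x hx)
  rw [mem_XDia_iff]
  refine ⟨?_, comp_par (u_par h1 h0) φ⟩
  ext γ
  rw [MonoidHom.pow_apply, MonoidHom.comp_apply, ← MonoidHom.pow_apply, hφ]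
  rfl

/-! ### The Galois action on the tower -/

section Cyc

variable {m : ℕ}

theorem natCast_end_eq_zero : (m : Module.End ℤ (Additive (XDia h1 h0 m))) = 0 := by
  refine LinearMap.ext fun x => ?_
  change ((m : ℕ) : Module.End ℤ (Additive (XDia h1 h0 m))) x = 0
  rw [← nsmul_one, LinearMap.smul_apply, Module.End.one_apply]
  apply Additive.toMul.injective
  apply Subtype.ext
  rw [toMul_nsmul, Subgroup.coe_pow]
  exact (XDia_le x.toMul.2).1

variable {h1 h0} in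
theorem diaChar_eq {B : Type*} [CommGroup B] {δ δ' : Gamma0 N} (h : dU N δ = dU N δ')
    (c : G →* B) : diaChar h1 h0 δ c = diaChar h1 h0 δ' c :=
  diaChar_congr δ δ' (congrArg Units.val h) c

/-- the diamond operator attached to a unit -/
def diaU [NeZero N] (m : ℕ) : (ZMod N)ˣ →* Module.End ℤ (Additive (XDia h1 h0 m)) where
  toFun d := diaXL h1 h0 m (dLift d)
  map_one' := by
    refine LinearMap.ext fun x => congrArg Additive.ofMul (Subtype.ext ?_)
    change diaChar h1 h0 (dLift 1) x.toMul.1 = x.toMul.1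
    rw [diaChar_eq (δ := dLift 1) (δ' := 1) (by rw [dU_dLift, map_one]), diaChar_one]
  map_mul' d d' := by
    refine LinearMap.ext fun x => congrArg Additive.ofMul (Subtype.ext ?_)
    change diaChar h1 h0 (dLift (d * d')) x.toMul.1 =
      diaChar h1 h0 (dLift d) (diaChar h1 h0 (dLift d') x.toMul.1)
    rw [← diaChar_mul]
    exact diaChar_eq (by rw [map_mul, dU_dLift, dU_dLift, dU_dLift, mul_comm]) _

theorem diaU_dU [NeZero N] (m : ℕ) (δ : Gamma0 N) : diaU h1 h0 m (dU N δ) = diaXL h1 h0 m δ := by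
  refine LinearMap.ext fun x => congrArg Additive.ofMul (Subtype.ext ?_)
  exact diaChar_eq (by rw [dU_dLift]) x.toMul.1

/-- the cyclotomic character times the diamond operator of the cyclotomic character modulo `N` -/
def chiG [NeZero N] (m : ℕ) [NeZero m] : GQ →* Module.End ℤ (Additive (XDia h1 h0 m)) where
  toFun σ := zEnd m (natCast_end_eq_zero h1 h0) (cyc m σ : ZMod m) * diaU h1 h0 m (cyc N σ)
  map_one' := by
    rw [map_one, map_one, map_one, Units.val_one, map_one, mul_one]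
  map_mul' σ τ := by
    have hc : ∀ (a : ZMod m) (f : Module.End ℤ (Additive (XDia h1 h0 m))),
        f * zEnd m (natCast_end_eq_zero h1 h0) a = zEnd m (natCast_end_eq_zero h1 h0) a * f := by
      intro a f
      rw [zEnd_val]
      exact (Nat.cast_commute _ f).symm
    rw [map_mul, map_mul, Units.val_mul, map_mul, map_mul]
    simp only [mul_assoc]
    congr 1

theorem chiG_eq [NeZero N] {m : ℕ} [NeZero m] {σ : GQ} {k : ℤ} {δ : Gamma0 N}
    (h : (cyc m σ : ZMod m) = k) (h' : cyc N σ = dU N δ) :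
    chiG h1 h0 m σ = (k : Module.End ℤ (Additive (XDia h1 h0 m))) * diaXL h1 h0 m δ := by
  change zEnd m (natCast_end_eq_zero h1 h0) (cyc m σ : ZMod m) * diaU h1 h0 m (cyc N σ) = _
  rw [h, map_intCast, h', diaU_dU]

theorem chiG_coe [NeZero N] {m : ℕ} [NeZero m] (σ : GQ) (x : Additive (XDia h1 h0 m)) :
    (chiG h1 h0 m σ x).toMul.1 =
      (diaChar h1 h0 (dLift (cyc N σ)) x.toMul.1) ^ ((cyc m σ : ZMod m).val) := by
  change ((zEnd m (natCast_end_eq_zero h1 h0) (cyc m σ : ZMod m) * diaU h1 h0 m (cyc N σ)) x).toMul.1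
    = _
  rw [zEnd_val]
  rfl

end Cyc

theorem XDia_mono {m m' : ℕ} (h : m ∣ m') : XDia h1 h0 m ≤ XDia h1 h0 m' := by
  intro χ hχ
  rw [mem_XDia_iff] at hχ ⊢
  obtain ⟨k, rfl⟩ := h
  refine ⟨?_, hχ.2⟩
  ext γ
  have h2 := DFunLike.congr_fun hχ.1 γ
  rw [MonoidHom.pow_apply, MonoidHom.one_apply] at h2
  rw [MonoidHom.pow_apply, pow_mul, h2, one_pow, MonoidHom.one_apply]

section Galois

variable [NeZero N] [G.FiniteIndex]

/-- the Galois action on the characters of `G` -/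
def galG {m : ℕ} (hm : 0 < m) : GQ →* MulAut (XDia h1 h0 m) :=
  galXD h1 h0 hm (conjStable_G h1 h0) (diaConj_G h1 h0)

theorem galG_data {m : ℕ} (hm : 0 < m) : GalDataG h1 h0 m (galG h1 h0 hm) :=
  galDataG hm (conjStable_G h1 h0) (diaConj_G h1 h0) (fgCoeff_G h1 h0)
    fun _ hl hN hlm _ hB => KL.klPropG_of_fg (Nat.pos_of_ne_zero (NeZero.ne N)) hm h1
      (fun M hM => by
        have : NeZero M := ⟨hM.ne'⟩
        exact fgCoeff_G (N := M) le_rfl (Gamma1_in_Gamma0 M)) hl hN hlm hB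

theorem galG_compat {m m' : ℕ} (hm : 0 < m) (hm' : 0 < m') (h : m ∣ m') (σ : GQ)
    (χ : XDia h1 h0 m) (χ' : XDia h1 h0 m') (e : χ.1 = χ'.1) :
    (galG h1 h0 hm σ χ).1 = (galG h1 h0 hm' σ χ').1 := by
  have hT := T_mem_G h1
  obtain ⟨F, hF, hF0, P, hP⟩ := exists_alg_form hm (conjStable_G h1 h0) hT ⟨χ.1, XDia_le χ.2⟩
  have hF1 : F ∈ mform χ.1 (12 * (1 : ℕ)) := mform_congr hF rfl (by norm_num)
  have hF2 : F ∈ mform χ'.1 (12 * (1 : ℕ)) := mform_congr hF1 e rfl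
  obtain ⟨F₁, hF₁, hF₁0, hF₁P⟩ := galXD_spec hm (conjStable_G h1 h0) (diaConj_G h1 h0) σ χ
    hF1 hF0 hP
  obtain ⟨F₂, hF₂, hF₂0, hF₂P⟩ := galXD_spec hm' (conjStable_G h1 h0) (diaConj_G h1 h0) σ χ'
    hF2 hF0 hP
  have h3 : F₁ = F₂ := Gal.fun_unique hT
    (XDia_le (XDia_mono h1 h0 h (galG h1 h0 hm σ χ).2))
    (XDia_le (galG h1 h0 hm' σ χ').2) hF₁ hF₂ (hF₁P.trans hF₂P.symm)
  subst h3
  exact Gal.char_unique hF₁ hF₂ hF₁0

/-- the Galois action on the tower -/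
def rhoG (hp : 0 < p) (n : ℕ) : GQ →* Module.End ℤ (Additive (XDia h1 h0 (p ^ n))) :=
  galRepG (galG h1 h0 (pow_pos hp n))

/-- the determinant on the tower -/
def chiGT (hp : 0 < p) (n : ℕ) : GQ →* Module.End ℤ (Additive (XDia h1 h0 (p ^ n))) :=
  haveI : NeZero (p ^ n) := ⟨(pow_pos hp n).ne'⟩
  chiG h1 h0 (p ^ n)

omit [NeZero N] [G.FiniteIndex] in
theorem TxG_comm (i j : Idx N S ⊕ Gamma0 N) (n : ℕ) :
    Commute (TxG h1 h0 S p i n) (TxG h1 h0 S p j n) := by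
  refine LinearMap.ext fun χ => ?_
  apply congrArg Additive.ofMul
  apply Subtype.ext
  rcases i with i | i <;> rcases j with j | j
  · exact heckeCharG_comm i.2.1 i.2.2.1 j.2.1 j.2.2.1 h1 h0 (Additive.toMul χ).1
  · exact heckeCharG_diaChar i.2.1 i.2.2.1 h1 h0 j (Additive.toMul χ).1
  · exact (heckeCharG_diaChar j.2.1 j.2.2.1 h1 h0 i (Additive.toMul χ).1).symm
  · exact diaChar_comm i j (Additive.toMul χ).1

theorem cyc_frob_eq {l : ℕ} (hl : l.Prime) (hlN : ¬ l ∣ N) {B : ValuationSubring Qb}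
    (hB : B.LiesOverPrime l) {σ : GQ} (hσ : B.IsFrobeniusAt σ l) :
    cyc N σ = dU N (sigmaD N l) := by
  apply Units.ext
  rw [cyc_frob (m := N) hB hl hσ hlN, dU_coe, sigmaD_11 (isCoprime_of_prime hl hlN)]
  simp

theorem frob_rel (hp : p.Prime) (n : ℕ) {l : ℕ} (hl : l.Prime) (hlN : ¬ l ∣ N) (hlS : l ∉ S)
    (hlp : l ≠ p) {B : ValuationSubring Qb} (hB : B.LiesOverPrime l) {σ : GQ}
    (hσ : B.IsFrobeniusAt σ l) :
    chiGT h1 h0 hp.pos n σ = (l : ℤ) • TxG h1 h0 S p (Sum.inr (sigmaD N l)) n ∧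
    rhoG h1 h0 hp.pos n σ * rhoG h1 h0 hp.pos n σ =
      TxG h1 h0 S p (Sum.inl ⟨l, hl, hlN, hlS⟩) n * rhoG h1 h0 hp.pos n σ -
        chiGT h1 h0 hp.pos n σ := by
  have : NeZero (p ^ n) := ⟨(pow_pos hp.pos n).ne'⟩
  have hnd : ¬ l ∣ p ^ n := fun h => hlp ((Nat.prime_dvd_prime_iff_eq hl hp).mp
    (hl.dvd_of_dvd_pow h))
  have hχ : chiGT h1 h0 hp.pos n σ = (l : ℤ) • TxG h1 h0 S p (Sum.inr (sigmaD N l)) n := by
    change chiG h1 h0 (p ^ n) σ = _
    rw [chiG_eq h1 h0 (k := l) (by rw [cyc_frob hB hl hσ hnd, Int.cast_natCast])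
      (cyc_frob_eq hl hlN hB hσ), zsmul_eq_mul]
    rfl
  refine ⟨hχ, ?_⟩
  refine LinearMap.ext fun χ => ?_
  have h1' := (galG_data h1 h0 (pow_pos hp.pos n)).es l hl hlN hnd B hB σ hσ (Additive.toMul χ)
  have h2 : TxG h1 h0 S p (Sum.inl ⟨l, hl, hlN, hlS⟩) n (rhoG h1 h0 hp.pos n σ χ) =
      rhoG h1 h0 hp.pos n (σ * σ) χ + l • (TxG h1 h0 S p (Sum.inr (sigmaD N l)) n χ) :=
    congrArg Additive.ofMul h1'
  rw [← map_mul, hχ]
  change _ = TxG h1 h0 S p (Sum.inl ⟨l, hl, hlN, hlS⟩) n (rhoG h1 h0 hp.pos n σ χ) -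
    (l : ℤ) • (TxG h1 h0 S p (Sum.inr (sigmaD N l)) n χ)
  rw [h2, natCast_zsmul, add_sub_cancel_right]

theorem galTowerG (hp : p.Prime) (hpS : p ∈ S) (hNS : ∀ q : ℕ, q.Prime → q ∣ N → q ∈ S) :
    GalTower (TxG h1 h0 S p) (genT h1 h0 S) (rhoG h1 h0 hp.pos) (chiGT h1 h0 hp.pos) S := by
  have hne : ∀ n, NeZero (p ^ n) := fun n => ⟨(pow_pos hp.pos n).ne'⟩
  have hdiv : ∀ n, p ^ n ∣ p ^ (n + 1) := fun n => pow_dvd_pow p (Nat.le_succ n)
  refine
    { mono := fun n => XDia_mono h1 h0 (hdiv n)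
      Tx_compat := fun i n x y hxy => ?_
      ρ_compat := fun σ n x y hxy =>
        galG_compat h1 h0 (pow_pos hp.pos n) (pow_pos hp.pos (n + 1)) (hdiv n) σ x.toMul y.toMul hxy
      χ_compat := fun σ n x y hxy => ?_
      Tcomm := fun i j n => TxG_comm h1 h0 i j n
      ρcomm := fun i n σ => ?_
      ρfin := fun n => ?_
      χfin := fun n => ?_
      χmem := fun n σ => ?_
      frob := fun n l hl hlS B hB σ hσ => ?_ }
  · rcases i with i | δ
    · change heckeCharG _ _ h1 h0 x.toMul.1 = heckeCharG _ _ h1 h0 y.toMul.1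
      rw [hxy]
    · change diaChar h1 h0 δ x.toMul.1 = diaChar h1 h0 δ y.toMul.1
      rw [hxy]
  · have := hne n
    have := hne (n + 1)
    change (chiG h1 h0 (p ^ n) σ x).toMul.1 = (chiG h1 h0 (p ^ (n + 1)) σ y).toMul.1
    rw [chiG_coe, chiG_coe, hxy, ← cyc_castHom (hdiv n)]
    have h1' : ∀ γ, diaChar h1 h0 (dLift (cyc N σ)) y.toMul.1 γ ^ (p ^ n) = 1 := by
      intro γ
      have h3 := DFunLike.congr_fun (XDia_le (diaChar_mem x.toMul.2 (dLift (cyc N σ)))).1 γ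
      rw [MonoidHom.pow_apply, hxy] at h3
      exact h3
    set z := (cyc (p ^ (n + 1)) σ : ZMod (p ^ (n + 1))) with hz
    have h2 : (ZMod.castHom (hdiv n) (ZMod (p ^ n)) z).val = z.val % p ^ n := by
      conv_lhs => rw [← ZMod.natCast_zmod_val z]
      rw [map_natCast, ZMod.val_natCast]
    ext γ
    rw [h2, MonoidHom.pow_apply, MonoidHom.pow_apply, ← pow_eq_pow_mod _ (h1' γ)]
  · rcases i with i | δ
    · exact LinearMap.ext fun χ => congrArg Additive.ofMul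
        ((galG_data h1 h0 (pow_pos hp.pos n)).comm i.1 i.2.1 i.2.2.1 σ (Additive.toMul χ))
    · exact LinearMap.ext fun χ => congrArg Additive.ofMul
        ((galG_data h1 h0 (pow_pos hp.pos n)).dia δ σ (Additive.toMul χ))
  · obtain ⟨L, hL, h2⟩ := (galG_data h1 h0 (pow_pos hp.pos n)).fin
    exact ⟨L, hL, fun σ hσ => galRepG_eq_one (h2 σ hσ)⟩
  · have := hne n
    obtain ⟨L₁, hL₁, h₁⟩ := cyc_finite (p ^ n)
    obtain ⟨L₂, hL₂, h₂⟩ := cyc_finite N
    refine ⟨L₁ ⊔ L₂, inferInstance, fun σ hσ => ?_⟩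
    change chiG h1 h0 (p ^ n) σ = 1
    rw [chiG_eq h1 h0 (k := 1) (δ := 1) (by
      rw [h₁ σ fun x hx => hσ x ((le_sup_left : L₁ ≤ L₁ ⊔ L₂) hx), Units.val_one, Int.cast_one])
      (by rw [h₂ σ fun x hx => hσ x ((le_sup_right : L₂ ≤ L₁ ⊔ L₂) hx), map_one]),
      Int.cast_one, one_mul, ← diaU_dU, map_one, map_one]
  · have := hne n
    refine ⟨algebraMap ℤ _ ((cyc (p ^ n) σ : ZMod (p ^ n)).val : ℤ) *
      genR (TxG h1 h0 S p) (genT h1 h0 S) (Sum.inr (dLift (cyc N σ))),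
      Subalgebra.mul_mem _ (Subalgebra.algebraMap_mem _ _) (genR_mem _), ?_⟩
    change ((((cyc (p ^ n) σ : ZMod (p ^ n)).val : ℕ) : ℤ) : Module.End ℤ _) *
      diaXL h1 h0 (p ^ n) (dLift (cyc N σ)) = chiG h1 h0 (p ^ n) σ
    refine (chiG_eq h1 h0 ?_ ?_).symm
    · rw [Int.cast_natCast, ZMod.natCast_zmod_val]
    · rw [dU_dLift]
  · have hlN : ¬ l ∣ N := fun h => hlS (hNS l hl h)
    have hlp : l ≠ p := fun h => hlS (h ▸ hpS)
    exact ⟨genR (TxG h1 h0 S p) (genT h1 h0 S) (Sum.inl ⟨l, hl, hlN, hlS⟩), genR_mem _,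
      (frob_rel h1 h0 hp n hl hlN hlS hlp hB hσ).2⟩

variable (N) in
/-- the element `-1` -/
def negOne : Gamma0 N := ⟨-1, by
  rw [CongruenceSubgroup.Gamma0_mem, Matrix.SpecialLinearGroup.coe_neg]
  simp⟩

theorem genT_one (δ : Gamma0 N) (hδ : ∀ γ : G, conjG h1 h0 δ γ = γ) :
    genT h1 h0 S (Sum.inr δ) = 1 := by
  apply toEnd_injective h1 h0 S
  rw [map_one, toEnd_genT]
  refine end_ext h1 h0 fun γ => ?_
  have h2 := deltaL_spec h1 h0 δ γ
  rw [diaChar_apply, hδ] at h2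
  exact (Multiplicative.ofAdd.injective h2).symm

/-- **The pseudo-representation over a quotient of the Hecke algebra of `G`.** -/
theorem exists_pseudo_G (hp : p.Prime) (hpS : p ∈ S) (hNS : ∀ q : ℕ, q.Prime → q ∣ N → q ∈ S)
    {O : Type} [CommRing O] [IsLocalRing O] [IsNoetherianRing O]
    [IsAdicComplete (maximalIdeal O) O] (hpO : (p : O) ∈ maximalIdeal O)
    (π : TG h1 h0 S →+* O) :
    ∃ (t : GQ → O) (ε : GQ →* Oˣ), IsPseudo t ε ∧
      (∀ (l : ℕ) (hl : l.Prime) (hlN : ¬ l ∣ N) (hlS : l ∉ S),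
        ∀ B : ValuationSubring Qb, B.LiesOverPrime l → ∀ σ : GQ, B.IsFrobeniusAt σ l →
          t σ = π (genT h1 h0 S (Sum.inl ⟨l, hl, hlN, hlS⟩))) ∧
      (∀ (n : ℕ) (σ : GQ) (δ : Gamma0 N) (k : ℕ), cyc N σ = dU N δ →
        (∀ ζ : Qb, ζ ^ (p ^ n) = 1 → σ ζ = ζ ^ k) →
          (ε σ : O) - k * π (genT h1 h0 S (Sum.inr δ)) ∈ Ideal.span {(p : O) ^ n}) ∧
      (∀ l : ℕ, l.Prime → l ∉ S → ∀ B : ValuationSubring Qb, B.LiesOverPrime l →
        ∀ σ : GQ, B.IsFrobeniusAt σ l →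
          (ε σ : O) = l * π (genT h1 h0 S (Sum.inr (sigmaD N l)))) ∧
      (∀ n : ℕ, ∃ L : IntermediateField ℚ Qb, FiniteDimensional ℚ L ∧
        ∀ σ : GQ, (∀ x ∈ L, σ x = x) → (∀ g, t (σ * g) - t g ∈ Ideal.span {(p : O) ^ n}) ∧
          (ε σ : O) - 1 ∈ Ideal.span {(p : O) ^ n}) ∧
      (∀ q : ℕ, q.Prime → ¬ q ∣ N → q ≠ p → ∀ B : ValuationSubring Qb, B.LiesOverPrime q →
        ∀ σ ∈ B.inertiaSubgroupIn ℚ, (∀ g, t (σ * g) = t g) ∧ ε σ = 1) ∧
      (ε complexConjugation : O) = -1 := by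
  have hne : ∀ n, NeZero (p ^ n) := fun n => ⟨(pow_pos hp.pos n).ne'⟩
  obtain ⟨c, hc⟩ := faithful_G h1 h0 (S := S) hp.ne_zero
  obtain ⟨t, ε, hps, h2, h3, h4, h5⟩ :=
    Tower.exists_pseudo_strong (galTowerG h1 h0 hp hpS hNS) hc hpO π
  have hε : ∀ (n : ℕ) (σ : GQ) (δ : Gamma0 N) (k : ℕ), cyc N σ = dU N δ →
        (∀ ζ : Qb, ζ ^ (p ^ n) = 1 → σ ζ = ζ ^ k) →
          (ε σ : O) - k * π (genT h1 h0 S (Sum.inr δ)) ∈ Ideal.span {(p : O) ^ n} := by
    intro n σ δ k hδ hk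
    have := hne n
    have := hne (n + c)
    set z := (cyc (p ^ (n + c)) σ : ZMod (p ^ (n + c))).val with hz
    have h6 := h3 σ (algebraMap ℤ _ (z : ℤ) *
      genR (TxG h1 h0 S p) (genT h1 h0 S) (Sum.inr δ))
      (Subalgebra.mul_mem _ (Subalgebra.algebraMap_mem _ _) (genR_mem _)) n (by
        change ((z : ℤ) : Module.End ℤ _) * diaXL h1 h0 (p ^ (n + c)) δ =
          chiG h1 h0 (p ^ (n + c)) σ
        refine (chiG_eq h1 h0 ?_ hδ).symm
        rw [Int.cast_natCast, hz, ZMod.natCast_zmod_val])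
    have h7 : ((algebraMap ℤ ((∀ n, Module.End ℤ (Additive (XDia h1 h0 (p ^ n)))) × TG h1 h0 S)
        (z : ℤ)) * genR (TxG h1 h0 S p) (genT h1 h0 S) (Sum.inr δ)).2 =
        (z : TG h1 h0 S) * genT h1 h0 S (Sum.inr δ) := by
      change ((z : ℤ) : TG h1 h0 S) * _ = _
      rw [Int.cast_natCast]
      rfl
    rw [h7, map_mul, map_natCast] at h6
    -- compare `z` and `k`
    obtain ⟨ζ, hζ⟩ := exists_primitiveRoot (p ^ n)
    have h8 : (z : ZMod (p ^ n)) = k := by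
      have e1 := cyc_eq_of hζ (hk ζ hζ.pow_eq_one)
      rw [← e1, ← cyc_castHom (pow_dvd_pow p (Nat.le_add_right n c))]
      conv_rhs => rw [← ZMod.natCast_zmod_val (cyc (p ^ (n + c)) σ : ZMod (p ^ (n + c)))]
      rw [map_natCast]
    have h9 : ((z : O) - k) ∈ Ideal.span {(p : O) ^ n} := by
      have e2 : ((z : ℤ) : ZMod (p ^ n)) = ((k : ℤ) : ZMod (p ^ n)) := by
        rw [Int.cast_natCast, Int.cast_natCast, h8]
      obtain ⟨w, hw⟩ := (ZMod.intCast_eq_intCast_iff_dvd_sub _ _ _).mp e2.symm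
      rw [Ideal.mem_span_singleton]
      refine ⟨(w : O), ?_⟩
      have e3 := congrArg (Int.cast : ℤ → O) hw
      push_cast at e3
      exact e3
    have h10 : (ε σ : O) - k * π (genT h1 h0 S (Sum.inr δ)) =
        ((ε σ : O) - z * π (genT h1 h0 S (Sum.inr δ))) +
          ((z : O) - k) * π (genT h1 h0 S (Sum.inr δ)) := by ring
    rw [h10]
    exact Ideal.add_mem _ h6 (Ideal.mul_mem_right _ _ h9)
  refine ⟨t, ε, hps, fun l hl hlN hlS B hB σ hσ => ?_, hε, fun l hl hlS B hB σ hσ => ?_, h4,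
    fun q hq hqN hqp B hB σ hσ => ?_, ?_⟩
  · have hlp : l ≠ p := fun h => hlS (by rw [h]; exact hpS)
    refine eq_of_forall_sub_mem hpO fun n =>
      h2 σ (genR (TxG h1 h0 S p) (genT h1 h0 S) (Sum.inl ⟨l, hl, hlN, hlS⟩)) (genR_mem _) n ?_
    have hrel := frob_rel h1 h0 hp (n + c) hl hlN hlS hlp hB hσ
    exact (trS_of_quad hrel.2 rfl).symm
  · have hlp : l ≠ p := fun h => hlS (by rw [h]; exact hpS)
    have hlN : ¬ l ∣ N := fun h => hlS (hNS l hl h)
    refine eq_of_forall_sub_mem hpO fun n => hε n σ (sigmaD N l) l (cyc_frob_eq hl hlN hB hσ) ?_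
    intro ζ hζ
    exact frob_root hB hl hσ (fun h => hlp ((Nat.prime_dvd_prime_iff_eq hl hp).mp
      (hl.dvd_of_dvd_pow h))) hζ
  · have hnd : ∀ n, ¬ q ∣ p ^ n := fun n h =>
      hqp ((Nat.prime_dvd_prime_iff_eq hq hp).mp (hq.dvd_of_dvd_pow h))
    refine h5 σ (fun n => ?_) fun n => ?_
    · exact galRepG_eq_one ((galG_data h1 h0 (pow_pos hp.pos n)).inertia q hq hqN (hnd n) B hB σ hσ)
    · have := hne n
      change chiG h1 h0 (p ^ n) σ = 1
      rw [chiG_eq h1 h0 (k := 1) (δ := 1) (by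
        rw [cyc_inertia hB hq hσ (hnd n), Units.val_one, Int.cast_one])
        (by rw [cyc_inertia hB hq hσ hqN, map_one]),
        Int.cast_one, one_mul, ← diaU_dU, map_one, map_one]
  · rw [← sub_eq_zero]
    refine sub_eq_zero.mpr (eq_of_forall_sub_mem hpO fun n => ?_)
    have := hne n
    have hδ : cyc N complexConjugation = dU N (negOne N) := by
      rw [cyc_complexConjugation]
      apply Units.ext
      rw [dU_coe]
      simp [negOne, Matrix.SpecialLinearGroup.coe_neg]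
    have h6 := hε n complexConjugation (negOne N) (p ^ n - 1) hδ fun ζ hζ => by
      rw [complexConjugation_root (pow_pos hp.pos n).ne' hζ]
      refine inv_eq_of_mul_eq_one_left ?_
      rw [← pow_succ, Nat.sub_add_cancel (pow_pos hp.pos n), hζ]
    rw [genT_one h1 h0 (negOne N) (fun γ => by
      apply Subtype.ext
      change (-1 : SL(2, ℤ)) * (γ : SL(2, ℤ)) * (-1 : SL(2, ℤ))⁻¹ = γ
      simp), map_one, mul_one, Nat.cast_sub (pow_pos hp.pos n), Nat.cast_pow, Nat.cast_one] at h6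
    have h7 : (ε complexConjugation : O) - -1 =
        ((ε complexConjugation : O) - ((p : O) ^ n - 1)) + (p : O) ^ n := by ring
    rw [h7]
    exact Ideal.add_mem _ h6 (Ideal.mem_span_singleton_self _)

end Galois

/-! ### Hecke modules -/

section HeckeModule

variable [NeZero N] {R : Type} [Ring R] {M A : Type} [AddCommGroup M] [Module R M]
  [AddCommGroup A]

/-- A module with an action of a ring `R` and an embedding in the parabolic characters of `G`,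
equivariant for the Hecke operators. -/
structure HeckeModule (S : Finset ℕ) (ι : M →+ Additive (G →* Multiplicative A))
    (τ : Idx N S ⊕ Gamma0 N → R) : Prop where
  faithful : ∀ r : R, (∀ x : M, r • x = 0) → r = 0
  injective : Function.Injective ι
  par : ∀ x, Par h1 h0 (ι x).toMul
  hecke : ∀ (i : Idx N S) x,
    (ι (τ (Sum.inl i) • x)).toMul = heckeCharG i.2.1 i.2.2.1 h1 h0 (ι x).toMul
  dia : ∀ (δ : Gamma0 N) x, (ι (τ (Sum.inr δ) • x)).toMul = diaChar h1 h0 δ (ι x).toMul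

/-- the pairs algebra -/
def pairAlg (S : Finset ℕ) (τ : Idx N S ⊕ Gamma0 N → R) :
    Subalgebra ℤ (TG h1 h0 S × R) :=
  Algebra.adjoin ℤ (Set.range fun i => (genT h1 h0 S i, τ i))

variable {h1 h0} {ι : M →+ Additive (G →* Multiplicative A)} {τ : Idx N S ⊕ Gamma0 N → R}

theorem pairAlg_spec (H : HeckeModule h1 h0 S ι τ) {f : TG h1 h0 S × R}
    (hf : f ∈ pairAlg h1 h0 S τ) (x : M) (φ : Multiplicative (L h1 h0) →* Multiplicative A)
    (hx : (ι x).toMul = φ.comp (u h1 h0)) :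
    (ι (f.2 • x)).toMul = (φ.comp (mulEnd h1 h0 (toEnd h1 h0 S f.1))).comp (u h1 h0) := by
  induction hf using Algebra.adjoin_induction generalizing x φ with
  | mem y hy =>
    obtain ⟨i, rfl⟩ := hy
    rcases i with i | δ
    · rw [H.hecke, hx, heckeCharG_comp, hecke_u]
      rfl
    · rw [H.dia, hx, diaChar_comp, dia_u]
      rfl
  | algebraMap r =>
    have e1 : (algebraMap ℤ (TG h1 h0 S × R) r).2 • x = r • x := by
      change (algebraMap ℤ R r) • x = r • x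
      rw [algebraMap_smul]
    rw [e1, map_zsmul, toMul_zsmul, hx]
    ext γ
    have h2 : mulEnd h1 h0 (toEnd h1 h0 S (algebraMap ℤ (TG h1 h0 S × R) r).1) (u h1 h0 γ) =
        (u h1 h0 γ) ^ r := by
      change mulEnd h1 h0 (toEnd h1 h0 S (r : TG h1 h0 S)) (u h1 h0 γ) = _
      rw [map_intCast, mulEnd_apply]
      apply Multiplicative.toAdd.injective
      rw [toAdd_zpow]
      change ((r : Module.End ℤ (L h1 h0))) (Multiplicative.toAdd (u h1 h0 γ)) = _
      rw [Module.End.intCast_apply]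
    rw [MonoidHom.comp_apply, MonoidHom.comp_apply, h2, map_zpow]
    rfl
  | add y z _ _ hy hz =>
    have e1 : (y + z).2 • x = y.2 • x + z.2 • x := add_smul _ _ _
    rw [e1, map_add, toMul_add, hy x φ hx, hz x φ hx]
    ext γ
    rw [MonoidHom.mul_apply]
    simp only [MonoidHom.comp_apply]
    rw [← map_mul]
    congr 1
  | mul y z _ _ hy hz =>
    have e1 : (y * z).2 • x = y.2 • z.2 • x := mul_smul _ _ _
    rw [e1, hy (z.2 • x) (φ.comp (mulEnd h1 h0 (toEnd h1 h0 S z.1))) (hz x φ hx)]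
    ext γ
    simp only [MonoidHom.comp_apply]
    congr 1
    have e2 : (y * z).1 = z.1 * y.1 := mul_comm _ _
    rw [e2, map_mul]
    rfl

theorem pairAlg_injective (H : HeckeModule h1 h0 S ι τ) {f : TG h1 h0 S × R}
    (hf : f ∈ pairAlg h1 h0 S τ) (h : f.1 = 0) : f.2 = 0 := by
  refine H.faithful _ fun x => ?_
  obtain ⟨φ, hφ⟩ := exists_lift (H.par x)
  have h2 := pairAlg_spec H hf x φ hφ
  rw [h, map_zero] at h2
  apply H.injective
  rw [map_zero]
  apply Additive.toMul.injective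
  rw [h2]
  ext γ
  change φ (Multiplicative.ofAdd 0) = _
  rw [ofAdd_zero, map_one]
  rfl

theorem pairAlg_surjective (t : TG h1 h0 S) : ∃ f ∈ pairAlg h1 h0 S τ, f.1 = t := by
  induction t using TG_induction with
  | hg i => exact ⟨_, Algebra.subset_adjoin ⟨i, rfl⟩, rfl⟩
  | hz n => exact ⟨algebraMap ℤ _ n, Subalgebra.algebraMap_mem _ _, rfl⟩
  | ha x y hx hy =>
    obtain ⟨f, hf, rfl⟩ := hx
    obtain ⟨g, hg, rfl⟩ := hy
    exact ⟨f + g, Subalgebra.add_mem _ hf hg, rfl⟩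
  | hm x y hx hy =>
    obtain ⟨f, hf, rfl⟩ := hx
    obtain ⟨g, hg, rfl⟩ := hy
    exact ⟨f * g, Subalgebra.mul_mem _ hf hg, rfl⟩

/-- **The Hecke algebra acts on every Hecke module.** -/
theorem HeckeModule.exists_hom (H : HeckeModule h1 h0 S ι τ) :
    ∃ π : TG h1 h0 S →+* R, ∀ i, π (genT h1 h0 S i) = τ i := by
  let α : pairAlg h1 h0 S τ →+* TG h1 h0 S :=
    (RingHom.fst _ _).comp (pairAlg h1 h0 S τ).val.toRingHom
  let β : pairAlg h1 h0 S τ →+* R := (RingHom.snd _ _).comp (pairAlg h1 h0 S τ).val.toRingHom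
  have hα : Function.Bijective α := by
    refine ⟨?_, fun t => ?_⟩
    · rw [injective_iff_map_eq_zero]
      intro f hf
      exact Subtype.ext (Prod.ext hf (pairAlg_injective H f.2 hf))
    · obtain ⟨f, hf, h2⟩ := pairAlg_surjective (τ := τ) t
      exact ⟨⟨f, hf⟩, h2⟩
  let e := RingEquiv.ofBijective α hα
  refine ⟨β.comp e.symm.toRingHom, fun i => ?_⟩
  have h2 : e ⟨(genT h1 h0 S i, τ i), Algebra.subset_adjoin ⟨i, rfl⟩⟩ = genT h1 h0 S i := rfl
  change β (e.symm (genT h1 h0 S i)) = τ i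
  rw [← h2, RingEquiv.symm_apply_apply]
  rfl

end HeckeModule

end Fermat.Agent.ESCore.UnivG
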