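import Mathlib
import Fermat.Agent.ESCore.UnivG
import Fermat.Agent.ESCore.HeckeMulG
import Fermat.Agent.ESCore.Support
import Fermat.Agent.ES.MaxPrinciple

set_option autoImplicit false

/-!
# Periods of cusp forms of weight two on a group between `Γ₁(N)` and `Γ₀(N)`

The Hecke algebra acting on the homology acts on cusp forms, and every homomorphism of it to a
field occurs in the parabolic cohomology.
-/

open UpperHalfPlane hiding I
open Filter Topology Function Complex Matrix.SpecialLinearGroup CongruenceSubgroup ModularForm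
open Fermat.Agent.ES Fermat.Agent.Eis16
open scoped Manifold MatrixGroups ModularForm

noncomputable section

namespace Fermat.Agent.ESCore.UnivG

open ModP Tower Univ Gal

variable {N : ℕ} {G : Subgroup SL(2, ℤ)}

/-- cusp forms of weight two as functions -/
def S2 (G : Subgroup SL(2, ℤ)) : Submodule ℂ (ℍ → ℂ) where
  carrier := {f | f ∈ mform (1 : G →* ℂˣ) 2 ∧ ∀ A : SL(2, ℤ), IsZeroAtImInfty (f ∣[(2 : ℤ)] A)}
  add_mem' := by
    rintro f g ⟨h1, h2⟩ ⟨h3, h4⟩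
    refine ⟨Submodule.add_mem _ h1 h3, fun A => ?_⟩
    rw [SlashAction.add_slash]
    exact (h2 A).add (h4 A)
  zero_mem' := by
    refine ⟨Submodule.zero_mem _, fun A => ?_⟩
    rw [SlashAction.zero_slash]
    exact zero_zeroAtFilter _
  smul_mem' := by
    rintro c f ⟨h1, h2⟩
    refine ⟨Submodule.smul_mem _ _ h1, fun A => ?_⟩
    rw [ModularForm.SL_smul_slash]
    exact (h2 A).smul c

theorem S2_inv {f : ℍ → ℂ} (hf : f ∈ S2 G) (γ : G) : f ∣[(2 : ℤ)] (γ : SL(2, ℤ)) = f := by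
  have := hf.1.2.1 γ
  rwa [MonoidHom.one_apply, Units.val_one, one_smul] at this

theorem T_zpow_mem (h1 : Gamma1 N ≤ G) (A : SL(2, ℤ)) :
    A * ModularGroup.T ^ (N : ℤ) * A⁻¹ ∈ G := by
  refine h1 ?_
  have h2 : ModularGroup.T ^ (N : ℤ) ∈ CongruenceSubgroup.Gamma N := by
    rw [Gamma_mem, ModularGroup.coe_T_zpow]
    simp
  have h3 : A * ModularGroup.T ^ (N : ℤ) * A⁻¹ ∈ CongruenceSubgroup.Gamma N :=
    (Gamma_normal N).conj_mem _ h2 A
  rw [Gamma_mem] at h3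
  rw [Gamma1_mem]
  exact ⟨h3.1, h3.2.2.2, h3.2.2.1⟩

theorem S2_decays (hN : 0 < N) (h1 : Gamma1 N ≤ G) {f : ℍ → ℂ} (hf : f ∈ S2 G) (A : SL(2, ℤ)) :
    Decays N (f ∣[(2 : ℤ)] A) := by
  refine ⟨periodic_comp_ofComplex fun τ => ?_, hf.1.1.slash 2 _, hf.2 A⟩
  have h2 := S2_inv hf ⟨_, T_zpow_mem h1 A⟩
  have h3 : (f ∣[(2 : ℤ)] A) ∣[(2 : ℤ)] (ModularGroup.T ^ (N : ℤ)) = f ∣[(2 : ℤ)] A := by
    conv_rhs => rw [← h2]
    rw [← SlashAction.slash_mul, ← SlashAction.slash_mul]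
    simp
  have h4 := congrFun h3 τ
  rw [SL_slash_apply] at h4
  have h5 : denom (ModularGroup.T ^ (N : ℤ) : SL(2, ℤ)) τ = 1 := by
    rw [ModularGroup.denom_apply, ModularGroup.coe_T_zpow]
    simp
  rw [h5, _root_.one_zpow, mul_one] at h4
  rw [← h4]
  refine congrArg (f ∣[(2 : ℤ)] A) (UpperHalfPlane.ext ?_)
  rw [ModularGroup.coe_T_zpow_smul_eq]
  simp [add_comm]

theorem S2_primitive (hN : 0 < N) (h1 : Gamma1 N ≤ G) {f : ℍ → ℂ} (hf : f ∈ S2 G) :
    ∃ F : ℍ → ℂ, IsPrimitive F f ∧ CuspConst N F := by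
  have hN' : (0 : ℝ) < N := by exact_mod_cast hN
  obtain ⟨F, hF, hF'⟩ := (S2_decays hN h1 hf 1).exists_primitive hN'
  rw [SlashAction.slash_one] at hF'
  refine ⟨F, hF', fun δ => ?_⟩
  obtain ⟨H, hH, hH'⟩ := (S2_decays hN h1 hf δ).exists_primitive hN'
  obtain ⟨c, hc⟩ := (hF'.comp_SL δ).exists_const hH'
  refine ⟨c, ?_⟩
  have e2 : (fun z => F (δ • z) - c) = H := by
    ext z
    rw [← hc z]
    ring
  rw [e2]
  exact hH

theorem prim_inv {f : ℍ → ℂ} (hf : f ∈ S2 G) {F : ℍ → ℂ} (hF : IsPrimitive F f) (γ : G) (z w : ℍ) :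
    F ((γ : SL(2, ℤ)) • z) - F z = F ((γ : SL(2, ℤ)) • w) - F w := by
  have h1 := hF.comp_SL (γ : SL(2, ℤ))
  have h2 : f ∣[(2 : ℤ)] (mapGL ℝ (γ : SL(2, ℤ)) : GL (Fin 2) ℝ) = f := S2_inv hf γ
  rw [h2] at h1
  obtain ⟨c, hc⟩ := h1.exists_const hF
  rw [hc z, hc w]

/-- the period homomorphism of a primitive -/
def perF {f : ℍ → ℂ} (hf : f ∈ S2 G) {F : ℍ → ℂ} (hF : IsPrimitive F f) :
    G →* Multiplicative ℂ where
  toFun γ := Multiplicative.ofAdd (F ((γ : SL(2, ℤ)) • UpperHalfPlane.I) - F UpperHalfPlane.I)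
  map_one' := by simp
  map_mul' γ δ := by
    rw [← ofAdd_add]
    congr 1
    rw [prim_inv hf hF γ UpperHalfPlane.I ((δ : SL(2, ℤ)) • UpperHalfPlane.I), Subgroup.coe_mul,
      mul_smul]
    ring

theorem perF_apply {f : ℍ → ℂ} (hf : f ∈ S2 G) {F : ℍ → ℂ} (hF : IsPrimitive F f) (γ : G) (z : ℍ) :
    perF hf hF γ = Multiplicative.ofAdd (F ((γ : SL(2, ℤ)) • z) - F z) :=
  congrArg Multiplicative.ofAdd (prim_inv hf hF γ _ _)

theorem perF_unique {f : ℍ → ℂ} (hf : f ∈ S2 G) {F F' : ℍ → ℂ} (hF : IsPrimitive F f)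
    (hF' : IsPrimitive F' f) : perF hf hF = perF hf hF' := by
  ext γ
  obtain ⟨c, hc⟩ := hF.exists_const hF'
  change F _ - F _ = F' _ - F' _
  linear_combination hc ((γ : SL(2, ℤ)) • UpperHalfPlane.I) - hc UpperHalfPlane.I

variable (h1 : Gamma1 N ≤ G) (h0 : G ≤ Gamma0 N)

/-- the period homomorphism -/
def per (hN : 0 < N) (f : S2 G) : G →* Multiplicative ℂ :=
  perF f.2 (S2_primitive hN h1 f.2).choose_spec.1

theorem per_apply (hN : 0 < N) (f : S2 G) {F : ℍ → ℂ} (hF : IsPrimitive F f.1) (γ : G) (z : ℍ) :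
    per h1 hN f γ = Multiplicative.ofAdd (F ((γ : SL(2, ℤ)) • z) - F z) := by
  rw [per, perF_unique f.2 _ hF, perF_apply f.2 hF γ z]

/-- the period map -/
def perHomG (hN : 0 < N) : S2 G →+ Additive (G →* Multiplicative ℂ) where
  toFun f := Additive.ofMul (per h1 hN f)
  map_zero' := by
    apply Additive.toMul.injective
    ext γ
    change per h1 hN 0 γ = 1
    rw [per_apply h1 hN 0 IsPrimitive.zero γ UpperHalfPlane.I]
    simp
  map_add' f g := by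
    apply Additive.toMul.injective
    ext γ
    obtain ⟨F, hF, -⟩ := S2_primitive hN h1 f.2
    obtain ⟨H, hH, -⟩ := S2_primitive hN h1 g.2
    change per h1 hN (f + g) γ = per h1 hN f γ * per h1 hN g γ
    rw [per_apply h1 hN (f + g) (hF.add hH) γ UpperHalfPlane.I,
      per_apply h1 hN f hF γ UpperHalfPlane.I, per_apply h1 hN g hH γ UpperHalfPlane.I,
      ← ofAdd_add]
    congr 1
    simp only [Pi.add_apply]
    ring

theorem perHomG_toMul (hN : 0 < N) (f : S2 G) : (perHomG h1 hN f).toMul = per h1 hN f := rfl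

/-- **Injectivity of the period map.** -/
theorem perHomG_injective (hN : 0 < N) : Function.Injective (perHomG h1 hN) := by
  rw [injective_iff_map_eq_zero]
  intro f hf
  have : NeZero N := ⟨hN.ne'⟩
  have : G.FiniteIndex := Subgroup.finiteIndex_of_le h1
  obtain ⟨F, hF, hFc⟩ := S2_primitive hN h1 f.2
  have h2 : ∀ γ ∈ G, ∀ z : ℍ, (F (γ • z)).re = (F z).re := by
    intro γ hγ z
    have h3 : per h1 hN f ⟨γ, hγ⟩ = 1 := by
      have := congrArg Additive.toMul hf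
      rw [perHomG_toMul] at this
      rw [this]
      rfl
    rw [per_apply h1 hN f hF ⟨γ, hγ⟩ z] at h3
    have h4 : F (γ • z) - F z = 0 := h3
    rw [sub_eq_zero.mp h4]
  obtain ⟨c, hc⟩ := const_of_re_invariant (M := N) (by exact_mod_cast hN) hFc h2
  exact Subtype.ext (hF.eq_zero_of_const hc)

/-! ### Hecke operators on cusp forms -/

theorem tendsto_smul_of_par {γ : SL(2, ℤ)} (hγ : γ 1 0 = 0) :
    Tendsto (fun z : ℍ => γ • z) atImInfty atImInfty := by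
  have hdet := γ.det_coe
  rw [Matrix.det_fin_two, hγ, mul_zero, sub_zero] at hdet
  have h11 : γ 1 1 = 1 ∨ γ 1 1 = -1 := by
    rcases Int.eq_one_or_neg_one_of_mul_eq_one' hdet with ⟨_, hb⟩ | ⟨_, hb⟩
    · exact Or.inl hb
    · exact Or.inr hb
  have him : UpperHalfPlane.im ∘ (fun z : ℍ => γ • z) = UpperHalfPlane.im := by
    ext z
    rw [Function.comp_apply, ModularGroup.im_smul_eq_div_normSq, ModularGroup.denom_apply, hγ]
    rcases h11 with h | h <;> rw [h] <;> simp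
  rw [atImInfty, tendsto_comap_iff, him]
  exact tendsto_comap

/-- the elements fixing `∞` have trivial periods -/
theorem per_par (hN : 0 < N) (f : S2 G) : Par h1 h0 (per h1 hN f) := by
  intro δ γ hγ
  obtain ⟨F, hF, hFc⟩ := S2_primitive hN h1 f.2
  obtain ⟨c, hc⟩ := hFc (δ : SL(2, ℤ))
  rw [diaChar_apply]
  -- the value does not depend on the point
  have h2 : ∀ z : ℍ, per h1 hN f (conjG h1 h0 δ γ) =
      Multiplicative.ofAdd (F ((δ : SL(2, ℤ)) • ((γ : SL(2, ℤ)) • z)) - F ((δ : SL(2, ℤ)) • z)) := by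
    intro z
    rw [per_apply h1 hN f hF _ ((δ : SL(2, ℤ)) • z)]
    congr 3
    rw [← mul_smul, ← mul_smul]
    change ((δ : SL(2, ℤ)) * (γ : SL(2, ℤ)) * (δ : SL(2, ℤ))⁻¹ * (δ : SL(2, ℤ))) • z = _
    rw [inv_mul_cancel_right]
  have h3 : Tendsto (fun z : ℍ => F ((δ : SL(2, ℤ)) • ((γ : SL(2, ℤ)) • z)) -
      F ((δ : SL(2, ℤ)) • z)) atImInfty (𝓝 0) := by
    have e1 : Tendsto (fun z => F ((δ : SL(2, ℤ)) • z) - c) atImInfty (𝓝 0) := hc.zero
    have e2 : Tendsto (fun z : ℍ => (γ : SL(2, ℤ)) • z) atImInfty atImInfty :=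
      tendsto_smul_of_par hγ
    have e3 := (e1.comp e2).sub e1
    simp only [sub_zero] at e3
    refine e3.congr fun z => ?_
    simp only [Function.comp_apply]
    ring
  have h4 : ∀ z : ℍ, F ((δ : SL(2, ℤ)) • ((γ : SL(2, ℤ)) • z)) - F ((δ : SL(2, ℤ)) • z) =
      Multiplicative.toAdd (per h1 hN f (conjG h1 h0 δ γ)) := fun z => by
    rw [h2 z]
    rfl
  simp only [h4] at h3
  have h5 := tendsto_nhds_unique tendsto_const_nhds h3
  exact Multiplicative.toAdd.injective h5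

theorem mdiff_sum {ι : Type*} (s : Finset ι) {f : ι → ℍ → ℂ} (h : ∀ i ∈ s, MDiff (f i)) :
    MDiff (∑ i ∈ s, f i) := by
  classical
  induction s using Finset.induction_on with
  | empty => exact mdifferentiable_const
  | insert a s ha ih =>
    rw [Finset.sum_insert ha]
    exact (h a (Finset.mem_insert_self _ _)).add
      (ih fun i hi => h i (Finset.mem_insert_of_mem hi))

/-- the sum of the slashes over a system of representatives -/
theorem sum_slash_mem {ι : Type*} [Fintype ι] {S : CosetSys (gamG G) ι}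
    (hcusp : ∀ x (A : SL(2, ℤ)), ∃ (A' : SL(2, ℤ)) (B : GL (Fin 2) ℝ),
      S.δ x * mapGL ℝ A = mapGL ℝ A' * B ∧ (B : Matrix (Fin 2) (Fin 2) ℝ) 1 0 = 0)
    {f : ℍ → ℂ} (hf : f ∈ S2 G) : (∑ x, f ∣[(2 : ℤ)] S.δ x) ∈ S2 G := by
  have hsl : ∀ A : SL(2, ℤ), (∑ x, f ∣[(2 : ℤ)] S.δ x) ∣[(2 : ℤ)] A =
      ∑ x, f ∣[(2 : ℤ)] (S.δ x * mapGL ℝ A) := by
    intro A
    change (∑ x, f ∣[(2 : ℤ)] S.δ x) ∣[(2 : ℤ)] (mapGL ℝ A : GL (Fin 2) ℝ) = _
    rw [SlashAction.sum_slash]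
    exact Finset.sum_congr rfl fun x _ => (SlashAction.slash_mul 2 _ _ f).symm
  have hzero : ∀ A : SL(2, ℤ), IsZeroAtImInfty ((∑ x, f ∣[(2 : ℤ)] S.δ x) ∣[(2 : ℤ)] A) := by
    intro A
    rw [hsl]
    refine Finset.sum_induction _ IsZeroAtImInfty (fun _ _ h h' => h.add h')
      (zero_zeroAtFilter _) fun x _ => ?_
    obtain ⟨A', B, h5, h6⟩ := hcusp x A
    rw [h5, SlashAction.slash_mul]
    exact IsZeroAtImInfty.slash 2 h6 (hf.2 A')
  refine ⟨⟨?_, fun γ => ?_, fun A => (hzero A).isBoundedAtImInfty⟩, hzero⟩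
  · exact mdiff_sum _ fun x _ => hf.1.1.slash 2 (S.δ x)
  · rw [hsl, MonoidHom.one_apply, Units.val_one, one_smul]
    have h4 : ∀ x, f ∣[(2 : ℤ)] (S.δ x * mapGL ℝ (γ : SL(2, ℤ))) =
        f ∣[(2 : ℤ)] S.δ (S.tgt γ x) := by
      intro x
      have h5 := S.spec γ x
      rw [gamG_apply, gamG_apply] at h5
      rw [h5, SlashAction.slash_mul]
      have h6 : f ∣[(2 : ℤ)] (mapGL ℝ (S.coc γ x : SL(2, ℤ)) : GL (Fin 2) ℝ) = f :=
        S2_inv hf (S.coc γ x)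
      rw [h6]
    simp only [h4]
    exact (S.tgt_bijective γ).sum_comp fun x => f ∣[(2 : ℤ)] S.δ x

/-- periods of the sum of the slashes -/
theorem per_sum (hN : 0 < N) {ι : Type*} [Fintype ι] {S : CosetSys (gamG G) ι}
    (hdet : ∀ x, 0 < ((S.δ x).det : ℝ)) (f g : S2 G) (hg : g.1 = ∑ x, f.1 ∣[(2 : ℤ)] S.δ x) :
    per h1 hN g = S.trans (gamG_injective G) (per h1 hN f) := by
  obtain ⟨F, hF, -⟩ := S2_primitive hN h1 f.2
  have hF' : IsPrimitive (∑ x, fun τ => F (S.δ x • τ)) g.1 := by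
    rw [hg]
    exact IsPrimitive_sum _ fun x _ => IsPrimitive_comp_slash hF (hdet x)
  ext γ
  rw [per_apply h1 hN g hF' γ UpperHalfPlane.I, CosetSys.trans_apply']
  apply Multiplicative.toAdd.injective
  rw [toAdd_prod, toAdd_ofAdd]
  simp only [Finset.sum_apply]
  have h1' : ∀ x, F (S.δ x • (γ : SL(2, ℤ)) • UpperHalfPlane.I) =
      Multiplicative.toAdd (per h1 hN f (S.coc γ x)) + F (S.δ (S.tgt γ x) • UpperHalfPlane.I) := by
    intro x
    rw [per_apply h1 hN f hF (S.coc γ x) (S.δ (S.tgt γ x) • UpperHalfPlane.I), toAdd_ofAdd]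
    have h2 : S.δ x • (γ : SL(2, ℤ)) • UpperHalfPlane.I =
        (S.coc γ x : SL(2, ℤ)) • S.δ (S.tgt γ x) • UpperHalfPlane.I := by
      have h5 := S.spec γ x
      rw [gamG_apply, gamG_apply] at h5
      change S.δ x • (mapGL ℝ (γ : SL(2, ℤ))) • UpperHalfPlane.I =
        (mapGL ℝ (S.coc γ x : SL(2, ℤ))) • S.δ (S.tgt γ x) • UpperHalfPlane.I
      rw [← mul_smul, h5, mul_smul]
    rw [h2]
    ring
  rw [Finset.sum_congr rfl fun x _ => h1' x, Finset.sum_add_distrib,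
    (S.tgt_bijective γ).sum_comp fun x => F (S.δ x • UpperHalfPlane.I)]
  ring

theorem det_gamG_pos (A : SL(2, ℤ)) : 0 < ((mapGL ℝ A : GL (Fin 2) ℝ).det : ℝ) := by simp

theorem heckeSysG_cusp {l : ℕ} (hl : l.Prime) (hN : ¬ l ∣ N) (x : Option (Fin l))
    (A : SL(2, ℤ)) : ∃ (A' : SL(2, ℤ)) (B : GL (Fin 2) ℝ),
      (heckeSysG hl hN h1 h0).δ x * mapGL ℝ A = mapGL ℝ A' * B ∧
        (B : Matrix (Fin 2) (Fin 2) ℝ) 1 0 = 0 := by
  obtain ⟨A', B, h3, h4⟩ := (isMulSys_heckeSys hl hN).cusp x A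
  refine ⟨(sigmaX N l x : SL(2, ℤ)) * A', B, ?_, h4⟩
  change gam N (sigmaX N l x) * (heckeSys hl hN).δ x * _ = _
  rw [mul_assoc, h3, map_mul, gam_apply, mul_assoc]

theorem heckeSysG_det {l : ℕ} (hl : l.Prime) (hN : ¬ l ∣ N) (x : Option (Fin l)) :
    0 < (((heckeSysG hl hN h1 h0).δ x).det : ℝ) := by
  change 0 < ((gam N (sigmaX N l x) * hdelta l x).det : ℝ)
  rw [map_mul, Units.val_mul, gam_apply]
  have h5 : ((mapGL ℝ (sigmaX N l x : SL(2, ℤ)) : GL (Fin 2) ℝ).det : ℝ) = 1 := by simp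
  rw [h5, one_mul]
  cases x with
  | none => exact det_heckeDiagMatrix_pos l
  | some j => exact det_heckeMatrix_pos l j

/-- The Hecke operator `T_l` on cusp forms of weight two. -/
def heckeS2 {l : ℕ} (hl : l.Prime) (hN : ¬ l ∣ N) : Module.End ℂ (S2 G) where
  toFun f := ⟨∑ x, f.1 ∣[(2 : ℤ)] (heckeSysG hl hN h1 h0).δ x,
    sum_slash_mem (heckeSysG_cusp h1 h0 hl hN) f.2⟩
  map_add' f g := by
    apply Subtype.ext
    change ∑ x, (f.1 + g.1) ∣[(2 : ℤ)] (heckeSysG hl hN h1 h0).δ x =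
      (∑ x, f.1 ∣[(2 : ℤ)] (heckeSysG hl hN h1 h0).δ x) +
        ∑ x, g.1 ∣[(2 : ℤ)] (heckeSysG hl hN h1 h0).δ x
    rw [← Finset.sum_add_distrib]
    exact Finset.sum_congr rfl fun x _ => SlashAction.add_slash _ _ _ _
  map_smul' c f := by
    apply Subtype.ext
    change ∑ x, (c • f.1) ∣[(2 : ℤ)] (heckeSysG hl hN h1 h0).δ x =
      c • ∑ x, f.1 ∣[(2 : ℤ)] (heckeSysG hl hN h1 h0).δ x
    rw [Finset.smul_sum]
    refine Finset.sum_congr rfl fun x _ => ?_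
    rw [ModularForm.smul_slash, UpperHalfPlane.σ, if_pos (heckeSysG_det h1 h0 hl hN x)]
    rfl

theorem heckeS2_coe {l : ℕ} (hl : l.Prime) (hN : ¬ l ∣ N) (f : S2 G) :
    (heckeS2 h1 h0 hl hN f).1 = ∑ x, f.1 ∣[(2 : ℤ)] (heckeSysG hl hN h1 h0).δ x := rfl

/-- The diamond operators on cusp forms of weight two. -/
def diaS2 (δ : Gamma0 N) : Module.End ℂ (S2 G) where
  toFun f := ⟨f.1 ∣[(2 : ℤ)] (δ : SL(2, ℤ)), by
    refine ⟨mform_congr (slash_mem_mform h1 h0 f.2.1 δ) (map_one _) rfl, fun A => ?_⟩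
    rw [← SlashAction.slash_mul]
    exact f.2.2 _⟩
  map_add' f g := Subtype.ext (SlashAction.add_slash _ _ _ _)
  map_smul' c f := Subtype.ext (ModularForm.SL_smul_slash _ _ _ _)

theorem diaS2_coe (δ : Gamma0 N) (f : S2 G) :
    (diaS2 h1 h0 δ f).1 = f.1 ∣[(2 : ℤ)] (δ : SL(2, ℤ)) := rfl

theorem per_hecke (hN0 : 0 < N) {l : ℕ} (hl : l.Prime) (hN : ¬ l ∣ N) (f : S2 G) :
    per h1 hN0 (heckeS2 h1 h0 hl hN f) = heckeCharG hl hN h1 h0 (per h1 hN0 f) :=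
  per_sum h1 hN0 (heckeSysG_det h1 h0 hl hN) f _ (heckeS2_coe h1 h0 hl hN f)

theorem per_dia (hN0 : 0 < N) (δ : Gamma0 N) (f : S2 G) :
    per h1 hN0 (diaS2 h1 h0 δ f) = diaChar h1 h0 δ (per h1 hN0 f) := by
  obtain ⟨F, hF, -⟩ := S2_primitive hN0 h1 f.2
  have hF' : IsPrimitive (fun τ => F ((δ : SL(2, ℤ)) • τ)) (diaS2 h1 h0 δ f).1 :=
    hF.comp_SL (δ : SL(2, ℤ))
  ext γ
  rw [per_apply h1 hN0 _ hF' γ UpperHalfPlane.I, diaChar_apply,
    per_apply h1 hN0 f hF _ ((δ : SL(2, ℤ)) • UpperHalfPlane.I)]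
  congr 3
  rw [← mul_smul, ← mul_smul]
  have e : (conjG h1 h0 δ γ : SL(2, ℤ)) * (δ : SL(2, ℤ)) = (δ : SL(2, ℤ)) * (γ : SL(2, ℤ)) := by
    change (δ : SL(2, ℤ)) * (γ : SL(2, ℤ)) * (δ : SL(2, ℤ))⁻¹ * (δ : SL(2, ℤ)) = _
    rw [inv_mul_cancel_right]
  rw [e]

variable [NeZero N] (S : Finset ℕ)

/-- the operators on cusp forms -/
def genS2 (i : Idx N S ⊕ Gamma0 N) : Module.End ℂ (S2 G) :=
  Sum.elim (fun i => heckeS2 h1 h0 i.2.1 i.2.2.1) (fun δ => diaS2 h1 h0 δ) i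

theorem heckeModule_S2 : HeckeModule h1 h0 S
    (perHomG h1 (Nat.pos_of_ne_zero (NeZero.ne N))) (genS2 h1 h0 S) where
  faithful r hr := LinearMap.ext hr
  injective := perHomG_injective h1 (Nat.pos_of_ne_zero (NeZero.ne N))
  par f := per_par h1 h0 (Nat.pos_of_ne_zero (NeZero.ne N)) f
  hecke i f := per_hecke h1 h0 (Nat.pos_of_ne_zero (NeZero.ne N)) i.2.1 i.2.2.1 f
  dia δ f := per_dia h1 h0 (Nat.pos_of_ne_zero (NeZero.ne N)) δ f

/-- **The Hecke algebra of the homology acts on the cusp forms.** -/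
theorem exists_hom_S2 : ∃ π : TG h1 h0 S →+* Module.End ℂ (S2 G),
    ∀ i, π (genT h1 h0 S i) = genS2 h1 h0 S i := (heckeModule_S2 h1 h0 S).exists_hom

/-- **Support theorem for the homology**: every homomorphism of the Hecke algebra to a field
occurs in the parabolic cohomology. -/
theorem exists_eigenchar {k : Type} [Field k] (φ : TG h1 h0 S →+* k) :
    ∃ c : G →* Multiplicative k, c ≠ 1 ∧ Par h1 h0 c ∧
      (∀ (i : Idx N S) (γ : G), Multiplicative.toAdd (heckeCharG i.2.1 i.2.2.1 h1 h0 c γ) =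
        φ (genT h1 h0 S (Sum.inl i)) * Multiplicative.toAdd (c γ)) ∧
      ∀ (δ : Gamma0 N) (γ : G), Multiplicative.toAdd (diaChar h1 h0 δ c γ) =
        φ (genT h1 h0 S (Sum.inr δ)) * Multiplicative.toAdd (c γ) := by
  have := finite_TG h1 h0 S
  have := finite_L h1 h0
  have : Module.Finite (TG h1 h0 S) (L h1 h0) := Module.Finite.of_restrictScalars_finite ℤ _ _
  obtain ⟨Λ, hΛ0, hΛ⟩ := exists_functional (TG_faithful h1 h0 S) φ
  let φ' : Multiplicative (L h1 h0) →* Multiplicative k := AddMonoidHom.toMultiplicative Λ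
  refine ⟨φ'.comp (u h1 h0), ?_, comp_par (u_par h1 h0) φ', fun i γ => ?_, fun δ γ => ?_⟩
  · intro h
    apply hΛ0
    refine AddMonoidHom.ext fun v => ?_
    obtain ⟨γ, hγ⟩ := u_surjective h1 h0 (Multiplicative.ofAdd v)
    have h2 := DFunLike.congr_fun h γ
    rw [MonoidHom.comp_apply, hγ] at h2
    exact h2
  · rw [heckeCharG_comp, hecke_u]
    exact hΛ (genT h1 h0 S (Sum.inl i)) (Multiplicative.toAdd (u h1 h0 γ))
  · rw [diaChar_comp, dia_u]
    exact hΛ (genT h1 h0 S (Sum.inr δ)) (Multiplicative.toAdd (u h1 h0 γ))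

/-- the Hecke algebra acting on cusp forms -/
def TS2 : Subalgebra ℤ (Module.End ℂ (S2 G)) := Algebra.adjoin ℤ (Set.range (genS2 h1 h0 S))

omit [NeZero N] in
theorem genS2_mem (i : Idx N S ⊕ Gamma0 N) : genS2 h1 h0 S i ∈ TS2 h1 h0 S :=
  Algebra.subset_adjoin ⟨i, rfl⟩

/-- **Support theorem for cusp forms of weight two**: every homomorphism of the Hecke algebra
acting on `S₂(G)` to a field occurs in the parabolic cohomology. -/
theorem exists_eigenchar_S2 {k : Type} [Field k] (φ : TS2 h1 h0 S →+* k) :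
    ∃ c : G →* Multiplicative k, c ≠ 1 ∧ Par h1 h0 c ∧
      (∀ (i : Idx N S) (γ : G), Multiplicative.toAdd (heckeCharG i.2.1 i.2.2.1 h1 h0 c γ) =
        φ ⟨genS2 h1 h0 S (Sum.inl i), genS2_mem h1 h0 S _⟩ * Multiplicative.toAdd (c γ)) ∧
      ∀ (δ : Gamma0 N) (γ : G), Multiplicative.toAdd (diaChar h1 h0 δ c γ) =
        φ ⟨genS2 h1 h0 S (Sum.inr δ), genS2_mem h1 h0 S _⟩ * Multiplicative.toAdd (c γ) := by
  obtain ⟨π, hπ⟩ := exists_hom_S2 h1 h0 S
  have hmem : ∀ t, π t ∈ TS2 h1 h0 S := by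
    intro t
    induction t using TG_induction with
    | hg i =>
      rw [hπ]
      exact genS2_mem h1 h0 S i
    | hz n =>
      rw [map_intCast]
      have := (TS2 h1 h0 S).algebraMap_mem n
      rwa [eq_intCast] at this
    | ha x y hx hy =>
      rw [map_add]
      exact add_mem hx hy
    | hm x y hx hy =>
      rw [map_mul]
      exact mul_mem hx hy
  let π' : TG h1 h0 S →+* TS2 h1 h0 S := π.codRestrict (TS2 h1 h0 S) hmem
  obtain ⟨c, hc1, hc2, hc3, hc4⟩ := exists_eigenchar h1 h0 S (φ.comp π')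
  have hπ' : ∀ i, π' (genT h1 h0 S i) = ⟨genS2 h1 h0 S i, genS2_mem h1 h0 S _⟩ :=
    fun i => Subtype.ext (hπ i)
  refine ⟨c, hc1, hc2, fun i γ => ?_, fun δ γ => ?_⟩
  · rw [hc3, RingHom.comp_apply, hπ']
  · rw [hc4, RingHom.comp_apply, hπ']

end Fermat.Agent.ESCore.UnivG
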