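import Fermat.Prelude.Def_GaloisRep_Residual
import Fermat.Agent.ECT.Count

set_option autoImplicit false

/-!
# The Galois action on the torsion of an elliptic curve factors through a finite level
-/

open scoped WeierstrassCurve.Affine
open WeierstrassCurve WeierstrassCurve.Affine.Point

noncomputable section

namespace Fermat.Agent.ESCore.TorsionLevel

variable (E : WeierstrassCurve ℚ)

theorem exists_finset_of_point (P : (E⁄(AlgebraicClosure ℚ)).Point) :
    ∃ S : Finset (AlgebraicClosure ℚ), ∀ σ : AlgebraicClosure ℚ ≃ₐ[ℚ] AlgebraicClosure ℚ,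
      (∀ x ∈ S, σ x = x) → σ • P = P := by
  classical
  cases P with
  | zero => exact ⟨∅, fun σ _ => rfl⟩
  | some x y h =>
    refine ⟨{x, y}, fun σ hσ => ?_⟩
    have hx : σ x = x := hσ x (Finset.mem_insert_self _ _)
    have hy : σ y = y := hσ y (Finset.mem_insert_of_mem (Finset.mem_singleton_self _))
    rw [algEquiv_smul_def]
    change WeierstrassCurve.Affine.Point.some (σ x) (σ y) _ = _
    simp only [hx, hy]

theorem finiteLevel (n : ℕ)
    [hfin : Finite (Submodule.torsionBy ℤ (E⁄(AlgebraicClosure ℚ)).Point n)] :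
    GaloisFactorsThroughFiniteLevel
      (galoisRepModuleEnd (K := AlgebraicClosure ℚ) ℚ E n) := by
  classical
  haveI := Fintype.ofFinite (Submodule.torsionBy ℤ (E⁄(AlgebraicClosure ℚ)).Point n)
  choose S hS using exists_finset_of_point E
  let S' : Finset (AlgebraicClosure ℚ) := Finset.univ.biUnion
    fun P : Submodule.torsionBy ℤ (E⁄(AlgebraicClosure ℚ)).Point n => S P.1
  haveI : Algebra.IsAlgebraic ℚ (AlgebraicClosure ℚ) := AlgebraicClosure.isAlgebraic ℚ
  refine ⟨IntermediateField.adjoin ℚ (S' : Set (AlgebraicClosure ℚ)), ?_, fun σ hσ => ?_⟩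
  · haveI : Finite (S' : Set (AlgebraicClosure ℚ)) := Set.Finite.to_subtype (Finset.finite_toSet S')
    exact IntermediateField.finiteDimensional_adjoin fun x _ => Algebra.IsIntegral.isIntegral x
  · refine LinearMap.ext fun P => ?_
    rw [galoisRepModuleEnd_apply]
    refine Subtype.ext ?_
    refine hS P.1 σ fun x hx => hσ x ?_
    exact IntermediateField.subset_adjoin ℚ _
      (Finset.mem_coe.mpr (Finset.mem_biUnion.mpr ⟨P, Finset.mem_univ _, hx⟩))

instance isElliptic_baseChange' [E.IsElliptic] : (E⁄(AlgebraicClosure ℚ)).IsElliptic :=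
  inferInstanceAs ((E.map (algebraMap ℚ (AlgebraicClosure ℚ))).IsElliptic)

theorem finite_torsion [E.IsElliptic] {n : ℕ} (hn : n ≠ 0) :
    Finite (Submodule.torsionBy ℤ (E⁄(AlgebraicClosure ℚ)).Point n) := by
  have h1 := ECT.card_torsion (W := E⁄(AlgebraicClosure ℚ)) n (by exact_mod_cast hn)
  have h2 : Finite {P : (E⁄(AlgebraicClosure ℚ)).Point // n • P = 0} :=
    Nat.finite_of_card_ne_zero (by
      rw [h1]
      exact pow_ne_zero 2 hn)
  refine Finite.of_injective (β := {P : (E⁄(AlgebraicClosure ℚ)).Point // n • P = 0})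
    (fun P => ⟨P.1, ?_⟩) fun P Q h => Subtype.ext (congrArg Subtype.val h)
  have h3 := P.2
  rwa [Submodule.mem_torsionBy_iff, natCast_zsmul] at h3

theorem finiteLevel' [E.IsElliptic] {n : ℕ} (hn : n ≠ 0) :
    GaloisFactorsThroughFiniteLevel
      (galoisRepModuleEnd (K := AlgebraicClosure ℚ) ℚ E n) :=
  haveI := finite_torsion E hn
  finiteLevel E n

end Fermat.Agent.ESCore.TorsionLevel
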