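import Fermat.Agent.ESCore.ModP
import Fermat.Agent.ESCore.TorsionLevel
import Fermat.Prelude.Def_FreyPackage_EigenformResidualAttachment

set_option autoImplicit false

/-!
# Assembly of the statements on mod `p` representations of eigenforms
-/

open Polynomial CongruenceSubgroup ModularFormClass CuspForm Matrix
open scoped MatrixGroups WeierstrassCurve.Affine

noncomputable section

namespace Fermat.Agent.ESCore.ModP

/-- the kernel of a homomorphism from the algebraic integers to a field of characteristic `p` -/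
theorem ker_isMaximal {k : Type} [Field k] {p : ℕ} (hp : p.Prime) [CharP k p]
    (φ : integralClosure ℤ ℂ →+* k) : (RingHom.ker φ).IsMaximal := by
  haveI : (RingHom.ker φ).IsPrime := RingHom.ker_isPrime φ
  refine Ideal.isMaximal_of_isIntegral_of_isMaximal_comap (R := ℤ) _ ?_
  have h1 : (RingHom.ker φ).comap (algebraMap ℤ (integralClosure ℤ ℂ)) = Ideal.span {(p : ℤ)} := by
    ext x
    rw [Ideal.mem_comap, RingHom.mem_ker, Ideal.mem_span_singleton, ← RingHom.comp_apply,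
      eq_intCast (φ.comp (algebraMap ℤ (integralClosure ℤ ℂ))) x, CharP.intCast_eq_zero_iff k p]
  rw [h1]
  exact (Ideal.span_singleton_prime (by exact_mod_cast hp.ne_zero)).mpr
    (Nat.prime_iff_prime_int.mp hp) |>.isMaximal (by
      rw [Ne, Ideal.span_singleton_eq_bot]
      exact_mod_cast hp.ne_zero)

theorem mem_ker {k : Type} [Field k] {p : ℕ} [CharP k p]
    (φ : integralClosure ℤ ℂ →+* k) : (p : integralClosure ℤ ℂ) ∈ RingHom.ker φ := by
  rw [RingHom.mem_ker, map_natCast, CharP.cast_eq_zero]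

/-- **Statement S29**, from the Galois action on `Hom(Γ₀(N), μ_p)`. -/
theorem exists_attached {N : ℕ} {g : CuspForm (Gamma0 N) 2} (hg : g.IsNormalizedEigenform)
    {p : ℕ} (hp : p.Prime) {k : Type} [Field k] [CharP k p]
    (φ : integralClosure ℤ ℂ →+* k)
    (hgal : ∀ [NeZero N], ∃ gal : GQ →* MulAut (XG N p), GalData N p gal) :
    ∃ ρ : ResidualGaloisRep k, ρ.IsAttachedTo g φ ∧
      ∀ ℓ : ℕ, ℓ.Prime → ¬ ℓ ∣ N * p → ρ.IsUnramifiedAt ℓ := by
  rcases eq_or_ne N 0 with rfl | hN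
  · refine ⟨ofMatrixRep (1 : GQ →* Matrix (Fin 2) (Fin 2) k)
      ⟨⊥, inferInstance, fun σ _ => rfl⟩, ?_, ?_⟩
    · intro l _ hl
      exact absurd (dvd_zero l) hl
    · intro l _ hl
      rw [zero_mul] at hl
      exact absurd (dvd_zero l) hl
  · haveI : NeZero N := ⟨hN⟩
    obtain ⟨gal, hgal⟩ := hgal
    obtain ⟨ρ', h1, h2, h3⟩ := exists_rep_quot hg hp (RingHom.ker φ) (ker_isMaximal hp φ)
      (mem_ker φ) hgal
    let ψ : (integralClosure ℤ ℂ ⧸ RingHom.ker φ) →+* k := RingHom.kerLift φ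
    let ρ'' : GQ →* Matrix (Fin 2) (Fin 2) k := (ψ.mapMatrix (m := Fin 2)).toMonoidHom.comp ρ'
    have h4 : GaloisFactorsThroughFiniteLevel ρ'' := by
      obtain ⟨L, hL, h⟩ := h1
      refine ⟨L, hL, fun σ hσ => ?_⟩
      change ψ.mapMatrix (ρ' σ) = 1
      rw [h σ hσ, map_one]
    refine ⟨ofMatrixRep ρ'' h4, ?_, ?_⟩
    · intro l hl hlN hlk B hB σ hσ
      have hlp : l ≠ p := by
        rintro rfl
        exact hlk (CharP.cast_eq_zero k l)
      obtain ⟨a, ha, h5⟩ := h3 l hl hlN hlp B hB σ hσ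
      refine ⟨a, ha, ?_⟩
      rw [charpoly_ofMatrixRep]
      change (ψ.mapMatrix (ρ' σ)).charpoly = _
      rw [RingHom.mapMatrix_apply, Matrix.charpoly_map, h5]
      have h6 : ψ (Ideal.Quotient.mk (RingHom.ker φ) a) = φ a := rfl
      simp only [Polynomial.map_add, Polynomial.map_sub, Polynomial.map_mul, Polynomial.map_pow,
        Polynomial.map_X, Polynomial.map_C, h6, map_natCast, Polynomial.map_natCast]
    · intro l hl hlNp B hB σ hσ
      have hlN : ¬ l ∣ N := fun h => hlNp (h.mul_right p)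
      have hlp : l ≠ p := by
        rintro rfl
        exact hlNp (dvd_mul_left l N)
      rw [ofMatrixRep_rho]
      change Matrix.toLin' (ψ.mapMatrix (ρ' σ)) = 1
      rw [h2 l hl hlN hlp B hB σ hσ, map_one]
      exact Matrix.toLin'_one

theorem frey_isElliptic (P : FreyPackage) : P.freyCurve.IsElliptic := by
  refine ⟨?_⟩
  rw [isUnit_iff_ne_zero]
  have hab : (P.a : ℚ) ^ P.p + (P.b : ℚ) ^ P.p = (P.c : ℚ) ^ P.p := by exact_mod_cast P.hFLT
  have ha : (P.a : ℚ) ≠ 0 := by exact_mod_cast P.ha0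
  have hb : (P.b : ℚ) ≠ 0 := by exact_mod_cast P.hb0
  have hc : (P.c : ℚ) ≠ 0 := by exact_mod_cast P.hc0
  have h : P.freyCurve.Δ =
      ((P.a : ℚ) ^ P.p * (P.b : ℚ) ^ P.p * (P.c : ℚ) ^ P.p) ^ 2 / 2 ^ 8 := by
    rw [← hab]
    simp only [WeierstrassCurve.Δ, WeierstrassCurve.b₂, WeierstrassCurve.b₄,
      WeierstrassCurve.b₆, WeierstrassCurve.b₈, FreyPackage.freyCurve]
    ring
  rw [h]
  positivity

open WeierstrassCurve.Affine.Point in
/-- **Statement S42**, from the Galois action on `Hom(Γ₀(M), μ_p)`. -/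
theorem exists_attachment (P : FreyPackage) {M : ℕ} (hM : 0 < M)
    (hgal : ∃ gal : GQ →* MulAut (XG M P.p), GalData M P.p gal) :
    P.EigenformResidualAttachmentAt M := by
  intro g hg 𝔪 h𝔪 hp𝔪
  haveI : NeZero M := ⟨hM.ne'⟩
  obtain ⟨gal, hgal⟩ := hgal
  obtain ⟨ρ', ⟨L₁, hL₁, h1⟩, h2, h3⟩ := exists_rep_quot hg P.pp 𝔪 h𝔪 hp𝔪 hgal
  haveI := frey_isElliptic P
  obtain ⟨L₂, hL₂, h4⟩ := TorsionLevel.finiteLevel' P.freyCurve P.hp0
  letI fld := quotField 𝔪 h𝔪
  haveI hchar : CharP (integralClosure ℤ ℂ ⧸ 𝔪) P.p := by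
    refine (CharP.charP_iff_prime_eq_zero P.pp).mpr ?_
    rw [← map_natCast (Ideal.Quotient.mk 𝔪)]
    exact Ideal.Quotient.eq_zero_iff_mem.mpr hp𝔪
  haveI : Algebra.IsAlgebraic ℚ (AlgebraicClosure ℚ) := AlgebraicClosure.isAlgebraic ℚ
  haveI : FiniteDimensional ℚ (L₁ ⊔ L₂ : IntermediateField ℚ Qb) := inferInstance
  let F : IntermediateField ℚ Qb := IntermediateField.normalClosure ℚ
    (L₁ ⊔ L₂ : IntermediateField ℚ Qb) Qb
  haveI : Normal ℚ F := normalClosure.normal ℚ _ Qb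
  haveI : IsGalois ℚ F := ⟨⟩
  haveI : FiniteDimensional ℚ F := inferInstance
  haveI : NumberField F := NumberField.mk
  have hLF : L₁ ⊔ L₂ ≤ F := (L₁ ⊔ L₂).le_normalClosure
  refine ⟨integralClosure ℤ ℂ ⧸ 𝔪, fld, ZMod.algebra _ P.p, Fin 2 → integralClosure ℤ ℂ ⧸ 𝔪,
    inferInstance, inferInstance, (Matrix.toLinAlgEquiv' : Matrix (Fin 2) (Fin 2) _ ≃ₐ[
      integralClosure ℤ ℂ ⧸ 𝔪] _).toRingEquiv.toMonoidHom.comp ρ', Ideal.Quotient.mk 𝔪,
    F, inferInstance, inferInstance, inferInstance, inferInstance, inferInstance,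
    ?_, ?_, ?_, ?_, ?_⟩
  · rw [Ideal.mk_ker]
  · simp
  · intro σ hσ
    rw [MonoidHom.mem_ker] at hσ
    have hσF : ∀ x ∈ F, σ x = x := by
      intro x hx
      have h5 := AlgEquiv.restrictNormal_commutes σ F ⟨x, hx⟩
      have h6 : σ.restrictNormal F = 1 := hσ
      rw [h6] at h5
      exact h5.symm
    rw [Subgroup.mem_inf, MonoidHom.mem_ker, MonoidHom.mem_ker]
    refine ⟨h4 σ fun x hx => hσF x (hLF ((le_sup_right : L₂ ≤ L₁ ⊔ L₂) hx)), ?_⟩
    rw [MonoidHom.comp_apply, h1 σ fun x hx => hσF x (hLF ((le_sup_left : L₁ ≤ L₁ ⊔ L₂) hx)),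
      map_one]
  · intro l hl hlM hlp B hB σ hσ
    obtain ⟨a, ha, h5⟩ := h3 l hl hlM hlp B hB σ hσ
    refine ⟨a, ha, ?_⟩
    change LinearMap.trace _ _ (Matrix.toLin' (ρ' σ)) = _
    rw [Matrix.trace_toLin'_eq]
    have h6 := Matrix.trace_eq_neg_charpoly_coeff (ρ' σ)
    rw [h6, h5]
    simp
  · intro l hl hlM hlp B hB σ hσ
    obtain ⟨a, ha, h5⟩ := h3 l hl hlM hlp B hB σ hσ
    change LinearMap.det (Matrix.toLin' (ρ' σ)) = _
    rw [LinearMap.det_toLin']
    have h6 := Matrix.det_eq_sign_charpoly_coeff (ρ' σ)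
    rw [h6, h5]
    simp

end Fermat.Agent.ESCore.ModP
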