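import Fermat.Agent.RT.Idem

set_option autoImplicit false

/-!
# Points of finite algebras over complete discrete valuation rings
-/

open IsLocalRing

namespace Fermat.Agent.ESCore

/-- A domain which is finite over a complete local ring is local. -/
theorem isLocalRing_of_finite_domain {𝒪 : Type*} [CommRing 𝒪] [IsLocalRing 𝒪]
    [IsNoetherianRing 𝒪] [IsAdicComplete (maximalIdeal 𝒪) 𝒪] (S : Type*) [CommRing S] [IsDomain S]
    [Algebra 𝒪 S] [Module.Finite 𝒪 S] : IsLocalRing S := by
  have hint : Algebra.IsIntegral 𝒪 S := Algebra.IsIntegral.of_finite 𝒪 S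
  have key : ∀ 𝔫 𝔫' : Ideal S, 𝔫.IsMaximal → 𝔫'.IsMaximal → 𝔫 ≤ 𝔫' := by
    intro 𝔫 𝔫' h𝔫 h𝔫'
    obtain ⟨e, he, he2, n, hn⟩ := RT.exists_idem_finite (𝒪 := 𝒪) 𝔫
    have h1 : e = 0 ∨ e = 1 := by
      have : e * (e - 1) = 0 := by rw [mul_sub, he, mul_one, sub_self]
      rcases mul_eq_zero.mp this with h | h
      · exact Or.inl h
      · exact Or.inr (sub_eq_zero.mp h)
    rcases h1 with rfl | rfl
    · rw [sub_zero] at he2
      exact absurd ((Ideal.eq_top_iff_one _).mpr he2) h𝔫.ne_top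
    have h2 : (maximalIdeal 𝒪).map (algebraMap 𝒪 S) ≤ 𝔫' := by
      rw [Ideal.map_le_iff_le_comap]
      have := Ideal.isMaximal_comap_of_isIntegral_of_isMaximal (R := 𝒪) 𝔫'
      rw [IsLocalRing.eq_maximalIdeal this]
    intro x hx
    refine h𝔫'.isPrime.mem_of_pow_mem n (h2 ?_)
    have := hn (x ^ n) (Ideal.pow_mem_pow hx n)
    rwa [mul_one] at this
  obtain ⟨𝔪, h𝔪⟩ := Ideal.exists_maximal S
  exact IsLocalRing.of_unique_max_ideal ⟨𝔪, h𝔪, fun 𝔫 h => h.eq_of_le h𝔪.ne_top (key _ _ h h𝔪)⟩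

/-- A local homomorphism from finite (integral) extension. -/
theorem isLocalHom_of_finite {𝒪 : Type*} [CommRing 𝒪] [IsLocalRing 𝒪] (S : Type*) [CommRing S]
    [IsLocalRing S] [Algebra 𝒪 S] [Module.Finite 𝒪 S] : IsLocalHom (algebraMap 𝒪 S) := by
  have hint : Algebra.IsIntegral 𝒪 S := Algebra.IsIntegral.of_finite 𝒪 S
  have := Ideal.isMaximal_comap_of_isIntegral_of_isMaximal (R := 𝒪) (maximalIdeal S)
  refine ((IsLocalRing.local_hom_TFAE (algebraMap 𝒪 S)).out 0 4).mpr ?_
  exact IsLocalRing.eq_maximalIdeal this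

theorem finite_residueField {𝒪 : Type*} [CommRing 𝒪] [IsLocalRing 𝒪] [Finite (ResidueField 𝒪)]
    (S : Type*) [CommRing S] [IsLocalRing S] [Algebra 𝒪 S] [Module.Finite 𝒪 S] :
    Finite (ResidueField S) := by
  have h1 := isLocalHom_of_finite (𝒪 := 𝒪) S
  have h2 : Module.Finite (ResidueField 𝒪) (ResidueField S) := inferInstance
  exact Module.finite_of_finite (ResidueField 𝒪)

theorem finiteDimensional_fractionRing {𝒪 D F E : Type*} [CommRing 𝒪] [IsDomain 𝒪] [CommRing D]
    [IsDomain D] [Algebra 𝒪 D] [Module.Finite 𝒪 D] [Field F] [Algebra 𝒪 F] [IsFractionRing 𝒪 F]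
    [Field E] [Algebra D E] [IsFractionRing D E] [Algebra F E] [Algebra 𝒪 E]
    [IsScalarTower 𝒪 F E] [IsScalarTower 𝒪 D E] : FiniteDimensional F E := by
  obtain ⟨s, hs⟩ := (Module.Finite.fg_top : (⊤ : Submodule 𝒪 D).FG)
  have hint : Algebra.IsIntegral 𝒪 D := Algebra.IsIntegral.of_finite 𝒪 D
  set K := IntermediateField.adjoin F ((algebraMap D E) '' (s : Set D)) with hK
  have h1 : FiniteDimensional F K := by
    have : Finite ((algebraMap D E) '' (s : Set D)) := (s.finite_toSet.image _)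
    refine IntermediateField.finiteDimensional_adjoin ?_
    rintro _ ⟨x, -, rfl⟩
    have h2 : IsIntegral 𝒪 (algebraMap D E x) := (hint.isIntegral x).algebraMap
    exact h2.tower_top
  have h2 : ∀ d : D, algebraMap D E d ∈ K := by
    intro d
    have hd : d ∈ Submodule.span 𝒪 (s : Set D) := by rw [hs]; trivial
    induction hd using Submodule.span_induction with
    | mem x hx => exact IntermediateField.subset_adjoin _ _ ⟨x, hx, rfl⟩
    | zero => rw [map_zero]; exact K.zero_mem
    | add x y _ _ hx hy => rw [map_add]; exact K.add_mem hx hy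
    | smul a x _ hx =>
      rw [Algebra.smul_def, map_mul, ← IsScalarTower.algebraMap_apply,
        IsScalarTower.algebraMap_apply 𝒪 F E]
      exact K.mul_mem (K.algebraMap_mem _) hx
  have h3 : K = ⊤ := by
    rw [eq_top_iff]
    intro x _
    obtain ⟨a, b, hb, rfl⟩ := IsFractionRing.div_surjective (A := D) x
    exact K.div_mem (h2 a) (h2 b)
  rw [h3] at h1
  exact Module.Finite.equiv (IntermediateField.topEquiv (F := F) (E := E)).toLinearEquiv

/-- The integral closure of a complete discrete valuation ring of characteristic zero. -/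
theorem exists_integralClosure {𝒪 : Type} [CommRing 𝒪] [IsDomain 𝒪] [IsDiscreteValuationRing 𝒪]
    [IsAdicComplete (maximalIdeal 𝒪) 𝒪] [Finite (ResidueField 𝒪)] [CharZero 𝒪]
    (D : Type) [CommRing D] [IsDomain D] [Algebra 𝒪 D] [Module.Finite 𝒪 D]
    (hinj : Function.Injective (algebraMap 𝒪 D)) :
    ∃ (B : Type) (_ : CommRing B) (_ : IsDomain B) (_ : IsDiscreteValuationRing B)
      (_ : IsAdicComplete (maximalIdeal B) B) (_ : Finite (ResidueField B)) (_ : CharZero B)
      (_ : Algebra 𝒪 B) (_ : Module.Finite 𝒪 B) (_ : IsLocalHom (algebraMap 𝒪 B))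
      (ψ : D →ₐ[𝒪] B), Function.Injective ψ ∧ Function.Injective (algebraMap 𝒪 B) := by
  let F := FractionRing 𝒪
  let E := FractionRing D
  have hfs : FaithfulSMul 𝒪 D := (faithfulSMul_iff_algebraMap_injective 𝒪 D).mpr hinj
  have hE : Function.Injective (algebraMap 𝒪 E) := by
    rw [IsScalarTower.algebraMap_eq 𝒪 D E]
    exact (IsFractionRing.injective D E).comp hinj
  have hfsE : FaithfulSMul 𝒪 E := (faithfulSMul_iff_algebraMap_injective 𝒪 E).mpr hE
  letI : Algebra F E := FractionRing.liftAlgebra 𝒪 E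
  have : IsScalarTower 𝒪 F E := FractionRing.isScalarTower_liftAlgebra 𝒪 E
  have hint : Algebra.IsIntegral 𝒪 D := Algebra.IsIntegral.of_finite 𝒪 D
  have hfinE : FiniteDimensional F E := finiteDimensional_fractionRing (𝒪 := 𝒪) (D := D)
  have hCF : CharZero F := charZero_of_injective_algebraMap (IsFractionRing.injective 𝒪 F)
  have hsep : Algebra.IsSeparable F E := inferInstance
  let B := integralClosure 𝒪 E
  have hB : Module.Finite 𝒪 B := IsIntegralClosure.finite 𝒪 F E B
  have hBd : IsDedekindDomain B := integralClosure.isDedekindDomain 𝒪 F E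
  have hBl : IsLocalRing B := isLocalRing_of_finite_domain (𝒪 := 𝒪) B
  have hBi : Function.Injective (algebraMap 𝒪 B) := by
    intro a b h
    exact hE (congrArg (algebraMap B E) h)
  have hBnf : ¬ IsField B := by
    intro h
    have h2 := isField_of_isIntegral_of_isField (R := 𝒪) (S := B) hBi h
    exact IsDiscreteValuationRing.not_isField 𝒪 h2
  have hBN : IsNoetherianRing B := inferInstance
  have hBv : IsDiscreteValuationRing B :=
    ((IsDiscreteValuationRing.TFAE B hBnf).out 0 2).mpr hBd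
  have hCD : CharZero B := charZero_of_injective_algebraMap hBi
  refine ⟨B, inferInstance, inferInstance, hBv, RT.isAdicComplete_finite_local (𝒪 := 𝒪) B,
    finite_residueField (𝒪 := 𝒪) B, hCD, inferInstance, hB, isLocalHom_of_finite (𝒪 := 𝒪) B,
    (IsScalarTower.toAlgHom 𝒪 D E).codRestrict (integralClosure 𝒪 E) fun d => ?_, ?_, hBi⟩
  · exact (hint.isIntegral d).algebraMap
  · intro a b h
    exact IsFractionRing.injective D E (congrArg Subtype.val h)

/-- **Points of reduced finite algebras.** -/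
theorem exists_dvr_point {𝒪 : Type} [CommRing 𝒪] [IsDomain 𝒪] [IsDiscreteValuationRing 𝒪]
    [IsAdicComplete (maximalIdeal 𝒪) 𝒪] [Finite (ResidueField 𝒪)] [CharZero 𝒪]
    {T : Type} [CommRing T] [Algebra 𝒪 T] [Module.Finite 𝒪 T] [Module.Free 𝒪 T] [IsReduced T]
    {x : T} (hx : x ≠ 0) :
    ∃ (B : Type) (_ : CommRing B) (_ : IsDomain B) (_ : IsDiscreteValuationRing B)
      (_ : IsAdicComplete (maximalIdeal B) B) (_ : Finite (ResidueField B)) (_ : CharZero B)
      (_ : Algebra 𝒪 B) (_ : Module.Finite 𝒪 B) (_ : IsLocalHom (algebraMap 𝒪 B))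
      (ψ : T →ₐ[𝒪] B), ψ x ≠ 0 ∧ Function.Injective (algebraMap 𝒪 B) := by
  have h1 : ∃ q : Ideal T, q ∈ minimalPrimes T ∧ x ∉ q := by
    by_contra hcon
    push Not at hcon
    have : x ∈ sInf (minimalPrimes T) := (Submodule.mem_sInf).mpr hcon
    have h2 : sInf (minimalPrimes T) = nilradical T := by
      rw [minimalPrimes, Ideal.sInf_minimalPrimes]; rfl
    rw [h2, mem_nilradical] at this
    exact hx this.eq_zero
  obtain ⟨q, hq, hxq⟩ := h1
  have hqp : q.IsPrime := hq.1.1
  have hinj : Function.Injective (algebraMap 𝒪 (T ⧸ q)) := by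
    rw [injective_iff_map_eq_zero]
    intro a ha
    by_contra ha0
    rw [IsScalarTower.algebraMap_apply 𝒪 T (T ⧸ q), Ideal.Quotient.algebraMap_eq,
      Ideal.Quotient.eq_zero_iff_mem] at ha
    have h2 := Ideal.disjoint_nonZeroDivisors_of_mem_minimalPrimes hq
    refine Set.disjoint_left.mp h2 ha ?_
    rw [SetLike.mem_coe, mem_nonZeroDivisors_iff]
    constructor
    · intro y hy
      rw [← Algebra.smul_def] at hy
      exact (smul_eq_zero.mp hy).resolve_left ha0
    · intro y hy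
      rw [mul_comm, ← Algebra.smul_def] at hy
      exact (smul_eq_zero.mp hy).resolve_left ha0
  obtain ⟨B, i1, i2, i3, i4, i5, i6, i7, i8, i9, ψ, hψ, hB⟩ :=
    exists_integralClosure (𝒪 := 𝒪) (T ⧸ q) hinj
  refine ⟨B, i1, i2, i3, i4, i5, i6, i7, i8, i9, ψ.comp (Ideal.Quotient.mkₐ 𝒪 q), ?_, hB⟩
  intro h
  rw [AlgHom.comp_apply, ← map_zero ψ] at h
  have := hψ h
  rw [Ideal.Quotient.mkₐ_eq_mk, Ideal.Quotient.eq_zero_iff_mem] at this
  exact hxq this

end Fermat.Agent.ESCore
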