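import Mathlib

set_option autoImplicit false
set_option linter.unusedSectionVars false

/-!
# Eigen-quotients

Let `V₀` be a finite module over a commutative ring `A` with commuting endomorphisms `T i`, and
`a i` a system of eigenvalues in a field `k₀` such that all relations between the `T i` hold for the
`a i`. Then there is a non-zero finite dimensional `k₀`-vector space `W` on which the centralizer of
the `T i` acts, with `T i` acting as the scalar `a i`.
-/

open scoped TensorProduct

noncomputable section

namespace Fermat.Agent.ESCore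

section General

variable {T L k : Type*} [CommRing T] [AddCommGroup L] [Module T L] [Module.Finite T L] [Field k]
  [Algebra T k]

/-- A finite module whose annihilator is killed by `T → k` has nonzero base change to `k`. -/
theorem nontrivial_tensor (hann : ∀ t : T, (∀ v : L, t • v = 0) → algebraMap T k t = 0) :
    Nontrivial (k ⊗[T] L) := by
  obtain ⟨p, hp⟩ : ∃ p : PrimeSpectrum T, p.asIdeal = RingHom.ker (algebraMap T k) :=
    ⟨⟨RingHom.ker (algebraMap T k), RingHom.ker_isPrime _⟩, rfl⟩
  have hsupp : p ∈ Module.support T L := by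
    rw [Module.support_eq_zeroLocus, PrimeSpectrum.mem_zeroLocus, hp]
    intro t ht
    rw [SetLike.mem_coe, Module.mem_annihilator] at ht
    exact RingHom.mem_ker.mpr (hann t ht)
  rw [Module.mem_support_iff_nontrivial_residueField_tensorProduct] at hsupp
  obtain ⟨v, hv⟩ := exists_ne (0 : p.asIdeal.ResidueField ⊗[T] L)
  obtain ⟨l, hl⟩ : ∃ l : Module.Dual p.asIdeal.ResidueField (p.asIdeal.ResidueField ⊗[T] L),
      l v ≠ 0 := by
    by_contra hcon
    push Not at hcon
    exact hv ((Module.forall_dual_apply_eq_zero_iff p.asIdeal.ResidueField v).mp hcon)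
  let e : p.asIdeal.ResidueField →+* k := Ideal.ResidueField.lift p.asIdeal (algebraMap T k) hp.le (by
    intro x hx
    have : algebraMap T k x ≠ 0 := fun h => hx (by
      change x ∈ p.asIdeal
      rw [hp]
      exact RingHom.mem_ker.mpr h)
    exact this.isUnit)
  have he : ∀ t : T, e (algebraMap T p.asIdeal.ResidueField t) = algebraMap T k t := fun t =>
    Ideal.ResidueField.lift_algebraMap ..
  -- the functional `v ↦ e (l (1 ⊗ v))`
  let Λ : L →ₗ[T] k :=
    { toFun := fun x => e (l (1 ⊗ₜ x))
      map_add' := fun x y => by rw [TensorProduct.tmul_add, map_add, map_add]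
      map_smul' := fun t x => by
        have h1 : (1 : p.asIdeal.ResidueField) ⊗ₜ[T] (t • x) =
            (algebraMap T p.asIdeal.ResidueField t) • ((1 : p.asIdeal.ResidueField) ⊗ₜ[T] x) := by
          rw [TensorProduct.tmul_smul, algebraMap_smul]
        rw [h1, map_smul, smul_eq_mul, map_mul, he, RingHom.id_apply, Algebra.smul_def] }
  have hΛ : Λ ≠ 0 := by
    intro h0
    have h1 : ∀ x : L, l (1 ⊗ₜ x) = 0 := by
      intro x
      have h2 : e (l (1 ⊗ₜ x)) = 0 := LinearMap.congr_fun h0 x
      exact (map_eq_zero e).mp h2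
    have h3 : l = 0 := by
      refine LinearMap.ext fun y => ?_
      induction y using TensorProduct.induction_on with
      | zero => simp
      | tmul a x =>
        have : a ⊗ₜ[T] x = a • ((1 : p.asIdeal.ResidueField) ⊗ₜ[T] x) := by
          rw [TensorProduct.smul_tmul', smul_eq_mul, mul_one]
        rw [this, map_smul, h1]
        simp
      | add a b ha hb => rw [map_add, ha, hb, map_add]
    exact hl (by rw [h3]; rfl)
  by_contra hcon
  rw [not_nontrivial_iff_subsingleton] at hcon
  apply hΛ
  refine LinearMap.ext fun x => ?_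
  have h1 : TensorProduct.lift ((LinearMap.mul T k).compl₂ Λ) ((1 : k) ⊗ₜ[T] x) = 0 := by
    rw [Subsingleton.elim ((1 : k) ⊗ₜ[T] x) 0, map_zero]
  rw [TensorProduct.lift.tmul, LinearMap.compl₂_apply, LinearMap.mul_apply', one_mul] at h1
  exact h1

end General

section EigenQuotient

variable {A V₀ k₀ : Type} [CommRing A] [AddCommGroup V₀] [Module A V₀] [Module.Finite A V₀]
  [Field k₀] [Algebra A k₀] {ι : Type*} (T : ι → Module.End A V₀) (a : ι → k₀)

/-- the joint Hecke algebra acting on `V₀` and `k₀` -/
def jointAlg : Subalgebra A (Module.End A V₀ × k₀) :=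
  Algebra.adjoin A (Set.range fun i => ((T i, a i) : Module.End A V₀ × k₀))

variable {T a}

theorem jointAlg_isMulCommutative (hcomm : ∀ i j, T i * T j = T j * T i) :
    IsMulCommutative (jointAlg T a) := by
  refine Algebra.isMulCommutative_adjoin A ?_
  rintro _ ⟨i, rfl⟩ _ ⟨j, rfl⟩
  exact Prod.ext (hcomm i j) (mul_comm _ _)

open scoped IsMulCommutative in
/-- the commutative ring structure -/
@[reducible] def jointAlgCommRing (hcomm : ∀ i j, T i * T j = T j * T i) :
    CommRing (jointAlg T a) :=
  haveI := jointAlg_isMulCommutative (a := a) hcomm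
  inferInstance

theorem mem_centralizer_comm {f : Module.End A V₀}
    (hf : f ∈ Subalgebra.centralizer A (Set.range T)) {t : Module.End A V₀ × k₀}
    (ht : t ∈ jointAlg T a) (v : V₀) : f (t.1 v) = t.1 (f v) := by
  induction ht using Algebra.adjoin_induction generalizing v with
  | mem x hx =>
    obtain ⟨i, rfl⟩ := hx
    have h1 := (Subalgebra.mem_centralizer_iff A).mp hf (T i) ⟨i, rfl⟩
    exact (LinearMap.congr_fun h1 v).symm
  | algebraMap r =>
    change f (r • v) = r • f v
    rw [map_smul]
  | add x y _ _ hx hy =>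
    change f (x.1 v + y.1 v) = x.1 (f v) + y.1 (f v)
    rw [map_add, hx, hy]
  | mul x y _ _ hx hy =>
    change f (x.1 (y.1 v)) = x.1 (y.1 (f v))
    rw [hx, hy]

theorem T_mem_centralizer (hcomm : ∀ i j, T i * T j = T j * T i) (i : ι) :
    T i ∈ Subalgebra.centralizer A (Set.range T) := by
  rw [Subalgebra.mem_centralizer_iff]
  rintro _ ⟨j, rfl⟩
  exact hcomm j i

/-- **The eigen-quotient.** -/
theorem exists_eigenQuotient (hcomm : ∀ i j, T i * T j = T j * T i)
    (hE : ∀ t ∈ jointAlg T a, t.1 = 0 → t.2 = 0) :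
    ∃ (W : Type) (_ : AddCommGroup W) (_ : Module k₀ W) (_ : Module.Finite k₀ W)
      (_ : Nontrivial W)
      (F : Subalgebra.centralizer A (Set.range T) →+* Module.End k₀ W),
      (∀ i, F ⟨T i, T_mem_centralizer hcomm i⟩ = a i • 1) ∧
      (∀ r : A, F (algebraMap A _ r) = algebraMap A k₀ r • 1) ∧
      ∀ t ∈ jointAlg T a, ∀ h : t.1 ∈ Subalgebra.centralizer A (Set.range T),
        F ⟨t.1, h⟩ = t.2 • 1 := by
  letI cr : CommRing (jointAlg T a) := jointAlgCommRing hcomm
  letI alg : Algebra (jointAlg T a) k₀ :=
    RingHom.toAlgebra ((RingHom.snd (Module.End A V₀) k₀).comp (jointAlg T a).val.toRingHom)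
  letI md : Module (jointAlg T a) V₀ := Module.compHom V₀
    ((RingHom.fst (Module.End A V₀) k₀).comp (jointAlg T a).val.toRingHom)
  have halg : ∀ t : jointAlg T a, algebraMap (jointAlg T a) k₀ t = t.1.2 := fun t => rfl
  have hmd : ∀ (t : jointAlg T a) (v : V₀), t • v = t.1.1 v := fun t v => rfl
  haveI tower : IsScalarTower A (jointAlg T a) V₀ := ⟨fun r t v => by
    rw [hmd, hmd]
    rfl⟩
  haveI fin : Module.Finite (jointAlg T a) V₀ :=
    Module.Finite.of_restrictScalars_finite A (jointAlg T a) V₀
  have hnt : Nontrivial (k₀ ⊗[jointAlg T a] V₀) := by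
    refine nontrivial_tensor fun t ht => ?_
    rw [halg]
    exact hE t.1 t.2 (LinearMap.ext fun v => ht v)
  -- the action of the centralizer
  let F₁ : Subalgebra.centralizer A (Set.range T) →+* Module.End (jointAlg T a) V₀ :=
    { toFun := fun f =>
        { toFun := fun v => f.1 v
          map_add' := fun v w => map_add f.1 v w
          map_smul' := fun t v => mem_centralizer_comm f.2 t.2 v }
      map_one' := rfl
      map_mul' := fun f g => rfl
      map_zero' := rfl
      map_add' := fun f g => rfl }
  let F₂ : Module.End (jointAlg T a) V₀ →+* Module.End k₀ (k₀ ⊗[jointAlg T a] V₀) :=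
    (Module.End.baseChangeHom (jointAlg T a) k₀ V₀).toRingHom
  have hF₂ : ∀ f (x : k₀) (v : V₀), F₂ f (x ⊗ₜ v) = x ⊗ₜ (f v) := fun f x v =>
    LinearMap.baseChange_tmul ..
  have key : ∀ (f : Subalgebra.centralizer A (Set.range T)) (t : jointAlg T a),
      (∀ v, f.1 v = t.1.1 v) → F₂ (F₁ f) = t.1.2 • 1 := by
    intro f t hft
    refine LinearMap.ext fun w => ?_
    induction w using TensorProduct.induction_on with
    | zero => simp
    | tmul x v =>
      rw [hF₂]
      have h1 : (F₁ f) v = t • v := hft v
      rw [h1, ← TensorProduct.smul_tmul, Algebra.smul_def, halg]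
      change _ = t.1.2 • (x ⊗ₜ[jointAlg T a] v)
      rw [TensorProduct.smul_tmul', smul_eq_mul]
    | add w w' h h' => rw [map_add, map_add, h, h']
  refine ⟨k₀ ⊗[jointAlg T a] V₀, inferInstance, inferInstance, inferInstance, hnt,
    F₂.comp F₁, fun i => ?_, fun r => ?_, fun t ht h => ?_⟩
  · exact key _ ⟨(T i, a i), Algebra.subset_adjoin ⟨i, rfl⟩⟩ fun v => rfl
  · exact key _ (algebraMap A (jointAlg T a) r) fun v => rfl
  · exact key _ ⟨t, ht⟩ fun v => rfl

end EigenQuotient

end Fermat.Agent.ESCore
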