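import Fermat.Agent.ESCore.InertiaMult
import Fermat.Agent.ESCore.AssemblyAdic

set_option autoImplicit false

/-!
# Frobenius at a prime exactly dividing the level of a newform
-/

open IsLocalRing CongruenceSubgroup Matrix.SpecialLinearGroup Polynomial
open scoped MatrixGroups

noncomputable section

namespace Fermat.Agent.ESCore

open ModP Tower Univ UnivDef

/-- characters of exponent `m` separate the points of `O/m` -/
theorem mem_span_of_forall_char {O : Type} [CommRing O] {m : ℕ}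
    [Finite (O ⧸ Ideal.span {(m : O)})] {w : O}
    (h : ∀ ψ : Multiplicative O →* ℂˣ, ψ ^ m = 1 → ψ (Multiplicative.ofAdd w) = 1) :
    w ∈ Ideal.span {(m : O)} := by
  by_contra hcon
  have hw : (Ideal.Quotient.mk (Ideal.span {(m : O)}) w) ≠ 0 := by
    rwa [Ne, Ideal.Quotient.eq_zero_iff_mem]
  obtain ⟨φ, hφ⟩ := CommGroup.exists_apply_ne_one_of_hasEnoughRootsOfUnity
    (Multiplicative (O ⧸ Ideal.span {(m : O)})) ℂ
    (a := Multiplicative.ofAdd (Ideal.Quotient.mk (Ideal.span {(m : O)}) w)) (by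
      intro h0
      exact hw (Multiplicative.ofAdd.injective h0))
  apply hφ
  refine h (φ.comp (AddMonoidHom.toMultiplicative
    (Ideal.Quotient.mk (Ideal.span {(m : O)})).toAddMonoidHom)) ?_
  refine MonoidHom.ext fun x => ?_
  rw [MonoidHom.pow_apply, MonoidHom.comp_apply, ← map_pow, MonoidHom.one_apply]
  have h1 : (AddMonoidHom.toMultiplicative
      (Ideal.Quotient.mk (Ideal.span {(m : O)})).toAddMonoidHom) x ^ m = 1 := by
    change m • (Ideal.Quotient.mk (Ideal.span {(m : O)}) (Multiplicative.toAdd x)) = 0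
    rw [nsmul_eq_mul, ← map_natCast (Ideal.Quotient.mk (Ideal.span {(m : O)})), ← map_mul,
      Ideal.Quotient.eq_zero_iff_mem]
    exact Ideal.mul_mem_right _ _ (Ideal.mem_span_singleton_self _)
  rw [h1, map_one]

/-- The local monodromy relation `(φ²-q²)(φ-e)χ = 0`. -/
def LG2Rel {N m : ℕ} [NeZero N] (hm : 0 < m) (φ : GQ) (q : ℕ) (e : ℤ) (χ : XG N m) : Prop :=
  galX N hm (φ * φ * φ) χ * χ ^ (e * (q : ℤ) ^ 2) =
    (galX N hm (φ * φ) χ) ^ e * (galX N hm φ χ) ^ (q ^ 2)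

/-- an identity for commuting operators -/
theorem norm_identity {E : Type*} [Ring E] {P F : E} (hc : Commute P F) {q : ℕ} {e : ℤ}
    (he : e * e = 1) (h : P * P = F * P - (q : E)) :
    (((F * F - (e : E) * F - (q : E) - (q : E) ^ 2) * (F - P) +
        ((e : E) * ((q : E) + (q : E) ^ 2) - F * (q : E)))) *
      (P * P * P - (e : E) * (P * P) - (q : E) ^ 2 * P + (e : E) * (q : E) ^ 2) =
    (q : E) ^ 2 * ((((q : E) + 1) ^ 2 - F * F) * (((q : E) + 1) - (e : E) * F)) := by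
  letI : CommRing (Algebra.adjoin ℤ ({P, F} : Set E)) := Algebra.adjoinCommRingOfComm ℤ (by
    rintro a (rfl | rfl) b (rfl | rfl)
    · rfl
    · exact hc
    · exact hc.symm
    · rfl)
  let P₀ : Algebra.adjoin ℤ ({P, F} : Set E) := ⟨P, Algebra.subset_adjoin (by simp)⟩
  let F₀ : Algebra.adjoin ℤ ({P, F} : Set E) := ⟨F, Algebra.subset_adjoin (by simp)⟩
  have h' : P₀ * P₀ = F₀ * P₀ - (q : Algebra.adjoin ℤ ({P, F} : Set E)) := Subtype.ext (by
    change P * P = F * P - ((q : Algebra.adjoin ℤ ({P, F} : Set E)) : E)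
    rw [h]
    rfl)
  have he' : ((e : Algebra.adjoin ℤ ({P, F} : Set E))) * e = 1 := by
    rw [← Int.cast_mul, he, Int.cast_one]
  have key : ∀ {R : Type _} [CommRing R] (P₀ F₀ q₀ e₀ : R), P₀ * P₀ = F₀ * P₀ - q₀ →
      e₀ * e₀ = 1 → (((F₀ * F₀ - e₀ * F₀ - q₀ - q₀ ^ 2) * (F₀ - P₀) +
        (e₀ * (q₀ + q₀ ^ 2) - F₀ * q₀))) *
      (P₀ * P₀ * P₀ - e₀ * (P₀ * P₀) - q₀ ^ 2 * P₀ + e₀ * q₀ ^ 2) =
      q₀ ^ 2 * (((q₀ + 1) ^ 2 - F₀ * F₀) * ((q₀ + 1) - e₀ * F₀)) := by
    intro R _ P₀ F₀ q₀ e₀ h' he'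
    linear_combination (((F₀ * F₀ - e₀ * F₀ - q₀ - q₀ ^ 2) * (F₀ - P₀) +
        (e₀ * (q₀ + q₀ ^ 2) - F₀ * q₀)) * (P₀ - e₀ + F₀) -
        (F₀ * F₀ - e₀ * F₀ - q₀ - q₀ ^ 2) ^ 2) * h' +
        q₀ ^ 2 * ((q₀ + 1) ^ 2 - F₀ ^ 2) * he'
  exact congrArg Subtype.val (key P₀ F₀ q e h' he')

theorem finite_quotient_of_mem {O : Type} [CommRing O] [IsDomain O] [IsDiscreteValuationRing O]
    [Finite (ResidueField O)] {x : O} (hx : x ≠ 0) : Finite (O ⧸ Ideal.span {x}) := by
  obtain ⟨ϖ, hϖ⟩ := IsDiscreteValuationRing.exists_irreducible O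
  obtain ⟨d, hd⟩ := IsDiscreteValuationRing.associated_pow_irreducible hx hϖ
  have h1 : maximalIdeal O ^ d ≤ Ideal.span {x} := by
    rw [hϖ.maximalIdeal_eq, Ideal.span_singleton_pow, Ideal.span_singleton_le_span_singleton]
    exact hd.dvd
  have : Finite (O ⧸ maximalIdeal O) := inferInstanceAs (Finite (ResidueField O))
  have : Finite (O ⧸ maximalIdeal O ^ d) := Ideal.finite_quotient_pow (IsNoetherian.noetherian _) d
  exact Finite.of_surjective _ (Ideal.Quotient.factor_surjective h1)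

section Frob

variable {N : ℕ} [NeZero N] {S : Finset ℕ} {p : ℕ}

/-- the character of `Γ₀(N)` attached to a functional on the lattice and a character -/
def vChar {O : Type} [CommRing O] (v : LatM N (↑S : Set ℕ) →+ O) (ψ : Multiplicative O →* ℂˣ) :
    Gamma0 N →* ℂˣ :=
  (ψ.comp (AddMonoidHom.toMultiplicative v)).comp (perM N S)

theorem vChar_pow {O : Type} [CommRing O] (v : LatM N (↑S : Set ℕ) →+ O)
    {ψ : Multiplicative O →* ℂˣ} {m : ℕ} (hψ : ψ ^ m = 1) :
    (ψ.comp (AddMonoidHom.toMultiplicative v)) ^ m = 1 := by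
  refine MonoidHom.ext fun x => ?_
  exact DFunLike.congr_fun hψ (AddMonoidHom.toMultiplicative v x)

theorem vChar_mem {O : Type} [CommRing O] (v : LatM N (↑S : Set ℕ) →+ O)
    {ψ : Multiplicative O →* ℂˣ} {m : ℕ} (hψ : ψ ^ m = 1) : vChar v ψ ∈ XG N m :=
  latX_mem _ (vChar_pow v hψ)

/-- the ring of pairs of operators -/
abbrev TR (N : ℕ) [NeZero N] (S : Finset ℕ) (p : ℕ) : Type :=
  (∀ n, Module.End ℤ (Additive (XG N (p ^ n)))) × CuspForm.heckeAlgebra N 2 (↑S : Set ℕ)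

/-- **The trace of Frobenius at a prime exactly dividing the level.** -/
theorem trace_frob_mult (hp : p.Prime) (hpS : p ∈ S)
    (hNS : ∀ q : ℕ, q.Prime → q ∣ N → q ∈ S)
    (hKL : ∀ l : ℕ, l.Prime → ¬ l ∣ N → l ≠ p → ∀ B : ValuationSubring Qb,
      B.LiesOverPrime l → ∀ n, KLProp N (p ^ n) B)
    {N' : ℕ} [NeZero N'] (hNN' : N ∣ N') {q : ℕ} (hq : q.Prime) (hqp : q ≠ p)
    {A : ValuationSubring Qb} (hA : A.LiesOverPrime q) {φ : GQ} (hφ : A.IsFrobeniusAt φ q)
    {O : Type} [CommRing O] [IsDomain O] [IsDiscreteValuationRing O] [Finite (ResidueField O)]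
    [CharZero O] (hpO : (p : O) ∈ maximalIdeal O)
    {π : CuspForm.heckeAlgebra N 2 (↑S : Set ℕ) →+* O} {v : LatM N (↑S : Set ℕ) →+ O}
    (hv : v ≠ 0) (hvT : ∀ (f : CuspForm.heckeAlgebra N 2 (↑S : Set ℕ)) x, v (f • x) = π f * v x)
    {e : ℤ} (he : e * e = 1)
    (hLG : ∀ (n : ℕ) (ψ : Multiplicative O →* ℂˣ) (hψ : ψ ^ (p ^ n) = 1),
      LG2Rel (pow_pos hp.pos n) φ q e (resX hNN' (p ^ n) ⟨vChar v ψ, vChar_mem v hψ⟩))
    {c : ℕ} {t : GQ → O}
    (ht : ∀ σ, ∀ f ∈ algP (TxS N S p) (TtS N S), ∀ n m, n + c ≤ m →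
        f.1 m = trS (rhoT N hp.pos m) (chiT N hp.pos m) σ →
        t σ - π f.2 ∈ Ideal.span {(p : O) ^ n}) :
    t φ = q + 1 ∨ t φ = -(q + 1) := by
  have hne : ∀ n, NeZero (p ^ n) := fun n => ⟨(pow_pos hp.pos n).ne'⟩
  obtain ⟨d, hd0, hd⟩ := exists_pow_res (N' := N') hNN'
  obtain ⟨x₀, hx₀⟩ : ∃ x, v x ≠ 0 := by
    by_contra hcon
    push Not at hcon
    exact hv (AddMonoidHom.ext hcon)
  have hp0 : (p : O) ≠ 0 := Nat.cast_ne_zero.mpr hp.ne_zero
  -- the main congruence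
  have hmain : ∀ n : ℕ, (d : O) * ((q : O) ^ 2 * ((((q : O) + 1) ^ 2 - t φ * t φ) *
      (((q : O) + 1) - (e : O) * t φ))) * v x₀ ∈ Ideal.span {(p : O) ^ n} := by
    intro n
    set m := n + c with hm
    obtain ⟨f, hf, hfm⟩ := trS_mem (galTower (N := N) hp hpS hNS hKL) m φ
    have h1 := ht φ f hf n m le_rfl hfm
    set P : Module.End ℤ (Additive (XG N (p ^ m))) := rhoT N hp.pos m φ with hP
    set F : Module.End ℤ (Additive (XG N (p ^ m))) := f.1 m with hF
    have hc : Commute P F := (algP_commute (fun i => (galTower (N := N) hp hpS hNS hKL).ρcomm i m φ)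
      hf).symm
    have hχ : chiT N hp.pos m φ = (q : Module.End ℤ (Additive (XG N (p ^ m)))) := by
      have := hne m
      change cycE N (p ^ m) φ = _
      rw [cycE_of_eq (k := q) (by
        rw [cyc_frob hA hq hφ (fun h => hqp
          ((Nat.prime_dvd_prime_iff_eq hq hp).mp (hq.dvd_of_dvd_pow h))), Int.cast_natCast]),
        Int.cast_natCast]
    have hquad : P * P = F * P - (q : Module.End ℤ (Additive (XG N (p ^ m)))) := by
      have e1 : F = P + (q : Module.End ℤ (Additive (XG N (p ^ m)))) *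
          rhoT N hp.pos m φ⁻¹ := by rw [hfm, ← hχ]; rfl
      have e2 : rhoT N hp.pos m φ⁻¹ * P = 1 := by
        rw [hP, ← map_mul, inv_mul_cancel, map_one]
      rw [e1, add_mul, mul_assoc, e2, mul_one, add_sub_cancel_right]
    -- the element of the Hecke algebra
    have hint : ∀ k : ℤ, (k : TR N S p) ∈ algP (TxS N S p) (TtS N S) := fun k =>
      Subalgebra.algebraMap_mem _ _
    have hnat : ∀ k : ℕ, (k : TR N S p) ∈ algP (TxS N S p) (TtS N S) := fun k => by
      have := hint k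
      rwa [Int.cast_natCast] at this
    set g : TR N S p := (d : TR N S p) * ((q : TR N S p) ^ 2 * ((((q : TR N S p) + 1) ^ 2 - f * f) *
      (((q : TR N S p) + 1) - (e : TR N S p) * f))) with hg
    have hgm : g ∈ algP (TxS N S p) (TtS N S) :=
      mul_mem (hnat d) (mul_mem (pow_mem (hnat q) 2) (mul_mem
        (sub_mem (pow_mem (add_mem (hnat q) (one_mem _)) 2) (mul_mem hf hf))
        (sub_mem (add_mem (hnat q) (one_mem _)) (mul_mem (hint e) hf))))
    have hg1 : g.1 m = (d : Module.End ℤ (Additive (XG N (p ^ m)))) *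
        ((q : Module.End ℤ (Additive (XG N (p ^ m)))) ^ 2 *
        ((((q : Module.End ℤ (Additive (XG N (p ^ m)))) + 1) ^ 2 - F * F) *
        (((q : Module.End ℤ (Additive (XG N (p ^ m)))) + 1) -
          (e : Module.End ℤ (Additive (XG N (p ^ m)))) * F))) := rfl
    have hg2 : π g.2 = (d : O) * ((q : O) ^ 2 * ((((q : O) + 1) ^ 2 - π f.2 * π f.2) *
        (((q : O) + 1) - (e : O) * π f.2))) := by
      have : g.2 = (d : CuspForm.heckeAlgebra N 2 (↑S : Set ℕ)) *
        ((q : CuspForm.heckeAlgebra N 2 (↑S : Set ℕ)) ^ 2 *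
        ((((q : CuspForm.heckeAlgebra N 2 (↑S : Set ℕ)) + 1) ^ 2 - f.2 * f.2) *
        (((q : CuspForm.heckeAlgebra N 2 (↑S : Set ℕ)) + 1) -
          (e : CuspForm.heckeAlgebra N 2 (↑S : Set ℕ)) * f.2))) := rfl
      rw [this]
      simp only [map_mul, map_sub, map_add, map_pow, map_natCast, map_intCast, map_one]
    -- it kills the characters attached to `v`
    have hkill : ∀ (ψ : Multiplicative O →* ℂˣ) (hψ : ψ ^ (p ^ m) = 1),
        g.1 m (Additive.ofMul ⟨vChar v ψ, vChar_mem v hψ⟩) = 0 := by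
      intro ψ hψ
      set x : Additive (XG N (p ^ m)) := Additive.ofMul ⟨vChar v ψ, vChar_mem v hψ⟩ with hx
      have e1 := hLG m ψ hψ
      rw [LG2Rel, galX_res, galX_res, galX_res, ← map_pow, ← map_zpow, ← map_zpow, ← map_mul,
        ← map_mul] at e1
      have e2 : resX hNN' (p ^ m) ((galX N (pow_pos hp.pos m) (φ * φ * φ) (Additive.toMul x) *
          Additive.toMul x ^ (e * (q : ℤ) ^ 2)) *
          (galX N (pow_pos hp.pos m) (φ * φ) (Additive.toMul x) ^ e *
          galX N (pow_pos hp.pos m) φ (Additive.toMul x) ^ (q ^ 2))⁻¹) = 1 := by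
        rw [map_mul, map_inv]
        exact mul_inv_eq_one.mpr e1
      have e3 := hd _ (congrArg Subtype.val e2)
      have e4 : (d : ℤ) • ((rhoT N hp.pos m (φ * φ * φ) x + (e * (q : ℤ) ^ 2) • x) -
          (e • rhoT N hp.pos m (φ * φ) x + (q ^ 2) • rhoT N hp.pos m φ x)) = 0 := by
        apply Additive.toMul.injective
        apply Subtype.ext
        rw [natCast_zsmul]
        exact e3
      have e5 : ((d : Module.End ℤ (Additive (XG N (p ^ m)))) * (P * P * P -
          (e : Module.End ℤ (Additive (XG N (p ^ m)))) * (P * P) -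
          (q : Module.End ℤ (Additive (XG N (p ^ m)))) ^ 2 * P +
          (e : Module.End ℤ (Additive (XG N (p ^ m)))) *
            (q : Module.End ℤ (Additive (XG N (p ^ m)))) ^ 2)) x = 0 := by
        rw [← e4]
        have e6 : ∀ (k : ℤ) (y : Additive (XG N (p ^ m))),
          (k : Module.End ℤ (Additive (XG N (p ^ m)))) y = k • y := fun k y => rfl
        have e7 : ∀ (k : ℕ) (y : Additive (XG N (p ^ m))),
          (k : Module.End ℤ (Additive (XG N (p ^ m)))) y = (k : ℤ) • y := fun k y => by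
            rw [← e6, Int.cast_natCast]
        have e8 : ((q : Module.End ℤ (Additive (XG N (p ^ m)))) ^ 2) =
          ((q ^ 2 : ℕ) : Module.End ℤ (Additive (XG N (p ^ m)))) := by push_cast; rfl
        rw [e8]
        simp only [Module.End.mul_apply, LinearMap.add_apply, LinearMap.sub_apply, e6, e7, map_mul,
          hP]
        congr 1
        rw [mul_smul, ← natCast_zsmul (rhoT N hp.pos m φ x) (q ^ 2)]
        push_cast
        abel
      have e6 := norm_identity hc he hquad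
      rw [hg1, ← e6]
      have e7 : ∀ a b : Module.End ℤ (Additive (XG N (p ^ m))),
          ((d : Module.End ℤ (Additive (XG N (p ^ m)))) * (a * b)) x =
          a (((d : Module.End ℤ (Additive (XG N (p ^ m)))) * b) x) := by
        intro a b
        have : (d : Module.End ℤ (Additive (XG N (p ^ m)))) * (a * b) =
            a * ((d : Module.End ℤ (Additive (XG N (p ^ m)))) * b) := by
          rw [← mul_assoc, (Nat.cast_commute d a).eq, mul_assoc]
        rw [this]
        rfl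
      rw [e7, e5, map_zero]
    have hspan : π g.2 * v x₀ ∈ Ideal.span {((p ^ m : ℕ) : O)} := by
      have : Finite (O ⧸ Ideal.span {((p ^ m : ℕ) : O)}) :=
        finite_quotient_of_mem (Nat.cast_ne_zero.mpr (pow_ne_zero _ hp.ne_zero))
      refine mem_span_of_forall_char fun ψ hψ => ?_
      obtain ⟨γ, hγ⟩ := perM_surjective (N := N) (S := S) (Multiplicative.ofAdd x₀)
      have h2 := algP_latX (perM N S) TxS_latX hgm (ψ.comp (AddMonoidHom.toMultiplicative v))
        (Additive.ofMul ⟨vChar v ψ, vChar_mem v hψ⟩) (n := m) rfl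
      rw [hkill ψ hψ] at h2
      have h3 := DFunLike.congr_fun h2 γ
      change (1 : ℂˣ) = ψ (AddMonoidHom.toMultiplicative v (smulHom _ g.2 (perM N S γ))) at h3
      rw [hγ, smulHom_ofAdd] at h3
      change (1 : ℂˣ) = ψ (Multiplicative.ofAdd (v (g.2 • x₀))) at h3
      rw [hvT] at h3
      exact h3.symm
    have hspan' : π g.2 * v x₀ ∈ Ideal.span {(p : O) ^ n} := by
      refine Ideal.span_singleton_le_span_singleton.mpr ?_ hspan
      rw [Nat.cast_pow]
      exact pow_dvd_pow _ (by omega)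
    rw [hg2] at hspan'
    rw [← Ideal.Quotient.eq_zero_iff_mem] at hspan' ⊢
    have h4 : Ideal.Quotient.mk (Ideal.span {(p : O) ^ n}) (t φ) =
        Ideal.Quotient.mk (Ideal.span {(p : O) ^ n}) (π f.2) := Ideal.Quotient.eq.mpr h1
    simp only [map_mul, map_sub, map_add, map_pow, map_natCast, map_intCast, map_one, h4]
      at hspan' ⊢
    exact hspan'
  have h0 := eq_zero_of_forall_pow hpO hmain
  have hd' : (d : O) ≠ 0 := Nat.cast_ne_zero.mpr hd0
  have hq0 : (q : O) ≠ 0 := Nat.cast_ne_zero.mpr hq.ne_zero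
  have h1 := (mul_eq_zero.mp h0).resolve_right hx₀
  have h2 := (mul_eq_zero.mp h1).resolve_left hd'
  have h3 := (mul_eq_zero.mp h2).resolve_left (pow_ne_zero 2 hq0)
  rcases mul_eq_zero.mp h3 with h4 | h4
  · have h5 : ((q : O) + 1 - t φ) * ((q : O) + 1 + t φ) = 0 := by linear_combination h4
    rcases mul_eq_zero.mp h5 with h6 | h6
    · left; linear_combination -h6
    · right; linear_combination h6
  · have he' : (e : O) * (e : O) = 1 := by rw [← Int.cast_mul, he, Int.cast_one]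
    have h5 : t φ = (e : O) * ((q : O) + 1) := by
      linear_combination -(e : O) * h4 - t φ * he'
    rcases mul_self_eq_one_iff.mp he' with h6 | h6
    · left; rw [h5, h6, one_mul]
    · right; rw [h5, h6, neg_one_mul]

/-- **S35**, from the local relation at the primes exactly dividing the level. -/
theorem exists_rep_of_LG2 (hp : p.Prime) (hpS : p ∈ S)
    (hNS : ∀ q : ℕ, q.Prime → q ∣ N → q ∈ S)
    (hKL : ∀ l : ℕ, l.Prime → ¬ l ∣ N → l ≠ p → ∀ B : ValuationSubring Qb,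
      B.LiesOverPrime l → ∀ n, KLProp N (p ^ n) B)
    {O : Type} [CommRing O] [IsDomain O] [IsDiscreteValuationRing O]
    [IsAdicComplete (maximalIdeal O) O] [Finite (ResidueField O)]
    [CharZero O] (hpO : (p : O) ∈ maximalIdeal O)
    {π : CuspForm.heckeAlgebra N 2 (↑S : Set ℕ) →+* O} {v : LatM N (↑S : Set ℕ) →+ O}
    (hv : v ≠ 0) (hvT : ∀ (f : CuspForm.heckeAlgebra N 2 (↑S : Set ℕ)) x, v (f • x) = π f * v x)
    (hLG : ∀ q : ℕ, q.Prime → q ≠ p → q ∣ N → ¬ q ^ 2 ∣ N → ∃ (N' : ℕ) (_ : NeZero N')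
      (hNN' : N ∣ N') (e : ℤ), e * e = 1 ∧ ∀ A : ValuationSubring Qb, A.LiesOverPrime q →
      ∀ φ : GQ, A.IsFrobeniusAt φ q → ∀ (n : ℕ) (ψ : Multiplicative O →* ℂˣ)
      (hψ : ψ ^ (p ^ n) = 1),
      LG2Rel (pow_pos hp.pos n) φ q e (resX hNN' (p ^ n) ⟨vChar v ψ, vChar_mem v hψ⟩)) :
    ∃ ρ : GaloisRepAdic O,
        (∀ (ℓ : ℕ) (hℓ : ℓ.Prime) (hℓN : ¬ ℓ ∣ N) (hℓS : ℓ ∉ (↑S : Set ℕ)),
          ∀ A : ValuationSubring (AlgebraicClosure ℚ), A.LiesOverPrime ℓ →
            ∀ σ : AlgebraicClosure ℚ ≃ₐ[ℚ] AlgebraicClosure ℚ, A.IsFrobeniusAt σ ℓ →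
              LinearMap.charpoly (ρ.ρ σ) =
                X ^ 2 - C (π (CuspForm.heckeAlgebra.T hℓ hℓN hℓS)) * X + C ((ℓ : O))) ∧
        (∀ q : ℕ, q.Prime → q ≠ p → q ∣ N → ¬ q ^ 2 ∣ N →
          ∀ A : ValuationSubring (AlgebraicClosure ℚ), A.LiesOverPrime q →
            ∀ σ : AlgebraicClosure ℚ ≃ₐ[ℚ] AlgebraicClosure ℚ, A.IsFrobeniusAt σ q →
              LinearMap.charpoly (ρ.ρ σ) = X ^ 2 - C ((q : O) + 1) * X + C ((q : O)) ∨
              LinearMap.charpoly (ρ.ρ σ) = X ^ 2 + C ((q : O) + 1) * X + C ((q : O))) := by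
  obtain ⟨c, t, ε, hps, h1, h1', h2, h3, -, h4⟩ := exists_pseudo_full hp hpS hNS hKL hpO π
  obtain ⟨ρ, h5, -⟩ := exists_adic_rep hpO hps (fun n => by
    obtain ⟨L, hL, h⟩ := h3 n
    exact ⟨L, hL, fun σ hσ => (h σ hσ).1⟩) h4
  refine ⟨ρ, fun ℓ hℓ hℓN hℓS A hA σ hσ => ?_, fun q hq hqp hqN hqN2 A hA σ hσ => ?_⟩
  · obtain ⟨h7, h8⟩ := h2 ℓ hℓ hℓN hℓS A hA σ hσ
    rw [h5, h7, h8]
  · obtain ⟨N', _, hNN', e, he, hrel⟩ := hLG q hq hqp hqN hqN2
    have ht := trace_frob_mult hp hpS hNS hKL hNN' hq hqp hA hσ hpO hv hvT he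
      (fun n ψ hψ => hrel A hA σ hσ n ψ hψ) h1
    have hε : (ε σ : O) = q := by
      rw [← sub_eq_zero]
      refine eq_zero_of_forall_pow hpO fun n => ?_
      have h6 := h1' σ ((q : ℕ) : TR N S p) (by
        have : ((q : ℕ) : TR N S p) = algebraMap ℤ (TR N S p) (q : ℤ) := by simp
        rw [this]
        exact Subalgebra.algebraMap_mem _ _) n (n + c) le_rfl (by
        have : NeZero (p ^ (n + c)) := ⟨(pow_pos hp.pos _).ne'⟩
        change (q : Module.End ℤ (Additive (XG N (p ^ (n + c))))) = cycE N (p ^ (n + c)) σ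
        rw [cycE_of_eq (k := q) (by
          rw [cyc_frob hA hq hσ (fun h => hqp
            ((Nat.prime_dvd_prime_iff_eq hq hp).mp (hq.dvd_of_dvd_pow h))), Int.cast_natCast]),
          Int.cast_natCast])
      have h7 : π ((q : ℕ) : TR N S p).2 = q := map_natCast π q
      rw [h7] at h6
      exact h6
    rcases ht with ht | ht
    · left
      rw [h5, ht, hε]
    · right
      rw [h5, ht, hε, map_neg, neg_mul, sub_neg_eq_add]

end Frob

end Fermat.Agent.ESCore
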