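import Fermat.Agent.ESCore.GalConj
import Fermat.Agent.ESCore.AlgLaurent
import Fermat.Agent.MultSys.Character
import Fermat.Agent.ES.Rational
import Fermat.Prelude.Thm_ModularForm_sturm_bound_of_isArithmetic

set_option autoImplicit false

/-!
# The action of the automorphisms of `ℂ` on the characters (D1, D2)
-/

open UpperHalfPlane hiding I J
open Complex Function Filter Topology ModularForm Matrix.SpecialLinearGroup
open scoped Manifold MatrixGroups ModularForm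
open Fermat.Agent.ModFun Fermat.Agent.Eis16 Fermat.Agent.ES

noncomputable section

namespace Fermat.Agent.ESCore.Gal

variable {G : Subgroup SL(2, ℤ)} [G.FiniteIndex] {m : ℕ}

omit [G.FiniteIndex] in
theorem char_unique {χ ψ : G →* ℂˣ} {k : ℤ} {F : ℍ → ℂ} (hF : F ∈ mform χ k)
    (hF' : F ∈ mform ψ k) (h0 : F ≠ 0) : χ = ψ := by
  obtain ⟨τ, hτ⟩ := Function.ne_iff.mp h0
  ext g
  have h1 := congrFun ((hF.2.1 g).symm.trans (hF'.2.1 g)) τ
  simp only [Pi.smul_apply, smul_eq_mul] at h1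
  exact mul_right_cancel₀ hτ h1

omit [G.FiniteIndex] in
theorem fun_unique (hT : ModularGroup.T ∈ G) {χ ψ : G →* ℂˣ} (hχ : χ ∈ XGen G m)
    (hψ : ψ ∈ XGen G m) {k k' : ℤ} {F F' : ℍ → ℂ} (hF : F ∈ mform χ k) (hF' : F' ∈ mform ψ k')
    (h : qExpansion 1 F = qExpansion 1 F') : F = F' := by
  have h1 := hasQ_mform_G hT hχ.2 hF
  have h2 := hasQ_mform_G hT hψ.2 hF'
  rw [← h] at h2
  exact h1.ext h2

/-- a modular form for the image of `G` -/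
def toMF {k : ℤ} {f : ℍ → ℂ} (hf : f ∈ mform (1 : G →* ℂˣ) k) :
    ModularForm ((G : Subgroup SL(2, ℤ)) : Subgroup (GL (Fin 2) ℝ)) k where
  toFun := f
  slash_action_eq' := by
    rintro _ ⟨g, hg, rfl⟩
    have := hf.2.1 ⟨g, hg⟩
    rw [MonoidHom.one_apply, Units.val_one, one_smul] at this
    exact this
  holo' := hf.1
  bdd_at_cusps' := fun {c} hc => by
    rw [Subgroup.IsArithmetic.isCusp_iff_isCusp_SL2Z] at hc
    rw [OnePoint.isBoundedAt_iff_forall_SL2Z hc]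
    intro g _
    exact hf.2.2 g

theorem coe_toMF {k : ℤ} {f : ℍ → ℂ} (hf : f ∈ mform (1 : G →* ℂˣ) k) : ⇑(toMF hf) = f := rfl

omit [G.FiniteIndex] in
theorem one_mem_strictPeriods_G (hT : ModularGroup.T ∈ G) :
    (1 : ℝ) ∈ ((G : Subgroup SL(2, ℤ)) : Subgroup (GL (Fin 2) ℝ)).strictPeriods := by
  rw [Subgroup.mem_strictPeriods_iff]
  refine ⟨ModularGroup.T, hT, ?_⟩
  ext i j
  fin_cases i <;> fin_cases j <;> simp [ModularGroup.coe_T, Matrix.GeneralLinearGroup.upperRightHom]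

/-- **Sturm bound.** -/
theorem sturm_one (hT : ModularGroup.T ∈ G) {k : ℤ} {f : ℍ → ℂ}
    (hf : f ∈ mform (1 : G →* ℂˣ) k)
    (h : ∀ j ≤ (k * G.index).toNat / 12, (qExpansion 1 f).coeff j = 0) : f = 0 := by
  have h2 : toMF hf = 0 := by
    refine ModularForm.sturm_bound_of_isArithmetic (one_mem_strictPeriods_G hT) ?_
    have h3 : ((G : Subgroup SL(2, ℤ)) : Subgroup (GL (Fin 2) ℝ)).relIndex 𝒮ℒ = G.index := by
      rw [← Subgroup.index_comap, Subgroup.comap_map_eq_self_of_injective mapGL_injective]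
    rw [h3]
    refine lt_of_lt_of_le (by exact_mod_cast Nat.lt_succ_self _)
      (PowerSeries.nat_le_order _ _ fun n hn ↦ ?_)
    exact h n (by omega)
  have h4 := congrArg (fun F : ModularForm ((G : Subgroup SL(2, ℤ)) : Subgroup (GL (Fin 2) ℝ)) k =>
    (⇑F : ℍ → ℂ)) h2
  exact h4

/-- **Sturm bound with character.** -/
theorem sturm_char (hm : 0 < m) (hT : ModularGroup.T ∈ G) {χ : G →* ℂˣ} (hχ : χ ∈ XGen G m)
    {n : ℕ} {F : ℍ → ℂ} (hF : F ∈ mform χ (12 * n))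
    (h : ∀ j ≤ n * G.index, (qExpansion 1 F).coeff j = 0) : F = 0 := by
  have hf : F ^ m ∈ mform (1 : G →* ℂˣ) (12 * (n * m : ℕ)) :=
    mform_congr (mform_pow hF m) hχ.1 (by push_cast; ring)
  have h1 : F ^ m = 0 := by
    refine sturm_one hT hf fun j hj => ?_
    rw [((hasQ_mform_G hT hχ.2 hF).pow m).qExpansion_eq one_pos]
    apply PowerSeries.coeff_of_lt_order
    rw [PowerSeries.order_pow]
    have h2 : ((n * G.index + 1 : ℕ) : ℕ∞) ≤ (qExpansion 1 F).order :=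
      PowerSeries.nat_le_order _ _ fun i hi => h i (by omega)
    have h3 : ((m * (n * G.index + 1) : ℕ) : ℕ∞) ≤ m • (qExpansion 1 F).order := by
      rw [nsmul_eq_mul]
      push_cast
      exact mul_le_mul_right (by exact_mod_cast h2) _
    refine lt_of_lt_of_le ?_ h3
    have h4 : ((12 * (n * m : ℕ) : ℤ) * G.index).toNat / 12 = n * m * G.index := by
      have : ((12 * (n * m : ℕ) : ℤ) * G.index) = ((12 * (n * m * G.index) : ℕ) : ℤ) := by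
        push_cast
        ring
      rw [this, Int.toNat_natCast, Nat.mul_div_cancel_left _ (by norm_num)]
    rw [h4] at hj
    have h5 : j < m * (n * G.index + 1) := by nlinarith
    exact_mod_cast h5
  exact (pow_eq_zero_iff hm.ne').mp h1

omit [G.FiniteIndex] in
theorem norm_char_eq_one (hm : 0 < m) {χ : G →* ℂˣ} (hχ : χ ∈ XGen G m) (γ : G) :
    ‖(χ γ : ℂ)‖ = 1 := by
  have h1 : (χ γ : ℂ) ^ m = 1 := by
    rw [← Units.val_pow_eq_pow_val, ← MonoidHom.pow_apply, hχ.1]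
    simp
  exact Complex.norm_eq_one_of_pow_eq_one h1 hm.ne'

omit [G.FiniteIndex] in
theorem exists_form_G (hm : 0 < m) {χ : G →* ℂˣ} (hχ : χ ∈ XGen G m) :
    ∃ F ∈ mform χ 12, F ≠ 0 := by
  obtain ⟨f, h1, h2, h3, c, hc, h4⟩ := MultSys.exists_form (norm_char_eq_one hm hχ) hχ.2
    (k := 12) (by norm_num) (by decide)
  refine ⟨f, ⟨h1, h2, h3⟩, ?_⟩
  rintro rfl
  exact hc (tendsto_nhds_unique h4 tendsto_const_nhds)

omit [G.FiniteIndex] in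
theorem mul_pow_pred (hm : 0 < m) {ψ : G →* ℂˣ} (hψ : ψ ∈ XGen G m) : ψ * ψ ^ (m - 1) = 1 := by
  ext γ
  have h1 : (ψ γ) ^ m = 1 := by
    rw [← MonoidHom.pow_apply, hψ.1, MonoidHom.one_apply]
  rw [MonoidHom.mul_apply, MonoidHom.pow_apply, ← pow_succ', Nat.sub_add_cancel hm, h1,
    MonoidHom.one_apply]

/-! ### The action of an automorphism of `ℂ` -/

theorem conj_unique (hm : 0 < m) (hG : ConjStable G) (hT : ModularGroup.T ∈ G) (σ : ℂ ≃+* ℂ)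
    {χ χ₁ χ₂ : G →* ℂˣ} (hχ : χ ∈ XGen G m) (h₁ : χ₁ ∈ XGen G m) (h₂ : χ₂ ∈ XGen G m)
    {n₁ n₂ : ℕ} {F₁ F₂ F₁' F₂' : ℍ → ℂ} (hF₁ : F₁ ∈ mform χ (12 * n₁))
    (hF₂ : F₂ ∈ mform χ (12 * n₂)) (hF₁' : F₁' ∈ mform χ₁ (12 * n₁))
    (hF₂' : F₂' ∈ mform χ₂ (12 * n₂))
    (hq₁ : qExpansion 1 F₁' = (qExpansion 1 F₁).map (σ : ℂ →+* ℂ))
    (hq₂ : qExpansion 1 F₂' = (qExpansion 1 F₂).map (σ : ℂ →+* ℂ))
    (h0₁ : F₁' ≠ 0) (h0₂ : F₂' ≠ 0) : χ₁ = χ₂ := by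
  have Q₁ := hasQ_mform_G hT hχ.2 hF₁
  have Q₂ := hasQ_mform_G hT hχ.2 hF₂
  have Q₁' := hasQ_mform_G hT h₁.2 hF₁'
  have Q₂' := hasQ_mform_G hT h₂.2 hF₂'
  have hp := mul_pow_pred hm hχ
  have hp₂ := mul_pow_pred hm h₂
  have hf : F₁ * F₂ ^ (m - 1) ∈ mform (1 : G →* ℂˣ) (12 * (n₁ + n₂ * (m - 1) : ℕ)) :=
    mform_congr (mform_mul hF₁ (mform_pow hF₂ (m - 1))) hp (by push_cast; ring)
  obtain ⟨f', hf', hf'q⟩ := hG σ _ _ hf
  have hf'' : F₁' * F₂' ^ (m - 1) ∈ mform (χ₁ * χ₂ ^ (m - 1))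
      (12 * (n₁ + n₂ * (m - 1) : ℕ)) :=
    mform_congr (mform_mul hF₁' (mform_pow hF₂' (m - 1))) rfl (by push_cast; ring)
  have hmem : χ₁ * χ₂ ^ (m - 1) ∈ XGen G m := mul_mem h₁ (pow_mem h₂ _)
  have heq : F₁' * F₂' ^ (m - 1) = f' := by
    refine fun_unique hT hmem (one_mem _) hf'' hf' ?_
    rw [hf'q, (Q₁'.mul (Q₂'.pow (m - 1))).qExpansion_eq one_pos,
      (Q₁.mul (Q₂.pow (m - 1))).qExpansion_eq one_pos, hq₁, hq₂, map_mul, map_pow]
  have hne : F₁' * F₂' ^ (m - 1) ≠ 0 := by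
    intro h
    have h5 := Q₁'.mul (Q₂'.pow (m - 1))
    rw [h] at h5
    have h6 := h5.unique one_pos (HasQ.zero 1)
    rcases mul_eq_zero.mp h6 with h7 | h7
    · rw [h7] at Q₁'
      exact h0₁ (Q₁'.ext (HasQ.zero 1))
    · rw [eq_zero_of_pow_eq_zero h7] at Q₂'
      exact h0₂ (Q₂'.ext (HasQ.zero 1))
  rw [← heq] at hf'
  have h8 := char_unique hf'' hf' hne
  rw [← hp₂] at h8
  exact mul_right_cancel h8

theorem exists_autX (hm : 0 < m) (hG : ConjStable G) (hT : ModularGroup.T ∈ G) (σ : ℂ ≃+* ℂ)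
    (χ : XGen G m) : ∃ χ' : XGen G m, ∀ (n : ℕ) (F : ℍ → ℂ), F ∈ mform χ.1 (12 * n) →
      ∃ F' ∈ mform χ'.1 (12 * n), qExpansion 1 F' = (qExpansion 1 F).map (σ : ℂ →+* ℂ) := by
  have hne : ∀ {n : ℕ} {F F' : ℍ → ℂ} {χ' : G →* ℂˣ}, F ∈ mform χ.1 (12 * n) → F ≠ 0 →
      qExpansion 1 F' = (qExpansion 1 F).map (σ : ℂ →+* ℂ) → F' ≠ 0 := by
    intro n F F' χ' hF hF0 hq h
    rw [h, (HasQ.zero 1).qExpansion_eq one_pos] at hq
    have h1 := hasQ_mform_G hT χ.2.2 hF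
    rw [← map_zero (PowerSeries.map (σ : ℂ →+* ℂ))] at hq
    rw [← PowerSeries.map_injective _ (σ : ℂ →+* ℂ).injective hq] at h1
    exact hF0 (h1.ext (HasQ.zero 1))
  obtain ⟨F₀, hF₀, hF₀0⟩ := exists_form_G hm χ.2
  have hF₀' : F₀ ∈ mform χ.1 (12 * (1 : ℕ)) := mform_congr hF₀ rfl (by norm_num)
  obtain ⟨χ', hχ', F₀', h1, h2⟩ := exists_conj hm hG hT χ.2 σ hF₀'
  refine ⟨⟨χ', hχ'⟩, fun n F hF => ?_⟩
  by_cases hF0 : F = 0
  · refine ⟨0, zero_mem _, ?_⟩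
    subst hF0
    rw [(HasQ.zero 1).qExpansion_eq one_pos, map_zero]
  obtain ⟨χ'', hχ'', F', h3, h4⟩ := exists_conj hm hG hT χ.2 σ hF
  have h5 : χ'' = χ' := conj_unique hm hG hT σ χ.2 hχ'' hχ' hF hF₀' h3 h1 h4 h2
    (hne (χ' := χ') hF hF0 h4) (hne (χ' := χ') hF₀' hF₀0 h2)
  exact ⟨F', h5 ▸ h3, h4⟩

/-- the action of an automorphism of `ℂ` on a character -/
def autXf (hm : 0 < m) (hG : ConjStable G) (hT : ModularGroup.T ∈ G) (σ : ℂ ≃+* ℂ)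
    (χ : XGen G m) : XGen G m := (exists_autX hm hG hT σ χ).choose

variable (hm : 0 < m) (hG : ConjStable G) (hT : ModularGroup.T ∈ G)

theorem autXf_spec (σ : ℂ ≃+* ℂ) (χ : XGen G m) {n : ℕ} {F : ℍ → ℂ}
    (hF : F ∈ mform χ.1 (12 * n)) : ∃ F' ∈ mform (autXf hm hG hT σ χ).1 (12 * n),
      qExpansion 1 F' = (qExpansion 1 F).map (σ : ℂ →+* ℂ) :=
  (exists_autX hm hG hT σ χ).choose_spec n F hF

include hT in
omit [G.FiniteIndex] in
theorem conj_ne_zero (σ : ℂ ≃+* ℂ) {χ : XGen G m} {k : ℤ} {F F' : ℍ → ℂ}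
    (hF : F ∈ mform χ.1 k) (hF0 : F ≠ 0)
    (hq : qExpansion 1 F' = (qExpansion 1 F).map (σ : ℂ →+* ℂ)) : F' ≠ 0 := by
  intro h
  rw [h, (HasQ.zero 1).qExpansion_eq one_pos] at hq
  have h1 := hasQ_mform_G hT χ.2.2 hF
  rw [← map_zero (PowerSeries.map (σ : ℂ →+* ℂ))] at hq
  rw [← PowerSeries.map_injective _ (σ : ℂ →+* ℂ).injective hq] at h1
  exact hF0 (h1.ext (HasQ.zero 1))

/-- characterisation of the action -/
theorem autXf_eq (σ : ℂ ≃+* ℂ) {χ χ' : XGen G m} {n : ℕ} {F F' : ℍ → ℂ}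
    (hF : F ∈ mform χ.1 (12 * n)) (hF0 : F ≠ 0) (hF' : F' ∈ mform χ'.1 (12 * n))
    (hq : qExpansion 1 F' = (qExpansion 1 F).map (σ : ℂ →+* ℂ)) : autXf hm hG hT σ χ = χ' := by
  obtain ⟨F'', h1, h2⟩ := autXf_spec hm hG hT σ χ hF
  have h3 : F'' = F' := fun_unique hT (autXf hm hG hT σ χ).2 χ'.2 h1 hF' (h2.trans hq.symm)
  subst h3
  exact Subtype.ext (char_unique h1 hF' (conj_ne_zero hT σ hF hF0 hq))

theorem autXf_one (χ : XGen G m) : autXf hm hG hT 1 χ = χ := by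
  obtain ⟨F₀, hF₀, hF₀0⟩ := exists_form_G hm χ.2
  have hF₀' : F₀ ∈ mform χ.1 (12 * (1 : ℕ)) := mform_congr hF₀ rfl (by norm_num)
  refine autXf_eq hm hG hT 1 hF₀' hF₀0 hF₀' ?_
  ext n
  rw [PowerSeries.coeff_map]
  rfl

theorem autXf_mul (σ τ : ℂ ≃+* ℂ) (χ : XGen G m) :
    autXf hm hG hT (σ * τ) χ = autXf hm hG hT σ (autXf hm hG hT τ χ) := by
  obtain ⟨F₀, hF₀, hF₀0⟩ := exists_form_G hm χ.2
  have hF₀' : F₀ ∈ mform χ.1 (12 * (1 : ℕ)) := mform_congr hF₀ rfl (by norm_num)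
  obtain ⟨F₁, h1, h2⟩ := autXf_spec hm hG hT τ χ hF₀'
  obtain ⟨F₂, h3, h4⟩ := autXf_spec hm hG hT σ _ h1
  refine autXf_eq hm hG hT (σ * τ) hF₀' hF₀0 h3 ?_
  rw [h4, h2]
  ext n
  rw [PowerSeries.coeff_map, PowerSeries.coeff_map, PowerSeries.coeff_map]
  rfl

theorem autXf_map_mul (σ : ℂ ≃+* ℂ) (χ ψ : XGen G m) :
    autXf hm hG hT σ (χ * ψ) = autXf hm hG hT σ χ * autXf hm hG hT σ ψ := by
  obtain ⟨F, hF, hF0⟩ := exists_form_G hm χ.2
  obtain ⟨H, hH, hH0⟩ := exists_form_G hm ψ.2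
  have hF' : F ∈ mform χ.1 (12 * (1 : ℕ)) := mform_congr hF rfl (by norm_num)
  have hH' : H ∈ mform ψ.1 (12 * (1 : ℕ)) := mform_congr hH rfl (by norm_num)
  obtain ⟨F₁, h1, h2⟩ := autXf_spec hm hG hT σ χ hF'
  obtain ⟨H₁, h3, h4⟩ := autXf_spec hm hG hT σ ψ hH'
  have hFH : F * H ∈ mform (χ * ψ).1 (12 * (2 : ℕ)) :=
    mform_congr (mform_mul hF hH) rfl (by norm_num)
  have hFH₁ : F₁ * H₁ ∈ mform (autXf hm hG hT σ χ * autXf hm hG hT σ ψ).1 (12 * (2 : ℕ)) :=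
    mform_congr (mform_mul h1 h3) rfl (by norm_num)
  have Q1 := hasQ_mform_G hT χ.2.2 hF
  have Q2 := hasQ_mform_G hT ψ.2.2 hH
  refine autXf_eq hm hG hT σ hFH ?_ hFH₁ ?_
  · intro h
    have Q := Q1.mul Q2
    rw [h] at Q
    rcases mul_eq_zero.mp (Q.unique one_pos (HasQ.zero 1)) with h7 | h7
    · rw [h7] at Q1
      exact hF0 (Q1.ext (HasQ.zero 1))
    · rw [h7] at Q2
      exact hH0 (Q2.ext (HasQ.zero 1))
  · rw [(Q1.mul Q2).qExpansion_eq one_pos,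
      ((hasQ_mform_G hT (autXf hm hG hT σ χ).2.2 h1).mul
        (hasQ_mform_G hT (autXf hm hG hT σ ψ).2.2 h3)).qExpansion_eq one_pos, h2, h4, map_mul]

/-- **The action of `Aut(ℂ)` on the characters.** -/
def autX : (ℂ ≃+* ℂ) →* MulAut (XGen G m) where
  toFun σ :=
    { toFun := autXf hm hG hT σ
      invFun := autXf hm hG hT σ⁻¹
      left_inv := fun χ => by rw [← autXf_mul, inv_mul_cancel, autXf_one]
      right_inv := fun χ => by rw [← autXf_mul, mul_inv_cancel, autXf_one]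
      map_mul' := autXf_map_mul hm hG hT σ }
  map_one' := MulEquiv.ext (autXf_one hm hG hT)
  map_mul' σ τ := MulEquiv.ext (autXf_mul hm hG hT σ τ)

theorem autX_apply (σ : ℂ ≃+* ℂ) (χ : XGen G m) :
    autX hm hG hT σ χ = autXf hm hG hT σ χ := rfl

/-! ### Finiteness -/

theorem finite_XGen (hm : 0 < m) : Finite (XGen G m) := by
  haveI : NeZero m := ⟨hm.ne'⟩
  have hG : Group.FG SL(2, ℤ) := by
    rw [Group.fg_iff]
    exact ⟨{ModularGroup.S, ModularGroup.T}, SpecialLinearGroup.SL2Z_generators, by simp⟩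
  have hfg : Group.FG G := inferInstance
  obtain ⟨S, hS⟩ := hfg.out
  let F : XGen G m → (S → rootsOfUnity m ℂ) := fun χ s => ⟨χ.1 s, by
    rw [_root_.mem_rootsOfUnity, ← MonoidHom.pow_apply, χ.2.1, MonoidHom.one_apply]⟩
  refine Finite.of_injective F fun χ ψ h => Subtype.ext ?_
  refine MonoidHom.eq_of_eqOn_dense hS fun s hs => ?_
  exact congrArg Subtype.val (congrFun h ⟨s, hs⟩)

end Fermat.Agent.ESCore.Gal
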