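import Fermat.Agent.ESCore.HauptOrd
import Fermat.Agent.ModFun.CharPoly
import Fermat.Agent.ModFun.JDeriv
import Fermat.Agent.ModFun.Expand

set_option autoImplicit false

/-!
# The characteristic polynomial over `ℂ[j]` of a modular function, and conjugation
-/

open UpperHalfPlane hiding I J
open Complex Function Filter Topology ModularForm
open scoped Manifold MatrixGroups ModularForm
open Fermat.Agent.ModFun

noncomputable section

namespace Fermat.Agent.ESCore.Gal

local notation "Δ" => ModularForm.discriminant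

theorem bounded_disc : IsBoundedAtImInfty (Δ : ℍ → ℂ) :=
  ModularFormClass.bdd_at_infty CuspForm.discriminant

theorem bounded_pow {f : ℍ → ℂ} (hf : IsBoundedAtImInfty f) (n : ℕ) :
    IsBoundedAtImInfty (f ^ n) := by
  induction n with
  | zero => exact Filter.const_boundedAtFilter atImInfty (1 : ℂ)
  | succ n ih =>
    rw [pow_succ]
    exact ih.mul hf

/-- functions holomorphic on `ℍ` and meromorphic at all cusps -/
def MB : Subring (ℍ → ℂ) where
  carrier := {f | MDiff f ∧ ∃ k : ℕ, ∀ γ : SL(2, ℤ),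
    IsBoundedAtImInfty (Δ ^ k * fun τ : ℍ => f (γ • τ))}
  mul_mem' := by
    rintro f g ⟨hf, k, hk⟩ ⟨hg, l, hl⟩
    refine ⟨hf.mul hg, k + l, fun γ => ?_⟩
    have h : (Δ ^ (k + l) * fun τ : ℍ => (f * g) (γ • τ)) =
        (Δ ^ k * fun τ : ℍ => f (γ • τ)) * (Δ ^ l * fun τ : ℍ => g (γ • τ)) := by
      ext τ
      simp only [Pi.mul_apply, Pi.pow_apply]
      ring
    rw [h]
    exact (hk γ).mul (hl γ)
  one_mem' := ⟨mdifferentiable_const, 0, fun γ => by
    have h : (Δ ^ 0 * fun τ : ℍ => (1 : ℍ → ℂ) (γ • τ)) = fun _ => 1 := by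
      ext τ
      simp
    rw [h]
    exact Filter.const_boundedAtFilter atImInfty (1 : ℂ)⟩
  add_mem' := by
    rintro f g ⟨hf, k, hk⟩ ⟨hg, l, hl⟩
    refine ⟨hf.add hg, k + l, fun γ => ?_⟩
    have h : (Δ ^ (k + l) * fun τ : ℍ => (f + g) (γ • τ)) =
        Δ ^ l * (Δ ^ k * fun τ : ℍ => f (γ • τ)) + Δ ^ k * (Δ ^ l * fun τ : ℍ => g (γ • τ)) := by
      ext τ
      simp only [Pi.mul_apply, Pi.pow_apply, Pi.add_apply]
      ring
    rw [h]
    exact ((bounded_pow bounded_disc l).mul (hk γ)).add ((bounded_pow bounded_disc k).mul (hl γ))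
  zero_mem' := ⟨mdifferentiable_const, 0, fun γ => by
    have h : (Δ ^ 0 * fun τ : ℍ => (0 : ℍ → ℂ) (γ • τ)) = fun _ => 0 := by
      ext τ
      simp
    rw [h]
    exact Filter.const_boundedAtFilter atImInfty (0 : ℂ)⟩
  neg_mem' := by
    rintro f ⟨hf, k, hk⟩
    refine ⟨hf.neg, k, fun γ => ?_⟩
    have h : (Δ ^ k * fun τ : ℍ => (-f) (γ • τ)) = -(Δ ^ k * fun τ : ℍ => f (γ • τ)) := by
      ext τ
      simp
    rw [h]
    exact (hk γ).neg

theorem MB_comp {f : ℍ → ℂ} (hf : f ∈ MB) (γ : SL(2, ℤ)) :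
    (fun τ : ℍ => f (γ • τ)) ∈ MB := by
  obtain ⟨hf, k, hk⟩ := hf
  refine ⟨?_, k, fun δ => ?_⟩
  · have h1 := hf.slash 0 (Matrix.SpecialLinearGroup.mapGL ℝ γ)
    have h2 : (f ∣[(0 : ℤ)] (γ : GL (Fin 2) ℝ)) = fun τ : ℍ => f (γ • τ) := by
      ext τ
      have : (f ∣[(0 : ℤ)] γ) τ = _ := ModularForm.SL_slash_apply _ _ _
      rw [neg_zero, zpow_zero, mul_one] at this
      exact this
    exact h2 ▸ h1
  · have h := hk (γ * δ)
    simpa only [mul_smul] using h

theorem exists_polynomial_of_MB {f : ℍ → ℂ} (hf : f ∈ MB)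
    (hinv : ∀ (γ : SL(2, ℤ)) (τ : ℍ), f (γ • τ) = f τ) :
    ∃ P : Polynomial ℂ, ∀ τ, f τ = P.eval (J τ) := by
  obtain ⟨hf, k, hk⟩ := hf
  have h2 : (fun τ : ℍ => qN 1 τ) =O[atImInfty] (Δ : ℍ → ℂ) := by
    refine Asymptotics.IsBigO.trans ?_ exp_isBigO_discriminant
    refine Asymptotics.isBigO_of_le _ fun τ => ?_
    rw [qN_apply, Nat.cast_one, Periodic.norm_qParam]
    rw [Real.norm_of_nonneg (Real.exp_nonneg _)]
    simp
  have hb : IsBoundedAtImInfty (fun τ => qN 1 τ ^ k * f τ) := by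
    have h3 : IsBoundedAtImInfty (Δ ^ k * f) := by simpa using hk 1
    have h4 : (fun τ => qN 1 τ ^ k * f τ) =O[atImInfty] (Δ ^ k * f : ℍ → ℂ) :=
      (h2.pow k).mul (Asymptotics.isBigO_refl f _)
    exact h4.trans h3
  obtain ⟨F, hF⟩ := exists_hasExp (N := 1) hf
    (fun τ => by
      rw [Nat.cast_one, ← modular_T_smul]
      exact hinv _ _) k hb
  obtain ⟨P, hP, -⟩ := exists_polynomial (RingHom.id ℂ).injective hf hinv hF
  exact ⟨P, fun τ => by rw [hP τ]; rfl⟩

section CharPoly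

variable (G : Subgroup SL(2, ℤ)) [G.FiniteIndex]

/-- the coset space -/
abbrev CS : Type := SL(2, ℤ) ⧸ G

instance : Fintype (CS G) := Fintype.ofFinite _

variable {G}

/-- The conjugate of a function by a coset. -/
def cosHom (x : CS G) : (ℍ → ℂ) →+* (ℍ → ℂ) where
  toFun f := fun τ => f ((Quotient.out x)⁻¹ • τ)
  map_one' := rfl
  map_mul' _ _ := rfl
  map_zero' := rfl
  map_add' _ _ := rfl

/-- invariance under `G` -/
def IsInvG (G : Subgroup SL(2, ℤ)) (f : ℍ → ℂ) : Prop := ∀ γ ∈ G, ∀ τ : ℍ, f (γ • τ) = f τ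

omit [G.FiniteIndex] in
theorem cosHom_mk {f : ℍ → ℂ} (hf : IsInvG G f) (g : SL(2, ℤ)) (τ : ℍ) :
    cosHom (g : CS G) f τ = f (g⁻¹ • τ) := by
  have h1 : (Quotient.out (g : CS G))⁻¹ * g ∈ G :=
    QuotientGroup.eq.mp (Quotient.out_eq (g : CS G))
  have h2 := hf _ h1 (g⁻¹ • τ)
  rw [← mul_smul, mul_assoc, mul_inv_cancel, mul_one] at h2
  exact h2

omit [G.FiniteIndex] in
theorem cosHom_smul {f : ℍ → ℂ} (hf : IsInvG G f) (h : SL(2, ℤ)) (x : CS G) (τ : ℍ) :
    cosHom x f (h • τ) = cosHom (h⁻¹ • x) f τ := by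
  obtain ⟨g, rfl⟩ := QuotientGroup.mk_surjective x
  have h1 : (h⁻¹ • (g : CS G)) = ((h⁻¹ * g : SL(2, ℤ)) : CS G) := rfl
  rw [h1, cosHom_mk hf, cosHom_mk hf, mul_inv_rev, inv_inv, mul_smul]

omit [G.FiniteIndex] in
theorem cosHom_one {f : ℍ → ℂ} (hf : IsInvG G f) : cosHom ((1 : SL(2, ℤ)) : CS G) f = f := by
  funext τ
  rw [cosHom_mk hf, inv_one, one_smul]

/-- The characteristic polynomial with coefficients functions on `ℍ`. -/
def cpolyG (G : Subgroup SL(2, ℤ)) [G.FiniteIndex] (f : ℍ → ℂ) : Polynomial (ℍ → ℂ) :=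
  ∏ x : CS G, (Polynomial.X - Polynomial.C (cosHom x f))

theorem cpolyG_coeff_mem {f : ℍ → ℂ} (hf : f ∈ MB) (k : ℕ) :
    (cpolyG G f).coeff k ∈ MB := by
  have h1 : cpolyG G f = (∏ x : CS G, (Polynomial.X -
      Polynomial.C (⟨cosHom x f, MB_comp hf _⟩ : MB))).map MB.subtype := by
    rw [Polynomial.map_prod]
    simp [cpolyG]
  rw [h1, Polynomial.coeff_map]
  exact Subtype.mem _

theorem cpolyG_coeff_smul {f : ℍ → ℂ} (hf : IsInvG G f) (k : ℕ) (h : SL(2, ℤ)) (τ : ℍ) :
    (cpolyG G f).coeff k (h • τ) = (cpolyG G f).coeff k τ := by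
  have h1 : (cpolyG G f).map (pullHom h) = cpolyG G f := by
    rw [cpolyG, Polynomial.map_prod]
    have h2 : ∀ x : CS G, (Polynomial.X - Polynomial.C (cosHom x f)).map (pullHom h) =
        Polynomial.X - Polynomial.C (cosHom (h⁻¹ • x) f) := by
      intro x
      rw [Polynomial.map_sub, Polynomial.map_X, Polynomial.map_C]
      congr 2
      funext τ
      exact cosHom_smul hf h x τ
    simp only [h2]
    exact Fintype.prod_equiv (MulAction.toPerm h⁻¹ : Equiv.Perm (CS G)) _ _ (fun x => rfl)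
  have h3 := congrArg (fun p : Polynomial (ℍ → ℂ) => p.coeff k τ) h1
  simp only [Polynomial.coeff_map] at h3
  exact h3

/-- `J` as an element of `HolRing` -/
def JH : HolRing := ⟨J, mdiff_J⟩

/-- evaluation of polynomials at `J` -/
def evJ : Polynomial ℂ →ₐ[ℂ] HolRing := Polynomial.aeval JH

theorem evJ_apply (P : Polynomial ℂ) (τ : ℍ) : (evJ P : ℍ → ℂ) τ = P.eval (J τ) := by
  induction P using Polynomial.induction_on' with
  | add p q hp hq =>
    rw [map_add, Polynomial.eval_add, ← hp, ← hq]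
    rfl
  | monomial n a =>
    rw [evJ, Polynomial.aeval_monomial, Polynomial.eval_monomial]
    rfl

/-- The conjugates as elements of `HolRing`. -/
def cosH (x : CS G) {f : ℍ → ℂ} (hf : f ∈ MB) : HolRing := ⟨cosHom x f, (MB_comp hf _).1⟩

/-- **The characteristic polynomial of a modular function over `ℂ[j]`.** -/
theorem exists_charpolyG {f : ℍ → ℂ} (hf : f ∈ MB) (hinv : IsInvG G f) :
    ∃ Q : Polynomial (Polynomial ℂ),
      Q.map (evJ : Polynomial ℂ →+* HolRing) =
        ∏ x : CS G, (Polynomial.X - Polynomial.C (cosH x hf)) := by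
  choose P hP using fun k => exists_polynomial_of_MB (cpolyG_coeff_mem (G := G) hf k)
    (cpolyG_coeff_smul hinv k)
  have hR : (∏ x : CS G, (Polynomial.X - Polynomial.C (cosH x hf))).map
      HolRing.val.toRingHom = cpolyG G f := by
    rw [Polynomial.map_prod, cpolyG]
    refine Finset.prod_congr rfl fun x _ => ?_
    rw [Polynomial.map_sub, Polynomial.map_X, Polynomial.map_C]
    rfl
  set R := ∏ x : CS G, (Polynomial.X - Polynomial.C (cosH x hf)) with hRdef
  refine ⟨∑ k ∈ Finset.range (R.natDegree + 1), Polynomial.monomial k (P k), ?_⟩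
  rw [Polynomial.map_sum]
  conv_rhs => rw [R.as_sum_range' (R.natDegree + 1) (Nat.lt_succ_self _)]
  refine Finset.sum_congr rfl fun k _ => ?_
  rw [Polynomial.map_monomial]
  congr 1
  apply Subtype.ext
  funext τ
  have h1 : (evJ (P k) : ℍ → ℂ) τ = (P k).eval (J τ) := evJ_apply _ _
  refine h1.trans ?_
  rw [← hP k τ, ← hR, Polynomial.coeff_map]
  rfl

end CharPoly

/-! ### Expansions of polynomial expressions -/

/-- evaluation of polynomials at the `q`-expansion of `j` -/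
def evS : Polynomial ℂ →+* LaurentSeries ℂ :=
  Polynomial.eval₂RingHom HahnSeries.C (ModularCurve.jqModC ℂ)

theorem hasExp_evJ (P : Polynomial ℂ) :
    HasExp (RingHom.id ℂ) (qN 1) (evJ P : ℍ → ℂ) (evS P) := by
  induction P using Polynomial.induction_on' with
  | add p q hp hq =>
    rw [map_add, map_add]
    exact hp.add hq
  | monomial n a =>
    rw [evJ, Polynomial.aeval_monomial, evS, Polynomial.coe_eval₂RingHom,
      Polynomial.eval₂_monomial]
    exact (HasExp.const a).mul ((hasExp_J' (RingHom.id ℂ)).pow n)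

theorem hasExp_eval {f : HolRing} {F : LaurentSeries ℂ}
    (hF : HasExp (RingHom.id ℂ) (qN 1) (f : ℍ → ℂ) F) (Q : Polynomial (Polynomial ℂ)) :
    HasExp (RingHom.id ℂ) (qN 1) ((Q.eval₂ (evJ : Polynomial ℂ →+* HolRing) f : HolRing) : ℍ → ℂ)
      (Q.eval₂ evS F) := by
  induction Q using Polynomial.induction_on' with
  | add p q hp hq =>
    rw [Polynomial.eval₂_add, Polynomial.eval₂_add]
    exact hp.add hq
  | monomial n a =>
    rw [Polynomial.eval₂_monomial, Polynomial.eval₂_monomial]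
    exact (hasExp_evJ a).mul (hF.pow n)

theorem coeffMap_evS (σ : ℂ →+* ℂ) (P : Polynomial ℂ) :
    ModularCurve.coeffMap σ (evS P) = evS (P.map σ) := by
  induction P using Polynomial.induction_on' with
  | add p q hp hq => rw [map_add, map_add, Polynomial.map_add, map_add, hp, hq]
  | monomial n a =>
    rw [Polynomial.map_monomial, evS, Polynomial.coe_eval₂RingHom, Polynomial.eval₂_monomial,
      Polynomial.eval₂_monomial, map_mul, map_pow, coeffMap_jqModC]
    congr 1
    ext k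
    change σ ((HahnSeries.C a : LaurentSeries ℂ).coeff k) =
      (HahnSeries.C (σ a) : LaurentSeries ℂ).coeff k
    rw [HahnSeries.C_apply, HahnSeries.C_apply, HahnSeries.coeff_single, HahnSeries.coeff_single]
    split_ifs <;> simp

/-- the polynomial relation is preserved by conjugation -/
theorem eval_conj (σ : ℂ →+* ℂ) {f f' : HolRing} {F : LaurentSeries ℂ}
    (hF : HasExp (RingHom.id ℂ) (qN 1) (f : ℍ → ℂ) F)
    (hF' : HasExp (RingHom.id ℂ) (qN 1) (f' : ℍ → ℂ) (ModularCurve.coeffMap σ F))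
    (Q : Polynomial (Polynomial ℂ)) (h : Q.eval₂ (evJ : Polynomial ℂ →+* HolRing) f = 0) :
    (Q.map (Polynomial.mapRingHom σ)).eval₂ (evJ : Polynomial ℂ →+* HolRing) f' = 0 := by
  have h1 := hasExp_eval hF Q
  rw [h] at h1
  have h2 : Q.eval₂ evS F = 0 := h1.eq_zero (RingHom.id ℂ).injective (isParam_qN 1)
  have h3 : (Q.map (Polynomial.mapRingHom σ)).eval₂ evS (ModularCurve.coeffMap σ F) = 0 := by
    have h4 := congrArg (ModularCurve.coeffMap σ) h2
    rw [map_zero, Polynomial.hom_eval₂] at h4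
    rw [Polynomial.eval₂_map, ← h4]
    congr 1
    refine RingHom.ext fun P => ?_
    rw [RingHom.comp_apply, RingHom.comp_apply, coeffMap_evS]
    rfl
  have h5 := hasExp_eval hF' (Q.map (Polynomial.mapRingHom σ))
  rw [h3] at h5
  apply Subtype.ext
  exact h5.fun_unique (qN_ne_zero 1) hasExp_zero

end Fermat.Agent.ESCore.Gal
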