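import Fermat.Agent.ESCore.GalG1

set_option autoImplicit false

/-!
# Diamond operators commute with the Galois action
-/

open UpperHalfPlane hiding I J
open Complex Function Filter Topology ModularForm Matrix.SpecialLinearGroup CongruenceSubgroup
open scoped Manifold MatrixGroups ModularForm
open Fermat.Agent.Eis16 Fermat.Agent.ES

noncomputable section

namespace Fermat.Agent.ESCore.Gal

variable {N : ℕ} {G : Subgroup SL(2, ℤ)} {h1 : Gamma1 N ≤ G} {h0 : G ≤ Gamma0 N} {m : ℕ}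

/-- Conjugation of forms on `G` commutes with the diamond operators (weights divisible by `12`). -/
def DiaConj (N : ℕ) (G : Subgroup SL(2, ℤ)) : Prop :=
  ∀ (σ : ℂ ≃+* ℂ) (n : ℕ) (f f' : ℍ → ℂ), f ∈ mform (1 : G →* ℂˣ) (12 * n) →
    f' ∈ mform (1 : G →* ℂˣ) (12 * n) → qExpansion 1 f' = (qExpansion 1 f).map (σ : ℂ →+* ℂ) →
    ∀ δ : Gamma0 N, qExpansion 1 (f' ∣[(12 * n : ℤ)] (δ : SL(2, ℤ))) =
      (qExpansion 1 (f ∣[(12 * n : ℤ)] (δ : SL(2, ℤ)))).map (σ : ℂ →+* ℂ)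

theorem diaChar_one' (δ : Gamma0 N) : diaChar h1 h0 δ (1 : G →* ℂˣ) = 1 := map_one _

theorem pow_mem_one {χ : G →* ℂˣ} (hχ : χ ∈ XGen G m) {n : ℕ} {F : ℍ → ℂ}
    (hF : F ∈ mform χ (12 * n)) : F ^ m ∈ mform (1 : G →* ℂˣ) (12 * (n * m : ℕ)) :=
  mform_congr (mform_pow hF m) hχ.1 (by push_cast; ring)

theorem T_mem_G (h1 : Gamma1 N ≤ G) : ModularGroup.T ∈ G := by
  refine h1 ?_
  rw [Gamma1_mem]
  simp [ModularGroup.coe_T]

/-- The `q`-expansion of `F ∣ δ` and of its conjugate, up to a root of unity. -/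
theorem dia_conj (hD : DiaConj N G) {χ χ' : G →* ℂˣ} (hχ : χ ∈ XDia h1 h0 m)
    (hχ' : χ' ∈ XGen G m) (σ : ℂ ≃+* ℂ) {n : ℕ} {F F' : ℍ → ℂ} (hF : F ∈ mform χ (12 * n))
    (hF' : F' ∈ mform χ' (12 * n)) (hq : qExpansion 1 F' = (qExpansion 1 F).map (σ : ℂ →+* ℂ))
    (δ : Gamma0 N) :
    HasQ 1 (F ∣[(12 * n : ℤ)] (δ : SL(2, ℤ))) (qExpansion 1 (F ∣[(12 * n : ℤ)] (δ : SL(2, ℤ)))) ∧
    ((F' ∣[(12 * n : ℤ)] (δ : SL(2, ℤ))) ^ m ∈ mform (1 : G →* ℂˣ) (12 * (n * m : ℕ))) ∧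
    HasQ 1 ((F' ∣[(12 * n : ℤ)] (δ : SL(2, ℤ))) ^ m)
      (((qExpansion 1 (F ∣[(12 * n : ℤ)] (δ : SL(2, ℤ)))).map (σ : ℂ →+* ℂ)) ^ m) := by
  have hT := T_mem_G h1
  have hFQ := hasQ_mform_G hT (XDia_le hχ).2 hF
  have hF'Q := hasQ_mform_G hT hχ'.2 hF'
  have hFδ : F ∣[(12 * n : ℤ)] (δ : SL(2, ℤ)) ∈ mform (diaChar h1 h0 δ χ) (12 * n) :=
    slash_mem_mform h1 h0 hF δ
  have hFδQ := hasQ_mform_G hT (mem_XDia.1 hχ δ).2 hFδ
  have hf := pow_mem_one (XDia_le hχ) hF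
  have hf' := pow_mem_one hχ' hF'
  have hqm : qExpansion 1 (F' ^ m) = (qExpansion 1 (F ^ m)).map (σ : ℂ →+* ℂ) := by
    rw [(hFQ.pow m).qExpansion_eq one_pos, (hF'Q.pow m).qExpansion_eq one_pos, hq, map_pow]
  have h2 := hD σ (n * m) _ _ hf hf' hqm δ
  have hs : ∀ H : ℍ → ℂ, (H ^ m) ∣[(12 * (n * m : ℕ) : ℤ)] (δ : SL(2, ℤ)) =
      (H ∣[(12 * n : ℤ)] (δ : SL(2, ℤ))) ^ m := by
    intro H
    rw [← slash_pow_SL2]
    congr 1
    push_cast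
    ring
  rw [hs, hs, (hFδQ.pow m).qExpansion_eq one_pos, map_pow] at h2
  have h3 : (F' ∣[(12 * n : ℤ)] (δ : SL(2, ℤ))) ^ m ∈ mform (1 : G →* ℂˣ) (12 * (n * m : ℕ)) := by
    have h4 := slash_mem_mform h1 h0 hf' δ
    rw [diaChar_one', hs] at h4
    exact h4
  refine ⟨hFδQ, h3, ?_⟩
  rw [← h2]
  exact hasQ_mform_G hT (χ := (1 : G →* ℂˣ)) (fun _ _ => rfl) h3

theorem root_mul_of_pow_eq (hm : 0 < m) {F F' : ℍ → ℂ} (hF : MDiff F) (hF' : MDiff F')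
    (h : F ^ m = F' ^ m) : ∃ ζ : ℂ, ζ ^ m = 1 ∧ F = ζ • F' := by
  have h2 : (⟨F, hF⟩ : HolRing) ^ m = (⟨F', hF'⟩ : HolRing) ^ m := Subtype.ext h
  obtain ⟨ζ, h3, h4⟩ := exists_root_mul hm h2
  exact ⟨ζ, h3, congrArg Subtype.val h4⟩

variable [G.FiniteIndex]

/-- The action of `Aut(ℂ)` commutes with the diamond operators. -/
theorem autXf_dia (hm : 0 < m) (hG : ConjStable G) (hD : DiaConj N G) (σ : ℂ ≃+* ℂ)
    (χ : XDia h1 h0 m) (δ : Gamma0 N) :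
    diaChar h1 h0 δ (autXf hm hG (T_mem_G h1) σ ⟨χ.1, XDia_le χ.2⟩).1 =
      (autXf hm hG (T_mem_G h1) σ ⟨diaChar h1 h0 δ χ.1, mem_XDia.1 χ.2 δ⟩).1 := by
  have hT := T_mem_G h1
  obtain ⟨F, hF, hF0⟩ := exists_form_G hm (XDia_le χ.2)
  have hF1 : F ∈ mform χ.1 (12 * (1 : ℕ)) := mform_congr hF rfl (by norm_num)
  obtain ⟨F', hF', hFq⟩ := autXf_spec hm hG hT σ ⟨χ.1, XDia_le χ.2⟩ hF1
  have hFδ : F ∣[(12 * (1 : ℕ) : ℤ)] (δ : SL(2, ℤ)) ∈ mform (diaChar h1 h0 δ χ.1) (12 * (1 : ℕ)) :=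
    slash_mem_mform h1 h0 hF1 δ
  obtain ⟨H, hH, hHq⟩ := autXf_spec hm hG hT σ ⟨diaChar h1 h0 δ χ.1, mem_XDia.1 χ.2 δ⟩ hFδ
  obtain ⟨e1, e2, e3⟩ := dia_conj hD χ.2
    (autXf hm hG hT σ ⟨χ.1, XDia_le χ.2⟩).2 σ hF1 hF' hFq δ
  have hHQ := hasQ_mform_G hT (autXf hm hG hT σ ⟨diaChar h1 h0 δ χ.1, mem_XDia.1 χ.2 δ⟩).2.2 hH
  have hpow : (F' ∣[(12 * (1 : ℕ) : ℤ)] (δ : SL(2, ℤ))) ^ m = H ^ m := by
    refine e3.ext ?_
    rw [← hHq]
    exact hHQ.pow m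
  have hF'δ : F' ∣[(12 * (1 : ℕ) : ℤ)] (δ : SL(2, ℤ)) ∈
      mform (diaChar h1 h0 δ (autXf hm hG hT σ ⟨χ.1, XDia_le χ.2⟩).1) (12 * (1 : ℕ)) :=
    slash_mem_mform h1 h0 hF' δ
  obtain ⟨ζ, hζ, h2⟩ := root_mul_of_pow_eq hm hH.1 hF'δ.1 hpow.symm
  have h3 : H ∈ mform (diaChar h1 h0 δ (autXf hm hG hT σ ⟨χ.1, XDia_le χ.2⟩).1)
      (12 * (1 : ℕ)) := by
    rw [h2]
    exact Submodule.smul_mem _ ζ hF'δ
  have hFδ0 : F ∣[(12 * (1 : ℕ) : ℤ)] (δ : SL(2, ℤ)) ≠ 0 := slash_ne_zero hF0 _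
  have hH0 : H ≠ 0 := conj_ne_zero hT (m := m) (χ := ⟨diaChar h1 h0 δ χ.1, mem_XDia.1 χ.2 δ⟩) σ
    hFδ hFδ0 hHq
  exact char_unique h3 hH hH0

theorem autXf_mem_XDia (hm : 0 < m) (hG : ConjStable G) (hD : DiaConj N G) (σ : ℂ ≃+* ℂ)
    (χ : XDia h1 h0 m) :
    (autXf hm hG (T_mem_G h1) σ ⟨χ.1, XDia_le χ.2⟩).1 ∈ XDia h1 h0 m := by
  rw [mem_XDia]
  intro δ
  rw [autXf_dia hm hG hD]
  exact (autXf hm hG (T_mem_G h1) σ ⟨diaChar h1 h0 δ χ.1, mem_XDia.1 χ.2 δ⟩).2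

/-- The Galois action on `XDia`. -/
def galXD (h1 : Gamma1 N ≤ G) (h0 : G ≤ Gamma0 N) (hm : 0 < m) (hG : ConjStable G)
    (hD : DiaConj N G) : GQ →* MulAut (XDia h1 h0 m) where
  toFun σ :=
    { toFun := fun χ => ⟨(galXG hm hG (T_mem_G h1) σ ⟨χ.1, XDia_le χ.2⟩).1,
        autXf_mem_XDia hm hG hD (ext σ) χ⟩
      invFun := fun χ => ⟨(galXG hm hG (T_mem_G h1) σ⁻¹ ⟨χ.1, XDia_le χ.2⟩).1,
        autXf_mem_XDia hm hG hD (ext σ⁻¹) χ⟩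
      left_inv := by
        intro χ
        apply Subtype.ext
        change (galXG hm hG (T_mem_G h1) σ⁻¹ (galXG hm hG (T_mem_G h1) σ ⟨χ.1, XDia_le χ.2⟩)).1 = χ.1
        rw [← MulAut.mul_apply, ← map_mul, inv_mul_cancel, map_one]
        rfl
      right_inv := by
        intro χ
        apply Subtype.ext
        change (galXG hm hG (T_mem_G h1) σ (galXG hm hG (T_mem_G h1) σ⁻¹ ⟨χ.1, XDia_le χ.2⟩)).1 = χ.1
        rw [← MulAut.mul_apply, ← map_mul, mul_inv_cancel, map_one]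
        rfl
      map_mul' := by
        intro χ ψ
        apply Subtype.ext
        have h := map_mul (galXG hm hG (T_mem_G h1) σ) ⟨χ.1, XDia_le χ.2⟩ ⟨ψ.1, XDia_le ψ.2⟩
        exact congrArg (fun z : XGen G m => z.1) h }
  map_one' := by
    ext1 χ
    apply Subtype.ext
    change (galXG hm hG (T_mem_G h1) 1 ⟨χ.1, XDia_le χ.2⟩).1 = χ.1
    rw [map_one]
    rfl
  map_mul' σ τ := by
    ext1 χ
    apply Subtype.ext
    change (galXG hm hG (T_mem_G h1) (σ * τ) ⟨χ.1, XDia_le χ.2⟩).1 =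
      (galXG hm hG (T_mem_G h1) σ (galXG hm hG (T_mem_G h1) τ ⟨χ.1, XDia_le χ.2⟩)).1
    rw [map_mul]
    rfl

variable (hm : 0 < m) (hG : ConjStable G) (hD : DiaConj N G)

theorem galXD_coe (σ : GQ) (χ : XDia h1 h0 m) :
    (galXD h1 h0 hm hG hD σ χ).1 = (galXG hm hG (T_mem_G h1) σ ⟨χ.1, XDia_le χ.2⟩).1 := rfl

/-- **The Galois action commutes with the diamond operators.** -/
theorem galXD_dia (σ : GQ) (δ : Gamma0 N) (χ : XDia h1 h0 m) :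
    diaX h1 h0 m δ (galXD h1 h0 hm hG hD σ χ) = galXD h1 h0 hm hG hD σ (diaX h1 h0 m δ χ) :=
  Subtype.ext (autXf_dia hm hG hD (ext σ) χ δ)

theorem galXD_continuous : ∃ L : IntermediateField ℚ Qb, FiniteDimensional ℚ L ∧
    ∀ σ : GQ, (∀ x ∈ L, σ x = x) → galXD h1 h0 hm hG hD σ = 1 := by
  obtain ⟨L, hL, h⟩ := galXG_continuous (m := m) hm hG (T_mem_G h1)
  refine ⟨L, hL, fun σ hσ => ?_⟩
  ext1 χ
  apply Subtype.ext
  rw [galXD_coe, h σ hσ]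
  rfl

/-- Conjugates of algebraic forms. -/
theorem galXD_spec (σ : GQ) (χ : XDia h1 h0 m) {n : ℕ} {F : ℍ → ℂ} (hF : F ∈ mform χ.1 (12 * n))
    (hF0 : F ≠ 0) {P : PowerSeries Qb} (hP : qExpansion 1 F = P.map ιC) :
    ∃ F' ∈ mform (galXD h1 h0 hm hG hD σ χ).1 (12 * n), F' ≠ 0 ∧
      qExpansion 1 F' = (gmap σ P).map ιC :=
  galXG_spec hm hG (T_mem_G h1) σ ⟨χ.1, XDia_le χ.2⟩ hF hF0 hP

include hm hD in
omit [G.FiniteIndex] in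
/-- The `q`-expansion of `F ∣ δ` is algebraic if that of `F` is. -/
theorem dia_algebraic (χ : XDia h1 h0 m) {n : ℕ} {F : ℍ → ℂ} (hF : F ∈ mform χ.1 (12 * n))
    {P : PowerSeries Qb} (hP : qExpansion 1 F = P.map ιC) (δ : Gamma0 N) :
    ∃ Q : PowerSeries Qb, qExpansion 1 (F ∣[(12 * n : ℤ)] (δ : SL(2, ℤ))) = Q.map ιC := by
  have key : ∀ j, ∃ y : Qb, ιC y = (qExpansion 1 (F ∣[(12 * n : ℤ)] (δ : SL(2, ℤ)))).coeff j := by
    intro j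
    by_contra hcon
    push Not at hcon
    set x := (qExpansion 1 (F ∣[(12 * n : ℤ)] (δ : SL(2, ℤ)))).coeff j with hx
    -- automorphisms moving `x`
    have hmul : ∀ σ : ℂ ≃+* ℂ, (∀ c : Qb, σ (ιC c) = ιC c) → ∃ ζ : ℂ, ζ ^ m = 1 ∧ x = ζ * σ x := by
      intro σ hσ
      have hq : qExpansion 1 F = (qExpansion 1 F).map (σ : ℂ →+* ℂ) := by
        rw [hP]
        ext i
        rw [PowerSeries.coeff_map, PowerSeries.coeff_map]
        exact (hσ _).symm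
      obtain ⟨e1, e2, e3⟩ := dia_conj hD χ.2 (XDia_le χ.2) σ hF hF hq δ
      have h2 := (e1.pow m).unique one_pos e3
      have h3 : ∃ ζ : ℂ, ζ ^ m = 1 ∧ qExpansion 1 (F ∣[(12 * n : ℤ)] (δ : SL(2, ℤ))) =
          ζ • (qExpansion 1 (F ∣[(12 * n : ℤ)] (δ : SL(2, ℤ)))).map (σ : ℂ →+* ℂ) :=
        exists_root_mul hm h2
      obtain ⟨ζ, hζ, h4⟩ := h3
      refine ⟨ζ, hζ, ?_⟩
      have h5 := congrArg (PowerSeries.coeff j) h4
      rw [PowerSeries.coeff_smul, PowerSeries.coeff_map, smul_eq_mul] at h5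
      exact h5
    have hx0 : x ≠ 0 := fun h => hcon 0 (by rw [map_zero, h])
    choose σ hσ1 hσ2 using exists_shift hcon
    choose ζ hζ1 hζ2 using fun k : ℕ => hmul (σ k) (hσ1 k)
    -- `ζ` is injective but takes finitely many values
    have hinj : Function.Injective ζ := by
      intro k k' h
      have h5 := hζ2 k
      have h6 := hζ2 k'
      rw [hσ2] at h5 h6
      have hζ0 : ζ k' ≠ 0 := by
        intro h7
        rw [h7, zero_mul] at h6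
        exact hx0 h6
      rw [h] at h5
      have h7 : ζ k' * (x + k) = ζ k' * (x + k') := h5.symm.trans h6
      have h8 := add_left_cancel (mul_left_cancel₀ hζ0 h7)
      exact_mod_cast h8
    have hfin : (Set.range ζ).Finite := by
      refine Set.Finite.subset (Polynomial.nthRootsFinset m (1 : ℂ)).finite_toSet ?_
      rintro _ ⟨k, rfl⟩
      rw [Finset.mem_coe, Polynomial.mem_nthRootsFinset hm]
      exact hζ1 k
    exact (Set.infinite_range_of_injective hinj) hfin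
  choose y hy using key
  refine ⟨PowerSeries.mk y, ?_⟩
  ext j
  rw [PowerSeries.coeff_map, PowerSeries.coeff_mk, hy]

end Fermat.Agent.ESCore.Gal
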