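import Fermat.Agent.ESCore.GalCharPoly

set_option autoImplicit false

/-!
# Conjugates of `m`-th powers have zeros of order divisible by `m` (D0)
-/

open UpperHalfPlane hiding I J
open Complex Function Filter Topology ModularForm
open scoped Manifold MatrixGroups ModularForm
open Fermat.Agent.ModFun

noncomputable section

namespace Fermat.Agent.ESCore.Gal

/-- the ramification of `j` -/
def ramJ (c : ℂ) : ℕ := if c = 0 then 3 else if c = 1728 then 2 else 1

theorem ramJ_pos (c : ℂ) : 0 < ramJ c := by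
  unfold ramJ
  split_ifs <;> norm_num

theorem ordJ (τ₀ : ℍ) : analyticOrderAt (fun z => JH.1 (ofComplex z) - JH.1 τ₀) (τ₀ : ℂ) =
    (ramJ (J τ₀) : ℕ∞) := by
  have h : analyticOrderAt (fun z => JH.1 (ofComplex z) - JH.1 τ₀) (τ₀ : ℂ) =
    ordH τ₀ (J - fun _ => J τ₀) := rfl
  rw [h, ramJ]
  split_ifs with h0 h1
  · rw [h0]
    have h2 : (J - fun _ => (0 : ℂ)) = J := by
      ext τ
      simp
    rw [h2, ordH_J_three τ₀ h0]
    norm_num
  · rw [h1, ordH_J_two τ₀ h1]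
    norm_num
  · rw [ordH_J_one τ₀ h0 h1]
    norm_num

theorem ramJ_map (σ : ℂ →+* ℂ) (c : ℂ) : ramJ (σ c) = ramJ c := by
  unfold ramJ
  have h1 : σ c = 0 ↔ c = 0 := map_eq_zero σ
  have h2 : σ c = 1728 ↔ c = 1728 := by
    have h3 : σ 1728 = 1728 := map_ofNat σ 1728
    constructor
    · intro h
      rw [← h3] at h
      exact σ.injective h
    · rintro rfl
      exact h3
  simp only [h1, h2]

variable {G : Subgroup SL(2, ℤ)} [G.FiniteIndex]

/-- **(D0)** The conjugate of a modular function whose cosets are all `m`-th powers has all its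
zeros of order divisible by `m`. -/
theorem order_dvd (σ : ℂ ≃+* ℂ) {m : ℕ} {f f' : HolRing} (hf : (f : ℍ → ℂ) ∈ MB)
    (hinv : IsInvG G (f : ℍ → ℂ)) (hpow : ∀ x : CS G, ∃ g : HolRing, cosH x hf = g ^ m)
    {F : LaurentSeries ℂ} (hF : HasExp (RingHom.id ℂ) (qN 1) (f : ℍ → ℂ) F)
    (hF' : HasExp (RingHom.id ℂ) (qN 1) (f' : ℍ → ℂ) (ModularCurve.coeffMap (σ : ℂ →+* ℂ) F))
    (τ₀ : ℍ) : ∃ n : ℕ∞, ordH τ₀ (f' : ℍ → ℂ) = m • n := by
  classical
  choose g hg using hpow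
  obtain ⟨Q, hQ⟩ := exists_charpolyG hf hinv
  -- the relation for `f`
  have h0 : Q.eval₂ (evJ : Polynomial ℂ →+* HolRing) f = 0 := by
    rw [← Polynomial.eval_map, hQ, Polynomial.eval_prod]
    refine Finset.prod_eq_zero (Finset.mem_univ ((1 : SL(2, ℤ)) : CS G)) ?_
    rw [Polynomial.eval_sub, Polynomial.eval_X, Polynomial.eval_C, sub_eq_zero]
    exact Subtype.ext (cosHom_one hinv).symm
  have h1 := eval_conj (σ : ℂ →+* ℂ) hF hF' Q h0
  -- the other point
  obtain ⟨τ₁, hτ₁⟩ := J_surjective (σ.symm (J τ₀))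
  have hc : (σ : ℂ →+* ℂ) (J τ₁) = J τ₀ := by
    rw [hτ₁]
    exact σ.apply_symm_apply _
  have he : ramJ (J τ₁) = ramJ (J τ₀) := by rw [← hc, ramJ_map]
  set e := ramJ (J τ₀) with hedef
  obtain ⟨ψ₀, hψ₀, hψ₀'⟩ := exists_local_param JH τ₀ e (ramJ_pos _) (ordJ τ₀)
  obtain ⟨ψ₁, hψ₁, hψ₁'⟩ := exists_local_param JH τ₁ e (ramJ_pos _) (by rw [ordJ τ₁, he])
  set S : PowerSeries ℂ →+* PowerSeries ℂ := PowerSeries.map (σ : ℂ →+* ℂ) with hS
  -- compatibility of the evaluations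
  have hcomp : S.comp ((ψ₁ : HolRing →+* PowerSeries ℂ).comp (evJ : Polynomial ℂ →+* HolRing)) =
      ((ψ₀ : HolRing →+* PowerSeries ℂ).comp (evJ : Polynomial ℂ →+* HolRing)).comp
        (Polynomial.mapRingHom (σ : ℂ →+* ℂ)) := by
    refine Polynomial.ringHom_ext (fun a => ?_) ?_
    · simp only [RingHom.comp_apply, Polynomial.coe_mapRingHom, Polynomial.map_C]
      have e1 : ∀ b : ℂ, (evJ : Polynomial ℂ →+* HolRing) (Polynomial.C b) =
        algebraMap ℂ HolRing b := fun b => Polynomial.aeval_C _ _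
      rw [e1, e1]
      change S (ψ₁ (algebraMap ℂ HolRing a)) = ψ₀ (algebraMap ℂ HolRing (σ a))
      rw [AlgHom.commutes, AlgHom.commutes]
      change S (PowerSeries.C a) = PowerSeries.C (σ a)
      rw [hS, PowerSeries.map_C]
      rfl
    · simp only [RingHom.comp_apply, Polynomial.coe_mapRingHom, Polynomial.map_X]
      have e1 : (evJ : Polynomial ℂ →+* HolRing) Polynomial.X = JH := Polynomial.aeval_X _
      rw [e1]
      change S (ψ₁ JH) = ψ₀ JH
      rw [hψ₁, hψ₀, map_add, map_pow, hS, PowerSeries.map_C, PowerSeries.map_X]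
      change PowerSeries.C ((σ : ℂ →+* ℂ) (J τ₁)) + _ = _
      rw [hc]
      rfl
  -- the product formula
  have h2 : ∏ x : CS G, (ψ₀ f' - S (ψ₁ (g x)) ^ m) = 0 := by
    have h3 := congrArg (ψ₀ : HolRing →+* PowerSeries ℂ) h1
    rw [Polynomial.hom_eval₂, map_zero, Polynomial.eval₂_map, ← hcomp] at h3
    have h4 : Q.eval₂ (S.comp ((ψ₁ : HolRing →+* PowerSeries ℂ).comp
        (evJ : Polynomial ℂ →+* HolRing))) (ψ₀ f') =
        ((Q.map (evJ : Polynomial ℂ →+* HolRing)).map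
          (S.comp (ψ₁ : HolRing →+* PowerSeries ℂ))).eval (ψ₀ f') := by
      rw [Polynomial.map_map, Polynomial.eval_map]
      rfl
    rw [← h3]
    refine Eq.trans ?_ h4.symm
    rw [hQ, Polynomial.map_prod, Polynomial.eval_prod]
    refine Finset.prod_congr rfl fun x _ => ?_
    rw [hg x, Polynomial.map_sub, Polynomial.map_X, Polynomial.map_C, Polynomial.eval_sub,
      Polynomial.eval_X, Polynomial.eval_C, map_pow]
    rfl
  obtain ⟨x, -, hx⟩ := Finset.prod_eq_zero_iff.mp h2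
  rw [sub_eq_zero] at hx
  refine ⟨(S (ψ₁ (g x))).order, ?_⟩
  have h5 : ordH τ₀ (f' : ℍ → ℂ) = (ψ₀ f').order := (hψ₀' f').symm
  rw [h5, hx, PowerSeries.order_pow]

end Fermat.Agent.ESCore.Gal
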