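import Fermat.Agent.ESCore.HauptAux
import Fermat.Agent.ESCore.LocalParam
import Fermat.Prelude.Thm_ModularForm_sturm_bound_Gamma0

/-!
# Hauptmoduln of levels 2 and 3

`t2 = Δ(2τ)/Δ(τ)` and `t3 = (η(3τ)/η(τ))^12`.
-/

set_option autoImplicit false

open Matrix.SpecialLinearGroup CongruenceSubgroup ModularGroup
open scoped MatrixGroups ModularForm Manifold
open UpperHalfPlane hiding I
open Complex (I)
open ModularForm (E₄ E₆)
open Fermat.Agent.Eis16

noncomputable section

namespace Fermat.Agent.ESCore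

local notation "𝕢" => Function.Periodic.qParam
local notation "ΓGL" p => (Subgroup.map (Matrix.SpecialLinearGroup.mapGL ℝ) (Gamma0 p))
local notation "Δ" => ModularForm.discriminant

theorem eq_zero_of_sturm (p : ℕ) [hp : Fact p.Prime] (k : ℕ) (f : ℍ → ℂ)
    (hinv : ∀ g ∈ Gamma0 p, ∀ τ, f (g • τ) = denom g τ ^ k * f τ) (A : PowerSeries ℤ)
    (hA : HasQ 1 f (toC A)) (G : ℍ → ℂ) (B : PowerSeries ℂ) (hB : HasQ 1 G B)
    (hS : ∀ τ : ℍ, f (S • τ) = (τ : ℂ) ^ k * G (dn p τ))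
    (h0 : ∀ n ≤ k * (p + 1) / 12, A.coeff n = 0) : f = 0 := by
  have hinv' : ∀ g ∈ Gamma0 p, f ∣[(k : ℤ)] g = f := by
    intro g hg
    ext τ
    rw [ModularForm.SL_slash_apply, hinv g hg, zpow_neg, zpow_natCast]
    have : denom g τ ≠ 0 := denom_ne_zero _ _
    field_simp
  have hS' : f ∣[(k : ℤ)] S = fun τ => G (dn p τ) := by
    ext τ
    rw [slash_S_apply, hS, zpow_neg, zpow_natCast]
    have : (τ : ℂ) ≠ 0 := τ.ne_zero
    field_simp
  have hB' : HasQ p (f ∣[(k : ℤ)] S) B := by rw [hS']; exact HasQ.dn p hB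
  have key := ModularForm.sturm_bound_Gamma0 p (mkForm (k : ℤ) f hinv' (toC A) B hA hB') (by
    intro n hn
    rw [coe_mkForm, hA.qExpansion_eq one_pos, coeff_toC, h0 n, Int.cast_zero]
    refine hn.trans (le_of_eq ?_)
    have hidx : (Gamma0 p).index = p + 1 := by
      rw [Gamma0Comb.index_Gamma0]
      have := Gamma0Comb.dedekindPsi_prime_pow hp.out 0
      simpa using this
    rw [hidx]
    congr 1)
  have := congrArg (fun F : ModularForm (ΓGL p) k => (F : ℍ → ℂ)) key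
  exact this

lemma CoL.expand {A : PowerSeries ℤ} {l : List ℤ} (hA : CoL A l) (p : ℕ) (hp : p ≠ 0) :
    CoL (PowerSeries.expand p hp A)
      ((List.range l.length).map fun n => if p ∣ n then l.getD (n / p) 0 else 0) := by
  intro n hn
  have hn' : n < l.length := by simpa using hn
  rw [PowerSeries.coeff_expand]
  have h1 : ((List.range l.length).map fun n => if p ∣ n then l.getD (n / p) 0 else 0).getD n 0 =
      if p ∣ n then l.getD (n / p) 0 else 0 := by
    simp [List.getD_eq_getElem?_getD, hn']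
  rw [h1]
  split_ifs with h
  · exact hA _ (lt_of_le_of_lt (Nat.div_le_self _ _) hn')
  · rfl

/-! ### level 2 -/

lemma coL_US2 : CoL (US 2) [0, 1, 8, 28, 64, 126] :=
  ((coL_sigSer3).sub (coL_sigSer3.expand 2 _) (by decide)).congr (by decide)

lemma coL_VS2 : CoL (VS 2 16) [1, -16, 112, -448, 1136, -2016] :=
  ((coL_one 5).add ((((coL_sigSer3.expand 2 two_ne_zero).smul ((2 : ℕ) ^ 4 : ℤ)).sub coL_sigSer3
    (by decide)).smul 16) (by decide)).congr (by decide)

lemma hκ2 : (16 : ℤ) * (((2 : ℕ) : ℤ) ^ 4 - 1) = 240 := by norm_num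

lemma hasQ_u2 : HasQ 1 (uF 2) (toC (US 2)) := hasQ_uF 2
lemma hasQ_v2 : HasQ 1 (vF 2) (toC (VS 2 16)) := hasQ_vF 2 hκ2

/-- `Δ = v² u` at level 2 -/
theorem D_eq_v2u (τ : ℍ) : Δ τ = vF 2 τ ^ 2 * uF 2 τ := by
  have key := eq_zero_of_sturm 2 12 (vF 2 ^ 2 * uF 2 - Δ) (by
      intro g hg τ
      simp only [Pi.sub_apply, Pi.mul_apply, Pi.pow_apply]
      rw [vF_smul 2 g hg, uF_smul 2 g hg, D_smul]; ring)
    (VS 2 16 ^ 2 * US 2 - DZ) (by
      rw [map_sub, map_mul, map_pow]
      exact ((hasQ_v2.pow 2).mul hasQ_u2).sub hasQ_Delta)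
    (uF 2 ^ 2 * vF 2 - Dp 2) _ (((hasQ_u2.pow 2).mul hasQ_v2).sub (hasQ_Dp 2)) (by
      intro τ
      simp only [Pi.sub_apply, Pi.mul_apply, Pi.pow_apply]
      rw [vF_S 2 hκ2, uF_S 2 hκ2, D_S, D_eq_dn 2 τ]
      push_cast
      ring) (by
      have h : CoL (VS 2 16 ^ 2 * US 2 - DZ) [0, 0, 0, 0, 0, 0] := by
        rw [pow_two]
        exact (((coL_VS2.mul coL_VS2 (by decide)).mul coL_US2 (by decide)).sub coL_DZ
          (by decide)).congr (by decide)
      intro n hn
      rw [h n (by simp only [List.length_cons, List.length_nil]; omega)]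
      interval_cases n <;> rfl)
  have := congrFun key τ
  simp only [Pi.sub_apply, Pi.mul_apply, Pi.pow_apply, Pi.zero_apply] at this
  linear_combination -this

/-! ### general theory of functions `t` with `t v = u` -/

lemma mdiff_up (p : ℕ) [NeZero p] {f : ℍ → ℂ} (hf : MDiff f) : MDiff (fun τ => f (up p τ)) := by
  rw [UpperHalfPlane.mdifferentiable_iff] at hf ⊢
  have hp : (0 : ℝ) < p := Nat.cast_pos.2 (Nat.pos_of_ne_zero (NeZero.ne p))
  have him : ∀ z : ℂ, 0 < z.im → 0 < ((p : ℂ) * z).im := by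
    intro z hz
    simpa using mul_pos hp hz
  have h1 : DifferentiableOn ℂ (fun z : ℂ => (f ∘ ofComplex) ((p : ℂ) * z)) {z | 0 < z.im} :=
    hf.comp (by fun_prop) (fun z hz => him z hz)
  refine h1.congr fun z hz => ?_
  simp only [Function.comp_apply]
  rw [ofComplex_apply_of_im_pos hz, ofComplex_apply_of_im_pos (him z hz)]
  rfl

lemma mdiff_dn (p : ℕ) [NeZero p] {f : ℍ → ℂ} (hf : MDiff f) : MDiff (fun τ => f (dn p τ)) := by
  rw [UpperHalfPlane.mdifferentiable_iff] at hf ⊢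
  have hp : (0 : ℝ) < p := Nat.cast_pos.2 (Nat.pos_of_ne_zero (NeZero.ne p))
  have him : ∀ z : ℂ, 0 < z.im → 0 < (z / (p : ℂ)).im := by
    intro z hz
    rw [Complex.div_natCast_im]
    exact div_pos hz hp
  have h1 : DifferentiableOn ℂ (fun z : ℂ => (f ∘ ofComplex) (z / (p : ℂ))) {z | 0 < z.im} :=
    hf.comp (by fun_prop) (fun z hz => him z hz)
  refine h1.congr fun z hz => ?_
  simp only [Function.comp_apply]
  rw [ofComplex_apply_of_im_pos hz, ofComplex_apply_of_im_pos (him z hz)]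
  rfl

lemma mdiff_smul (g : SL(2, ℤ)) {f : ℍ → ℂ} (hf : MDiff f) : MDiff (fun τ => f (g • τ)) := by
  have h : 0 < ((g : GL (Fin 2) ℝ)).det.val := by simp
  exact hf.comp (UpperHalfPlane.mdifferentiable_smul h)

lemma coeff_zero_VS (p : ℕ) [NeZero p] (κ : ℤ) : PowerSeries.constantCoeff (VS p κ) = 1 := by
  rw [VS]
  simp [sigSer]

/-- the `q`-expansion of the Hauptmodul -/
def TS (p : ℕ) [NeZero p] (κ : ℤ) : PowerSeries ℤ := PowerSeries.invOfUnit (VS p κ) 1 * US p

lemma VS_mul_inv (p : ℕ) [NeZero p] (κ : ℤ) : VS p κ * PowerSeries.invOfUnit (VS p κ) 1 = 1 := by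
  apply PowerSeries.mul_invOfUnit
  rw [coeff_zero_VS]; rfl

lemma VS_mul_TS (p : ℕ) [NeZero p] (κ : ℤ) : VS p κ * TS p κ = US p := by
  rw [TS, ← mul_assoc, VS_mul_inv, one_mul]

/-- A holomorphic function `t` with `t v = u`. -/
structure HauptFn (p : ℕ) [NeZero p] (κ : ℤ) where
  hκ : κ * ((p : ℤ) ^ 4 - 1) = 240
  hp1 : p ≠ 1
  t : ℍ → ℂ
  mdiff : MDiff t
  mul_v : ∀ τ, t τ * vF p τ = uF p τ

namespace HauptFn

variable {p : ℕ} [NeZero p] {κ : ℤ} (H : HauptFn p κ)

include H in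
lemma mdiff_v : MDiff (vF p) := (hasQ_vF p H.hκ).mdiff one_pos

include H in
lemma v_ne_zero : vF p ≠ 0 := by
  intro h0
  have h1 := (hasQ_vF p H.hκ).unique one_pos (by rw [h0]; exact HasQ.zero 1)
  have h2 := congrArg (PowerSeries.coeff 0) h1
  rw [coeff_toC, PowerSeries.coeff_zero_eq_constantCoeff_apply, coeff_zero_VS] at h2
  simp at h2

include H in
/-- cancellation of `v` -/
lemma cancel {f : ℍ → ℂ} (hf : MDiff f) (h : ∀ τ, f τ * vF p τ = 0) : f = 0 := by
  have h1 : (⟨f, hf⟩ : HolRing) * ⟨vF p, H.mdiff_v⟩ = 0 := by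
    apply Subtype.ext
    funext τ
    exact h τ
  rcases mul_eq_zero.mp h1 with h2 | h2
  · exact congrArg Subtype.val h2
  · exact absurd (congrArg Subtype.val h2) H.v_ne_zero

theorem smul (g : SL(2, ℤ)) (hg : g ∈ Gamma0 p) (τ : ℍ) : H.t (g • τ) = H.t τ := by
  have key := H.cancel (f := fun τ => H.t (g • τ) - H.t τ)
    ((mdiff_smul g H.mdiff).sub H.mdiff) (by
      intro τ
      have h1 := H.mul_v (g • τ)
      rw [uF_smul p g hg, vF_smul p g hg, ← H.mul_v τ] at h1
      have h2 : denom g τ ^ 4 ≠ 0 := pow_ne_zero _ (denom_ne_zero _ _)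
      apply mul_left_cancel₀ h2
      linear_combination h1)
  have := congrFun key τ
  simp only [Pi.zero_apply] at this
  exact sub_eq_zero.mp this

/-- the Fricke relation -/
theorem fricke (τ : ℍ) : (κ : ℂ) ^ 2 * p ^ 4 * (H.t (S • τ) * H.t (dn p τ)) = 1 := by
  have hκ0 := κ_ne p H.hκ
  have hp0 := p_ne p
  have key := H.cancel (f := fun τ => (κ : ℂ) ^ 2 * p ^ 4 * (H.t (S • up p τ) * H.t τ) - 1)
    (by
      refine MDifferentiable.sub (MDifferentiable.mul mdifferentiable_const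
        (MDifferentiable.mul (mdiff_up p (mdiff_smul S H.mdiff)) H.mdiff))
        mdifferentiable_const) (by
      intro τ
      have h1 := H.mul_v (S • up p τ)
      rw [uF_S p H.hκ, vF_S p H.hκ, dn_up, ← H.mul_v τ] at h1
      have h2 : ((up p τ : ℍ) : ℂ) ^ 4 ≠ 0 := pow_ne_zero _ (up p τ).ne_zero
      apply mul_left_cancel₀ h2
      have h3 : ((up p τ : ℍ) : ℂ) ^ 4 * (1 / (κ * p ^ 4) * vF p τ) * (κ * p ^ 4) =
        ((up p τ : ℍ) : ℂ) ^ 4 * vF p τ := by field_simp
      linear_combination (κ * p ^ 4) * h1 + h3)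
  have := congrFun key (dn p τ)
  simp only [Pi.zero_apply, up_dn] at this
  linear_combination this

theorem ne_zero (τ : ℍ) : H.t τ ≠ 0 := by
  intro h0
  have := H.fricke (up p τ)
  rw [dn_up, h0] at this
  simp at this

theorem hasQ : HasQ 1 H.t (toC (TS p κ)) := by
  have hu := hasQ_uF p
  have hv := hasQ_vF p H.hκ
  have hT : ∀ τ : ℍ, H.t ((1 : ℝ) +ᵥ τ) = H.t τ := by
    intro τ
    rw [← modular_T_smul]
    exact H.smul T (by rw [mem_Gamma0_iff]; simp [coe_T]) τ
  have hper : Function.Periodic (H.t ∘ ofComplex) (1 : ℝ) := by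
    have := ModFun.periodic_ofComplex (h := 1) hT
    exact_mod_cast this
  have hb : IsBoundedAtImInfty H.t := by
    have h1 : Filter.Tendsto (fun τ => uF p τ / vF p τ) atImInfty
        (nhds ((toC (US p)).coeff 0 / (toC (VS p κ)).coeff 0)) := by
      apply (hu.tendsto one_pos).div (hv.tendsto one_pos)
      rw [coeff_toC, PowerSeries.coeff_zero_eq_constantCoeff_apply, coeff_zero_VS]
      simp
    have h2 : ∀ᶠ τ in atImInfty, vF p τ ≠ 0 := by
      apply (hv.tendsto one_pos).eventually_ne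
      rw [coeff_toC, PowerSeries.coeff_zero_eq_constantCoeff_apply, coeff_zero_VS]
      simp
    have h3 : (fun τ => uF p τ / vF p τ) =ᶠ[atImInfty] H.t := by
      filter_upwards [h2] with τ hτ
      rw [div_eq_iff hτ, H.mul_v]
    exact (h1.congr' h3).isBigO_one ℝ
  have hq := HasQ.of_periodic one_pos hper H.mdiff hb
  have h4 := (hq.mul hv).unique one_pos (hu.congr (fun τ => (H.mul_v τ).symm))
  have h5 : UpperHalfPlane.qExpansion 1 H.t = toC (TS p κ) := by
    rw [TS, map_mul, ← h4]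
    have h6 : toC (VS p κ) * toC (PowerSeries.invOfUnit (VS p κ) 1) = 1 := by
      rw [← map_mul, VS_mul_inv, map_one]
    linear_combination (-UpperHalfPlane.qExpansion 1 H.t) * h6
  rwa [h5] at hq

end HauptFn

end Fermat.Agent.ESCore
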