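import Fermat.Agent.Eis16.LevelOne
import Fermat.Agent.Eis16.Forms
import Fermat.Agent.Gamma0Comb.Cusps
import Fermat.Agent.ModFun.JOrder

/-!
# Level `p` forms built from `E₄(τ)`, `E₄(pτ)`, `Δ(τ)`, `Δ(pτ)`
-/

set_option autoImplicit false

open Matrix.SpecialLinearGroup CongruenceSubgroup ModularGroup
open scoped MatrixGroups ModularForm Manifold
open UpperHalfPlane hiding I
open Complex (I)
open ModularForm (E₄ E₆)
open Fermat.Agent.Eis16

noncomputable section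

namespace Fermat.Agent.ESCore

local notation "𝕢" => Function.Periodic.qParam
local notation "ΓGL" p => (Subgroup.map (Matrix.SpecialLinearGroup.mapGL ℝ) (Gamma0 p))

/-! ### coefficient lists -/

/-- the first coefficients of `A` are given by the list `l` -/
def CoL (A : PowerSeries ℤ) (l : List ℤ) : Prop := ∀ n < l.length, A.coeff n = l.getD n 0

/-- truncated product of coefficient lists -/
def convL (l l' : List ℤ) : List ℤ :=
  (List.range l.length).map fun n => ∑ i ∈ Finset.range (n + 1), l.getD i 0 * l'.getD (n - i) 0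

lemma getD_convL (l l' : List ℤ) {n : ℕ} (hn : n < l.length) :
    (convL l l').getD n 0 = ∑ i ∈ Finset.range (n + 1), l.getD i 0 * l'.getD (n - i) 0 := by
  simp [convL, List.getD_eq_getElem?_getD, hn]

lemma CoL.mul {A B : PowerSeries ℤ} {l l' : List ℤ} (hA : CoL A l) (hB : CoL B l')
    (hl : l.length ≤ l'.length) : CoL (A * B) (convL l l') := by
  intro n hn
  have hn' : n < l.length := by simpa [convL] using hn
  rw [PowerSeries.coeff_mul, Finset.Nat.sum_antidiagonal_eq_sum_range_succ_mk, getD_convL l l' hn']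
  refine Finset.sum_congr rfl fun i hi => ?_
  have hi' := Finset.mem_range.mp hi
  rw [hA i (by omega), hB (n - i) (by omega)]

lemma CoL.add {A B : PowerSeries ℤ} {l l' : List ℤ} (hA : CoL A l) (hB : CoL B l')
    (hl : l.length = l'.length) : CoL (A + B) (List.zipWith (· + ·) l l') := by
  intro n hn
  have hn' : n < l.length := by simp at hn; omega
  have hn'' : n < l'.length := by omega
  rw [map_add, hA n hn', hB n hn'']
  simp [List.getD_eq_getElem?_getD, hn', hn'']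

lemma CoL.sub {A B : PowerSeries ℤ} {l l' : List ℤ} (hA : CoL A l) (hB : CoL B l')
    (hl : l.length = l'.length) : CoL (A - B) (List.zipWith (· - ·) l l') := by
  intro n hn
  have hn' : n < l.length := by simp at hn; omega
  have hn'' : n < l'.length := by omega
  rw [map_sub, hA n hn', hB n hn'']
  simp [List.getD_eq_getElem?_getD, hn', hn'']

lemma CoL.smul {A : PowerSeries ℤ} {l : List ℤ} (c : ℤ) (hA : CoL A l) :
    CoL (PowerSeries.C c * A) (l.map (c * ·)) := by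
  intro n hn
  have hn' : n < l.length := by simpa using hn
  rw [PowerSeries.coeff_C_mul, hA n hn']
  simp [List.getD_eq_getElem?_getD, hn']

lemma CoL.congr {A : PowerSeries ℤ} {l l' : List ℤ} (hA : CoL A l) (h : l = l') : CoL A l' :=
  h ▸ hA

lemma coL_one (n : ℕ) : CoL 1 (1 :: List.replicate n 0) := by
  intro m hm
  rw [PowerSeries.coeff_one]
  cases m with
  | zero => simp
  | succ m =>
    have : m < n := by simpa using hm
    simp [List.getD_eq_getElem?_getD, this]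

lemma coL_sigSer3 : CoL (sigSer 3) [0, 1, 9, 28, 73, 126] := by
  intro n hn
  rw [sigSer, PowerSeries.coeff_mk]
  simp only [List.length_cons, List.length_nil] at hn
  interval_cases n <;> rfl

lemma coL_sigSer5 : CoL (sigSer 5) [0, 1, 33, 244, 1057, 3126] := by
  intro n hn
  rw [sigSer, PowerSeries.coeff_mk]
  simp only [List.length_cons, List.length_nil] at hn
  interval_cases n <;> rfl

lemma coL_auxC : CoL auxC [0, 1, 23, 154, 647, 1876] := by
  intro n hn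
  rw [auxC, PowerSeries.coeff_mk]
  simp only [List.length_cons, List.length_nil] at hn
  interval_cases n <;> rfl

lemma coL_DZ : CoL DZ [0, 1, -24, 252, -1472, 4830] := by
  have h : DZ = auxC + PowerSeries.C 100 * (sigSer 3 * sigSer 3)
      + PowerSeries.C 8000 * (sigSer 3 * sigSer 3 * sigSer 3)
      - PowerSeries.C 147 * (sigSer 5 * sigSer 5) := by
    rw [DZ]
    have h1 : (100 : PowerSeries ℤ) = PowerSeries.C (100 : ℤ) := by simp
    have h2 : (8000 : PowerSeries ℤ) = PowerSeries.C (8000 : ℤ) := by simp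
    have h3 : (147 : PowerSeries ℤ) = PowerSeries.C (147 : ℤ) := by simp
    rw [h1, h2, h3]; ring
  rw [h]
  have s33 := coL_sigSer3.mul coL_sigSer3 (by decide)
  have s333 := s33.mul coL_sigSer3 (by decide)
  have s55 := coL_sigSer5.mul coL_sigSer5 (by decide)
  have := ((coL_auxC.add (s33.smul 100) (by decide)).add (s333.smul 8000) (by decide)).sub
    (s55.smul 147) (by decide)
  exact this.congr (by decide)

/-! ### the functions -/

section Fn

variable (p : ℕ) [NeZero p]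

/-- `E₄(pτ)` -/
def E4p (τ : ℍ) : ℂ := E₄ (up p τ)

/-- `Δ(pτ)` -/
def Dp (τ : ℍ) : ℂ := ModularForm.discriminant (up p τ)

lemma E4_smul (g : SL(2, ℤ)) (τ : ℍ) : E₄ (g • τ) = denom g τ ^ 4 * E₄ τ := by
  have := ModFun.smul_of_SL E₄ g τ
  exact_mod_cast this

lemma D_smul (g : SL(2, ℤ)) (τ : ℍ) : ModularForm.discriminant (g • τ) =
    denom g τ ^ 12 * ModularForm.discriminant τ := by
  have := ModFun.discriminant_smul g τ
  exact_mod_cast this

lemma E4p_smul (g : SL(2, ℤ)) (hg : g ∈ Gamma0 p) (τ : ℍ) :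
    E4p p (g • τ) = denom g τ ^ 4 * E4p p τ := by
  rw [E4p, up_smul g hg, E4_smul, denom_cj, E4p]

lemma Dp_smul (g : SL(2, ℤ)) (hg : g ∈ Gamma0 p) (τ : ℍ) :
    Dp p (g • τ) = denom g τ ^ 12 * Dp p τ := by
  rw [Dp, up_smul g hg, D_smul, denom_cj, Dp]

lemma E4_S (τ : ℍ) : E₄ (S • τ) = (τ : ℂ) ^ 4 * E₄ τ := by
  rw [E4_smul, denom_S]

lemma D_S (τ : ℍ) : ModularForm.discriminant (S • τ) =
    (τ : ℂ) ^ 12 * ModularForm.discriminant τ := by
  rw [D_smul, denom_S]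

lemma E4p_S (τ : ℍ) : E4p p (S • τ) = ((τ : ℂ) / p) ^ 4 * E₄ (dn p τ) := by
  rw [E4p, up_S, E4_S, coe_dn]

lemma Dp_S (τ : ℍ) : Dp p (S • τ) = ((τ : ℂ) / p) ^ 12 * ModularForm.discriminant (dn p τ) := by
  rw [Dp, up_S, D_S, coe_dn]

lemma E4_eq_dn (τ : ℍ) : E₄ τ = E4p p (dn p τ) := by rw [E4p, up_dn]

lemma D_eq_dn (τ : ℍ) : ModularForm.discriminant τ = Dp p (dn p τ) := by rw [Dp, up_dn]

/-- `(E₄(τ) - E₄(pτ)) / 240` -/
def uF (τ : ℍ) : ℂ := (E₄ τ - E4p p τ) / 240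

/-- `(p⁴ E₄(pτ) - E₄(τ)) / (p⁴ - 1)` -/
def vF (τ : ℍ) : ℂ := (p ^ 4 * E4p p τ - E₄ τ) / (p ^ 4 - 1)

/-- the `q`-expansion of `uF` -/
def US : PowerSeries ℤ := sigSer 3 - PowerSeries.expand p (NeZero.ne p) (sigSer 3)

/-- the `q`-expansion of `vF`, `κ = 240 / (p⁴ - 1)` -/
def VS (κ : ℤ) : PowerSeries ℤ :=
  1 + PowerSeries.C κ * (PowerSeries.C ((p : ℤ) ^ 4) *
    PowerSeries.expand p (NeZero.ne p) (sigSer 3) - sigSer 3)

lemma hasQ_E4p : HasQ 1 (E4p p) (toC (PowerSeries.expand p (NeZero.ne p) E4Z)) := by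
  have h := HasQ.up p hasQ_E4
  have h1 : PowerSeries.expand p (NeZero.ne p) (toC E4Z) =
      toC (PowerSeries.expand p (NeZero.ne p) E4Z) := by
    rw [PowerSeries.map_expand]
  rw [h1] at h
  exact h

lemma hasQ_Dp : HasQ 1 (Dp p) (toC (PowerSeries.expand p (NeZero.ne p) DZ)) := by
  have h := HasQ.up p hasQ_Delta
  have h1 : PowerSeries.expand p (NeZero.ne p) (toC DZ) =
      toC (PowerSeries.expand p (NeZero.ne p) DZ) := by
    rw [PowerSeries.map_expand]
  rw [h1] at h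
  exact h

lemma E4Z_eq : E4Z = 1 + PowerSeries.C (240 : ℤ) * sigSer 3 := by
  rw [E4Z]
  have : (240 : PowerSeries ℤ) = PowerSeries.C (240 : ℤ) := by simp
  rw [this]

lemma expand_E4Z : PowerSeries.expand p (NeZero.ne p) E4Z =
    1 + PowerSeries.C (240 : ℤ) * PowerSeries.expand p (NeZero.ne p) (sigSer 3) := by
  rw [E4Z_eq, map_add, map_one, map_mul, PowerSeries.expand_C]

lemma toC_C (c : ℤ) : toC (PowerSeries.C c) = PowerSeries.C (c : ℂ) := by
  simp [toC]

lemma hasQ_uF : HasQ 1 (uF p) (toC (US p)) := by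
  have h := (hasQ_E4.sub (hasQ_E4p p)).smul (1 / 240)
  have h1 : (1 / 240 : ℂ) • (toC E4Z - toC (PowerSeries.expand p (NeZero.ne p) E4Z)) =
      toC (US p) := by
    rw [expand_E4Z, E4Z_eq, US]
    rw [PowerSeries.smul_eq_C_mul]
    simp only [map_add, map_sub, map_mul, map_one, toC_C]
    have h2 : PowerSeries.C (1 / 240 : ℂ) * PowerSeries.C ((240 : ℤ) : ℂ) = 1 := by
      rw [← map_mul]; norm_num
    linear_combination (toC (sigSer 3) -
      toC (PowerSeries.expand p (NeZero.ne p) (sigSer 3))) * h2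
  rw [h1] at h
  refine h.congr fun τ => ?_
  simp only [Pi.smul_apply, Pi.sub_apply, smul_eq_mul, uF]
  ring

lemma hasQ_vF {κ : ℤ} (hκ : κ * ((p : ℤ) ^ 4 - 1) = 240) : HasQ 1 (vF p) (toC (VS p κ)) := by
  have hp : ((p : ℂ) ^ 4 - 1) ≠ 0 := by
    intro h0
    have h1 : ((κ * ((p : ℤ) ^ 4 - 1) : ℤ) : ℂ) = ((240 : ℤ) : ℂ) := by rw [hκ]
    push_cast at h1
    rw [h0] at h1
    norm_num at h1
  have hκC : (κ : ℂ) * ((p : ℂ) ^ 4 - 1) = 240 := by
    have h1 : ((κ * ((p : ℤ) ^ 4 - 1) : ℤ) : ℂ) = ((240 : ℤ) : ℂ) := by rw [hκ]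
    push_cast at h1
    exact h1
  have h := (((hasQ_E4p p).smul ((p : ℂ) ^ 4)).sub hasQ_E4).smul (1 / ((p : ℂ) ^ 4 - 1))
  have h1 : (1 / ((p : ℂ) ^ 4 - 1)) • (((p : ℂ) ^ 4) • toC (PowerSeries.expand p (NeZero.ne p) E4Z)
      - toC E4Z) = toC (VS p κ) := by
    rw [expand_E4Z, E4Z_eq, VS]
    rw [PowerSeries.smul_eq_C_mul, PowerSeries.smul_eq_C_mul]
    simp only [map_add, map_sub, map_mul, map_one, toC_C]
    have h2 : PowerSeries.C (1 / ((p : ℂ) ^ 4 - 1)) * (PowerSeries.C ((p : ℂ) ^ 4) - 1) = 1 := by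
      rw [← map_one (PowerSeries.C (R := ℂ)), ← map_sub, ← map_mul, one_div, inv_mul_cancel₀ hp,
        map_one]
    have h3 : PowerSeries.C (1 / ((p : ℂ) ^ 4 - 1)) * PowerSeries.C ((240 : ℤ) : ℂ) =
        PowerSeries.C (κ : ℂ) := by
      rw [← map_mul]
      congr 1
      rw [← hκC.trans (by norm_num : (240 : ℂ) = ((240 : ℤ) : ℂ))]
      field_simp
    have h4 : PowerSeries.C (((p : ℤ) ^ 4 : ℤ) : ℂ) = PowerSeries.C ((p : ℂ) ^ 4) := by
      push_cast; rfl
    rw [h4]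
    linear_combination h2 + (PowerSeries.C ((p : ℂ) ^ 4) *
      toC (PowerSeries.expand p (NeZero.ne p) (sigSer 3)) - toC (sigSer 3)) * h3
  rw [h1] at h
  refine h.congr fun τ => ?_
  simp only [Pi.smul_apply, Pi.sub_apply, smul_eq_mul, vF]
  ring

lemma uF_smul (g : SL(2, ℤ)) (hg : g ∈ Gamma0 p) (τ : ℍ) :
    uF p (g • τ) = denom g τ ^ 4 * uF p τ := by
  rw [uF, uF, E4_smul, E4p_smul p g hg]; ring

lemma vF_smul (g : SL(2, ℤ)) (hg : g ∈ Gamma0 p) (τ : ℍ) :
    vF p (g • τ) = denom g τ ^ 4 * vF p τ := by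
  rw [vF, vF, E4_smul, E4p_smul p g hg]; ring

variable {κ : ℤ} (hκ : κ * ((p : ℤ) ^ 4 - 1) = 240)

include hκ

omit [NeZero p] in
lemma hκC : (κ : ℂ) * ((p : ℂ) ^ 4 - 1) = 240 := by
  have h1 : ((κ * ((p : ℤ) ^ 4 - 1) : ℤ) : ℂ) = ((240 : ℤ) : ℂ) := by rw [hκ]
  push_cast at h1
  exact h1

omit [NeZero p] in
lemma hp4 : ((p : ℂ) ^ 4 - 1) ≠ 0 := by
  intro h0
  have h1 := hκC p hκ
  rw [h0] at h1
  norm_num at h1

omit [NeZero p] in
lemma κ_ne : (κ : ℂ) ≠ 0 := by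
  intro h0
  have h1 := hκC p hκ
  rw [h0] at h1
  norm_num at h1

lemma E4_eq (τ : ℍ) : E₄ τ = vF p τ + κ * p ^ 4 * uF p τ := by
  have h1 := hκC p hκ
  have h2 := hp4 p hκ
  rw [vF, uF]
  field_simp
  linear_combination (-(p : ℂ) ^ 4 * (E₄ τ - E4p p τ)) * h1

lemma E4p_eq (τ : ℍ) : E4p p τ = vF p τ + κ * uF p τ := by
  have h1 := hκC p hκ
  have h2 := hp4 p hκ
  rw [vF, uF]
  field_simp
  linear_combination (-(E₄ τ - E4p p τ)) * h1

lemma uF_S (τ : ℍ) : uF p (S • τ) = (τ : ℂ) ^ 4 * (1 / (κ * p ^ 4) * vF p (dn p τ)) := by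
  have h1 := hκC p hκ
  have h2 := hp4 p hκ
  have h3 := κ_ne p hκ
  have h4 := p_ne p
  rw [uF, vF, E4_S, E4p_S, E4_eq_dn p τ]
  field_simp
  linear_combination (τ : ℂ) ^ 4 * (p ^ 4 * E4p p (dn p τ) - E₄ (dn p τ)) * h1

lemma vF_S (τ : ℍ) : vF p (S • τ) = (τ : ℂ) ^ 4 * (κ * uF p (dn p τ)) := by
  have h1 := hκC p hκ
  have h2 := hp4 p hκ
  have h3 := κ_ne p hκ
  have h4 := p_ne p
  rw [uF, vF, E4_S, E4p_S, E4_eq_dn p τ]
  field_simp
  linear_combination (τ : ℂ) ^ 4 * (E4p p (dn p τ) - E₄ (dn p τ)) * h1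

end Fn

end Fermat.Agent.ESCore
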