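import Fermat.Agent.ESCore.HauptMain

/-!
# The Hauptmoduln `t2`, `t3`: expansions at both cusps and surjectivity
-/

set_option autoImplicit false

open Matrix.SpecialLinearGroup CongruenceSubgroup ModularGroup
open scoped MatrixGroups ModularForm Manifold
open UpperHalfPlane hiding I J
open Complex (I)
open ModularForm (E₄ E₆)
open Fermat.Agent.Eis16 Fermat.Agent.ModFun

noncomputable section

namespace Fermat.Agent.ESCore

local notation "Δ" => ModularForm.discriminant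
local notation "𝕢" => Function.Periodic.qParam
local notation "ΓGL" p => (Subgroup.map (Matrix.SpecialLinearGroup.mapGL ℝ) (Gamma0 p))

/-- `TS = q * TW` -/
def TW (p : ℕ) [NeZero p] (κ : ℤ) : PowerSeries ℤ :=
  PowerSeries.mk fun n => (TS p κ).coeff (n + 1)

lemma coeff_zero_US (p : ℕ) [NeZero p] : PowerSeries.constantCoeff (US p) = 0 := by
  rw [US]
  simp [sigSer]

lemma coeff_one_US (p : ℕ) [NeZero p] (hp : p ≠ 1) : PowerSeries.coeff 1 (US p) = 1 := by
  rw [US, map_sub, PowerSeries.coeff_expand, if_neg (by rwa [Nat.dvd_one])]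
  simp [sigSer]

lemma coeff_zero_TS (p : ℕ) [NeZero p] (κ : ℤ) : PowerSeries.constantCoeff (TS p κ) = 0 := by
  rw [TS, map_mul, coeff_zero_US, mul_zero]

lemma TS_eq (p : ℕ) [NeZero p] (κ : ℤ) : TS p κ = PowerSeries.X * TW p κ := by
  ext n
  cases n with
  | zero =>
    rw [PowerSeries.coeff_zero_eq_constantCoeff_apply, coeff_zero_TS]
    simp
  | succ n =>
    rw [PowerSeries.coeff_succ_X_mul, TW, PowerSeries.coeff_mk]

lemma constantCoeff_TW (p : ℕ) [NeZero p] (κ : ℤ) (hp : p ≠ 1) :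
    PowerSeries.constantCoeff (TW p κ) = 1 := by
  rw [TW, ← PowerSeries.coeff_zero_eq_constantCoeff_apply, PowerSeries.coeff_mk]
  have h := congrArg (PowerSeries.coeff 1) (VS_mul_TS p κ)
  rw [coeff_one_US p hp, PowerSeries.coeff_mul, Finset.Nat.sum_antidiagonal_eq_sum_range_succ_mk,
    Finset.sum_range_succ, Finset.sum_range_one] at h
  simp only [PowerSeries.coeff_zero_eq_constantCoeff_apply, Nat.sub_self, coeff_zero_TS,
    coeff_zero_VS, mul_zero, add_zero, one_mul, Nat.sub_zero] at h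
  simpa using h

/-- the inverse of `TW` -/
def TWi (p : ℕ) [NeZero p] (κ : ℤ) : PowerSeries ℤ := PowerSeries.invOfUnit (TW p κ) 1

lemma TW_mul_TWi (p : ℕ) [NeZero p] (κ : ℤ) (hp : p ≠ 1) : TW p κ * TWi p κ = 1 := by
  apply PowerSeries.mul_invOfUnit
  rw [constantCoeff_TW p κ hp]; rfl

lemma constantCoeff_TWi (p : ℕ) [NeZero p] (κ : ℤ) :
    PowerSeries.constantCoeff (TWi p κ) = 1 := by
  rw [TWi, PowerSeries.constantCoeff_invOfUnit]
  simp

/-- change of the parameter -/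
lemma hasExp_comp {R : Type*} [CommRing R] {φ : R →+* ℂ} {s s' : ℍ → ℂ} {f : ℍ → ℂ}
    {F : LaurentSeries R} (h : HasExp φ s f F) (g : ℍ → ℍ) (hg : ∀ τ, s (g τ) = s' τ) :
    HasExp φ s' (fun τ => f (g τ)) F := by
  intro τ hτ
  have := h (g τ) (by rwa [hg])
  rwa [hg] at this

lemma qN_dn (p : ℕ) [NeZero p] (τ : ℍ) : qN 1 (dn p τ) = qN p τ := by
  rw [qN_apply, qN_apply, Nat.cast_one, qParam_dn, one_mul]

namespace HauptFn

variable {p : ℕ} [NeZero p] {κ : ℤ} (H : HauptFn p κ)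

theorem hasExp : HasExp (Int.castRingHom ℂ) (qN 1) H.t
    (HahnSeries.ofPowerSeries ℤ ℤ (TS p κ)) := by
  refine hasExp_ofPowerSeries fun τ _ => ?_
  have := H.hasQ τ
  simp only [coeff_toC] at this
  rw [qN_apply, Nat.cast_one]
  exact this

theorem hasExp_inv : HasExp (Int.castRingHom ℂ) (qN 1) (fun τ => (H.t τ)⁻¹)
    (HahnSeries.single (-1) 1 * HahnSeries.ofPowerSeries ℤ ℤ (TWi p κ)) := by
  -- `w = t / q`
  have hTW : HasExp (Int.castRingHom ℂ) (qN 1) (fun τ => H.t τ * (𝕢 1 τ)⁻¹)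
      (HahnSeries.ofPowerSeries ℤ ℤ (TW p κ)) := by
    have h1 := H.hasExp.mul (hasExp_single (φ := Int.castRingHom ℂ) (s := qN 1) (-1) 1)
    have h2 : HahnSeries.ofPowerSeries ℤ ℤ (TS p κ) * (HahnSeries.single (-1) 1 : LaurentSeries ℤ) =
        HahnSeries.ofPowerSeries ℤ ℤ (TW p κ) := by
      rw [TS_eq, map_mul, HahnSeries.ofPowerSeries_X, mul_right_comm, HahnSeries.single_mul_single]
      simp
    rw [h2] at h1
    refine h1.congr fun τ => ?_
    simp [qN_apply]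
  have hper1 : ∀ τ : ℍ, 𝕢 1 (((1 : ℝ) +ᵥ τ : ℍ) : ℂ) = 𝕢 1 τ := by
    intro τ
    have := qN_vadd 1 τ
    rw [qN_apply, qN_apply, Nat.cast_one] at this
    exact this
  have hT : ∀ τ : ℍ, H.t ((1 : ℝ) +ᵥ τ) = H.t τ := by
    intro τ
    rw [← modular_T_smul]
    exact H.smul T (by rw [mem_Gamma0_iff]; simp [coe_T]) τ
  have hwQ : HasQ 1 (fun τ => H.t τ * (𝕢 1 τ)⁻¹) (toC (TW p κ)) := by
    intro τ
    have h1 := hTW.hasSum_shift (k := 0) (fun m hm => ModularCurve.ofPowerSeries_coeff_of_neg _ hm)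
      τ (by rw [qN_apply, Nat.cast_one]; exact Function.Periodic.qParam_ne_zero _)
    simp only [zero_add, neg_zero, zpow_zero, one_mul, qN_apply, Nat.cast_one,
      HahnSeries.ofPowerSeries_apply_coeff] at h1
    simpa [coeff_toC] using h1
  have hw0 : ∀ τ : ℍ, H.t τ * (𝕢 1 τ)⁻¹ ≠ 0 := fun τ =>
    mul_ne_zero (H.ne_zero τ) (inv_ne_zero (Function.Periodic.qParam_ne_zero _))
  have hmd : MDiff (fun τ => (H.t τ * (𝕢 1 τ)⁻¹)⁻¹) := (hwQ.mdiff one_pos).inv hw0
  have hper : Function.Periodic ((fun τ : ℍ => (H.t τ * (𝕢 1 τ)⁻¹)⁻¹) ∘ ofComplex) (1 : ℝ) := by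
    have := ModFun.periodic_ofComplex (f := fun τ : ℍ => (H.t τ * (𝕢 1 τ)⁻¹)⁻¹) (h := 1) (by
      intro τ
      rw [hT, hper1])
    exact_mod_cast this
  have hb : IsBoundedAtImInfty (fun τ : ℍ => (H.t τ * (𝕢 1 τ)⁻¹)⁻¹) := by
    have h1 := (hwQ.tendsto one_pos).inv₀ (by
      rw [coeff_toC, PowerSeries.coeff_zero_eq_constantCoeff_apply, constantCoeff_TW _ _ H.hp1]
      simp)
    exact h1.isBigO_one ℝ
  have hq := HasQ.of_periodic one_pos hper hmd hb
  have h4 : UpperHalfPlane.qExpansion 1 (fun τ : ℍ => (H.t τ * (𝕢 1 τ)⁻¹)⁻¹) =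
      toC (TWi p κ) := by
    have h5 := (hq.mul hwQ).unique one_pos ((HasQ.one 1).congr (fun τ => by
      simp only [Pi.one_apply, Pi.mul_apply]
      rw [inv_mul_cancel₀ (hw0 τ)]))
    have h6 : toC (TW p κ) * toC (TWi p κ) = 1 := by
      rw [← map_mul, TW_mul_TWi _ _ H.hp1, map_one]
    linear_combination (toC (TWi p κ)) * h5 -
      (UpperHalfPlane.qExpansion 1 (fun τ : ℍ => (H.t τ * (𝕢 1 τ)⁻¹)⁻¹)) * h6
  rw [h4] at hq
  have h7 : HasExp (Int.castRingHom ℂ) (qN 1) (fun τ : ℍ => (H.t τ * (𝕢 1 τ)⁻¹)⁻¹)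
      (HahnSeries.ofPowerSeries ℤ ℤ (TWi p κ)) := by
    refine hasExp_ofPowerSeries fun τ _ => ?_
    have := hq τ
    simp only [coeff_toC] at this
    rw [qN_apply, Nat.cast_one]
    exact this
  refine ((hasExp_single (φ := Int.castRingHom ℂ) (s := qN 1) (-1) 1).mul h7).congr fun τ => ?_
  have := Function.Periodic.qParam_ne_zero (h := 1) (τ : ℂ)
  have h0 := H.ne_zero τ
  simp only [Pi.mul_apply, qN_apply, Nat.cast_one, map_one, one_mul, zpow_neg, zpow_one]
  field_simp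

/-- the expansion of `κ² p⁴ t` at the cusp `0` -/
theorem hasExp_S : HasExp (Int.castRingHom ℂ) (qN p)
    (fun τ => (κ : ℂ) ^ 2 * p ^ 4 * H.t (S • τ))
    (HahnSeries.single (-1) 1 * HahnSeries.ofPowerSeries ℤ ℤ (TWi p κ)) := by
  refine (hasExp_comp H.hasExp_inv (dn p) (qN_dn p)).congr fun τ => ?_
  have := H.fricke τ
  have h0 := H.ne_zero (dn p τ)
  field_simp
  linear_combination -this

theorem tendsto : Filter.Tendsto H.t atImInfty (nhds 0) := by
  have := H.hasQ.tendsto one_pos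
  rw [coeff_toC, PowerSeries.coeff_zero_eq_constantCoeff_apply, coeff_zero_TS] at this
  simpa using this

theorem smul_S (τ : ℍ) : H.t (S • τ) = 1 / ((κ : ℂ) ^ 2 * p ^ 4 * H.t (dn p τ)) := by
  have := H.fricke τ
  have h0 := H.ne_zero (dn p τ)
  have hκ0 := κ_ne p H.hκ
  have hp0 := p_ne p
  field_simp
  linear_combination this

end HauptFn

end Fermat.Agent.ESCore
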