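import Fermat.Agent.ESCore.Haupt

/-!
# Orders of `J` and of the Hauptmoduln at the points of `ℍ`
-/

set_option autoImplicit false

open Matrix.SpecialLinearGroup CongruenceSubgroup ModularGroup
open scoped MatrixGroups ModularForm Manifold
open UpperHalfPlane hiding I J
open Complex (I)
open ModularForm (E₄ E₆)
open Fermat.Agent.Eis16 Fermat.Agent.ModFun

noncomputable section

namespace Fermat.Agent.ESCore

local notation "Δ" => ModularForm.discriminant

/-- the order of vanishing of a function on `ℍ` at a point -/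
def ordH (τ₀ : ℍ) (f : ℍ → ℂ) : ℕ∞ := analyticOrderAt (f ∘ ofComplex) (τ₀ : ℂ)

lemma analyticAt_of_mdiff {f : ℍ → ℂ} (hf : MDiff f) (τ : ℍ) :
    AnalyticAt ℂ (f ∘ ofComplex) (τ : ℂ) :=
  analyticAt_holRing ⟨f, hf⟩ τ

lemma ordH_mul {τ₀ : ℍ} {f g : ℍ → ℂ} (hf : MDiff f) (hg : MDiff g) :
    ordH τ₀ (f * g) = ordH τ₀ f + ordH τ₀ g :=
  analyticOrderAt_mul (analyticAt_of_mdiff hf τ₀) (analyticAt_of_mdiff hg τ₀)

lemma ordH_pow {τ₀ : ℍ} {f : ℍ → ℂ} (hf : MDiff f) (n : ℕ) :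
    ordH τ₀ (f ^ n) = n • ordH τ₀ f :=
  analyticOrderAt_pow (analyticAt_of_mdiff hf τ₀) n

lemma ordH_eq_zero {τ₀ : ℍ} {f : ℍ → ℂ} (hf : MDiff f) (h : f τ₀ ≠ 0) : ordH τ₀ f = 0 := by
  rw [ordH, (analyticAt_of_mdiff hf τ₀).analyticOrderAt_eq_zero]
  simpa using h

lemma ordH_ne_zero {τ₀ : ℍ} {f : ℍ → ℂ} (hf : MDiff f) (h : f τ₀ = 0) : ordH τ₀ f ≠ 0 := by
  rw [ordH, (analyticAt_of_mdiff hf τ₀).analyticOrderAt_ne_zero]
  simpa using h

/-- the order of the disk expansion -/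
theorem order_dExp_eq {τ₀ : ℍ} {f : ℍ → ℂ} (hf : MDiff f) :
    (dExp τ₀ f).order = ordH τ₀ f := by
  have h0 : diskMap τ₀ 0 = τ₀ := by simp [diskMap]
  have hder := hasDerivAt_diskMap τ₀ (w := 0) (by norm_num)
  have hd0 : deriv (diskMap τ₀) 0 ≠ 0 := by
    rw [hder.deriv]
    simpa using sub_conj_ne_zero τ₀ τ₀
  have han : AnalyticAt ℂ (diskMap τ₀) 0 := by
    unfold diskMap
    apply AnalyticAt.div (by fun_prop) (by fun_prop)
    norm_num
  have hcomp : toDisk τ₀ f = (f ∘ ofComplex) ∘ diskMap τ₀ := rfl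
  have haf : AnalyticAt ℂ (f ∘ ofComplex) (diskMap τ₀ 0) := by
    rw [h0]; exact analyticAt_of_mdiff hf τ₀
  have hat : AnalyticAt ℂ (toDisk τ₀ f) 0 := by
    rw [hcomp]; exact haf.comp han
  have h1 : (dExp τ₀ f).order = analyticOrderAt (toDisk τ₀ f) 0 := by
    have : dExp τ₀ f = ESCore.taylor (toDisk τ₀ f) 0 := by
      ext n
      rw [dExp, ModFun.taylor, PowerSeries.coeff_mk, coeff_taylor]
      ring
    rw [this, order_taylor hat]
  rw [h1, hcomp, analyticOrderAt_comp_of_deriv_ne_zero han hd0, h0, ordH]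

lemma mdiff_sub_const {f : ℍ → ℂ} (hf : MDiff f) (c : ℂ) :
    MDifferentiable (modelWithCornersSelf ℂ ℂ) (modelWithCornersSelf ℂ ℂ) (f - fun _ => c) :=
  hf.sub mdifferentiable_const

theorem ordH_J_one (τ₀ : ℍ) (h0 : J τ₀ ≠ 0) (h1728 : J τ₀ ≠ 1728) :
    ordH τ₀ (J - fun _ => J τ₀) = 1 := by
  rw [← order_dExp_eq (mdiff_sub_const mdiff_J _)]
  exact order_dExp_J_one τ₀ (fun h => h0 ((J_eq_zero_iff τ₀).mpr h))
    (fun h => h1728 ((J_eq_1728_iff τ₀).mpr h))

theorem ordH_J_three (τ₀ : ℍ) (h0 : J τ₀ = 0) : ordH τ₀ J = 3 := by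
  rw [← order_dExp_eq mdiff_J]
  exact order_dExp_J_three τ₀ ((J_eq_zero_iff τ₀).mp h0)

theorem ordH_J_two (τ₀ : ℍ) (h0 : J τ₀ = 1728) : ordH τ₀ (J - fun _ => 1728) = 2 := by
  rw [← order_dExp_eq (mdiff_sub_const mdiff_J _)]
  exact order_dExp_J_two τ₀ ((J_eq_1728_iff τ₀).mp h0)

/-- factoring out a divisor of order one -/
lemma ordH_eq_one_of_mul {τ₀ : ℍ} {f g : ℍ → ℂ} (hf : MDiff f) (hg : MDiff g) (h : f τ₀ = 0)
    (h1 : ordH τ₀ (f * g) = 1) : ordH τ₀ f = 1 := by
  rw [ordH_mul hf hg] at h1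
  have h2 := ordH_ne_zero hf h
  have h3 : (1 : ℕ∞) ≤ ordH τ₀ f := Order.one_le_iff_ne_zero.mpr h2
  have h4 : ordH τ₀ f ≤ 1 := by rw [← h1]; exact le_self_add
  exact le_antisymm h4 h3

lemma nsmul_eq_imp {a : ℕ∞} {n m : ℕ} (hn : 0 < n) (h : n • a = ((n * m : ℕ) : ℕ∞)) :
    a = m := by
  induction a using ENat.recTopCoe with
  | top =>
    exfalso
    rw [nsmul_eq_mul, ENat.mul_top (by exact_mod_cast hn.ne')] at h
    exact ENat.top_ne_natCast _ h
  | coe k =>
    rw [nsmul_eq_mul] at h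
    have h2 : n * k = n * m := by exact_mod_cast h
    have := Nat.eq_of_mul_eq_mul_left hn h2
    exact_mod_cast this

namespace HauptFn

/-- level 2: `J t = (1 + 256 t)³` -/
theorem ordH_two {τ₀ : ℍ} (H : HauptFn 2 16)
    (hJ : ∀ τ, J τ * H.t τ = (1 + 256 * H.t τ) ^ 3) :
    ordH τ₀ (H.t - fun _ => H.t τ₀) = if H.t τ₀ = -1 / 64 then 2 else 1 := by
  have ht := H.mdiff
  have ht0 := H.ne_zero τ₀
  have hJ' : ∀ τ, (J τ - 1728) * H.t τ = (1 - 512 * H.t τ) ^ 2 * (1 + 64 * H.t τ) := by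
    intro τ
    linear_combination hJ τ
  have hc : ∀ c : ℂ, MDiff (fun _ : ℍ => c) := fun c => mdifferentiable_const
  have hlin : ∀ a b : ℂ, MDiff (fun τ => a + b * H.t τ) := fun a b =>
    (hc a).add ((hc b).mul ht)
  have hord0 : ordH τ₀ H.t = 0 := ordH_eq_zero ht ht0
  have hscale : ∀ a b : ℂ, b ≠ 0 → a + b * H.t τ₀ = 0 →
      ordH τ₀ (fun τ => a + b * H.t τ) = ordH τ₀ (H.t - fun _ => H.t τ₀) := by
    intro a b hb hab
    have h1 : (fun τ => a + b * H.t τ) = (fun _ => b) * (H.t - fun _ => H.t τ₀) := by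
      funext τ
      simp only [Pi.mul_apply, Pi.sub_apply]
      linear_combination hab
    rw [h1, ordH_mul (hc b) (mdiff_sub_const ht _), ordH_eq_zero (hc b) hb, zero_add]
  by_cases hJ0 : J τ₀ = 0
  · have h1 : 1 + 256 * H.t τ₀ = 0 := by
      have := hJ τ₀
      rw [hJ0, zero_mul] at this
      exact pow_eq_zero_iff three_ne_zero |>.mp this.symm
    rw [if_neg (by intro h; rw [h] at h1; norm_num at h1)]
    have h2 : ordH τ₀ (J * H.t) = 3 • ordH τ₀ (fun τ => 1 + 256 * H.t τ) := by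
      rw [← ordH_pow (hlin 1 256)]
      congr 1
      funext τ
      exact hJ τ
    rw [ordH_mul mdiff_J ht, ordH_J_three τ₀ hJ0, hord0, add_zero,
      hscale 1 256 (by norm_num) h1] at h2
    have := nsmul_eq_imp (n := 3) (m := 1) (by norm_num) (h2.symm.trans (by norm_num))
    exact_mod_cast this
  by_cases hJ1728 : J τ₀ = 1728
  · have h2 : ordH τ₀ ((J - fun _ => 1728) * H.t) =
        2 • ordH τ₀ (fun τ => 1 + (-512) * H.t τ) + ordH τ₀ (fun τ => 1 + 64 * H.t τ) := by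
      rw [← ordH_pow (hlin 1 (-512)), ← ordH_mul ((hlin 1 (-512)).pow 2) (hlin 1 64)]
      congr 1
      funext τ
      simp only [Pi.mul_apply, Pi.sub_apply, Pi.pow_apply]
      rw [hJ' τ]
      ring
    rw [ordH_mul (mdiff_sub_const mdiff_J _) ht, ordH_J_two τ₀ hJ1728, hord0, add_zero] at h2
    by_cases h64 : H.t τ₀ = -1 / 64
    · rw [if_pos h64]
      rw [ordH_eq_zero (hlin 1 (-512)) (by rw [h64]; norm_num),
        hscale 1 64 (by norm_num) (by rw [h64]; norm_num)] at h2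
      simpa using h2.symm
    · rw [if_neg h64]
      have h3 : 1 + 64 * H.t τ₀ ≠ 0 := by
        intro h
        apply h64
        linear_combination (1 / 64) * h
      have h4 : 1 + (-512) * H.t τ₀ = 0 := by
        have := hJ' τ₀
        rw [hJ1728, sub_self, zero_mul] at this
        rcases mul_eq_zero.mp this.symm with h | h
        · have := pow_eq_zero_iff two_ne_zero |>.mp h
          linear_combination this
        · exact absurd h h3
      rw [ordH_eq_zero (hlin 1 64) h3, add_zero, hscale 1 (-512) (by norm_num) h4] at h2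
      have := nsmul_eq_imp (n := 2) (m := 1) (by norm_num) (h2.symm.trans (by norm_num))
      exact_mod_cast this
  · rw [if_neg (by
      intro h
      apply hJ1728
      have := hJ' τ₀
      rw [h] at this
      norm_num at this
      linear_combination this)]
    have h1 := ordH_J_one τ₀ hJ0 hJ1728
    have h2 : ordH τ₀ ((J - fun _ => J τ₀) * H.t) = 1 := by
      rw [ordH_mul (mdiff_sub_const mdiff_J _) ht, h1, hord0, add_zero]
    have h3 : (J - fun _ => J τ₀) * H.t = (H.t - fun _ => H.t τ₀) *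
        (fun τ => 768 - J τ₀ + 196608 * (H.t τ + H.t τ₀) +
          16777216 * (H.t τ * H.t τ + H.t τ * H.t τ₀ + H.t τ₀ * H.t τ₀)) := by
      funext τ
      simp only [Pi.mul_apply, Pi.sub_apply]
      linear_combination hJ τ - hJ τ₀
    rw [h3] at h2
    exact ordH_eq_one_of_mul (mdiff_sub_const ht _)
      (((hc _).add ((hc _).mul (ht.add (hc _)))).add ((hc _).mul (((ht.mul ht).add
        (ht.mul (hc _))).add (hc _)))) (by simp) h2

/-- level 3: `J t = (1 + 27 t) (1 + 243 t)³` -/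
theorem ordH_three {τ₀ : ℍ} (H : HauptFn 3 3)
    (hJ : ∀ τ, J τ * H.t τ = (1 + 27 * H.t τ) * (1 + 243 * H.t τ) ^ 3) :
    ordH τ₀ (H.t - fun _ => H.t τ₀) = if H.t τ₀ = -1 / 27 then 3 else 1 := by
  have ht := H.mdiff
  have ht0 := H.ne_zero τ₀
  have hJ' : ∀ τ, (J τ - 1728) * H.t τ = (1 - 486 * H.t τ - 19683 * H.t τ ^ 2) ^ 2 := by
    intro τ
    linear_combination hJ τ
  have hc : ∀ c : ℂ, MDiff (fun _ : ℍ => c) := fun c => mdifferentiable_const
  have hlin : ∀ a b : ℂ, MDiff (fun τ => a + b * H.t τ) := fun a b =>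
    (hc a).add ((hc b).mul ht)
  have hord0 : ordH τ₀ H.t = 0 := ordH_eq_zero ht ht0
  have hscale : ∀ a b : ℂ, b ≠ 0 → a + b * H.t τ₀ = 0 →
      ordH τ₀ (fun τ => a + b * H.t τ) = ordH τ₀ (H.t - fun _ => H.t τ₀) := by
    intro a b hb hab
    have h1 : (fun τ => a + b * H.t τ) = (fun _ => b) * (H.t - fun _ => H.t τ₀) := by
      funext τ
      simp only [Pi.mul_apply, Pi.sub_apply]
      linear_combination hab
    rw [h1, ordH_mul (hc b) (mdiff_sub_const ht _), ordH_eq_zero (hc b) hb, zero_add]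
  by_cases hJ0 : J τ₀ = 0
  · have h1 : ordH τ₀ (J * H.t) =
        ordH τ₀ (fun τ => 1 + 27 * H.t τ) + 3 • ordH τ₀ (fun τ => 1 + 243 * H.t τ) := by
      rw [← ordH_pow (hlin 1 243), ← ordH_mul (hlin 1 27) ((hlin 1 243).pow 3)]
      congr 1
      funext τ
      exact hJ τ
    rw [ordH_mul mdiff_J ht, ordH_J_three τ₀ hJ0, hord0, add_zero] at h1
    by_cases h27 : H.t τ₀ = -1 / 27
    · rw [if_pos h27]
      rw [ordH_eq_zero (hlin 1 243) (by rw [h27]; norm_num),
        hscale 1 27 (by norm_num) (by rw [h27]; norm_num)] at h1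
      simpa using h1.symm
    · rw [if_neg h27]
      have h3 : 1 + 27 * H.t τ₀ ≠ 0 := by
        intro h
        apply h27
        linear_combination (1 / 27) * h
      have h4 : 1 + 243 * H.t τ₀ = 0 := by
        have := hJ τ₀
        rw [hJ0, zero_mul] at this
        rcases mul_eq_zero.mp this.symm with h | h
        · exact absurd h h3
        · exact pow_eq_zero_iff three_ne_zero |>.mp h
      rw [ordH_eq_zero (hlin 1 27) h3, zero_add, hscale 1 243 (by norm_num) h4] at h1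
      have := nsmul_eq_imp (n := 3) (m := 1) (by norm_num) (h1.symm.trans (by norm_num))
      exact_mod_cast this
  rw [if_neg (by
    intro h
    apply hJ0
    have := hJ τ₀
    rw [h] at this
    norm_num at this
    exact this)]
  by_cases hJ1728 : J τ₀ = 1728
  · have hq : MDiff (fun τ => 1 - 486 * H.t τ - 19683 * (H.t τ * H.t τ)) :=
      ((hc 1).sub ((hc 486).mul ht)).sub ((hc 19683).mul (ht.mul ht))
    have h2 : ordH τ₀ ((J - fun _ => 1728) * H.t) =
        2 • ordH τ₀ (fun τ => 1 - 486 * H.t τ - 19683 * (H.t τ * H.t τ)) := by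
      rw [← ordH_pow hq]
      congr 1
      funext τ
      simp only [Pi.mul_apply, Pi.sub_apply, Pi.pow_apply]
      rw [hJ' τ]
      ring
    rw [ordH_mul (mdiff_sub_const mdiff_J _) ht, ordH_J_two τ₀ hJ1728, hord0, add_zero] at h2
    have h3 := nsmul_eq_imp (n := 2) (m := 1) (by norm_num) (h2.symm.trans (by norm_num))
    have h4 : 1 - 486 * H.t τ₀ - 19683 * (H.t τ₀ * H.t τ₀) = 0 := by
      have := hJ' τ₀
      rw [hJ1728, sub_self, zero_mul] at this
      have := pow_eq_zero_iff two_ne_zero |>.mp this.symm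
      linear_combination this
    have h5 : (fun τ => 1 - 486 * H.t τ - 19683 * (H.t τ * H.t τ)) = (H.t - fun _ => H.t τ₀) *
        (fun τ => -486 - 19683 * (H.t τ + H.t τ₀)) := by
      funext τ
      simp only [Pi.mul_apply, Pi.sub_apply]
      linear_combination h4
    rw [h5] at h3
    exact ordH_eq_one_of_mul (mdiff_sub_const ht _)
      ((hc _).sub ((hc _).mul (ht.add (hc _)))) (by simp) (by exact_mod_cast h3)
  · have h1 := ordH_J_one τ₀ hJ0 hJ1728
    have h2 : ordH τ₀ ((J - fun _ => J τ₀) * H.t) = 1 := by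
      rw [ordH_mul (mdiff_sub_const mdiff_J _) ht, h1, hord0, add_zero]
    have h3 : (J - fun _ => J τ₀) * H.t = (H.t - fun _ => H.t τ₀) *
        (fun τ => 756 - J τ₀ + 196830 * (H.t τ + H.t τ₀) + 19131876 * (H.t τ * H.t τ +
          H.t τ * H.t τ₀ + H.t τ₀ * H.t τ₀) + 387420489 * (H.t τ * (H.t τ * H.t τ) +
          H.t τ * H.t τ * H.t τ₀ + H.t τ * (H.t τ₀ * H.t τ₀) + H.t τ₀ * (H.t τ₀ * H.t τ₀))) := by
      funext τ
      simp only [Pi.mul_apply, Pi.sub_apply]
      linear_combination hJ τ - hJ τ₀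
    rw [h3] at h2
    exact ordH_eq_one_of_mul (mdiff_sub_const ht _)
      (((((hc _).add ((hc _).mul (ht.add (hc _)))).add ((hc _).mul (((ht.mul ht).add
        (ht.mul (hc _))).add (hc _)))).add ((hc _).mul ((((ht.mul (ht.mul ht)).add
        ((ht.mul ht).mul (hc _))).add (ht.mul (hc _))).add (hc _))))) (by simp) h2

end HauptFn

end Fermat.Agent.ESCore
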