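import Fermat.Agent.ESCore.HeckeQ

set_option autoImplicit false

/-!
# Hecke operators on characters of groups between `Γ₁(N)` and `Γ₀(N)`
-/

open UpperHalfPlane ModularForm Matrix Matrix.SpecialLinearGroup CongruenceSubgroup
open scoped MatrixGroups Manifold

noncomputable section

namespace Fermat.Agent.ESCore

open P2MW.S_ModularForm_heckeT_slash_eq_self_of_mem_Gamma0.ModularForm.HeckeSlashInvariance

namespace CosetSys

variable {Γ G : Type*} [Group Γ] [Group G] {φ : Γ →* G} {ι ι₁ ι₂ : Type*}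

/-- change of representatives -/
def twist (S : CosetSys φ ι) (σ : ι → Γ) : CosetSys φ ι where
  δ x := φ (σ x) * S.δ x
  inj x y γ h := by
    refine S.inj x y ((σ x)⁻¹ * γ * σ y) ?_
    rw [map_mul, map_mul, map_inv, mul_assoc, mul_assoc, ← h, inv_mul_cancel_left]
  act x γ := by
    obtain ⟨y, γ', h⟩ := S.act x γ
    refine ⟨y, σ x * γ' * (σ y)⁻¹, ?_⟩
    rw [mul_assoc, h, map_mul, map_mul, map_inv]
    group

@[simp] theorem twist_δ (S : CosetSys φ ι) (σ : ι → Γ) (x : ι) :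
    (S.twist σ).δ x = φ (σ x) * S.δ x := rfl

/-- joint injectivity of two systems -/
def JInj (S₁ : CosetSys φ ι₁) (S₂ : CosetSys φ ι₂) : Prop :=
  ∀ z x w y γ, S₂.δ z * S₁.δ x = φ γ * (S₂.δ w * S₁.δ y) → z = w ∧ x = y

/-- exchange property of two systems -/
def Exch (S₁ : CosetSys φ ι₁) (S₂ : CosetSys φ ι₂) : Prop :=
  ∀ z x, ∃ w y α, S₂.δ z * S₁.δ x = φ α * (S₁.δ w * S₂.δ y)

theorem JInj.twist {S₁ : CosetSys φ ι₁} {S₂ : CosetSys φ ι₂} (h : JInj S₁ S₂) (σ₁ : ι₁ → Γ)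
    (σ₂ : ι₂ → Γ) : JInj (S₁.twist σ₁) (S₂.twist σ₂) := by
  intro z x w y γ e
  simp only [twist_δ] at e
  obtain ⟨z', α, hα⟩ := S₂.act z (σ₁ x)
  obtain ⟨w', β, hβ⟩ := S₂.act w (σ₁ y)
  have e1 : S₂.δ z' * S₁.δ x =
      φ (α⁻¹ * (σ₂ z)⁻¹ * γ * σ₂ w * β) * (S₂.δ w' * S₁.δ y) := by
    have e2 : S₂.δ z' = φ α⁻¹ * (S₂.δ z * φ (σ₁ x)) := by rw [hα, map_inv]; group
    have e3 : S₂.δ w' = φ β⁻¹ * (S₂.δ w * φ (σ₁ y)) := by rw [hβ, map_inv]; group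
    rw [e2, e3]
    simp only [map_mul, map_inv]
    simp only [mul_assoc] at e ⊢
    rw [mul_inv_cancel_left, ← e, inv_mul_cancel_left]
  obtain ⟨h1, h2⟩ := h _ _ _ _ _ e1
  subst h1 h2
  refine ⟨?_, rfl⟩
  refine S₂.inj z w (α * β⁻¹) ?_
  rw [map_mul, map_inv]
  have e4 : S₂.δ z = φ α * S₂.δ z' * (φ (σ₁ x))⁻¹ := by rw [← hα]; group
  have e5 : S₂.δ w = φ β * S₂.δ z' * (φ (σ₁ x))⁻¹ := by rw [← hβ]; group
  rw [e4, e5]
  group

theorem Exch.twist {S₁ : CosetSys φ ι₁} {S₂ : CosetSys φ ι₂} (h : Exch S₁ S₂) (σ₁ : ι₁ → Γ)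
    (σ₂ : ι₂ → Γ) : Exch (S₁.twist σ₁) (S₂.twist σ₂) := by
  intro z x
  obtain ⟨z', α, hα⟩ := S₂.act z (σ₁ x)
  obtain ⟨w, y, β, hβ⟩ := h z' x
  obtain ⟨w', α', hα'⟩ := S₁.act w (σ₂ y)⁻¹
  refine ⟨w', y, σ₂ z * α * β * α' * (σ₁ w')⁻¹, ?_⟩
  simp only [twist_δ]
  have e1 : φ (σ₂ z) * S₂.δ z * (φ (σ₁ x) * S₁.δ x) =
      φ (σ₂ z) * φ α * (S₂.δ z' * S₁.δ x) := by
    rw [mul_assoc, ← mul_assoc (S₂.δ z), hα]; group
  have e2 : S₁.δ w = φ α' * S₁.δ w' * φ (σ₂ y) := by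
    rw [← hα', map_inv]; group
  rw [e1, hβ, e2]
  simp only [map_mul, map_inv]
  group

end CosetSys

/-- the embedding of `G` in `GL(2,ℝ)` -/
def gamG (G : Subgroup SL(2, ℤ)) : G →* GL (Fin 2) ℝ := (mapGL ℝ).comp G.subtype

theorem gamG_apply {G : Subgroup SL(2, ℤ)} (g : G) : gamG G g = mapGL ℝ (g : SL(2, ℤ)) := rfl

theorem gamG_injective (G : Subgroup SL(2, ℤ)) : Function.Injective (gamG G) :=
  fun _ _ h => Subtype.ext (mapGL_inj h)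

/-- Integral matrices congruent to `(1 *; 0 *)` modulo `N`. -/
def IsGMat (N : ℕ) (A : GL (Fin 2) ℝ) : Prop :=
  ∃ a b c d : ℤ, (A : Matrix (Fin 2) (Fin 2) ℝ) = !![(a : ℝ), b; c, d] ∧ (N : ℤ) ∣ c ∧
    (N : ℤ) ∣ a - 1

theorem IsGMat.mul {N : ℕ} {A B : GL (Fin 2) ℝ} (hA : IsGMat N A) (hB : IsGMat N B) :
    IsGMat N (A * B) := by
  obtain ⟨a, b, c, d, h1, ⟨h2, h2'⟩, ⟨h3, h3'⟩⟩ := hA
  obtain ⟨a', b', c', d', h4, ⟨h5, h5'⟩, ⟨h6, h6'⟩⟩ := hB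
  refine ⟨a * a' + b * c', a * b' + b * d', c * a' + d * c', c * b' + d * d', ?_, ?_, ?_⟩
  · rw [Units.val_mul, h1, h4, Matrix.mul_fin_two]
    push_cast
    rfl
  · exact ⟨h2 * a' + d * h5, by rw [h2', h5']; ring⟩
  · refine ⟨h3 * a' + h6 + b * h5, ?_⟩
    rw [h5']
    linear_combination a' * h3' + h6'

/-- elements of `Γ₀(N)` with the same lower right entry modulo `N` -/
theorem mem_of_congr {N : ℕ} {G : Subgroup SL(2, ℤ)} (h1 : Gamma1 N ≤ G) {γ γ' : SL(2, ℤ)}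
    (h : (N : ℤ) ∣ γ 1 0) (h' : (N : ℤ) ∣ γ' 1 0) (hd : (N : ℤ) ∣ γ 0 0 - γ' 0 0)
    (hγ : γ ∈ G) : γ' ∈ G := by
  have e : γ' = (γ' * γ⁻¹) * γ := by group
  rw [e]
  refine G.mul_mem (h1 ?_) hγ
  have hdet := det_eq γ
  have hdet' := det_eq γ'
  have hm : ((γ' * γ⁻¹ : SL(2, ℤ)) : Matrix (Fin 2) (Fin 2) ℤ) =
      !![γ' 0 0 * γ 1 1 - γ' 0 1 * γ 1 0, -γ' 0 0 * γ 0 1 + γ' 0 1 * γ 0 0;
        γ' 1 0 * γ 1 1 - γ' 1 1 * γ 1 0, -γ' 1 0 * γ 0 1 + γ' 1 1 * γ 0 0] := by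
    rw [Matrix.SpecialLinearGroup.coe_mul, coe_inv, Matrix.adjugate_fin_two]
    ext i j
    fin_cases i <;> fin_cases j <;> simp [Matrix.mul_apply, Fin.sum_univ_two] <;> ring
  obtain ⟨x, hx⟩ := h
  obtain ⟨x', hx'⟩ := h'
  obtain ⟨y, hy⟩ := hd
  have z0 : ((γ 1 0 : ℤ) : ZMod N) = 0 := by rw [hx]; simp
  have z0' : ((γ' 1 0 : ℤ) : ZMod N) = 0 := by rw [hx']; simp
  have z1 : ((γ' 0 0 : ℤ) : ZMod N) = ((γ 0 0 : ℤ) : ZMod N) := by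
    have : γ' 0 0 = γ 0 0 - N * y := by linear_combination -hy
    rw [this]; simp
  have e1 := congrArg (Int.cast : ℤ → ZMod N) hdet
  have e2 := congrArg (Int.cast : ℤ → ZMod N) hdet'
  push_cast at e1 e2
  rw [z0, mul_zero, sub_zero] at e1
  rw [z0', z1, mul_zero, sub_zero] at e2
  have e3 : ((γ' 1 1 : ℤ) : ZMod N) = ((γ 1 1 : ℤ) : ZMod N) := by
    calc ((γ' 1 1 : ℤ) : ZMod N) = (((γ 0 0 : ℤ) : ZMod N) * ((γ 1 1 : ℤ) : ZMod N)) *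
        ((γ' 1 1 : ℤ) : ZMod N) := by rw [e1, one_mul]
      _ = (((γ 0 0 : ℤ) : ZMod N) * ((γ' 1 1 : ℤ) : ZMod N)) * ((γ 1 1 : ℤ) : ZMod N) := by ring
      _ = _ := by rw [e2, one_mul]
  rw [Gamma1_mem, hm]
  refine ⟨?_, ?_, ?_⟩
  · simp only [Matrix.of_apply, Matrix.cons_val', Matrix.cons_val_zero, Matrix.cons_val_fin_one]
    push_cast
    rw [z0, z1, mul_zero, sub_zero, e1]
  · simp only [Matrix.of_apply, Matrix.cons_val', Matrix.cons_val_one, Matrix.cons_val_fin_one]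
    push_cast
    rw [z0', e3, neg_zero, zero_mul, zero_add, mul_comm, e1]
  · simp only [Matrix.of_apply, Matrix.cons_val', Matrix.cons_val_one, Matrix.cons_val_zero,
      Matrix.cons_val_fin_one]
    push_cast
    rw [z0, z0', zero_mul, mul_zero, sub_zero]

theorem dvd_of_mem_Gamma0 {N : ℕ} (γ : Gamma0 N) : (N : ℤ) ∣ (γ : SL(2, ℤ)) 1 0 :=
  (ZMod.intCast_zmod_eq_zero_iff_dvd _ _).mp (CongruenceSubgroup.Gamma0_mem.mp γ.2)

/-- transport of the property of being in `G` -/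
theorem IsGMat.mem_iff {N : ℕ} {A B : GL (Fin 2) ℝ} (hA : IsGMat N A) (hB : IsGMat N B)
    {γ γ' : Gamma0 N} (h : A * gam N γ = gam N γ' * B) :
    (N : ℤ) ∣ (γ : SL(2, ℤ)) 0 0 - (γ' : SL(2, ℤ)) 0 0 := by
  obtain ⟨a, b, c, d, h1, ⟨h2, h2'⟩, ⟨h3, h3'⟩⟩ := hA
  obtain ⟨a', b', c', d', h4, ⟨h5, h5'⟩, ⟨h6, h6'⟩⟩ := hB
  have h00 := congrArg (fun g : GL (Fin 2) ℝ => (g : Matrix (Fin 2) (Fin 2) ℝ) 0 0) h
  simp only [Units.val_mul, Matrix.mul_apply, Fin.sum_univ_two, gam_apply, mapGL_apply, h1, h4,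
    Matrix.of_apply, Matrix.cons_val', Matrix.cons_val_zero, Matrix.cons_val_one,
    Matrix.cons_val_fin_one] at h00
  norm_cast at h00
  obtain ⟨u, hu⟩ := dvd_of_mem_Gamma0 γ
  rw [hu, h5'] at h00
  refine ⟨-h3 * (γ : SL(2, ℤ)) 0 0 - b * u + (γ' : SL(2, ℤ)) 0 0 * h6 +
    (γ' : SL(2, ℤ)) 0 1 * h5, ?_⟩
  linear_combination h00 - h3' * (γ : SL(2, ℤ)) 0 0 + h6' * (γ' : SL(2, ℤ)) 0 0

variable {N : ℕ} {G : Subgroup SL(2, ℤ)}

/-- A system for `Γ₀(N)` consisting of matrices `≡ (1 *; 0 *)` gives a system for `G`. -/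
def CosetSys.toG {ι : Type*} (S : CosetSys (gam N) ι) (hS : ∀ x, IsGMat N (S.δ x))
    (h1 : Gamma1 N ≤ G) (h0 : G ≤ Gamma0 N) : CosetSys (gamG G) ι where
  δ := S.δ
  inj x y γ h := S.inj x y ⟨γ, h0 γ.2⟩ h
  act x γ := by
    obtain ⟨y, γ', h⟩ := S.act x ⟨γ, h0 γ.2⟩
    have h2 := IsGMat.mem_iff (hS x) (hS y) h
    have h3 : (γ' : SL(2, ℤ)) ∈ G :=
      mem_of_congr h1 (dvd_of_mem_Gamma0 ⟨γ, h0 γ.2⟩) (dvd_of_mem_Gamma0 γ') h2 γ.2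
    exact ⟨y, ⟨γ', h3⟩, h⟩

@[simp] theorem CosetSys.toG_δ {ι : Type*} (S : CosetSys (gam N) ι)
    (hS : ∀ x, IsGMat N (S.δ x)) (h1 : Gamma1 N ≤ G) (h0 : G ≤ Gamma0 N) (x : ι) :
    (S.toG hS h1 h0).δ x = S.δ x := rfl

theorem trans_comm_toG {ι₁ ι₂ : Type*} [Fintype ι₁] [Fintype ι₂] {B : Type*} [CommGroup B]
    {S₁ : CosetSys (gam N) ι₁} {S₂ : CosetSys (gam N) ι₂} (hS₁ : ∀ x, IsGMat N (S₁.δ x))
    (hS₂ : ∀ x, IsGMat N (S₂.δ x)) (h1 : Gamma1 N ≤ G) (h0 : G ≤ Gamma0 N)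
    (hj : S₁.JInj S₂) (hj' : S₂.JInj S₁) (he : S₁.Exch S₂) (c : G →* B) :
    (S₁.toG hS₁ h1 h0).trans (gamG_injective G)
        ((S₂.toG hS₂ h1 h0).trans (gamG_injective G) c) =
      (S₂.toG hS₂ h1 h0).trans (gamG_injective G)
        ((S₁.toG hS₁ h1 h0).trans (gamG_injective G) c) := by
  refine CosetSys.trans_comm _ _ _ (fun z x w y (γ : G) h => hj z x w y ⟨(γ : SL(2, ℤ)), h0 γ.2⟩ h)
    (fun z x w y (γ : G) h => hj' z x w y ⟨(γ : SL(2, ℤ)), h0 γ.2⟩ h) (fun z x => ?_) c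
  obtain ⟨w, y, α, h⟩ := he z x
  have h2 := IsGMat.mem_iff (γ := 1) (γ' := α) ((hS₂ z).mul (hS₁ x)) ((hS₁ w).mul (hS₂ y))
    (by rw [map_one, mul_one]; exact h)
  have h3 : (α : SL(2, ℤ)) ∈ G :=
    mem_of_congr h1 (γ := 1) (by simp) (dvd_of_mem_Gamma0 α) h2 G.one_mem
  exact ⟨w, y, ⟨α, h3⟩, h⟩

/-- matrix in `SL(2,ℤ)` with given entries -/
def mkSL (a b c d : ℤ) (h : a * d - b * c = 1) : SL(2, ℤ) :=
  ⟨!![a, b; c, d], by rw [Matrix.det_fin_two_of]; exact h⟩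

theorem mkSL_coe (a b c d : ℤ) (h : a * d - b * c = 1) :
    ((mkSL a b c d h : SL(2, ℤ)) : Matrix (Fin 2) (Fin 2) ℤ) = !![a, b; c, d] := rfl

open Classical in
/-- an element of `Γ₀(N)` with lower right entry `l` -/
def sigmaD (N l : ℕ) : Gamma0 N :=
  if h : ∃ a b : ℤ, a * l + b * N = 1 then
    ⟨mkSL h.choose (-h.choose_spec.choose) N l (by linear_combination h.choose_spec.choose_spec),
      by rw [CongruenceSubgroup.Gamma0_mem, mkSL_coe]; simp⟩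
  else 1

theorem sigmaD_11 {N l : ℕ} (h : IsCoprime (l : ℤ) N) : (sigmaD N l : SL(2, ℤ)) 1 1 = l := by
  have h' : ∃ a b : ℤ, a * l + b * N = 1 := h
  have e : sigmaD N l = ⟨mkSL h'.choose (-h'.choose_spec.choose) N l
      (by linear_combination h'.choose_spec.choose_spec),
      by rw [CongruenceSubgroup.Gamma0_mem, mkSL_coe]; simp⟩ := dif_pos h'
  rw [e]
  rfl

theorem sigmaD_00 {N l : ℕ} (h : IsCoprime (l : ℤ) N) :
    (N : ℤ) ∣ (sigmaD N l : SL(2, ℤ)) 0 0 * l - 1 := by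
  have h1 := det_eq (sigmaD N l : SL(2, ℤ))
  rw [sigmaD_11 h] at h1
  obtain ⟨u, hu⟩ := dvd_of_mem_Gamma0 (sigmaD N l)
  exact ⟨(sigmaD N l : SL(2, ℤ)) 0 1 * u, by rw [hu] at h1; linear_combination h1⟩

theorem isCoprime_of_prime {N l : ℕ} (hl : l.Prime) (hN : ¬ l ∣ N) : IsCoprime (l : ℤ) N :=
  Nat.isCoprime_iff_coprime.mpr ((Nat.Prime.coprime_iff_not_dvd hl).mpr hN)

/-- the twisting elements at `l` -/
def sigmaX (N l : ℕ) : Option (Fin l) → Gamma0 N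
  | none => sigmaD N l
  | some _ => 1

theorem isGMat_heckeMatrix (N : ℕ) {l : ℕ} (hl : l ≠ 0) (j : ℕ) : IsGMat N (heckeMatrix l j) :=
  ⟨1, j, 0, l, by simp [hl], dvd_zero _, by simp⟩

theorem isGMat_heckeSys {N l : ℕ} (hl : l.Prime) (hN : ¬ l ∣ N) (x : Option (Fin l)) :
    IsGMat N (((heckeSys hl hN).twist (sigmaX N l)).δ x) := by
  rw [CosetSys.twist_δ]
  cases x with
  | some j =>
    change IsGMat N (gam N 1 * heckeMatrix l j)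
    rw [map_one, one_mul]
    exact isGMat_heckeMatrix N hl.ne_zero j
  | none =>
    change IsGMat N (gam N (sigmaD N l) * heckeDiagMatrix l)
    refine ⟨(sigmaD N l : SL(2, ℤ)) 0 0 * l, (sigmaD N l : SL(2, ℤ)) 0 1,
      (sigmaD N l : SL(2, ℤ)) 1 0 * l, (sigmaD N l : SL(2, ℤ)) 1 1, ?_, ?_, ?_⟩
    · rw [Units.val_mul, val_heckeDiagMatrix hl.ne_zero]
      ext i j
      fin_cases i <;> fin_cases j <;>
        simp [Matrix.mul_apply, Fin.sum_univ_two, gam_apply]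
    · exact (dvd_of_mem_Gamma0 _).mul_right _
    · exact sigmaD_00 (isCoprime_of_prime hl hN)

/-- The Hecke system at `l ∤ N` for `G`. -/
def heckeSysG {N l : ℕ} (hl : l.Prime) (hN : ¬ l ∣ N) (h1 : Gamma1 N ≤ G) (h0 : G ≤ Gamma0 N) :
    CosetSys (gamG G) (Option (Fin l)) :=
  ((heckeSys hl hN).twist (sigmaX N l)).toG (isGMat_heckeSys hl hN) h1 h0

/-- The system of `U_q` for `G`. -/
def heckeSysUG {N q : ℕ} (hq : q ≠ 0) (hN : q ∣ N) (h1 : Gamma1 N ≤ G) (h0 : G ≤ Gamma0 N) :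
    CosetSys (gamG G) (Fin q) :=
  (heckeSysU hq hN).toG (fun j => isGMat_heckeMatrix N hq j) h1 h0

variable {B : Type*} [CommGroup B]

/-- The Hecke operator `T_l` on characters of `G`. -/
def heckeCharG {N l : ℕ} (hl : l.Prime) (hN : ¬ l ∣ N) (h1 : Gamma1 N ≤ G) (h0 : G ≤ Gamma0 N) :
    (G →* B) →* (G →* B) := (heckeSysG hl hN h1 h0).transHom (gamG_injective G)

/-- The operator `U_q` on characters of `G`. -/
def heckeCharUG {N q : ℕ} (hq : q ≠ 0) (hN : q ∣ N) (h1 : Gamma1 N ≤ G) (h0 : G ≤ Gamma0 N) :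
    (G →* B) →* (G →* B) := (heckeSysUG hq hN h1 h0).transHom (gamG_injective G)

theorem heckeCharG_comp {N l : ℕ} (hl : l.Prime) (hN : ¬ l ∣ N) (h1 : Gamma1 N ≤ G)
    (h0 : G ≤ Gamma0 N) {B' : Type*} [CommGroup B'] (f : B →* B') (c : G →* B) :
    heckeCharG hl hN h1 h0 (f.comp c) = f.comp (heckeCharG hl hN h1 h0 c) :=
  CosetSys.trans_comp (gamG_injective G) _ f c

theorem heckeCharUG_comp {N q : ℕ} (hq : q ≠ 0) (hN : q ∣ N) (h1 : Gamma1 N ≤ G)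
    (h0 : G ≤ Gamma0 N) {B' : Type*} [CommGroup B'] (f : B →* B') (c : G →* B) :
    heckeCharUG hq hN h1 h0 (f.comp c) = f.comp (heckeCharUG hq hN h1 h0 c) :=
  CosetSys.trans_comp (gamG_injective G) _ f c

theorem conj_mem (h1 : Gamma1 N ≤ G) (h0 : G ≤ Gamma0 N) (σ : Gamma0 N) (γ : G) :
    (σ : SL(2, ℤ)) * (γ : SL(2, ℤ)) * (σ : SL(2, ℤ))⁻¹ ∈ G := by
  refine mem_of_congr h1 (γ := (γ : SL(2, ℤ))) (dvd_of_mem_Gamma0 ⟨(γ : SL(2, ℤ)), h0 γ.2⟩)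
    (dvd_of_mem_Gamma0 (σ * ⟨(γ : SL(2, ℤ)), h0 γ.2⟩ * σ⁻¹)) ?_ γ.2
  have hm : (((σ : SL(2, ℤ)) * (γ : SL(2, ℤ)) * (σ : SL(2, ℤ))⁻¹ : SL(2, ℤ)) :
      Matrix (Fin 2) (Fin 2) ℤ) 0 0 =
      ((σ : SL(2, ℤ)) 0 0 * (γ : SL(2, ℤ)) 0 0 + (σ : SL(2, ℤ)) 0 1 * (γ : SL(2, ℤ)) 1 0) *
        (σ : SL(2, ℤ)) 1 1 -
      ((σ : SL(2, ℤ)) 0 0 * (γ : SL(2, ℤ)) 0 1 + (σ : SL(2, ℤ)) 0 1 * (γ : SL(2, ℤ)) 1 1) *
        (σ : SL(2, ℤ)) 1 0 := by
    rw [Matrix.SpecialLinearGroup.coe_mul, coe_inv, Matrix.adjugate_fin_two,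
      Matrix.SpecialLinearGroup.coe_mul]
    simp [Matrix.mul_apply, Fin.sum_univ_two]
    ring
  have hu' := dvd_of_mem_Gamma0 ⟨(γ : SL(2, ℤ)), h0 γ.2⟩
  simp only at hu'
  obtain ⟨u, hu⟩ := hu'
  obtain ⟨v, hv⟩ := dvd_of_mem_Gamma0 σ
  have hdet := det_eq (σ : SL(2, ℤ))
  change (N : ℤ) ∣ (γ : SL(2, ℤ)) 0 0 - (((σ : SL(2, ℤ)) * (γ : SL(2, ℤ)) *
    (σ : SL(2, ℤ))⁻¹ : SL(2, ℤ)) : Matrix (Fin 2) (Fin 2) ℤ) 0 0
  rw [hm, hu]
  rw [hv] at hdet ⊢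
  refine ⟨-(γ : SL(2, ℤ)) 0 0 * ((σ : SL(2, ℤ)) 0 1 * v) -
    (σ : SL(2, ℤ)) 0 1 * u * (σ : SL(2, ℤ)) 1 1 +
    ((σ : SL(2, ℤ)) 0 0 * (γ : SL(2, ℤ)) 0 1 + (σ : SL(2, ℤ)) 0 1 * (γ : SL(2, ℤ)) 1 1) * v, ?_⟩
  linear_combination -(γ : SL(2, ℤ)) 0 0 * hdet

/-- conjugation by an element of `Γ₀(N)` on `G` -/
def conjG (h1 : Gamma1 N ≤ G) (h0 : G ≤ Gamma0 N) (σ : Gamma0 N) : G →* G where
  toFun γ := ⟨(σ : SL(2, ℤ)) * (γ : SL(2, ℤ)) * (σ : SL(2, ℤ))⁻¹, conj_mem h1 h0 σ γ⟩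
  map_one' := Subtype.ext (by simp)
  map_mul' a b := Subtype.ext (by simp only [Subgroup.coe_mul]; group)

/-- The diamond operator on characters of `G`: `c ↦ (γ ↦ c (σ γ σ⁻¹))`. -/
def diaChar (h1 : Gamma1 N ≤ G) (h0 : G ≤ Gamma0 N) (σ : Gamma0 N) : (G →* B) →* (G →* B) where
  toFun c := c.comp (conjG h1 h0 σ)
  map_one' := by ext γ; rfl
  map_mul' c c' := by ext γ; rfl

@[simp] theorem diaChar_apply (h1 : Gamma1 N ≤ G) (h0 : G ≤ Gamma0 N) (σ : Gamma0 N)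
    (c : G →* B) (γ : G) : diaChar h1 h0 σ c γ = c (conjG h1 h0 σ γ) := rfl

theorem diaChar_mul (h1 : Gamma1 N ≤ G) (h0 : G ≤ Gamma0 N) (σ σ' : Gamma0 N) (c : G →* B) :
    diaChar h1 h0 (σ * σ') c = diaChar h1 h0 σ' (diaChar h1 h0 σ c) := by
  ext γ
  simp only [diaChar_apply]
  congr 1
  apply Subtype.ext
  simp only [conjG, MonoidHom.coe_mk, OneHom.coe_mk, Subgroup.coe_mul, _root_.mul_inv_rev]
  group

/-- The diamond operators only depend on the class modulo `G`. -/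
theorem diaChar_of_mem (h1 : Gamma1 N ≤ G) (h0 : G ≤ Gamma0 N) (σ : Gamma0 N)
    (hσ : (σ : SL(2, ℤ)) ∈ G) (c : G →* B) : diaChar h1 h0 σ c = c := by
  ext γ
  simp only [diaChar_apply]
  have : conjG h1 h0 σ γ = ⟨σ, hσ⟩ * γ * (⟨σ, hσ⟩ : G)⁻¹ := Subtype.ext rfl
  rw [this, map_mul, map_mul, map_inv, mul_inv_cancel_comm]

theorem diaChar_comp (h1 : Gamma1 N ≤ G) (h0 : G ≤ Gamma0 N) (σ : Gamma0 N) {B' : Type*}
    [CommGroup B'] (f : B →* B') (c : G →* B) :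
    diaChar h1 h0 σ (f.comp c) = f.comp (diaChar h1 h0 σ c) := rfl

/-- commutation of diamond operators and Hecke operators -/
theorem trans_diaChar {ι : Type*} [Fintype ι] {S : CosetSys (gam N) ι}
    (hS : ∀ x, IsGMat N (S.δ x)) (h1 : Gamma1 N ≤ G) (h0 : G ≤ Gamma0 N) (σ : Gamma0 N)
    (c : G →* B) :
    (S.toG hS h1 h0).trans (gamG_injective G) (diaChar h1 h0 σ c) =
      diaChar h1 h0 σ ((S.toG hS h1 h0).trans (gamG_injective G) c) := by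
  -- the conjugate system
  let S' : CosetSys (gamG G) ι :=
    { δ := fun x => (gam N σ)⁻¹ * S.δ x * gam N σ
      inj := by
        intro x y γ h
        refine S.inj x y (σ * ⟨(γ : SL(2, ℤ)), h0 γ.2⟩ * σ⁻¹) ?_
        have h2 : S.δ x = gam N σ * ((gam N σ)⁻¹ * S.δ x * gam N σ) * (gam N σ)⁻¹ := by group
        rw [h2, h, map_mul, map_mul, map_inv]
        have h3 : gam N ⟨(γ : SL(2, ℤ)), h0 γ.2⟩ = gamG G γ := rfl
        rw [h3]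
        group
      act := by
        intro x γ
        obtain ⟨y, γ', h⟩ := (S.toG hS h1 h0).act x (conjG h1 h0 σ γ)
        refine ⟨y, conjG h1 h0 σ⁻¹ γ', ?_⟩
        have h2 : gamG G (conjG h1 h0 σ γ) = gam N σ * gamG G γ * (gam N σ)⁻¹ := by
          rw [← map_inv]
          simp only [gamG_apply, gam_apply, ← map_mul]
          rfl
        have h3 : gamG G (conjG h1 h0 σ⁻¹ γ') = (gam N σ)⁻¹ * gamG G γ' * gam N σ := by
          rw [← map_inv]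
          simp only [gamG_apply, gam_apply, ← map_mul]
          congr 1
          simp [conjG]
        simp only [CosetSys.toG_δ] at h
        rw [h2] at h
        rw [h3]
        have h4 : S.δ x * gam N σ * gamG G γ = gamG G γ' * S.δ y * gam N σ := by
          rw [← h]; group
        simp only [mul_assoc] at h4 ⊢
        rw [h4]
        group }
  have hS' : ∀ d : G →* B, S'.trans (gamG_injective G) d =
      (S.toG hS h1 h0).trans (gamG_injective G) d := by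
    intro d
    have h5 : ∀ x, ∃ y, ∃ α : G, S'.δ x = gamG G α * (S.toG hS h1 h0).δ y := by
      intro x
      obtain ⟨y, α, h⟩ := S.act x σ
      have h2 := IsGMat.mem_iff (hS x) (hS y) h
      have h6 : (((σ⁻¹ * α : Gamma0 N)) : SL(2, ℤ)) ∈ G := by
        refine mem_of_congr h1 (γ := 1) (by simp) (dvd_of_mem_Gamma0 (σ⁻¹ * α)) ?_ G.one_mem
        have hm : (((σ⁻¹ * α : Gamma0 N) : SL(2, ℤ)) : Matrix (Fin 2) (Fin 2) ℤ) 0 0 =
            (σ : SL(2, ℤ)) 1 1 * (α : SL(2, ℤ)) 0 0 - (σ : SL(2, ℤ)) 0 1 * (α : SL(2, ℤ)) 1 0 := by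
          rw [Subgroup.coe_mul, Matrix.SpecialLinearGroup.coe_mul, Subgroup.coe_inv, coe_inv,
            Matrix.adjugate_fin_two]
          simp [Matrix.mul_apply, Fin.sum_univ_two]
          ring
        have hdet := det_eq (σ : SL(2, ℤ))
        obtain ⟨u, hu⟩ := dvd_of_mem_Gamma0 α
        obtain ⟨v, hv⟩ := dvd_of_mem_Gamma0 σ
        obtain ⟨w, hw⟩ := h2
        rw [hm, hu]
        rw [hv] at hdet
        refine ⟨(σ : SL(2, ℤ)) 1 1 * w - (σ : SL(2, ℤ)) 0 1 * v + (σ : SL(2, ℤ)) 0 1 * u, ?_⟩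
        simp only [Matrix.SpecialLinearGroup.coe_one, Matrix.one_apply_eq]
        linear_combination (σ : SL(2, ℤ)) 1 1 * hw - hdet
      refine ⟨y, ⟨_, h6⟩, ?_⟩
      have h7 : gamG G ⟨_, h6⟩ = (gam N σ)⁻¹ * gam N α := by
        rw [← map_inv, ← map_mul]
        rfl
      rw [h7, CosetSys.toG_δ]
      change (gam N σ)⁻¹ * S.δ x * gam N σ = _
      rw [mul_assoc, h, mul_assoc]
    choose f hf using h5
    exact CosetSys.trans_eq_of_equiv _ _ _ f rfl hf d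
  rw [← hS']
  ext γ
  rw [diaChar_apply, CosetSys.trans_apply' (gamG_injective G) (S.toG hS h1 h0)]
  rw [CosetSys.trans_apply (gamG_injective G) S' (diaChar h1 h0 σ c) γ
    (fun x => conjG h1 h0 σ⁻¹ ((S.toG hS h1 h0).coc (conjG h1 h0 σ γ) x))
    (fun x => (S.toG hS h1 h0).tgt (conjG h1 h0 σ γ) x)]
  · refine Finset.prod_congr rfl fun x _ => ?_
    rw [diaChar_apply]
    congr 1
    apply Subtype.ext
    simp only [conjG, MonoidHom.coe_mk, OneHom.coe_mk, Subgroup.coe_inv]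
    group
  · intro x
    have h := (S.toG hS h1 h0).spec (conjG h1 h0 σ γ) x
    set γ' := (S.toG hS h1 h0).coc (conjG h1 h0 σ γ) x
    set y := (S.toG hS h1 h0).tgt (conjG h1 h0 σ γ) x
    have h2 : gamG G (conjG h1 h0 σ γ) = gam N σ * gamG G γ * (gam N σ)⁻¹ := by
      rw [← map_inv]
      simp only [gamG_apply, gam_apply, ← map_mul]
      rfl
    have h3 : gamG G (conjG h1 h0 σ⁻¹ γ') = (gam N σ)⁻¹ * gamG G γ' * gam N σ := by
      rw [← map_inv]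
      simp only [gamG_apply, gam_apply, ← map_mul]
      congr 1
      simp [conjG]
    simp only [CosetSys.toG_δ] at h
    rw [h2] at h
    rw [h3]
    have h4 : S.δ x * gam N σ * gamG G γ = gamG G γ' * S.δ y * gam N σ := by
      rw [← h]; group
    change (gam N σ)⁻¹ * S.δ x * gam N σ * gamG G γ =
      (gam N σ)⁻¹ * gamG G γ' * gam N σ * ((gam N σ)⁻¹ * S.δ y * gam N σ)
    simp only [mul_assoc] at h4 ⊢
    rw [h4]
    group

theorem heckeCharG_diaChar {l : ℕ} (hl : l.Prime) (hN : ¬ l ∣ N) (h1 : Gamma1 N ≤ G)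
    (h0 : G ≤ Gamma0 N) (σ : Gamma0 N) (c : G →* B) :
    heckeCharG hl hN h1 h0 (diaChar h1 h0 σ c) = diaChar h1 h0 σ (heckeCharG hl hN h1 h0 c) :=
  trans_diaChar _ h1 h0 σ c

theorem heckeCharUG_diaChar {q : ℕ} (hq : q ≠ 0) (hN : q ∣ N) (h1 : Gamma1 N ≤ G)
    (h0 : G ≤ Gamma0 N) (σ : Gamma0 N) (c : G →* B) :
    heckeCharUG hq hN h1 h0 (diaChar h1 h0 σ c) = diaChar h1 h0 σ (heckeCharUG hq hN h1 h0 c) :=
  trans_diaChar _ h1 h0 σ c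

/-- the two systems at the level of `Γ₀(N)` -/
theorem jInj_of_isHeckeSys {ι₁ ι₂ : Type*} {S₁ : CosetSys (gam N) ι₁}
    {S₂ : CosetSys (gam N) ι₂} {l₁ l₂ : ℕ} (hl : l₁.Coprime l₂) (H₁ : IsHeckeSys S₁ l₁)
    (H₂ : IsHeckeSys S₂ l₂) : S₁.JInj S₂ := prod_inj hl H₁ H₂

theorem exch_of_isHeckeSys {ι₁ ι₂ : Type*} {S₁ : CosetSys (gam N) ι₁}
    {S₂ : CosetSys (gam N) ι₂} {l₁ l₂ : ℕ} (hl : l₁.Coprime l₂) (H₁ : IsHeckeSys S₁ l₁)
    (H₂ : IsHeckeSys S₂ l₂) : S₁.Exch S₂ := prod_exchange hl H₁ H₂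

theorem twist_one {Γ G' : Type*} [Group Γ] [Group G'] {φ : Γ →* G'} {ι : Type*}
    (S : CosetSys φ ι) : S.twist (fun _ => 1) = S := by
  cases S
  simp [CosetSys.twist]

theorem heckeCharG_comm {l l' : ℕ} (hl : l.Prime) (hN : ¬ l ∣ N) (hl' : l'.Prime)
    (hN' : ¬ l' ∣ N) (h1 : Gamma1 N ≤ G) (h0 : G ≤ Gamma0 N) (c : G →* B) :
    heckeCharG hl hN h1 h0 (heckeCharG hl' hN' h1 h0 c) =
      heckeCharG hl' hN' h1 h0 (heckeCharG hl hN h1 h0 c) := by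
  rcases eq_or_ne l l' with rfl | h
  · rfl
  · have hc := (Nat.coprime_primes hl hl').mpr h
    have H := isHeckeSys_heckeSys hl hN
    have H' := isHeckeSys_heckeSys hl' hN'
    exact trans_comm_toG _ _ h1 h0 ((jInj_of_isHeckeSys hc H H').twist _ _)
      ((jInj_of_isHeckeSys hc.symm H' H).twist _ _) ((exch_of_isHeckeSys hc H H').twist _ _) c

theorem heckeCharG_heckeCharUG_comm {l q : ℕ} (hl : l.Prime) (hN : ¬ l ∣ N) (hq : q ≠ 0)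
    (hqN : q ∣ N) (h1 : Gamma1 N ≤ G) (h0 : G ≤ Gamma0 N) (c : G →* B) :
    heckeCharG hl hN h1 h0 (heckeCharUG hq hqN h1 h0 c) =
      heckeCharUG hq hqN h1 h0 (heckeCharG hl hN h1 h0 c) := by
  have hc : l.Coprime q := (Nat.Prime.coprime_iff_not_dvd hl).mpr fun h => hN (h.trans hqN)
  have H := isHeckeSys_heckeSys hl hN
  have H' := isHeckeSys_heckeSysU hq hqN
  have j1 := (jInj_of_isHeckeSys hc H H').twist (sigmaX N l) (fun _ => 1)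
  have j2 := (jInj_of_isHeckeSys hc.symm H' H).twist (fun _ => 1) (sigmaX N l)
  have j3 := (exch_of_isHeckeSys hc H H').twist (sigmaX N l) (fun _ => 1)
  rw [twist_one] at j1 j2 j3
  exact trans_comm_toG _ _ h1 h0 j1 j2 j3 c

theorem heckeCharUG_comm {q q' : ℕ} (hq : q ≠ 0) (hN : q ∣ N) (hq' : q' ≠ 0)
    (hN' : q' ∣ N) (h : q.Coprime q') (h1 : Gamma1 N ≤ G) (h0 : G ≤ Gamma0 N) (c : G →* B) :
    heckeCharUG hq hN h1 h0 (heckeCharUG hq' hN' h1 h0 c) =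
      heckeCharUG hq' hN' h1 h0 (heckeCharUG hq hN h1 h0 c) :=
  trans_comm_toG _ _ h1 h0 (jInj_of_isHeckeSys h (isHeckeSys_heckeSysU hq hN)
    (isHeckeSys_heckeSysU hq' hN')) (jInj_of_isHeckeSys h.symm (isHeckeSys_heckeSysU hq' hN')
    (isHeckeSys_heckeSysU hq hN)) (exch_of_isHeckeSys h (isHeckeSys_heckeSysU hq hN)
    (isHeckeSys_heckeSysU hq' hN')) c

end Fermat.Agent.ESCore
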