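import Fermat.Agent.ESCore.TowerPar

set_option autoImplicit false

/-!
# Inertia at a prime exactly dividing the level
-/

open IsLocalRing CongruenceSubgroup Matrix.SpecialLinearGroup Polynomial
open scoped MatrixGroups

noncomputable section

namespace Fermat.Agent.ESCore

open ModP Tower Univ UnivDef

/-- the character is trivial on `-1` and on the parabolic elements -/
def ParC {N : ℕ} (χ : Gamma0 N →* ℂˣ) : Prop :=
  ∀ γ : Gamma0 N, ((γ : SL(2, ℤ)) 0 0 + (γ : SL(2, ℤ)) 1 1) ^ 2 = 4 → χ γ = 1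

theorem ParC.res {N N' : ℕ} (h : N ∣ N') {χ : Gamma0 N →* ℂˣ} (hχ : ParC χ) :
    ParC (resChar h χ) := fun γ hγ => hχ ⟨γ, Gamma0_le_of_dvd h γ.2⟩ hγ

theorem parC_lat {N : ℕ} [NeZero N] {S : Finset ℕ}
    (φ : Multiplicative (LatM N (↑S : Set ℕ)) →* ℂˣ) : ParC (φ.comp (perM N S)) := by
  intro γ hγ
  rw [MonoidHom.comp_apply, perM_par' (by rw [Matrix.trace_fin_two]; exact hγ), map_one]

/-- The local monodromy relation `(σ-1)(τ-1)χ = 0` for parabolic characters. -/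
def LG1Prop (N m : ℕ) [NeZero N] (hm : 0 < m) (A : ValuationSubring Qb) : Prop :=
  ∀ σ ∈ A.inertiaSubgroupIn ℚ, ∀ τ ∈ A.inertiaSubgroupIn ℚ, ∀ χ : XG N m,
    ParC χ.1 → galX N hm (σ * τ) χ * χ = galX N hm σ χ * galX N hm τ χ

section

variable {N : ℕ} [NeZero N] {S : Finset ℕ} {p : ℕ}

theorem eq_zero_of_forall_pow {O : Type} [CommRing O] [IsLocalRing O] [IsNoetherianRing O]
    {x : O} (hp : (p : O) ∈ maximalIdeal O) (h : ∀ n : ℕ, x ∈ Ideal.span {(p : O) ^ n}) :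
    x = 0 := by
  have h1 : x ∈ ⨅ n : ℕ, maximalIdeal O ^ n := by
    rw [Submodule.mem_iInf]
    intro n
    have h2 := h n
    rw [← Ideal.span_singleton_pow] at h2
    exact Ideal.pow_right_mono (by rwa [Ideal.span_singleton_le_iff_mem]) n h2
  rw [Ideal.iInf_pow_eq_bot_of_isLocalRing _ (IsLocalRing.maximalIdeal.isMaximal O).ne_top] at h1
  exact (Submodule.mem_bot O).mp h1

/-- **The trace of inertia is `2`** (up to torsion). -/
theorem trace_inertia (hp : p.Prime) (hpS : p ∈ S) (hNS : ∀ q : ℕ, q.Prime → q ∣ N → q ∈ S)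
    (hKL : ∀ l : ℕ, l.Prime → ¬ l ∣ N → l ≠ p → ∀ B : ValuationSubring Qb,
      B.LiesOverPrime l → ∀ n, KLProp N (p ^ n) B)
    {N' : ℕ} [NeZero N'] (hNN' : N ∣ N') {q : ℕ} (hq : q.Prime) (hqp : q ≠ p)
    {A : ValuationSubring Qb} (hA : A.LiesOverPrime q)
    (hLG : ∀ n, LG1Prop N' (p ^ n) (pow_pos hp.pos n) A)
    {O : Type} [CommRing O] [IsLocalRing O] [IsNoetherianRing O]
    (hpO : (p : O) ∈ maximalIdeal O)
    {π : CuspForm.heckeAlgebra N 2 (↑S : Set ℕ) →+* O} {c : ℕ} {t : GQ → O}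
    (ht : ∀ σ, ∀ f ∈ algP (TxS N S p) (TtS N S), ∀ n m, n + c ≤ m →
        f.1 m = trS (rhoT N hp.pos m) (chiT N hp.pos m) σ →
        t σ - π f.2 ∈ Ideal.span {(p : O) ^ n}) :
    ∃ d : ℕ, d ≠ 0 ∧ ∀ σ ∈ A.inertiaSubgroupIn ℚ, (d : O) * (t σ - 2) = 0 := by
  have hne : ∀ n, NeZero (p ^ n) := fun n => ⟨(pow_pos hp.pos n).ne'⟩
  obtain ⟨d, hd0, hd⟩ := exists_pow_res (N' := N') hNN'
  obtain ⟨c', hc'⟩ := faithful_weak_S (N := N) (S := S) hp.ne_zero
  refine ⟨d, hd0, fun σ hσ => ?_⟩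
  refine eq_zero_of_forall_pow hpO fun n => ?_
  set m := n + c + c' with hm
  obtain ⟨f, hf, hfm⟩ := trS_mem (galTower (N := N) hp hpS hNS hKL) m σ
  have h1 := ht σ f hf n m (by omega) hfm
  -- the element `d (f - 2)`
  have hg : ((d : ℤ) • (f - 2)) ∈ algP (TxS N S p) (TtS N S) :=
    (algP (TxS N S p) (TtS N S)).zsmul_mem (sub_mem hf (by
      have : (2 : (∀ n, Module.End ℤ (Additive (XG N (p ^ n)))) ×
        CuspForm.heckeAlgebra N 2 (↑S : Set ℕ)) = algebraMap ℤ _ 2 := by simp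
      rw [this]
      exact Subalgebra.algebraMap_mem _ _)) _
  have h2 := hc' n m (by omega) _ hg (by
    intro φ hφ
    set x : Additive (XG N (p ^ m)) := Additive.ofMul ⟨φ.comp (perM N S), latX_mem φ hφ⟩ with hx
    have hpar : ParC (resX hNN' (p ^ m) (Additive.toMul x)).1 := (parC_lat φ).res hNN'
    have e1 := hLG m σ hσ σ hσ _ hpar
    rw [galX_res, galX_res, ← map_mul, ← map_mul] at e1
    have e2 : resX hNN' (p ^ m) ((galX N (pow_pos hp.pos m) (σ * σ) (Additive.toMul x) *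
        Additive.toMul x) * (galX N (pow_pos hp.pos m) σ (Additive.toMul x) *
        galX N (pow_pos hp.pos m) σ (Additive.toMul x))⁻¹) = 1 := by
      rw [map_mul, map_inv, e1, mul_inv_cancel]
    have e3 := hd _ (congrArg Subtype.val e2)
    have e4 : (d : ℤ) • ((rhoT N hp.pos m (σ * σ) x + x) -
        (rhoT N hp.pos m σ x + rhoT N hp.pos m σ x)) = 0 := by
      apply Additive.toMul.injective
      apply Subtype.ext
      rw [natCast_zsmul]
      exact e3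
    have e5 : chiT N hp.pos m σ = 1 := by
      have := hne m
      change cycE N (p ^ m) σ = 1
      rw [cycE_of_eq (k := 1) (by
        rw [cyc_inertia hA hq hσ (fun h => hqp
          ((Nat.prime_dvd_prime_iff_eq hq hp).mp (hq.dvd_of_dvd_pow h))), Units.val_one,
          Int.cast_one]), Int.cast_one]
    have e6 : ((d : ℤ) • (f - 2)).1 m x =
        rhoT N hp.pos m σ⁻¹ ((d : ℤ) • ((rhoT N hp.pos m (σ * σ) x + x) -
        (rhoT N hp.pos m σ x + rhoT N hp.pos m σ x))) := by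
      have e7 : ∀ τ τ' : GQ, rhoT N hp.pos m τ (rhoT N hp.pos m τ' x) =
          rhoT N hp.pos m (τ * τ') x := fun τ τ' => by rw [map_mul]; rfl
      rw [map_zsmul, map_sub, map_add, map_add, e7, e7, ← mul_assoc, inv_mul_cancel, one_mul,
        map_one, Module.End.one_apply]
      have e8 : ((d : ℤ) • (f - 2)).1 m x = (d : ℤ) • ((f.1 m) x - (2 : ℤ) • x) := by
        change ((d : ℤ) • (f.1 m - (2 : Module.End ℤ (Additive (XG N (p ^ m)))))) x = _
        rw [LinearMap.smul_apply, LinearMap.sub_apply]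
        congr 2
      rw [e8, hfm]
      change (d : ℤ) • ((rhoT N hp.pos m σ + chiT N hp.pos m σ * rhoT N hp.pos m σ⁻¹) x -
        (2 : ℤ) • x) = _
      rw [e5, one_mul, LinearMap.add_apply, two_smul]
    rw [e6, e4, map_zero])
  -- conclusion
  have h3 : (d : O) * (π f.2 - 2) ∈ Ideal.span {(p : O) ^ n} := by
    have h4 : ((d : ℤ) • (f - 2)).2 = (d : CuspForm.heckeAlgebra N 2 (↑S : Set ℕ)) *
        (f.2 - 2) := by
      change (d : ℤ) • (f.2 - 2) = _
      rw [zsmul_eq_mul, Int.cast_natCast]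
    rw [h4, Ideal.mem_span_singleton] at h2
    obtain ⟨y, hy⟩ := h2
    rw [Ideal.mem_span_singleton]
    refine ⟨π y, ?_⟩
    have := congrArg π hy
    rw [map_mul, map_sub, map_natCast, map_mul, map_pow, map_natCast] at this
    rw [← this]
    congr 2
    exact (map_ofNat π 2).symm
  have h5 : (d : O) * (t σ - 2) = (d : O) * (t σ - π f.2) + (d : O) * (π f.2 - 2) := by ring
  rw [h5]
  exact add_mem (Ideal.mul_mem_left _ _ h1) h3

end

section S34

variable {p : ℕ} {N : ℕ} [NeZero N] {S : Finset ℕ}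
  {𝒪 : Type} [CommRing 𝒪] [IsDomain 𝒪] [IsDiscreteValuationRing 𝒪]
  [IsAdicComplete (IsLocalRing.maximalIdeal 𝒪) 𝒪]
  {θ : CuspForm.heckeAlgebra N 2 (↑S : Set ℕ) →+* IsLocalRing.ResidueField 𝒪}
  {T : Type} [CommRing T] [IsLocalRing T] [IsNoetherianRing T]
  [IsAdicComplete (IsLocalRing.maximalIdeal T) T] [Algebra 𝒪 T] [IsLocalHom (algebraMap 𝒪 T)]
  [Module.Finite 𝒪 T] [Module.Free 𝒪 T]

omit [IsDiscreteValuationRing 𝒪] [IsAdicComplete (IsLocalRing.maximalIdeal 𝒪) 𝒪]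
  [IsLocalRing T] [IsNoetherianRing T] [IsAdicComplete (IsLocalRing.maximalIdeal T) T]
  [IsLocalHom (algebraMap 𝒪 T)] [Module.Finite 𝒪 T] in
theorem eq_zero_of_natCast_mul [CharZero 𝒪] {d : ℕ} (hd : d ≠ 0) {x : T}
    (h : (d : T) * x = 0) : x = 0 := by
  have h1 : (d : 𝒪) • x = 0 := by
    rw [Algebra.smul_def, map_natCast, h]
  exact (smul_eq_zero.mp h1).resolve_left (Nat.cast_ne_zero.mpr hd)

/-- trace and determinant of a Hecke–Galois datum -/
theorem matOf_trace_det [CharZero 𝒪] (hp𝒪 : (p : 𝒪) ∈ IsLocalRing.maximalIdeal 𝒪)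
    (hNS : ∀ q : ℕ, q.Prime → q ∣ N → q ∈ S)
    (H : CuspForm.HeckeGaloisRepDatum N (↑S : Set ℕ) 𝒪 θ T)
    {t : GQ → T} {ε : GQ →* Tˣ} (hps : IsPseudo t ε)
    (h1 : ∀ (l : ℕ) (hl : l.Prime) (hlN : ¬ l ∣ N) (hlS : l ∉ (↑S : Set ℕ)),
        ∀ B : ValuationSubring Qb, B.LiesOverPrime l → ∀ σ : GQ, B.IsFrobeniusAt σ l →
          t σ = H.π (CuspForm.heckeAlgebra.T hl hlN hlS) ∧ (ε σ : T) = l)
    (h2 : ∀ n : ℕ, ∃ L : IntermediateField ℚ Qb, FiniteDimensional ℚ L ∧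
        ∀ σ : GQ, (∀ x ∈ L, σ x = x) → (∀ g, t (σ * g) - t g ∈ Ideal.span {(p : T) ^ n}) ∧
          (ε σ : T) - 1 ∈ Ideal.span {(p : T) ^ n})
    (b : Module.Basis (Fin 2) T H.ρ.V) (σ : GQ) :
    (matOf H.ρ b σ).trace = t σ ∧ (matOf H.ρ b σ).det = ε σ := by
  have hpT : (p : T) ∈ maximalIdeal T := by
    rw [← map_natCast (algebraMap 𝒪 T)]
    exact map_nonunit (algebraMap 𝒪 T) _ hp𝒪
  have key : ∀ σ, (matOf H.ρ b σ).trace = t σ := by
    refine trace_eq_of_frob (isContMat_matOf H.ρ b) hps (fun n => ?_) S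
      fun l hl hlS B hB σ hσ => ?_
    · obtain ⟨L, hL, h4⟩ := h2 n
      exact ⟨L, hL, fun σ hσ g => span_pow_le hpT n ((h4 σ hσ).1 g)⟩
    · have hlN : ¬ l ∣ N := fun h => hlS (hNS l hl h)
      obtain ⟨h4, h5⟩ := h1 l hl hlN hlS B hB σ hσ
      have h2 := H.charpoly_frob l hl hlN hlS B hB σ hσ
      rw [← LinearMap.charpoly_toMatrix (H.ρ.ρ σ) b] at h2
      change (matOf H.ρ b σ).charpoly = _ at h2
      rw [Matrix.charpoly_fin_two] at h2
      constructor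
      · have h3 := congrArg (fun P : Polynomial T => P.coeff 1) h2
        simp only [Polynomial.coeff_add, Polynomial.coeff_sub, Polynomial.coeff_X_pow,
          Polynomial.coeff_C_mul, Polynomial.coeff_X_one, Polynomial.coeff_C_succ, mul_one,
          add_zero] at h3
        rw [h4]
        simpa using h3
      · have h3 := congrArg (fun P : Polynomial T => P.coeff 0) h2
        rw [h5]
        simpa using h3
  refine ⟨key σ, ?_⟩
  have e1 := key (σ * σ)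
  have e2 : (matOf H.ρ b (σ * σ)).trace =
      (matOf H.ρ b σ).trace * (matOf H.ρ b σ).trace - 2 * (matOf H.ρ b σ).det := by
    rw [map_mul]
    simp only [Matrix.trace_fin_two, Matrix.det_fin_two, Matrix.mul_apply, Fin.sum_univ_two]
    ring
  have e3 := hps.mul σ σ
  rw [inv_mul_cancel, hps.one] at e3
  have e4 : (((2 : ℕ) : T)) * ((matOf H.ρ b σ).det - ε σ) = 0 := by
    rw [e2, key] at e1
    push_cast
    linear_combination e3 - e1
  exact sub_eq_zero.mp (eq_zero_of_natCast_mul (𝒪 := 𝒪) (by norm_num) e4)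

/-- **S34**, from the local monodromy relation. -/
theorem isUnipotent_of_LG1 [CharZero 𝒪] (hp : p.Prime)
    (hp𝒪 : (p : 𝒪) ∈ IsLocalRing.maximalIdeal 𝒪) (hpS : p ∈ S)
    (hNS : ∀ q : ℕ, q.Prime → q ∣ N → q ∈ S)
    (hKL : ∀ l : ℕ, l.Prime → ¬ l ∣ N → l ≠ p → ∀ B : ValuationSubring Qb,
      B.LiesOverPrime l → ∀ n, KLProp N (p ^ n) B)
    {N' : ℕ} [NeZero N'] (hNN' : N ∣ N') {q : ℕ} (hq : q.Prime) (hqp : q ≠ p)
    (hLG : ∀ A : ValuationSubring Qb, A.LiesOverPrime q → ∀ n,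
      LG1Prop N' (p ^ n) (pow_pos hp.pos n) A)
    (H : CuspForm.HeckeGaloisRepDatum N (↑S : Set ℕ) 𝒪 θ T) :
    H.ρ.IsUnipotentOnInertiaAt q := by
  have hpT : (p : T) ∈ maximalIdeal T := by
    rw [← map_natCast (algebraMap 𝒪 T)]
    exact map_nonunit (algebraMap 𝒪 T) _ hp𝒪
  obtain ⟨c, t, ε, hps, h1, h1', h2, h3, -⟩ := exists_pseudo_full hp hpS hNS hKL hpT H.π
  intro A hA σ hσ
  let b : Module.Basis (Fin 2) T H.ρ.V :=
    (Module.finBasis T H.ρ.V).reindex (finCongr H.ρ.finrank_eq)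
  obtain ⟨e1, e2⟩ := matOf_trace_det hp𝒪 hNS H hps h2 h3 b σ
  obtain ⟨d, hd, h4⟩ := trace_inertia hp hpS hNS hKL hNN' hq hqp hA (hLG A hA) hpT h1
  have e3 : t σ = 2 := sub_eq_zero.mp (eq_zero_of_natCast_mul (𝒪 := 𝒪) hd (h4 σ hσ))
  have e4 : (ε σ : T) = 1 := by
    rw [← sub_eq_zero]
    refine eq_zero_of_forall_pow hpT fun n => ?_
    have h5 := h1' σ 1 (one_mem _) n (n + c) le_rfl (by
      have : NeZero (p ^ (n + c)) := ⟨(pow_pos hp.pos _).ne'⟩
      change (1 : Module.End ℤ (Additive (XG N (p ^ (n + c))))) = cycE N (p ^ (n + c)) σ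
      rw [cycE_of_eq (k := 1) (by
        rw [cyc_inertia hA hq hσ (fun h => hqp
          ((Nat.prime_dvd_prime_iff_eq hq hp).mp (hq.dvd_of_dvd_pow h))), Units.val_one,
          Int.cast_one]), Int.cast_one])
    have h6 : H.π (1 : (∀ n, Module.End ℤ (Additive (XG N (p ^ n)))) ×
        CuspForm.heckeAlgebra N 2 (↑S : Set ℕ)).2 = 1 := map_one _
    rw [h6] at h5
    exact h5
  rw [← LinearMap.charpoly_toMatrix (H.ρ.ρ σ) b]
  change (matOf H.ρ b σ).charpoly = _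
  rw [Matrix.charpoly_fin_two, e1, e2, e3, e4]
  simp only [map_ofNat, map_one]
  ring

end S34

end Fermat.Agent.ESCore
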