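import Fermat.Agent.ESCore.FrobMult

set_option autoImplicit false

/-!
# Inertia at `p` for newforms of level exactly divisible by `p`
-/

open IsLocalRing CongruenceSubgroup Matrix.SpecialLinearGroup Polynomial
open scoped MatrixGroups Pointwise

noncomputable section

namespace Fermat.Agent.ESCore

open ModP Tower Univ UnivDef

theorem mem_inertia_iff' {A : ValuationSubring Qb} {σ : GQ} :
    σ ∈ A.inertiaSubgroupIn ℚ ↔ σ ∈ A.decompositionSubgroup ℚ ∧ ∀ x ∈ A, σ x - x ∈ A.nonunits := by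
  constructor
  · intro h
    obtain ⟨τ, hτ, rfl⟩ := h
    refine ⟨τ.2, fun x hx => ?_⟩
    have h0 : MulSemiringAction.toRingAut (A.decompositionSubgroup ℚ)
      (IsLocalRing.ResidueField A) τ = 1 := hτ
    have h1 : τ • (IsLocalRing.residue A ⟨x, hx⟩) = IsLocalRing.residue A ⟨x, hx⟩ := by
      have := congrArg (fun f : RingAut (IsLocalRing.ResidueField A) =>
        f (IsLocalRing.residue A ⟨x, hx⟩)) h0
      exact this
    rw [← IsLocalRing.ResidueField.residue_smul, ← sub_eq_zero, ← map_sub,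
      IsLocalRing.residue_eq_zero_iff, ← ValuationSubring.coe_mem_nonunits_iff] at h1
    exact h1
  · rintro ⟨hD, h⟩
    rw [ValuationSubring.inertiaSubgroupIn, Subgroup.mem_map]
    refine ⟨⟨σ, hD⟩, ?_, rfl⟩
    rw [ValuationSubring.inertiaSubgroup, MonoidHom.mem_ker]
    ext y
    obtain ⟨x, rfl⟩ := IsLocalRing.residue_surjective y
    change (⟨σ, hD⟩ : A.decompositionSubgroup ℚ) • (IsLocalRing.residue A x) =
      IsLocalRing.residue A x
    rw [← IsLocalRing.ResidueField.residue_smul, ← sub_eq_zero, ← map_sub,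
      IsLocalRing.residue_eq_zero_iff, ← ValuationSubring.coe_mem_nonunits_iff]
    exact h x x.2

theorem inertia_conj' {A : ValuationSubring Qb} {σ : GQ} (γ : GQ)
    (h : σ ∈ A.inertiaSubgroupIn ℚ) : γ⁻¹ * σ * γ ∈ (γ⁻¹ • A).inertiaSubgroupIn ℚ := by
  rw [mem_inertia_iff'] at h ⊢
  obtain ⟨h1, h2⟩ := h
  constructor
  · have h3 : σ • A = A := h1
    change (γ⁻¹ * σ * γ) • γ⁻¹ • A = γ⁻¹ • A
    rw [← mul_smul, mul_assoc, mul_inv_cancel, mul_one, mul_smul, h3]
  · intro x hx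
    rw [ValuationSubring.mem_inv_pointwise_smul_iff] at hx
    rw [FrobDensity.mem_nonunits_conj]
    have h3 := h2 _ hx
    have e : γ ((γ⁻¹ * σ * γ) x - x) = σ (γ x) - γ x := by
      rw [map_sub, AlgEquiv.mul_apply, AlgEquiv.mul_apply, ← AlgEquiv.mul_apply γ γ⁻¹,
        mul_inv_cancel, AlgEquiv.one_apply]
    rw [e]
    exact h3

/-- The local monodromy relation `(σ - cyc σ)(τ - 1)χ = 0`. -/
def LG3Rel {N m : ℕ} [NeZero N] (hm : 0 < m) (σ τ : GQ) (c : ℕ) (χ : XG N m) : Prop :=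
  galX N hm (σ * τ) χ * χ ^ c = galX N hm σ χ * galX N hm τ χ ^ c

section Main

variable {N : ℕ} [NeZero N] {S : Finset ℕ} {p : ℕ}

/-- the cyclotomic value -/
def cv (p : ℕ) [Fact p.Prime] (n : ℕ) (σ : GQ) : ℕ :=
  ((cyc (p ^ n) σ : (ZMod (p ^ n))ˣ) : ZMod (p ^ n)).val

/-- **The trace identity for inertia at `p`.** -/
theorem trace_ord_mult [hp : Fact p.Prime] (hpS : p ∈ S)
    (hNS : ∀ q : ℕ, q.Prime → q ∣ N → q ∈ S)
    (hKL : ∀ l : ℕ, l.Prime → ¬ l ∣ N → l ≠ p → ∀ B : ValuationSubring Qb,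
      B.LiesOverPrime l → ∀ n, KLProp N (p ^ n) B)
    {N' : ℕ} [NeZero N'] (hNN' : N ∣ N')
    {O : Type} [CommRing O] [IsDomain O] [IsDiscreteValuationRing O] [Finite (ResidueField O)]
    [CharZero O] (hpO : (p : O) ∈ maximalIdeal O)
    {π : CuspForm.heckeAlgebra N 2 (↑S : Set ℕ) →+* O} {v : LatM N (↑S : Set ℕ) →+ O}
    (hv : v ≠ 0) (hvT : ∀ (f : CuspForm.heckeAlgebra N 2 (↑S : Set ℕ)) x, v (f • x) = π f * v x)
    (hLG : ∀ (n : ℕ) (ψ : Multiplicative O →* ℂˣ) (hψ : ψ ^ (p ^ n) = 1)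
      (A : ValuationSubring Qb), A.LiesOverPrime p → ∀ σ ∈ A.inertiaSubgroupIn ℚ,
      ∀ τ ∈ A.inertiaSubgroupIn ℚ, LG3Rel (pow_pos hp.out.pos n) σ τ (cv p n σ)
        (resX hNN' (p ^ n) ⟨vChar v ψ, vChar_mem v hψ⟩))
    {c : ℕ} {t : GQ → O} {ε : GQ →* Oˣ}
    (ht : ∀ σ, ∀ f ∈ algP (TxS N S p) (TtS N S), ∀ n m, n + c ≤ m →
        f.1 m = trS (rhoT N hp.out.pos m) (chiT N hp.out.pos m) σ →
        t σ - π f.2 ∈ Ideal.span {(p : O) ^ n})
    (hε : ∀ σ, ∀ f ∈ algP (TxS N S p) (TtS N S), ∀ n m, n + c ≤ m →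
        f.1 m = chiT N hp.out.pos m σ → (ε σ : O) - π f.2 ∈ Ideal.span {(p : O) ^ n})
    {A : ValuationSubring Qb} (hA : A.LiesOverPrime p) {σ τ : GQ}
    (hσ : σ ∈ A.inertiaSubgroupIn ℚ) (hτ : τ ∈ A.inertiaSubgroupIn ℚ) (g : GQ) :
    t (σ * τ * g) - t (σ * g) - ε σ * (t (τ * g) - t g) = 0 := by
  have hne : ∀ n, NeZero (p ^ n) := fun n => ⟨(pow_pos hp.out.pos n).ne'⟩
  obtain ⟨d, hd0, hd⟩ := exists_pow_res (N' := N') hNN'
  obtain ⟨x₀, hx₀⟩ : ∃ x, v x ≠ 0 := by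
    by_contra hcon
    push Not at hcon
    exact hv (AddMonoidHom.ext hcon)
  have hp0 : (p : O) ≠ 0 := Nat.cast_ne_zero.mpr hp.out.ne_zero
  have hmain : ∀ n : ℕ, (d : O) * (t (σ * τ * g) - t (σ * g) - ε σ * (t (τ * g) - t g)) * v x₀ ∈
      Ideal.span {(p : O) ^ n} := by
    intro n
    set m := n + c with hm
    have hT := galTower (N := N) hp.out hpS hNS hKL
    obtain ⟨f₁, hf₁, h₁⟩ := trS_mem hT m (σ * τ * g)
    obtain ⟨f₂, hf₂, h₂⟩ := trS_mem hT m (σ * g)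
    obtain ⟨f₃, hf₃, h₃⟩ := trS_mem hT m (τ * g)
    obtain ⟨f₄, hf₄, h₄⟩ := trS_mem hT m g
    obtain ⟨f₅, hf₅, h₅⟩ := hT.χmem m σ
    have i₁ := ht _ f₁ hf₁ n m le_rfl h₁
    have i₂ := ht _ f₂ hf₂ n m le_rfl h₂
    have i₃ := ht _ f₃ hf₃ n m le_rfl h₃
    have i₄ := ht _ f₄ hf₄ n m le_rfl h₄
    have i₅ := hε _ f₅ hf₅ n m le_rfl h₅
    set P : GQ →* Module.End ℤ (Additive (XG N (p ^ m))) := rhoT N hp.out.pos m with hP
    set X : GQ →* Module.End ℤ (Additive (XG N (p ^ m))) := chiT N hp.out.pos m with hX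
    have hXc : ∀ h, X h = (cv p m h : Module.End ℤ (Additive (XG N (p ^ m)))) := by
      intro h
      have := hne m
      exact cycE_eq h
    have hnat : ∀ k : ℕ, (k : TR N S p) ∈ algP (TxS N S p) (TtS N S) := fun k => by
      have : ((k : ℤ) : TR N S p) ∈ algP (TxS N S p) (TtS N S) := Subalgebra.algebraMap_mem _ _
      rwa [Int.cast_natCast] at this
    set G : TR N S p := (d : TR N S p) * (f₁ - f₂ - f₅ * (f₃ - f₄)) with hG
    have hGm : G ∈ algP (TxS N S p) (TtS N S) :=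
      mul_mem (hnat d) (sub_mem (sub_mem hf₁ hf₂) (mul_mem hf₅ (sub_mem hf₃ hf₄)))
    have hG1 : G.1 m = (d : Module.End ℤ (Additive (XG N (p ^ m)))) *
        (f₁.1 m - f₂.1 m - f₅.1 m * (f₃.1 m - f₄.1 m)) := rfl
    have hG2 : π G.2 = (d : O) * (π f₁.2 - π f₂.2 - π f₅.2 * (π f₃.2 - π f₄.2)) := by
      have : G.2 = (d : CuspForm.heckeAlgebra N 2 (↑S : Set ℕ)) *
        (f₁.2 - f₂.2 - f₅.2 * (f₃.2 - f₄.2)) := rfl
      rw [this]
      simp only [map_mul, map_sub, map_natCast]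
    -- it kills the characters attached to `v`
    have hkill : ∀ (ψ : Multiplicative O →* ℂˣ) (hψ : ψ ^ (p ^ m) = 1),
        G.1 m (Additive.ofMul ⟨vChar v ψ, vChar_mem v hψ⟩) = 0 := by
      intro ψ hψ
      set x : Additive (XG N (p ^ m)) := Additive.ofMul ⟨vChar v ψ, vChar_mem v hψ⟩ with hx
      -- the basic relation at all places
      have hrel : ∀ (A : ValuationSubring Qb), A.LiesOverPrime p → ∀ σ ∈ A.inertiaSubgroupIn ℚ,
          ∀ τ ∈ A.inertiaSubgroupIn ℚ,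
          (d : ℤ) • (P (σ * τ) x + (cv p m σ : ℤ) • x - (P σ x + (cv p m σ : ℤ) • P τ x)) = 0 := by
        intro A hA σ hσ τ hτ
        have e1 := hLG m ψ hψ A hA σ hσ τ hτ
        rw [LG3Rel, galX_res, galX_res, galX_res, ← map_pow, ← map_pow, ← map_mul,
          ← map_mul] at e1
        have e2 : resX hNN' (p ^ m) ((galX N (pow_pos hp.out.pos m) (σ * τ) (Additive.toMul x) *
            Additive.toMul x ^ cv p m σ) *
            (galX N (pow_pos hp.out.pos m) σ (Additive.toMul x) *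
            galX N (pow_pos hp.out.pos m) τ (Additive.toMul x) ^ cv p m σ)⁻¹) = 1 := by
          rw [map_mul, map_inv]
          exact mul_inv_eq_one.mpr e1
        have e3 := hd _ (congrArg Subtype.val e2)
        apply Additive.toMul.injective
        apply Subtype.ext
        rw [natCast_zsmul, natCast_zsmul, natCast_zsmul]
        exact e3
      have hmulP : ∀ (a b : GQ) (y : Additive (XG N (p ^ m))), P a (P b y) = P (a * b) y :=
        fun a b y => by rw [map_mul]; rfl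
      -- translated relation
      have hrel' : ∀ h : GQ, (d : ℤ) • (P (σ * τ * h) x + (cv p m σ : ℤ) • P h x -
          (P (σ * h) x + (cv p m σ : ℤ) • P (τ * h) x)) = 0 := by
        intro h
        have e1 := hrel (h⁻¹ • A) (FrobDensity.conj_liesOverPrime hA h) _ (inertia_conj' h hσ) _
          (inertia_conj' h hτ)
        have hcv : cv p m (h⁻¹ * σ * h) = cv p m σ := by
          rw [cv, cv, map_mul, map_mul, map_inv, mul_comm, mul_inv_cancel_left]
        rw [hcv] at e1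
        have e2 := congrArg (P h) e1
        rw [map_zero, map_zsmul, map_sub, map_add, map_add, map_zsmul, map_zsmul, hmulP, hmulP,
          hmulP] at e2
        have e3 : h * (h⁻¹ * σ * h * (h⁻¹ * τ * h)) = σ * τ * h := by group
        have e4 : h * (h⁻¹ * σ * h) = σ * h := by group
        have e5 : h * (h⁻¹ * τ * h) = τ * h := by group
        rw [e3, e4, e5] at e2
        exact e2
      -- the adjoint relation
      have hadj := hrel A hA τ⁻¹ (inv_mem hτ) σ⁻¹ (inv_mem hσ)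
      have hcc : ∀ a b : GQ, ∀ y : Additive (XG N (p ^ m)),
          (cv p m (a * b) : ℤ) • y = (cv p m a : ℤ) • (cv p m b : ℤ) • y := by
        intro a b y
        have e1 : X (a * b) y = X a (X b y) := by rw [map_mul]; rfl
        have e2 : ∀ (k : ℕ) (z : Additive (XG N (p ^ m))),
          (k : Module.End ℤ (Additive (XG N (p ^ m)))) z = (k : ℤ) • z := fun k z => by
            rw [natCast_zsmul]; rfl
        rw [hXc, hXc, hXc, e2, e2, e2] at e1
        exact e1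
      have hc1 : ∀ y : Additive (XG N (p ^ m)), (cv p m 1 : ℤ) • y = y := by
        intro y
        have e1 : X 1 y = y := by rw [map_one]; rfl
        rw [hXc] at e1
        rw [natCast_zsmul]
        exact e1
      have hct : ∀ y : Additive (XG N (p ^ m)), (cv p m τ : ℤ) • (cv p m τ⁻¹ : ℤ) • y = y := by
        intro y
        rw [← hcc, mul_inv_cancel, hc1]
      have hadj' : (d : ℤ) • ((cv p m τ : ℤ) • P (g⁻¹ * τ⁻¹ * σ⁻¹) x + P g⁻¹ x -
          (cv p m τ : ℤ) • P (g⁻¹ * τ⁻¹) x - P (g⁻¹ * σ⁻¹) x) = 0 := by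
        have e1 := congrArg (fun y => (cv p m τ : ℤ) • P g⁻¹ y) hadj
        simp only [map_zero, smul_zero, map_zsmul, map_sub, map_add, hmulP, smul_sub, smul_add] at e1
        rw [smul_comm (cv p m τ : ℤ) (d : ℤ), smul_comm (cv p m τ : ℤ) (d : ℤ),
          smul_comm (cv p m τ : ℤ) (d : ℤ), smul_comm (cv p m τ : ℤ) (d : ℤ), hct, hct,
          ← mul_assoc] at e1
        rw [smul_sub, smul_sub, smul_add, ← e1]
        abel
      have htr : ∀ (f : TR N S p) (h : GQ), f.1 m = trS (rhoT N hp.out.pos m)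
          (chiT N hp.out.pos m) h → f.1 m x = P h x + (cv p m h : ℤ) • P h⁻¹ x := by
        intro f h hfh
        rw [hfh]
        change (P h + X h * P h⁻¹) x = _
        rw [LinearMap.add_apply, hXc, natCast_zsmul]
        rfl
      have e5 : f₅.1 m = (cv p m σ : Module.End ℤ (Additive (XG N (p ^ m)))) := by
        rw [h₅]
        exact hXc σ
      have hG3 : G.1 m x = (d : ℤ) • (f₁.1 m x - f₂.1 m x -
          (cv p m σ : ℤ) • (f₃.1 m x - f₄.1 m x)) := by
        rw [hG1, e5, natCast_zsmul, natCast_zsmul]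
        rfl
      rw [hG3, htr f₁ _ h₁, htr f₂ _ h₂, htr f₃ _ h₃, htr f₄ _ h₄, hcc (σ * τ) g, hcc σ τ, hcc σ g,
        hcc τ g]
      have g1 : (σ * τ * g)⁻¹ = g⁻¹ * τ⁻¹ * σ⁻¹ := by group
      have g2 : (σ * g)⁻¹ = g⁻¹ * σ⁻¹ := by group
      have g3 : (τ * g)⁻¹ = g⁻¹ * τ⁻¹ := by group
      rw [g1, g2, g3]
      have k1 := hrel' g
      have k2 := congrArg (fun y => (cv p m σ : ℤ) • (cv p m g : ℤ) • y) hadj'
      simp only [smul_zero] at k2
      have k3 : (d : ℤ) • (P (σ * τ * g) x + (cv p m σ : ℤ) • (cv p m τ : ℤ) • (cv p m g : ℤ) •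
          P (g⁻¹ * τ⁻¹ * σ⁻¹) x - (P (σ * g) x + (cv p m σ : ℤ) • (cv p m g : ℤ) •
          P (g⁻¹ * σ⁻¹) x) - (cv p m σ : ℤ) • (P (τ * g) x + (cv p m τ : ℤ) • (cv p m g : ℤ) •
          P (g⁻¹ * τ⁻¹) x - (P g x + (cv p m g : ℤ) • P g⁻¹ x))) =
          (d : ℤ) • (P (σ * τ * g) x + (cv p m σ : ℤ) • P g x -
          (P (σ * g) x + (cv p m σ : ℤ) • P (τ * g) x)) +
          (cv p m σ : ℤ) • (cv p m g : ℤ) • ((d : ℤ) • ((cv p m τ : ℤ) • P (g⁻¹ * τ⁻¹ * σ⁻¹) x +
          P g⁻¹ x - (cv p m τ : ℤ) • P (g⁻¹ * τ⁻¹) x - P (g⁻¹ * σ⁻¹) x)) := by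
        module
      rw [k3, k1, k2, add_zero]
    have hspan : π G.2 * v x₀ ∈ Ideal.span {((p ^ m : ℕ) : O)} := by
      have : Finite (O ⧸ Ideal.span {((p ^ m : ℕ) : O)}) :=
        finite_quotient_of_mem (Nat.cast_ne_zero.mpr (pow_ne_zero _ hp.out.ne_zero))
      refine mem_span_of_forall_char fun ψ hψ => ?_
      obtain ⟨γ, hγ⟩ := perM_surjective (N := N) (S := S) (Multiplicative.ofAdd x₀)
      have h2 := algP_latX (perM N S) TxS_latX hGm (ψ.comp (AddMonoidHom.toMultiplicative v))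
        (Additive.ofMul ⟨vChar v ψ, vChar_mem v hψ⟩) (n := m) rfl
      rw [hkill ψ hψ] at h2
      have h3 := DFunLike.congr_fun h2 γ
      change (1 : ℂˣ) = ψ (AddMonoidHom.toMultiplicative v (smulHom _ G.2 (perM N S γ))) at h3
      rw [hγ, smulHom_ofAdd] at h3
      change (1 : ℂˣ) = ψ (Multiplicative.ofAdd (v (G.2 • x₀))) at h3
      rw [hvT] at h3
      exact h3.symm
    have hspan' : π G.2 * v x₀ ∈ Ideal.span {(p : O) ^ n} := by
      refine Ideal.span_singleton_le_span_singleton.mpr ?_ hspan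
      rw [Nat.cast_pow]
      exact pow_dvd_pow _ (by omega)
    rw [hG2] at hspan'
    rw [← Ideal.Quotient.eq_zero_iff_mem] at hspan' ⊢
    have j₁ := Ideal.Quotient.eq.mpr i₁
    have j₂ := Ideal.Quotient.eq.mpr i₂
    have j₃ := Ideal.Quotient.eq.mpr i₃
    have j₄ := Ideal.Quotient.eq.mpr i₄
    have j₅ := Ideal.Quotient.eq.mpr i₅
    simp only [map_mul, map_sub, map_natCast, j₁, j₂, j₃, j₄, j₅] at hspan' ⊢
    exact hspan'
  have h0 := eq_zero_of_forall_pow hpO hmain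
  have hd' : (d : O) ≠ 0 := Nat.cast_ne_zero.mpr hd0
  have h1 := (mul_eq_zero.mp h0).resolve_right hx₀
  exact (mul_eq_zero.mp h1).resolve_left hd'

end Main

end Fermat.Agent.ESCore
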