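import Fermat.Agent.ESCore.InertiaMult
import Fermat.Agent.ESCore.OrdMult
import Fermat.Agent.Inertia.Minkowski

set_option autoImplicit false

/-!
# The ordinary line from the trace identity
-/

open IsLocalRing
open scoped Pointwise

noncomputable section

namespace Fermat.Agent.ESCore

open UnivDef

section Idem

variable {A : Type*} [CommRing A] [IsLocalRing A] {V : Type*} [AddCommGroup V] [Module A V]

/-- the image of an idempotent of trace `1` and determinant `0` is generated by a member of a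
basis -/
theorem exists_basis_of_idem (b : Module.Basis (Fin 2) A V) {e : V →ₗ[A] V}
    (he : ∀ v, e (e v) = e v)
    (htr : (LinearMap.toMatrix b b e).trace = 1) (hdet : (LinearMap.toMatrix b b e).det = 0) :
    ∃ b' : Module.Basis (Fin 2) A V, LinearMap.range e = Submodule.span A {b' 0} := by
  set M := LinearMap.toMatrix b b e with hM
  rw [Matrix.trace_fin_two] at htr
  rw [Matrix.det_fin_two] at hdet
  have hMij : ∀ i j, b.repr (e (b j)) i = M i j := fun i j => by
    rw [hM, LinearMap.toMatrix_apply]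
  -- a criterion
  have key : ∀ v w : V, e v = v → e w = 0 →
      IsUnit ((b.repr v) 0 * (b.repr w) 1 - (b.repr v) 1 * (b.repr w) 0) →
      ∃ b' : Module.Basis (Fin 2) A V, LinearMap.range e = Submodule.span A {b' 0} := by
    intro v w hv hw hu
    have h1 : IsUnit (b.det ![v, w]) := by
      rw [Module.Basis.det_apply, Matrix.det_fin_two]
      simp only [Module.Basis.toMatrix_apply, Matrix.cons_val_zero, Matrix.cons_val_one]
      have : (b.repr v) 0 * (b.repr w) 1 - (b.repr w) 0 * (b.repr v) 1 =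
          (b.repr v) 0 * (b.repr w) 1 - (b.repr v) 1 * (b.repr w) 0 := by ring
      rw [this]
      exact hu
    obtain ⟨hli, hsp⟩ := (Module.Basis.is_basis_iff_det b).mpr h1
    let b' : Module.Basis (Fin 2) A V := Module.Basis.mk hli hsp.ge
    have h0 : b' 0 = v := by rw [Module.Basis.mk_apply]; rfl
    have h1' : b' 1 = w := by rw [Module.Basis.mk_apply]; rfl
    refine ⟨b', le_antisymm ?_ ?_⟩
    · rintro _ ⟨x, rfl⟩
      have h2 := b'.sum_repr (e x)
      rw [Fin.sum_univ_two, h0, h1'] at h2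
      have h3 : e (e x) = b'.repr (e x) 0 • v := by
        conv_lhs => rw [← h2]
        rw [map_add, map_smul, map_smul, hv, hw, smul_zero, add_zero]
      rw [he] at h3
      rw [h3, h0]
      exact Submodule.smul_mem _ _ (Submodule.mem_span_singleton_self v)
    · rw [Submodule.span_singleton_le_iff_mem, h0]
      exact ⟨v, hv⟩
  rcases IsLocalRing.isUnit_or_isUnit_of_add_one htr with h | h
  · refine key (e (b 0)) (b 1 - e (b 1)) (he _) (by rw [map_sub, he, sub_self]) ?_
    rw [map_sub, Finsupp.sub_apply, Finsupp.sub_apply, hMij, hMij, hMij, hMij,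
      Module.Basis.repr_self, Finsupp.single_eq_same, Finsupp.single_eq_of_ne (by decide)]
    have : M 0 0 * (1 - M 1 1) - M 1 0 * (0 - M 0 1) = M 0 0 := by
      linear_combination M 0 0 * htr - M 0 0 - hdet + M 0 0 - M 0 0 * htr
        + (M 0 0 * (M 0 0 + M 1 1) - M 0 0) - (M 0 0 * (M 0 0 + M 1 1) - M 0 0)
    rw [this]
    exact h
  · refine key (e (b 1)) (b 0 - e (b 0)) (he _) (by rw [map_sub, he, sub_self]) ?_
    rw [map_sub, Finsupp.sub_apply, Finsupp.sub_apply, hMij, hMij, hMij, hMij,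
      Module.Basis.repr_self, Finsupp.single_eq_same, Finsupp.single_eq_of_ne (by decide)]
    have : M 0 1 * (0 - M 1 0) - M 1 1 * (1 - M 0 0) = -(M 1 1) := by
      linear_combination hdet
    rw [this]
    exact h.neg

end Idem

/-- Some element of inertia at `p` has cyclotomic character not congruent to `1`. -/
theorem exists_inertia_cyc (p : ℕ) [hp : Fact p.Prime] (hp2 : p ≠ 2) {P : ValuationSubring Qb}
    (hP : P.LiesOverPrime p) : ∃ σ ∈ P.inertiaSubgroupIn ℚ, cyc p σ ≠ 1 := by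
  by_contra hcon
  push Not at hcon
  have hopen : IsOpen ((cyc p).ker : Set GQ) := by
    obtain ⟨L, hL, h⟩ := cyc_finite p
    refine Subgroup.isOpen_mono (H₁ := L.fixingSubgroup) ?_
      (IntermediateField.fixingSubgroup_isOpen L)
    intro σ hσ
    rw [MonoidHom.mem_ker]
    exact h σ fun x hx => (IntermediateField.mem_fixingSubgroup_iff L σ).mp hσ x hx
  have htop := Inertia.eq_top_of_inertia_le (cyc p).ker hopen (MonoidHom.normal_ker _) (by
    intro q hq
    by_cases hqp : q = p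
    · subst hqp
      exact ⟨P, hP, fun σ hσ => hcon σ hσ⟩
    · obtain ⟨B, hB⟩ := GaloisBasics.exists_liesOverPrime hq
      exact ⟨B, hB, fun σ hσ => cyc_inertia hB hq hσ
        (fun h => hqp ((Nat.prime_dvd_prime_iff_eq hq hp.out).mp h))⟩)
  -- but the cyclotomic character is surjective
  have h2 : (2 : ZMod p) ≠ 0 := by
    intro h
    have h1 : ((2 : ℕ) : ZMod p) = 0 := by exact_mod_cast h
    rw [ZMod.natCast_eq_zero_iff] at h1
    exact hp2 ((Nat.prime_dvd_prime_iff_eq hp.out Nat.prime_two).mp h1)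
  have h3 : cyc p complexConjugation = 1 := by
    have : (complexConjugation : GQ) ∈ (cyc p).ker := by rw [htop]; trivial
    exact this
  rw [Univ.cyc_complexConjugation] at h3
  have h4 := congrArg (Units.val) h3
  rw [Units.val_neg, Units.val_one] at h4
  exact h2 (by linear_combination -h4)

section Ord

variable {A : Type} [CommRing A] [IsLocalRing A]

/-- **The ordinary line from the trace identity.** -/
theorem isOrdinary_of_trace_span (ρ : GaloisRepAdic A) {p : ℕ} [hp : Fact p.Prime] (hp2 : p ≠ 2)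
    (hpA : (p : A) ∈ maximalIdeal A) (b : Module.Basis (Fin 2) A ρ.V)
    (hspan : Submodule.span A (Set.range (matOf ρ b)) = ⊤) {t : GQ → A} {ε : GQ →* Aˣ}
    (ht : ∀ σ, (matOf ρ b σ).trace = t σ) (hd : ∀ σ, (matOf ρ b σ).det = ε σ)
    (hε : ∀ σ, (ε σ : A) - ((cyc p σ : (ZMod p)ˣ) : ZMod p).val ∈ maximalIdeal A)
    (hrel : ∀ P : ValuationSubring Qb, P.LiesOverPrime p → ∀ σ ∈ P.inertiaSubgroupIn ℚ,
      ∀ τ ∈ P.inertiaSubgroupIn ℚ, ∀ g, t (σ * τ * g) - t (σ * g) - ε σ * (t (τ * g) - t g) = 0) :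
    ρ.IsOrdinaryAt p := by
  intro P hP
  -- the matrix relation
  have hmat : ∀ σ ∈ P.inertiaSubgroupIn ℚ, ∀ τ ∈ P.inertiaSubgroupIn ℚ,
      (matOf ρ b σ - (ε σ : A) • 1) * (matOf ρ b τ - 1) = 0 := by
    intro σ hσ τ hτ
    refine eq_zero_of_trace_mul fun X => ?_
    have hX : X ∈ Submodule.span A (Set.range (matOf ρ b)) := by
      rw [hspan]; trivial
    induction hX using Submodule.span_induction with
    | mem x hx =>
      obtain ⟨g, rfl⟩ := hx
      have h1 := hrel P hP σ hσ τ hτ g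
      rw [← ht, ← ht, ← ht, ← ht, map_mul, map_mul, map_mul, map_mul] at h1
      rw [← h1]
      simp only [sub_mul, mul_sub, smul_mul_assoc, one_mul, mul_one, Matrix.trace_sub,
        Matrix.trace_smul, smul_eq_mul]
      ring
    | zero => rw [mul_zero, Matrix.trace_zero]
    | add x y _ _ hx hy => rw [mul_add, Matrix.trace_add, hx, hy, add_zero]
    | smul c x _ hx => rw [mul_smul_comm, Matrix.trace_smul, hx, smul_zero]
  have hlin : ∀ σ ∈ P.inertiaSubgroupIn ℚ, ∀ τ ∈ P.inertiaSubgroupIn ℚ, ∀ v,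
      ρ.ρ σ (ρ.ρ τ v - v) = (ε σ : A) • (ρ.ρ τ v - v) := by
    intro σ hσ τ hτ v
    have h1 : (ρ.ρ σ - (ε σ : A) • (1 : Module.End A ρ.V)) * (ρ.ρ τ - 1) = 0 := by
      apply (LinearMap.toMatrixAlgEquiv b).injective
      rw [map_mul, map_sub, map_sub, map_smul, map_one, map_zero]
      exact hmat σ hσ τ hτ
    have h2 := LinearMap.congr_fun h1 v
    rw [Module.End.mul_apply, LinearMap.sub_apply, LinearMap.sub_apply, LinearMap.zero_apply,
      LinearMap.smul_apply, Module.End.one_apply, Module.End.one_apply] at h2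
    exact sub_eq_zero.mp h2
  -- the auxiliary element
  obtain ⟨σ₀, hσ₀, hc₀⟩ := exists_inertia_cyc p hp2 hP
  set c : A := (ε σ₀ : A) with hc
  have hu : IsUnit (c - 1) := by
    by_contra hnu
    rw [← mem_nonunits_iff, ← mem_maximalIdeal] at hnu
    have h1 := hε σ₀
    have h2 : (((cyc p σ₀ : (ZMod p)ˣ) : ZMod p).val : A) - 1 ∈ maximalIdeal A := by
      have := sub_mem hnu h1
      have e : c - 1 - ((ε σ₀ : A) - ((cyc p σ₀ : (ZMod p)ˣ) : ZMod p).val) =
        (((cyc p σ₀ : (ZMod p)ˣ) : ZMod p).val : A) - 1 := by rw [hc]; ring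
      rwa [e] at this
    set k := ((cyc p σ₀ : (ZMod p)ˣ) : ZMod p).val with hk
    have hk1 : ((k : ℕ) : ZMod p) ≠ 1 := by
      rw [hk, ZMod.natCast_val, ZMod.cast_id', id_eq]
      intro h
      exact hc₀ (Units.ext h)
    have hcop : IsCoprime ((k : ℤ) - 1) (p : ℤ) := by
      rw [isCoprime_comm, Prime.coprime_iff_not_dvd (Nat.prime_iff_prime_int.mp hp.out)]
      intro h
      apply hk1
      rw [← ZMod.intCast_zmod_eq_zero_iff_dvd] at h
      push_cast at h
      linear_combination h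
    obtain ⟨a, a', ha⟩ := hcop
    have h3 : (1 : A) ∈ maximalIdeal A := by
      have h4 := congrArg (fun z : ℤ => (z : A)) ha
      push_cast at h4
      rw [← h4]
      exact add_mem (Ideal.mul_mem_left _ _ h2) (Ideal.mul_mem_left _ _ hpA)
    exact (Ideal.ne_top_iff_one _).mp (IsLocalRing.maximalIdeal.isMaximal A).ne_top h3
  obtain ⟨u, hu'⟩ := hu
  -- the idempotent
  set e : ρ.V →ₗ[A] ρ.V := ((u⁻¹ : Aˣ) : A) • (ρ.ρ σ₀ - 1) with he
  have huc : ((u⁻¹ : Aˣ) : A) * (c - 1) = 1 := by rw [← hu', Units.inv_mul]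
  have heap : ∀ v, e v = ((u⁻¹ : Aˣ) : A) • (ρ.ρ σ₀ v - v) := fun v => rfl
  have hidem : ∀ v, e (e v) = e v := by
    intro v
    rw [heap (e v)]
    have h1 : ρ.ρ σ₀ (e v) = c • e v := by
      rw [heap, map_smul, hlin σ₀ hσ₀ σ₀ hσ₀, smul_comm]
    have h2 : c • e v - e v = (c - 1) • e v := by rw [sub_smul, one_smul]
    rw [h1, h2, smul_smul, huc, one_smul]
  -- membership in the range
  have hmem : ∀ w, ρ.ρ σ₀ w = c • w → w ∈ LinearMap.range e := by
    intro w hw
    refine ⟨w, ?_⟩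
    have h2 : c • w - w = (c - 1) • w := by rw [sub_smul, one_smul]
    rw [heap, hw, h2, smul_smul, huc, one_smul]
  have hrange : ∀ τ ∈ P.inertiaSubgroupIn ℚ, ∀ v, ρ.ρ τ v - v ∈ LinearMap.range e :=
    fun τ hτ v => hmem _ (hlin σ₀ hσ₀ τ hτ v)
  -- trace and determinant
  set M := matOf ρ b σ₀ with hM
  have hMM : (M - c • 1) * (M - 1) = 0 := hmat σ₀ hσ₀ σ₀ hσ₀
  have hdetM : M.det = c := hd σ₀
  have htrM : M.trace = c + 1 := by
    have h1 : M * M = M.trace • M - M.det • 1 := by
      ext i j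
      fin_cases i <;> fin_cases j <;>
        simp [Matrix.mul_apply, Fin.sum_univ_two, Matrix.trace_fin_two, Matrix.det_fin_two] <;>
        ring
    have h2 : M * M = (c + 1) • M - c • 1 := by
      have h3 : (M - c • 1) * (M - 1) = M * M - M - c • M + c • 1 := by
        rw [sub_mul, mul_sub, mul_one, mul_sub, mul_one, smul_mul_assoc, one_mul]
        abel
      rw [h3] at hMM
      have h4 : M * M = M * M - M - c • M + c • 1 + (M + c • M - c • 1) := by abel
      rw [h4, hMM, zero_add, add_smul, one_smul]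
      abel
    have h3 : (M.trace - (c + 1)) • M = 0 := by
      have h4 : M.trace • M - M.det • 1 = (c + 1) • M - c • 1 := h1.symm.trans h2
      rw [hdetM] at h4
      have h5 : M.trace • M = (c + 1) • M := by
        have := congrArg (fun X => X + c • (1 : Matrix (Fin 2) (Fin 2) A)) h4
        simpa using this
      rw [sub_smul, h5, sub_self]
    have h4 : IsUnit M.det := by
      rw [hdetM, hc]
      exact (ε σ₀).isUnit
    have h5 := congrArg (fun X => X * M⁻¹) h3
    simp only [zero_mul, smul_mul_assoc] at h5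
    rw [Matrix.mul_nonsing_inv _ h4] at h5
    have h6 := congrFun (congrFun h5 0) 0
    simp at h6
    exact sub_eq_zero.mp h6
  have hme : LinearMap.toMatrix b b e = ((u⁻¹ : Aˣ) : A) • (M - 1) := by
    rw [he, map_smul, map_sub]
    congr 2
    exact LinearMap.toMatrix_one b
  obtain ⟨b', hb'⟩ := exists_basis_of_idem b hidem (by
    rw [hme, Matrix.trace_smul, Matrix.trace_sub, htrM, Matrix.trace_one, Fintype.card_fin,
      smul_eq_mul]
    push_cast
    linear_combination huc) (by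
    have h1 : (M - 1).det = M.det - M.trace + 1 := by
      rw [Matrix.det_fin_two, Matrix.det_fin_two, Matrix.trace_fin_two]
      simp
      ring
    rw [hme, Matrix.det_smul, h1, hdetM, htrM]
    ring)
  refine ⟨LinearMap.range e, ⟨b', hb'⟩, ?_, fun τ hτ v => hrange τ hτ v⟩
  rintro δ hδ _ ⟨v, rfl⟩
  rw [heap, map_smul, map_sub]
  refine Submodule.smul_mem _ _ ?_
  have h1 : δ * σ₀ * δ⁻¹ ∈ P.inertiaSubgroupIn ℚ := by
    have h2 := inertia_conj' (γ := δ⁻¹) hσ₀
    rw [inv_inv] at h2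
    have h3 : δ • P = P := hδ
    rwa [h3] at h2
  have h2 := hrange _ h1 (ρ.ρ δ v)
  have h3 : ρ.ρ (δ * σ₀ * δ⁻¹) (ρ.ρ δ v) = ρ.ρ δ (ρ.ρ σ₀ v) := by
    rw [← Module.End.mul_apply, ← map_mul, inv_mul_cancel_right, map_mul, Module.End.mul_apply]
  rwa [h3] at h2

/-- **The ordinary line from the trace identity**, residually absolutely irreducible case. -/
theorem isOrdinary_of_trace (ρ : GaloisRepAdic A) (habs : ρ.residual.IsAbsolutelyIrreducible)
    {p : ℕ} [hp : Fact p.Prime] (hp2 : p ≠ 2) (hpA : (p : A) ∈ maximalIdeal A)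
    (b : Module.Basis (Fin 2) A ρ.V) {t : GQ → A} {ε : GQ →* Aˣ}
    (ht : ∀ σ, (matOf ρ b σ).trace = t σ) (hd : ∀ σ, (matOf ρ b σ).det = ε σ)
    (hε : ∀ σ, (ε σ : A) - ((cyc p σ : (ZMod p)ˣ) : ZMod p).val ∈ maximalIdeal A)
    (hrel : ∀ P : ValuationSubring Qb, P.LiesOverPrime p → ∀ σ ∈ P.inertiaSubgroupIn ℚ,
      ∀ τ ∈ P.inertiaSubgroupIn ℚ, ∀ g, t (σ * τ * g) - t (σ * g) - ε σ * (t (τ * g) - t g) = 0) :
    ρ.IsOrdinaryAt p :=
  isOrdinary_of_trace_span ρ hp2 hpA b (span_matOf_eq_top ρ habs b) ht hd hε hrel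

/-- The trace identity for ordinary representations. -/
theorem trace_of_isOrdinary {ρ : GaloisRepAdic A} {p : ℕ} (hord : ρ.IsOrdinaryAt p)
    (b : Module.Basis (Fin 2) A ρ.V) {P : ValuationSubring Qb} (hP : P.LiesOverPrime p) {σ τ : GQ}
    (hσ : σ ∈ P.inertiaSubgroupIn ℚ) (hτ : τ ∈ P.inertiaSubgroupIn ℚ) (g : GQ) :
    (matOf ρ b (σ * τ * g)).trace - (matOf ρ b (σ * g)).trace -
      (matOf ρ b σ).det * ((matOf ρ b (τ * g)).trace - (matOf ρ b g).trace) = 0 := by
  obtain ⟨L, ⟨b', rfl⟩, h1, h2⟩ := hord P hP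
  -- `ρ σ` acts on the line by its determinant
  have hdet : (matOf ρ b σ).det = LinearMap.det (ρ.ρ σ) := LinearMap.det_toMatrix b _
  obtain ⟨c, hc⟩ := Submodule.mem_span_singleton.mp (h2 σ hσ (b' 0))
  obtain ⟨c', hc'⟩ := Submodule.mem_span_singleton.mp (h2 σ hσ (b' 1))
  have e0 : ρ.ρ σ (b' 0) = (1 + c) • b' 0 := by
    rw [add_smul, one_smul, hc]
    abel
  have e1 : ρ.ρ σ (b' 1) = c' • b' 0 + b' 1 := by
    rw [hc']
    abel
  have hd : LinearMap.det (ρ.ρ σ) = 1 + c := by
    rw [← LinearMap.det_toMatrix b', Matrix.det_fin_two]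
    simp only [LinearMap.toMatrix_apply, e0, e1, map_add, map_smul, Module.Basis.repr_self,
      Finsupp.add_apply, Finsupp.smul_apply, smul_eq_mul]
    simp
  have key : (ρ.ρ σ - (LinearMap.det (ρ.ρ σ)) • (1 : Module.End A ρ.V)) * (ρ.ρ τ - 1) = 0 := by
    refine LinearMap.ext fun v => ?_
    obtain ⟨x, hx⟩ := Submodule.mem_span_singleton.mp (h2 τ hτ v)
    rw [Module.End.mul_apply, LinearMap.sub_apply (ρ.ρ τ), Module.End.one_apply, ← hx, map_smul,
      LinearMap.sub_apply, LinearMap.smul_apply, Module.End.one_apply, e0, hd, sub_self,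
      smul_zero, LinearMap.zero_apply]
  have hmat : (matOf ρ b σ - (matOf ρ b σ).det • 1) * (matOf ρ b τ - 1) = 0 := by
    rw [hdet]
    have h3 := congrArg (LinearMap.toMatrixAlgEquiv b) key
    rw [map_mul, map_sub, map_sub, map_smul, map_one, map_zero] at h3
    exact h3
  have h4 : ((matOf ρ b σ - (matOf ρ b σ).det • 1) * (matOf ρ b τ - 1) * matOf ρ b g).trace = 0 := by
    rw [hmat, zero_mul, Matrix.trace_zero]
  rw [← h4, map_mul, map_mul, map_mul, map_mul]
  simp only [sub_mul, mul_sub, smul_mul_assoc, one_mul, mul_one, Matrix.trace_sub,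
    Matrix.trace_smul, smul_eq_mul]
  ring

end Ord

end Fermat.Agent.ESCore
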