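import Fermat.Agent.ESCore.FrobMult
import Fermat.Agent.ESCore.S34Final
import Fermat.Agent.NF.IntVec
import Fermat.Agent.NF.Res
import Fermat.Agent.LG.LG2

set_option autoImplicit false

/-!
# `LG2Rel` at the auxiliary level, for the characters attached to newforms
-/

open CongruenceSubgroup Matrix.SpecialLinearGroup IsLocalRing Polynomial
open scoped MatrixGroups

noncomputable section

namespace Fermat.Agent.ESCore

open Fermat.Agent.LG Fermat.Agent.NF Univ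

variable {N : ℕ} [NeZero N] {S : Finset ℕ}

theorem LG2Rel_of {A : ValuationSubring Qb} {q : ℕ} (hq : q.Prime) (hA : A.LiesOverPrime q)
    {M K N' : ℕ} [NeZero M] [NeZero N'] (hN : N = q * K) (hN' : N' = q * M) (hKM : K ∣ M)
    (hNN' : N ∣ N') (hqM : ¬ q ∣ M) (hlev : GoodLev q M) {m : ℕ}
    (hm : 0 < m) (hqm : ¬ q ∣ m) {φ : GQ} (hφ : A.IsFrobeniusAt φ q) {χ : XG N m}
    (hpar : ParC χ.1) {e : ℤ} (he : e = 1 ∨ e = -1)
    (hU : heckeCharU hq.ne_zero (hN ▸ dvd_mul_right _ _) χ.1 = χ.1 ^ e)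
    (hW : ∀ [NeZero q] (Bz : Bez q M), Bz.wChar hKM hN χ.1 = χ.1 ^ (-e)) :
    LG2Rel hm φ q e (resX hNN' m χ) := by
  have hq0 : NeZero q := ⟨hq.ne_zero⟩
  have hcop : q.Coprime M := (Nat.Prime.coprime_iff_not_dvd hq).mpr hqM
  obtain ⟨B⟩ := nonempty_bez hcop
  have hqN' : q ∣ N' := hN' ▸ dvd_mul_right _ _
  have hqN : q ∣ N := hN ▸ dvd_mul_right _ _
  set χ' := resX hNN' m χ with hχ'
  have hres : χ'.1 = resC hNN' χ.1 := rfl
  have hpar' : IsPar χ'.1 := hpar.res hNN'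
  have hU' : heckeXU hq.ne_zero hqN' m χ' = χ' ^ e := by
    apply Subtype.ext
    rw [heckeXU_coe, hres, heckeCharU_resC hNN' hq.ne_zero hqN' hqN, hU]
    rfl
  have hW' : B.wChar dvd_rfl hN' χ'.1 = (χ' ^ (-e)).1 := by
    rw [hres, wChar_resC hNN' B dvd_rfl hKM hN' hN, hW B]
    rfl
  have h := lg2 hq hA B hN' hqM hlev hm hqm hpar' he hqN' hU' hW' hφ
  rw [map_mul, map_zpow] at h
  rw [LG2Rel]
  have h1 : galX N' hm (φ * φ * φ) χ' = galX N' hm (φ * φ) (galX N' hm φ χ') := by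
    rw [map_mul (galX N' hm) (φ * φ) φ]; rfl
  rw [h1]
  set a := galX N' hm (φ * φ) (galX N' hm φ χ') with ha
  set b := galX N' hm (φ * φ) χ' with hb
  set c := galX N' hm φ χ' with hc
  have h2 : a = (c * χ' ^ (-e)) ^ q ^ 2 * b ^ e := by
    rw [← h, mul_assoc, ← zpow_add, neg_add_cancel, zpow_zero, mul_one]
  rw [h2, mul_pow, ← zpow_natCast (χ' ^ (-e)), ← zpow_mul]
  have h3 : χ' ^ (-e * ((q ^ 2 : ℕ) : ℤ)) * χ' ^ (e * (q : ℤ) ^ 2) = 1 := by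
    rw [← zpow_add]
    have : -e * ((q ^ 2 : ℕ) : ℤ) + e * (q : ℤ) ^ 2 = 0 := by push_cast; ring
    rw [this, zpow_zero]
  calc c ^ q ^ 2 * χ' ^ (-e * ((q ^ 2 : ℕ) : ℤ)) * b ^ e * χ' ^ (e * (q : ℤ) ^ 2) =
      b ^ e * c ^ q ^ 2 * (χ' ^ (-e * ((q ^ 2 : ℕ) : ℤ)) * χ' ^ (e * (q : ℤ) ^ 2)) := by
        ac_rfl
    _ = b ^ e * c ^ q ^ 2 := by rw [h3, mul_one]

/-- **S35** -/
theorem exists_rep_newform {g : CuspForm (Gamma0 N) 2} (hg : g.IsNewform) {p : ℕ} (hp : p.Prime)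
    (hpS : p ∈ S) (hNS : ∀ q : ℕ, q.Prime → q ∣ N → q ∈ S)
    (hKL : ∀ l : ℕ, l.Prime → ¬ l ∣ N → l ≠ p → ∀ B : ValuationSubring Qb,
      B.LiesOverPrime l → ∀ n, KLProp N (p ^ n) B)
    {O : Type} [CommRing O] [IsDomain O] [IsDiscreteValuationRing O]
    [IsAdicComplete (maximalIdeal O) O] [Finite (ResidueField O)]
    [CharZero O] (hpO : (p : O) ∈ maximalIdeal O)
    (chi : CuspForm.heckeAlgebra N 2 (↑S : Set ℕ) →+* ℂ)
    (hchi : ∀ (l : ℕ) (hl : l.Prime) (hlN : ¬ l ∣ N) (hlS : l ∉ (↑S : Set ℕ)),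
      chi (CuspForm.heckeAlgebra.T hl hlN hlS) = ModularFormClass.qCoeff g l)
    (iota : chi.range →+* O) :
    ∃ ρ : GaloisRepAdic O,
        (∀ (ℓ : ℕ) (hℓ : ℓ.Prime) (hℓN : ¬ ℓ ∣ N) (hℓS : ℓ ∉ (↑S : Set ℕ)),
          ∀ A : ValuationSubring (AlgebraicClosure ℚ), A.LiesOverPrime ℓ →
            ∀ σ : AlgebraicClosure ℚ ≃ₐ[ℚ] AlgebraicClosure ℚ, A.IsFrobeniusAt σ ℓ →
              LinearMap.charpoly (ρ.ρ σ) =
                X ^ 2 - C ((iota.comp chi.rangeRestrict) (CuspForm.heckeAlgebra.T hℓ hℓN hℓS)) * X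
                  + C ((ℓ : O))) ∧
        (∀ q : ℕ, q.Prime → q ≠ p → q ∣ N → ¬ q ^ 2 ∣ N →
          ∀ A : ValuationSubring (AlgebraicClosure ℚ), A.LiesOverPrime q →
            ∀ σ : AlgebraicClosure ℚ ≃ₐ[ℚ] AlgebraicClosure ℚ, A.IsFrobeniusAt σ q →
              LinearMap.charpoly (ρ.ρ σ) = X ^ 2 - C ((q : O) + 1) * X + C ((q : O)) ∨
              LinearMap.charpoly (ρ.ρ σ) = X ^ 2 + C ((q : O) + 1) * X + C ((q : O))) := by
  obtain ⟨v, hv, hvT, hvW⟩ := exists_intVec hg chi (chi_eq hg.1 hNS chi hchi) iota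
  refine exists_rep_of_LG2 hp hpS hNS hKL hpO (π := iota.comp chi.rangeRestrict) hv hvT ?_
  intro q hq hqp hqN hqN2
  obtain ⟨K, hK⟩ := hqN
  have hK0 : K ≠ 0 := by
    rintro rfl
    exact NeZero.ne N (by rw [hK, mul_zero])
  have hqK : ¬ q ∣ K := by
    rintro ⟨K', rfl⟩
    exact hqN2 ⟨K', by rw [hK]; ring⟩
  have hM : NeZero (auxLev q * K) := ⟨mul_ne_zero (auxLev_pos q).ne' hK0⟩
  have hN' : NeZero (q * (auxLev q * K)) := ⟨mul_ne_zero hq.ne_zero hM.out⟩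
  have hqM : ¬ q ∣ auxLev q * K := by
    intro h
    rcases hq.dvd_mul.mp h with h | h
    · exact not_dvd_auxLev hq h
    · exact hqK h
  obtain ⟨ε, hε, -, hU, hW⟩ := hvW q hq K hK hqK
  refine ⟨q * (auxLev q * K), hN', ⟨auxLev q, by rw [hK]; ring⟩, ε, ?_, ?_⟩
  · rcases hε with rfl | rfl <;> norm_num
  · intro A hA φ hφ n ψ hψ
    refine LG2Rel_of hq hA hK rfl (dvd_mul_left _ _) _ hqM (goodLev_aux q K) (pow_pos hp.pos n)
      (fun h => hqp ((Nat.prime_dvd_prime_iff_eq hq hp).mp (hq.dvd_of_dvd_pow h))) hφ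
      (parC_lat _) hε ?_ ?_
    · change heckeCharU hq.ne_zero _ (ψ.comp (oChar v)) = (ψ.comp (oChar v)) ^ ε
      rw [heckeCharU_comp, hU, comp_zpow_char]
    · intro _ Bz
      change Bz.wChar _ hK (ψ.comp (oChar v)) = (ψ.comp (oChar v)) ^ (-ε)
      have e1 : Bz.wChar (dvd_mul_left K (auxLev q)) hK (ψ.comp (oChar v)) =
          ψ.comp (Bz.wChar (dvd_mul_left K (auxLev q)) hK (oChar v)) := by
        rw [LG.Bez.wChar, LG.Bez.wChar, CosetSys.trans_comp]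
      rw [e1, hW _ Bz, comp_zpow_char]

end Fermat.Agent.ESCore
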