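import Fermat.Agent.ESCore.OrdMult
import Fermat.Agent.ESCore.S35Final

set_option autoImplicit false

/-!
# Inertia at `p` for newforms of level exactly divisible by `p`: the trace identity
-/

open CongruenceSubgroup Matrix.SpecialLinearGroup IsLocalRing Polynomial
open scoped MatrixGroups

noncomputable section

namespace Fermat.Agent.ESCore

open Fermat.Agent.LG Fermat.Agent.NF Univ

variable {N : ℕ} [NeZero N] {S : Finset ℕ}

theorem LG3Rel_of {A : ValuationSubring Qb} {q : ℕ} (hq : q.Prime) (hA : A.LiesOverPrime q)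
    {M K N' : ℕ} [NeZero M] [NeZero N'] (hN : N = q * K) (hN' : N' = q * M) (hKM : K ∣ M)
    (hNN' : N ∣ N') (hqM : ¬ q ∣ M) (hlev : GoodLev q M) {m : ℕ}
    (hm : 0 < m) {χ : XG N m}
    (hpar : ParC χ.1) {e : ℤ} (he : e = 1 ∨ e = -1)
    (hU : heckeCharU hq.ne_zero (hN ▸ dvd_mul_right _ _) χ.1 = χ.1 ^ e)
    (hW : ∀ [NeZero q] (Bz : Bez q M), Bz.wChar hKM hN χ.1 = χ.1 ^ (-e))
    {σ τ : GQ} (hσ : σ ∈ A.inertiaSubgroupIn ℚ) (hτ : τ ∈ A.inertiaSubgroupIn ℚ) {c : ℕ}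
    (hc : ∀ ζ : Qb, ζ ^ m = 1 → σ ζ = ζ ^ c) :
    LG3Rel hm σ τ c (resX hNN' m χ) := by
  have hq0 : NeZero q := ⟨hq.ne_zero⟩
  have hcop : q.Coprime M := (Nat.Prime.coprime_iff_not_dvd hq).mpr hqM
  obtain ⟨B⟩ := nonempty_bez hcop
  have hqN' : q ∣ N' := hN' ▸ dvd_mul_right _ _
  have hqN : q ∣ N := hN ▸ dvd_mul_right _ _
  set χ' := resX hNN' m χ with hχ'
  have hres : χ'.1 = resC hNN' χ.1 := rfl
  have hpar' : IsPar χ'.1 := hpar.res hNN'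
  have hU' : heckeXU hq.ne_zero hqN' m χ' = χ' ^ e := by
    apply Subtype.ext
    rw [heckeXU_coe, hres, heckeCharU_resC hNN' hq.ne_zero hqN' hqN, hU]
    rfl
  have hW' : B.wChar dvd_rfl hN' χ'.1 = (χ' ^ (-e)).1 := by
    rw [hres, wChar_resC hNN' B dvd_rfl hKM hN' hN, hW B]
    rfl
  have h := lg3 hq hA B hN' hqM hlev hm hpar' he hqN' hU' hW' hσ hτ hc
  rw [map_mul, map_inv, mul_pow, inv_pow] at h
  rw [LG3Rel]
  have h1 : galX N' hm (σ * τ) χ' = galX N' hm σ (galX N' hm τ χ') := by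
    rw [map_mul (galX N' hm) σ τ]; rfl
  rw [h1, ← div_eq_mul_inv, ← div_eq_mul_inv, div_eq_div_iff_mul_eq_mul] at *
  rw [h, mul_comm]

/-- **The trace identity for inertia at `p`**, newforms of level exactly divisible by `p`. -/
theorem exists_pseudo_ord {g : CuspForm (Gamma0 N) 2} (hg : g.IsNewform) {p : ℕ}
    [hp : Fact p.Prime] (hpS : p ∈ S) (hNS : ∀ q : ℕ, q.Prime → q ∣ N → q ∈ S)
    (hKL : ∀ l : ℕ, l.Prime → ¬ l ∣ N → l ≠ p → ∀ B : ValuationSubring Qb,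
      B.LiesOverPrime l → ∀ n, KLProp N (p ^ n) B) (hpN : p ∣ N) (hpN2 : ¬ p ^ 2 ∣ N)
    {O : Type} [CommRing O] [IsDomain O] [IsDiscreteValuationRing O]
    [IsAdicComplete (maximalIdeal O) O] [Finite (ResidueField O)]
    [CharZero O] (hpO : (p : O) ∈ maximalIdeal O)
    (chi : CuspForm.heckeAlgebra N 2 (↑S : Set ℕ) →+* ℂ)
    (hchi : ∀ (l : ℕ) (hl : l.Prime) (hlN : ¬ l ∣ N) (hlS : l ∉ (↑S : Set ℕ)),
      chi (CuspForm.heckeAlgebra.T hl hlN hlS) = ModularFormClass.qCoeff g l)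
    (iota : chi.range →+* O) :
    ∃ (t : GQ → O) (ε : GQ →* Oˣ), IsPseudo t ε ∧
      (∀ (l : ℕ) (hl : l.Prime) (hlN : ¬ l ∣ N) (hlS : l ∉ (↑S : Set ℕ)),
        ∀ B : ValuationSubring Qb, B.LiesOverPrime l → ∀ σ : GQ, B.IsFrobeniusAt σ l →
          t σ = iota (chi.rangeRestrict (CuspForm.heckeAlgebra.T hl hlN hlS)) ∧ (ε σ : O) = l) ∧
      (∀ n : ℕ, ∃ L : IntermediateField ℚ Qb, FiniteDimensional ℚ L ∧
        ∀ σ : GQ, (∀ x ∈ L, σ x = x) → (∀ g, t (σ * g) - t g ∈ Ideal.span {(p : O) ^ n}) ∧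
          (ε σ : O) - 1 ∈ Ideal.span {(p : O) ^ n}) ∧
      ∀ A : ValuationSubring Qb, A.LiesOverPrime p → ∀ σ ∈ A.inertiaSubgroupIn ℚ,
        ∀ τ ∈ A.inertiaSubgroupIn ℚ, ∀ g, t (σ * τ * g) - t (σ * g) -
          ε σ * (t (τ * g) - t g) = 0 := by
  obtain ⟨v, hv, hvT, hvW⟩ := exists_intVec hg chi (chi_eq hg.1 hNS chi hchi) iota
  obtain ⟨c, t, ε, hps, h1, h1', h2, h3, -, h4⟩ :=
    exists_pseudo_full hp.out hpS hNS hKL hpO (iota.comp chi.rangeRestrict)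
  refine ⟨t, ε, hps, fun l hl hlN hlS B hB σ hσ => h2 l hl hlN hlS B hB σ hσ, h3, ?_⟩
  obtain ⟨K, hK⟩ := hpN
  have hK0 : K ≠ 0 := by
    rintro rfl
    exact NeZero.ne N (by rw [hK, mul_zero])
  have hqK : ¬ p ∣ K := by
    rintro ⟨K', rfl⟩
    exact hpN2 ⟨K', by rw [hK]; ring⟩
  have hM : NeZero (auxLev p * K) := ⟨mul_ne_zero (auxLev_pos p).ne' hK0⟩
  have hN' : NeZero (p * (auxLev p * K)) := ⟨mul_ne_zero hp.out.ne_zero hM.out⟩
  have hqM : ¬ p ∣ auxLev p * K := by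
    intro h
    rcases hp.out.dvd_mul.mp h with h | h
    · exact not_dvd_auxLev hp.out h
    · exact hqK h
  obtain ⟨e, he, -, hU, hW⟩ := hvW p hp.out K hK hqK
  intro A hA σ hσ τ hτ g'
  refine trace_ord_mult (N' := p * (auxLev p * K)) hpS hNS hKL ⟨auxLev p, by rw [hK]; ring⟩ hpO
    (π := iota.comp chi.rangeRestrict) hv hvT ?_ h1 h1' hA hσ hτ g'
  intro n ψ hψ A hA σ hσ τ hτ
  refine LG3Rel_of hp.out hA hK rfl (dvd_mul_left _ _) _ hqM (goodLev_aux p K)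
    (pow_pos hp.out.pos n) (parC_lat _) he ?_ ?_ hσ hτ ?_
  · change heckeCharU hp.out.ne_zero _ (ψ.comp (oChar v)) = (ψ.comp (oChar v)) ^ e
    rw [heckeCharU_comp, hU, comp_zpow_char]
  · intro _ Bz
    change Bz.wChar _ hK (ψ.comp (oChar v)) = (ψ.comp (oChar v)) ^ (-e)
    have e1 : Bz.wChar (dvd_mul_left K (auxLev p)) hK (ψ.comp (oChar v)) =
        ψ.comp (Bz.wChar (dvd_mul_left K (auxLev p)) hK (oChar v)) := by
      rw [LG.Bez.wChar, LG.Bez.wChar, CosetSys.trans_comp]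
    rw [e1, hW _ Bz, comp_zpow_char]
  · intro ζ hζ
    have : NeZero (p ^ n) := ⟨(pow_pos hp.out.pos n).ne'⟩
    exact cyc_spec σ hζ

end Fermat.Agent.ESCore
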