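import Mathlib

set_option autoImplicit false

/-!
# Points with values in domains of characteristic zero come from complex points
-/

open scoped nonZeroDivisors

namespace Fermat.Agent.ESCore

theorem exists_embedding_of_finite {R : Type*} [CommRing R] [IsDomain R] [CharZero R]
    [Module.Finite ℤ R] : ∃ f : R →+* ℂ, Function.Injective f := by
  have hint : Algebra.IsIntegral ℤ R := Algebra.IsIntegral.of_finite ℤ R
  have hc : CharZero (FractionRing R) :=
    charZero_of_injective_algebraMap (IsFractionRing.injective R (FractionRing R))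
  have halg : Algebra.IsAlgebraic ℚ (FractionRing R) := by
    constructor
    intro x
    have h1 : ∀ r : R, IsAlgebraic ℚ (algebraMap R (FractionRing R) r) := by
      intro r
      obtain ⟨P, hP, hP2⟩ := hint.isIntegral r
      refine IsIntegral.isAlgebraic ⟨P.map (Int.castRingHom ℚ), hP.map _, ?_⟩
      rw [Polynomial.eval₂_map]
      have h2 := congrArg (algebraMap R (FractionRing R)) hP2
      rw [map_zero, Polynomial.hom_eval₂] at h2
      rw [← h2]
      congr 1
      exact RingHom.ext_int _ _
    obtain ⟨a, b, hb, rfl⟩ := IsFractionRing.div_surjective (A := R) x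
    rw [div_eq_mul_inv]
    exact (h1 a).mul (h1 b).inv
  let f : FractionRing R →ₐ[ℚ] ℂ := IsAlgClosed.lift
  refine ⟨f.toRingHom.comp (algebraMap R (FractionRing R)), ?_⟩
  exact f.toRingHom.injective.comp (IsFractionRing.injective R (FractionRing R))

theorem exists_complex_point {𝕋 B : Type*} [CommRing 𝕋] [Module.Finite ℤ 𝕋] [CommRing B]
    [IsDomain B] [CharZero B] (lam : 𝕋 →+* B) :
    ∃ (χ : 𝕋 →+* ℂ) (iota : χ.range →+* B), ∀ t, iota (χ.rangeRestrict t) = lam t := by
  have h1 : Module.Finite ℤ lam.range :=
    Module.Finite.of_surjective lam.rangeRestrict.toAddMonoidHom.toIntLinearMap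
      lam.rangeRestrict_surjective
  have h2 : CharZero lam.range := charZero_of_injective_ringHom
    (f := (algebraMap ℤ lam.range)) (by
      intro a b h
      have := congrArg Subtype.val h
      exact (Int.cast_injective : Function.Injective (Int.cast : ℤ → B)) (by simpa using this))
  obtain ⟨f, hf⟩ := exists_embedding_of_finite (R := lam.range)
  set χ : 𝕋 →+* ℂ := f.comp lam.rangeRestrict with hχ
  let e : lam.range →+* χ.range := f.codRestrict χ.range fun x => by
    obtain ⟨t, rfl⟩ := lam.rangeRestrict_surjective x
    exact ⟨t, rfl⟩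
  have he : Function.Bijective e := by
    refine ⟨fun a b h => hf (congrArg Subtype.val h), ?_⟩
    rintro ⟨_, t, rfl⟩
    exact ⟨lam.rangeRestrict t, rfl⟩
  refine ⟨χ, lam.range.subtype.comp (RingEquiv.ofBijective e he).symm.toRingHom, fun t => ?_⟩
  have h3 : χ.rangeRestrict t = (RingEquiv.ofBijective e he) (lam.rangeRestrict t) := rfl
  rw [h3]
  change ((RingEquiv.ofBijective e he).symm ((RingEquiv.ofBijective e he) _) : B) = _
  rw [RingEquiv.symm_apply_apply]
  rfl

end Fermat.Agent.ESCore
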