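import Fermat.Agent.ESG.Point
import Fermat.Agent.ESCore.OrdNew
import Fermat.Agent.ESCore.PointC

set_option autoImplicit false

/-!
# Points of the Hecke algebra of `Γ₀(N)` and newforms
-/

open UpperHalfPlane hiding I
open Matrix.SpecialLinearGroup CongruenceSubgroup ModularForm
open Fermat.Agent.ES Fermat.Agent.ESCore.Gal Fermat.Agent.ESCore.UnivG
open scoped MatrixGroups

noncomputable section

namespace Fermat.Agent.ESCore

variable {N : ℕ} [NeZero N]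

theorem heckeCharG_eq {B : Type*} [CommGroup B] {l : ℕ} (hl : l.Prime) (hN : ¬ l ∣ N)
    (c : Gamma0 N →* B) :
    heckeCharG hl hN (Gamma1_in_Gamma0 N) le_rfl c = heckeChar hl hN c := by
  ext γ
  have h1 := CosetSys.trans_apply (gam_injective N) (heckeSys hl hN) c γ
    ((heckeSys hl hN).coc γ) ((heckeSys hl hN).tgt γ) ((heckeSys hl hN).spec γ)
  have h2 := CosetSys.trans_apply (gamG_injective (Gamma0 N))
    (heckeSysG hl hN (Gamma1_in_Gamma0 N) le_rfl) c γ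
    (fun x => sigmaX N l x * (heckeSys hl hN).coc γ x *
      (sigmaX N l ((heckeSys hl hN).tgt γ x))⁻¹) ((heckeSys hl hN).tgt γ) (fun x => by
        have h3 := (heckeSys hl hN).spec γ x
        change gam N (sigmaX N l x) * (heckeSys hl hN).δ x * gam N γ =
          gam N (sigmaX N l x * (heckeSys hl hN).coc γ x *
            (sigmaX N l ((heckeSys hl hN).tgt γ x))⁻¹) *
            (gam N (sigmaX N l ((heckeSys hl hN).tgt γ x)) *
              (heckeSys hl hN).δ ((heckeSys hl hN).tgt γ x))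
        rw [map_mul, map_mul, map_inv, mul_assoc, h3]
        group)
  change (heckeSysG hl hN (Gamma1_in_Gamma0 N) le_rfl).trans (gamG_injective _) c γ = _
  rw [heckeChar, h1, h2]
  simp only [map_mul, map_inv]
  rw [Finset.prod_mul_distrib, Finset.prod_mul_distrib]
  have h4 : ∏ x, (c (sigmaX N l ((heckeSys hl hN).tgt γ x)))⁻¹ = (∏ x, c (sigmaX N l x))⁻¹ := by
    rw [Finset.prod_inv_distrib]
    congr 1
    exact ((heckeSys hl hN).tgt_bijective γ).prod_comp fun x => c (sigmaX N l x)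
  rw [h4]
  rw [mul_comm (∏ x, c (sigmaX N l x)), mul_inv_cancel_right]

/-- **Points of the Hecke algebra come from newforms.** -/
theorem exists_newform_of_ringHom {S : Finset ℕ}
    (χ : CuspForm.heckeAlgebra N 2 (↑S : Set ℕ) →+* ℂ) :
    ∃ (M : ℕ) (g : CuspForm (Gamma0 M) 2), M ∣ N ∧ g.IsNewform ∧
      ∀ (l : ℕ) (hl : l.Prime) (hlN : ¬ l ∣ N) (hlS : l ∉ (↑S : Set ℕ)),
        ModularFormClass.qCoeff g l = χ (CuspForm.heckeAlgebra.T hl hlN hlS) := by
  obtain ⟨c, hc0, hpar, hT, -⟩ := exists_eigenHom_of_ringHom χ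
  have h1 := Gamma1_in_Gamma0 N
  set c' : Gamma0 N →* Multiplicative ℂ := mulHom c with hc'
  obtain ⟨f, g, e, h2, h3⟩ := ESG.exists_eigenforms (S := S) h1 le_rfl (χ := c')
    (fun γ hγ => by
      have := hpar γ hγ
      exact this) (a := fun i => χ (CuspForm.heckeAlgebra.T i.2.1 i.2.2.1 i.2.2.2)) (d := fun _ => 1)
    (fun i γ => by
      rw [heckeCharG_eq]
      have h3 := CosetSys.trans_apply (gam_injective N) (heckeSys i.2.1 i.2.2.1) c' γ
        ((heckeSys i.2.1 i.2.2.1).coc γ) ((heckeSys i.2.1 i.2.2.1).tgt γ)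
        ((heckeSys i.2.1 i.2.2.1).spec γ)
      rw [heckeChar, h3, toAdd_prod]
      exact hT i.1 i.2.1 i.2.2.1 i.2.2.2 γ ((heckeSys i.2.1 i.2.2.1).coc γ)
        (Equiv.ofBijective _ ((heckeSys i.2.1 i.2.2.1).tgt_bijective γ))
        ((heckeSys i.2.1 i.2.2.1).spec γ)) (fun δ γ => by
      rw [diaChar_of_mem h1 le_rfl δ δ.2, one_mul])
  have key : ∃ g : S2 (Gamma0 N), g ≠ 0 ∧ (∀ i : Univ.Idx N S,
      heckeS2 h1 le_rfl i.2.1 i.2.2.1 g = χ (CuspForm.heckeAlgebra.T i.2.1 i.2.2.1 i.2.2.2) • g) ∧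
      ∀ δ, diaS2 h1 le_rfl δ g = (1 : ℂ) • g := by
    by_cases hf : f = 0
    · refine ⟨g, fun hg => hc0 ?_, fun i => (h2 i).2, fun δ => (h3 δ).2⟩
      ext γ
      have e' := e γ
      rw [hf, hg] at e'
      have h4 : per h1 (Nat.pos_of_ne_zero (NeZero.ne N)) (0 : S2 (Gamma0 N)) = 1 :=
        congrArg Additive.toMul (map_zero (perHomG h1 (Nat.pos_of_ne_zero (NeZero.ne N))))
      rw [h4] at e'
      change c (Additive.ofMul γ) = 0
      refine Eq.trans (e' : c (Additive.ofMul γ) = _) ?_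
      rw [MonoidHom.one_apply, MonoidHom.one_apply]
      exact add_zero _
    · exact ⟨f, hf, fun i => (h2 i).1, fun δ => (h3 δ).1⟩
  obtain ⟨g₀, hg₀, hg1, hg2⟩ := key
  obtain ⟨g', b, hg', hb, hba, hd'⟩ := ESG.exists_full_eigenform h1 le_rfl hg₀ hg1 hg2
  have hb' := RT.AL.EF.of_hecke h1 le_rfl g' (c := fun d => (1 : DirichletCharacter ℂ 1) (d : ZMod 1) ^ 2)
    (fun γ hγ => by
      have h4 := congrArg Subtype.val (hd' ⟨γ, hγ⟩)
      refine h4.trans ?_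
      have h5 : ∀ x : ZMod 1, (1 : DirichletCharacter ℂ 1) x = 1 := fun x => by
        rw [Subsingleton.elim x 1, map_one]
      change ((1 : ℂ) • g'.1 : ℍ → ℂ) = (1 : DirichletCharacter ℂ 1) _ ^ 2 • g'.1
      rw [h5, one_pow]) hb
  obtain ⟨M, f', hM, hf, h5, -⟩ := RT.AL.exists_newform_level (N := N) (D := 1)
    (Nat.coprime_one_right N) squarefree_one 1 (by rw [mul_one]; exact hb') fun h => hg' (Subtype.ext h)
  refine ⟨M, f', by simpa using hM, hf, fun l hl hlN hlS => ?_⟩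
  rw [h5 l hl (by simpa using hlN)]
  have h6 : (1 : DirichletCharacter ℂ 1)⁻¹ (l : ZMod 1) = 1 := by
    rw [Subsingleton.elim (l : ZMod 1) 1, map_one]
  rw [h6, one_mul]
  exact hba ⟨l, hl, hlN, hlS⟩

theorem mem_range_of_T {M : ℕ} [NeZero M] {S : Set ℕ} (hMS : ∀ q : ℕ, q.Prime → q ∣ M → q ∈ S)
    (chi : CuspForm.heckeAlgebra M 2 S →+* ℂ) (R : Subring ℂ)
    (h : ∀ (l : ℕ) (hl : l.Prime) (hlM : ¬ l ∣ M) (hlS : l ∉ S),
      chi (CuspForm.heckeAlgebra.T hl hlM hlS) ∈ R) (t : CuspForm.heckeAlgebra M 2 S) :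
    chi t ∈ R := by
  obtain ⟨t, ht⟩ := t
  induction ht using Algebra.adjoin_induction with
  | mem x hx =>
    rcases hx with ⟨l, hl, hlN, hlS, rfl⟩ | ⟨q, hqN, hq, hqS, rfl⟩
    · exact h l hl hlN hlS
    · exact absurd (hMS q hq hqN) hqS
  | algebraMap r =>
    have h1 : (⟨algebraMap ℤ _ r, Subalgebra.algebraMap_mem _ r⟩ : CuspForm.heckeAlgebra M 2 S) =
      algebraMap ℤ _ r := rfl
    change chi (algebraMap ℤ _ r) ∈ R
    rw [eq_intCast, map_intCast]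
    exact intCast_mem R r
  | add x y hx hy h1 h2 =>
    change chi (⟨x, hx⟩ + ⟨y, hy⟩) ∈ R
    rw [map_add]
    exact R.add_mem h1 h2
  | mul x y hx hy h1 h2 =>
    change chi (⟨x, hx⟩ * ⟨y, hy⟩) ∈ R
    rw [map_mul]
    exact R.mul_mem h1 h2

/-- **Points with values in domains of characteristic zero and newforms.** -/
theorem exists_newform_point {S : Finset ℕ} (hNS : ∀ q : ℕ, q.Prime → q ∣ N → q ∈ S) {B : Type*}
    [CommRing B] [IsDomain B] [CharZero B] (lam : CuspForm.heckeAlgebra N 2 (↑S : Set ℕ) →+* B) :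
    ∃ (M : ℕ) (_ : NeZero M) (g : CuspForm (Gamma0 M) 2)
      (chi : CuspForm.heckeAlgebra M 2 (↑S : Set ℕ) →+* ℂ) (iota : chi.range →+* B),
      M ∣ N ∧ g.IsNewform ∧
      (∀ (l : ℕ) (hl : l.Prime) (hlM : ¬ l ∣ M) (hlS : l ∉ (↑S : Set ℕ)),
        chi (CuspForm.heckeAlgebra.T hl hlM hlS) = ModularFormClass.qCoeff g l) ∧
      (∀ (l : ℕ) (hl : l.Prime) (hlM : ¬ l ∣ M) (hlN : ¬ l ∣ N) (hlS : l ∉ (↑S : Set ℕ)),
        iota (chi.rangeRestrict (CuspForm.heckeAlgebra.T hl hlM hlS)) =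
          lam (CuspForm.heckeAlgebra.T hl hlN hlS)) := by
  have hfin : Module.Finite ℤ (CuspForm.heckeAlgebra N 2 (↑S : Set ℕ)) :=
    moduleFinite_heckeAlgebra 2 _
  obtain ⟨χ, iota, hiota⟩ := exists_complex_point lam
  obtain ⟨M, g, hM, hg, hgT⟩ := exists_newform_of_ringHom χ
  have hM0 : NeZero M := ⟨by
    rintro rfl
    exact NeZero.ne N (zero_dvd_iff.mp hM)⟩
  have hMS : ∀ q : ℕ, q.Prime → q ∣ M → q ∈ (↑S : Set ℕ) := fun q hq hqM =>
    hNS q hq (hqM.trans hM)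
  have hchi : ∀ (l : ℕ) (hl : l.Prime) (hlM : ¬ l ∣ M) (hlS : l ∉ (↑S : Set ℕ)),
      eigenHomC hg.1 (↑S : Set ℕ) (CuspForm.heckeAlgebra.T hl hlM hlS) =
        ModularFormClass.qCoeff g l := fun l hl hlM hlS => eigenHom_T hg.1 hl hlM hlS
  have hN' : ∀ l : ℕ, l.Prime → l ∉ (↑S : Set ℕ) → ¬ l ∣ N := fun l hl hlS h =>
    hlS (hNS l hl h)
  have hle : (eigenHomC hg.1 (↑S : Set ℕ)).range ≤ χ.range := by
    rintro _ ⟨t, rfl⟩
    refine mem_range_of_T hMS _ _ (fun l hl hlM hlS => ?_) t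
    rw [hchi, hgT l hl (hN' l hl hlS) hlS]
    exact ⟨_, rfl⟩
  refine ⟨M, hM0, g, eigenHomC hg.1 (↑S : Set ℕ), iota.comp (Subring.inclusion hle), hM, hg,
    hchi, fun l hl hlM hlN hlS => ?_⟩
  rw [← hiota]
  change iota _ = iota _
  congr 1
  apply Subtype.ext
  change eigenHomC hg.1 (↑S : Set ℕ) (CuspForm.heckeAlgebra.T hl hlM hlS) = χ _
  rw [hchi, hgT l hl hlN hlS]

end Fermat.Agent.ESCore
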