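import Fermat.Agent.ESCore.OrdLine
import Fermat.Agent.ESCore.PointNew
import Fermat.Agent.ESCore.DvrExt

set_option autoImplicit false
set_option linter.unusedSectionVars false

/-!
# The trace identity at `p` for Hecke–Galois data, from points
-/

open IsLocalRing CongruenceSubgroup
open scoped Pointwise

noncomputable section

namespace Fermat.Agent.ESCore

open UnivDef

section Cyc

variable {A : Type} [CommRing A] [IsLocalRing A]

theorem frob_cyc {p l : ℕ} [hp : Fact p.Prime] (hl : l.Prime) (hlp : l ≠ p)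
    {B : ValuationSubring Qb} (hB : B.LiesOverPrime l) {φ : GQ} (hφ : B.IsFrobeniusAt φ l) :
    ((cyc p φ : (ZMod p)ˣ) : ZMod p) = l := by
  obtain ⟨ζ, hζ⟩ := exists_primitiveRoot p
  exact cyc_eq_of hζ (frob_root hB hl hφ
    (fun h => hlp ((Nat.prime_dvd_prime_iff_eq hl hp.out).mp h)) hζ.pow_eq_one)

/-- characters with `ε(Frob_l) = l` are cyclotomic modulo `p` -/
theorem eps_cyc {p : ℕ} [hp : Fact p.Prime] (hpA : (p : A) ∈ maximalIdeal A) {ε : GQ →* Aˣ}
    {S : Finset ℕ} (hpS : p ∈ S) (hfrob : ∀ l : ℕ, l.Prime → l ∉ S → ∀ B : ValuationSubring Qb,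
      B.LiesOverPrime l → ∀ σ : GQ, B.IsFrobeniusAt σ l → (ε σ : A) = l)
    (hcont : ∃ L : IntermediateField ℚ Qb, FiniteDimensional ℚ L ∧
      ∀ σ : GQ, (∀ x ∈ L, σ x = x) → (ε σ : A) - 1 ∈ maximalIdeal A) (σ : GQ) :
    (ε σ : A) - ((cyc p σ : (ZMod p)ˣ) : ZMod p).val ∈ maximalIdeal A := by
  obtain ⟨L₁, hL₁, h₁⟩ := hcont
  obtain ⟨L₂, hL₂, h₂⟩ := cyc_finite p
  obtain ⟨l, hl, hlS, B, hB, φ, hφ, i, -, hi, -⟩ :=
    FrobDensity.exists_frobenius_pow (L₁ ⊔ L₂) σ S
  have hlp : l ≠ p := fun h => hlS (h ▸ hpS)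
  have hδ : ∀ x ∈ L₁ ⊔ L₂, (σ⁻¹ * φ ^ i : GQ) x = x := by
    intro x hx
    rw [AlgEquiv.mul_apply, hi x hx, ← AlgEquiv.mul_apply, inv_mul_cancel, AlgEquiv.one_apply]
  set δ : GQ := σ⁻¹ * φ ^ i with hδdef
  have hσδ : σ * δ = φ ^ i := by rw [hδdef, mul_inv_cancel_left]
  have e1 := h₁ δ fun x hx => hδ x ((le_sup_left : L₁ ≤ L₁ ⊔ L₂) hx)
  have e2 := h₂ δ fun x hx => hδ x ((le_sup_right : L₂ ≤ L₁ ⊔ L₂) hx)
  have e3 : (ε (φ ^ i) : A) - ε σ ∈ maximalIdeal A := by
    rw [← hσδ, map_mul, Units.val_mul]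
    have : (ε σ : A) * ε δ - ε σ = ε σ * (ε δ - 1) := by ring
    rw [this]
    exact Ideal.mul_mem_left _ _ e1
  have e4 : (ε (φ ^ i) : A) = ((l ^ i : ℕ) : A) := by
    rw [map_pow, Units.val_pow_eq_pow_val, hfrob l hl hlS B hB φ hφ, Nat.cast_pow]
  have e5 : cyc p σ = cyc p (φ ^ i) := by rw [← hσδ, map_mul, e2, mul_one]
  have e6 : ((cyc p σ : (ZMod p)ˣ) : ZMod p) = ((l ^ i : ℕ) : ZMod p) := by
    rw [e5, map_pow, Units.val_pow_eq_pow_val, frob_cyc hl hlp hB hφ, Nat.cast_pow]
  have e7 : (((cyc p σ : (ZMod p)ˣ) : ZMod p).val : A) - ((l ^ i : ℕ) : A) ∈ maximalIdeal A := by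
    rw [e6, ZMod.val_natCast]
    have h3 := Nat.div_add_mod (l ^ i) p
    have h4 : ((l ^ i : ℕ) : A) = p * ((l ^ i / p : ℕ) : A) + ((l ^ i % p : ℕ) : A) := by
      conv_lhs => rw [← h3]
      push_cast
      ring
    rw [h4]
    have : ((l ^ i % p : ℕ) : A) - (p * ((l ^ i / p : ℕ) : A) + ((l ^ i % p : ℕ) : A)) =
        -(((l ^ i / p : ℕ) : A) * p) := by ring
    rw [this]
    exact neg_mem (Ideal.mul_mem_left _ _ hpA)
  have : (ε σ : A) - ((cyc p σ : (ZMod p)ˣ) : ZMod p).val =
      -((ε (φ ^ i) : A) - ε σ) - ((((cyc p σ : (ZMod p)ˣ) : ZMod p).val : A) -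
        ((l ^ i : ℕ) : A)) := by rw [e4]; ring
  rw [this]
  exact sub_mem (neg_mem e3) e7

end Cyc

section Push

variable {A B : Type} [CommRing A] [IsLocalRing A] [CommRing B] [IsLocalRing B]

theorem mapMat_trace (ψ : A →+* B) (r : GQ →* Matrix (Fin 2) (Fin 2) A) (σ : GQ) :
    (mapMat ψ r σ).trace = ψ (r σ).trace := by
  rw [Matrix.trace_fin_two, Matrix.trace_fin_two, map_add]
  rfl

theorem mapMat_det (ψ : A →+* B) (r : GQ →* Matrix (Fin 2) (Fin 2) A) (σ : GQ) :
    (mapMat ψ r σ).det = ψ (r σ).det := by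
  rw [Matrix.det_fin_two, Matrix.det_fin_two, map_sub, map_mul, map_mul]
  rfl

/-- Absolute irreducibility from spanning. -/
theorem isAbsolutelyIrreducible_of_span {k : Type} [Field k] (ρ : ResidualGaloisRep k)
    (b : Module.Basis (Fin 2) k ρ.V)
    (h : Submodule.span k (Set.range fun g : GQ => LinearMap.toMatrix b b (ρ.ρ g)) = ⊤) :
    ρ.IsAbsolutelyIrreducible := by
  intro W hW
  by_cases hW0 : W = ⊥
  · exact Or.inl hW0
  right
  let K := AlgebraicClosure k
  let bK := Algebra.TensorProduct.basis K b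
  have key : ∀ f : Module.End k ρ.V, ∀ w ∈ W, f.baseChange K w ∈ W := by
    intro f
    have hf : LinearMap.toMatrix b b f ∈
        Submodule.span k (Set.range fun g : GQ => LinearMap.toMatrix b b (ρ.ρ g)) := by
      rw [h]; trivial
    have hf' : f ∈ Submodule.span k (Set.range fun g : GQ => ρ.ρ g) := by
      have h2 : Submodule.map (LinearMap.toMatrix b b).toLinearMap
          (Submodule.span k (Set.range fun g : GQ => ρ.ρ g)) =
          Submodule.span k (Set.range fun g : GQ => LinearMap.toMatrix b b (ρ.ρ g)) := by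
        rw [Submodule.map_span, ← Set.range_comp]
        rfl
      rw [← h2] at hf
      obtain ⟨f', hf', hff⟩ := hf
      rwa [← (LinearMap.toMatrix b b).injective hff]
    clear hf
    intro w hw
    induction hf' using Submodule.span_induction with
    | mem x hx =>
      obtain ⟨g, rfl⟩ := hx
      exact hW g w hw
    | zero =>
      rw [LinearMap.baseChange_zero, LinearMap.zero_apply]
      exact W.zero_mem
    | add x y _ _ hx hy =>
      rw [LinearMap.baseChange_add, LinearMap.add_apply]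
      exact W.add_mem hx hy
    | smul c x _ hx =>
      rw [LinearMap.baseChange_smul, LinearMap.smul_apply, ← algebraMap_smul K c]
      exact W.smul_mem _ hx
  obtain ⟨w, hw, hw0⟩ := Submodule.exists_mem_ne_zero_of_ne_bot hW0
  have hi : ∃ i, bK.repr w i ≠ 0 := by
    by_contra hcon
    push Not at hcon
    apply hw0
    apply bK.repr.injective
    ext i
    rw [hcon i, map_zero, Finsupp.zero_apply]
  obtain ⟨i, hi⟩ := hi
  rw [eq_top_iff, ← bK.span_eq, Submodule.span_le]
  rintro _ ⟨j, rfl⟩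
  let f : Module.End k ρ.V := b.constr k fun l => if l = i then b j else 0
  have h3 := key f w hw
  have h4 : f.baseChange K w = bK.repr w i • bK j := by
    conv_lhs => rw [← bK.sum_repr w]
    rw [map_sum]
    have h5 : ∀ l, f.baseChange K (bK l) = if l = i then bK j else 0 := by
      intro l
      rw [Algebra.TensorProduct.basis_apply, LinearMap.baseChange_tmul,
        Module.Basis.constr_basis, Algebra.TensorProduct.basis_apply]
      split_ifs
      · rfl
      · rw [TensorProduct.tmul_zero]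
    simp only [map_smul, h5]
    simp
  rw [h4] at h3
  have h6 := W.smul_mem (bK.repr w i)⁻¹ h3
  rwa [smul_smul, inv_mul_cancel₀ hi, one_smul] at h6

/-- spanning is preserved by maps of fields -/
theorem span_map_eq_top {k k' : Type} [Field k] [Field k'] (φ : k →+* k')
    {r : GQ → Matrix (Fin 2) (Fin 2) k} (h : Submodule.span k (Set.range r) = ⊤) :
    Submodule.span k' (Set.range fun g => (r g).map φ) = ⊤ := by
  have key : ∀ X : Matrix (Fin 2) (Fin 2) k,
      X.map φ ∈ Submodule.span k' (Set.range fun g => (r g).map φ) := by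
    intro X
    have hX : X ∈ Submodule.span k (Set.range r) := by rw [h]; trivial
    induction hX using Submodule.span_induction with
    | mem x hx =>
      obtain ⟨g, rfl⟩ := hx
      exact Submodule.subset_span ⟨g, rfl⟩
    | zero =>
      rw [Matrix.map_zero _ (map_zero φ)]
      exact Submodule.zero_mem _
    | add x y _ _ hx hy =>
      rw [Matrix.map_add _ (map_add φ)]
      exact Submodule.add_mem _ hx hy
    | smul c x _ hx =>
      have : (c • x).map φ = φ c • x.map φ := by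
        ext i j
        simp
      rw [this]
      exact Submodule.smul_mem _ _ hx
  rw [eq_top_iff]
  intro X _
  rw [Matrix.matrix_eq_sum_single X]
  refine Submodule.sum_mem _ fun i _ => Submodule.sum_mem _ fun j _ => ?_
  have h2 : Matrix.single i j (X i j) = X i j • (Matrix.single i j (1 : k)).map φ := by
    ext a b
    simp [Matrix.single_apply]
  rw [h2]
  exact Submodule.smul_mem _ _ (key _)

end Push

section TD

variable {A : Type} [CommRing A] [IsLocalRing A] [IsNoetherianRing A]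
  [IsAdicComplete (maximalIdeal A) A]

/-- traces and determinants are determined by the Frobenius elements -/
theorem trace_det_of_frob {r : GQ →* Matrix (Fin 2) (Fin 2) A} (hr : IsContMat r)
    {t : GQ → A} {ε : GQ →* Aˣ} (ht : IsPseudo t ε)
    (htc : ∀ n : ℕ, ∃ L : IntermediateField ℚ Qb, FiniteDimensional ℚ L ∧
      ∀ σ : GQ, (∀ x ∈ L, σ x = x) → ∀ g, t (σ * g) - t g ∈ maximalIdeal A ^ n)
    (bad : Finset ℕ) (hfrob : ∀ l : ℕ, l.Prime → l ∉ bad → ∀ B : ValuationSubring Qb,
      B.LiesOverPrime l → ∀ σ : GQ, B.IsFrobeniusAt σ l →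
        (r σ).trace = t σ ∧ (r σ).det = ε σ) (h2 : ∀ x : A, 2 * x = 0 → x = 0) (σ : GQ) :
    (r σ).trace = t σ ∧ (r σ).det = ε σ := by
  have key := trace_eq_of_frob hr ht htc bad hfrob
  refine ⟨key σ, ?_⟩
  have e1 := key (σ * σ)
  have e2 : (r (σ * σ)).trace = (r σ).trace * (r σ).trace - 2 * (r σ).det := by
    rw [map_mul]
    simp only [Matrix.trace_fin_two, Matrix.det_fin_two, Matrix.mul_apply, Fin.sum_univ_two]
    ring
  have e3 := ht.mul σ σ
  rw [inv_mul_cancel, ht.one] at e3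
  have e4 : 2 * ((r σ).det - ε σ) = 0 := by
    rw [e2, key] at e1
    linear_combination e3 - e1
  exact sub_eq_zero.mp (h2 _ e4)

end TD

section Main

theorem isLocalHom_of_algHom {𝒪 T B : Type*} [CommRing 𝒪] [CommRing T] [IsLocalRing T]
    [Algebra 𝒪 T] [CommRing B] [IsLocalRing B] [Algebra 𝒪 B] [Module.Finite 𝒪 B]
    (ψ : T →ₐ[𝒪] B) : IsLocalHom (ψ : T →+* B) := by
  have h1 : (ψ : T →+* B).IsIntegral := by
    have h2 : Algebra.IsIntegral 𝒪 B := Algebra.IsIntegral.of_finite 𝒪 B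
    have h3 : (algebraMap 𝒪 B).IsIntegral := algebraMap_isIntegral_iff.mpr h2
    have h4 : algebraMap 𝒪 B = (ψ : T →+* B).comp (algebraMap 𝒪 T) := by
      ext x
      exact (ψ.commutes x).symm
    rw [h4] at h3
    exact RingHom.IsIntegral.tower_top _ _ h3
  have h2 := Ideal.isMaximal_comap_of_isIntegral_of_isMaximal' (ψ : T →+* B) h1 (maximalIdeal B)
  refine ((IsLocalRing.local_hom_TFAE (ψ : T →+* B)).out 0 4).mpr ?_
  exact IsLocalRing.eq_maximalIdeal h2

/-- The statement for old points: representations of level prime to `p` which are residually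
ordinary are ordinary. -/
def OldOrd (p : ℕ) (S : Finset ℕ) : Prop :=
  ∀ (M : ℕ) [NeZero M], ¬ p ∣ M → (∀ q : ℕ, q.Prime → q ∣ M → q ∈ S) →
  ∀ (B : Type) [CommRing B] [IsDomain B] [IsDiscreteValuationRing B]
    [IsAdicComplete (maximalIdeal B) B] [Finite (ResidueField B)] [CharZero B],
    (p : B) ∈ maximalIdeal B →
  ∀ (π : CuspForm.heckeAlgebra M 2 (↑S : Set ℕ) →+* B) (ρ : GaloisRepAdic B),
    (∀ (l : ℕ) (hl : l.Prime) (hlM : ¬ l ∣ M) (hlS : l ∉ (↑S : Set ℕ)),
      ∀ A : ValuationSubring (AlgebraicClosure ℚ), A.LiesOverPrime l →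
        ∀ σ : AlgebraicClosure ℚ ≃ₐ[ℚ] AlgebraicClosure ℚ, A.IsFrobeniusAt σ l →
          LinearMap.charpoly (ρ.ρ σ) = Polynomial.X ^ 2 -
            Polynomial.C (π (CuspForm.heckeAlgebra.T hl hlM hlS)) * Polynomial.X +
              Polynomial.C ((l : B))) →
    ρ.residual.IsAbsolutelyIrreducible →
    (GaloisRepAdic.ofResidualGaloisRep ρ.residual).IsOrdinaryAt p → ρ.IsOrdinaryAt p

variable {N : ℕ} [NeZero N] {S : Finset ℕ} {p : ℕ} [hp : Fact p.Prime]
  {𝒪 : Type} [CommRing 𝒪] [IsDomain 𝒪] [IsDiscreteValuationRing 𝒪]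
  [IsAdicComplete (maximalIdeal 𝒪) 𝒪] [Finite (ResidueField 𝒪)] [CharZero 𝒪]
  {θ : CuspForm.heckeAlgebra N 2 (↑S : Set ℕ) →+* ResidueField 𝒪}
  {T : Type} [CommRing T] [IsLocalRing T] [IsNoetherianRing T]
  [IsAdicComplete (maximalIdeal T) T] [Algebra 𝒪 T] [IsLocalHom (algebraMap 𝒪 T)]
  [Module.Finite 𝒪 T] [Module.Free 𝒪 T]

/-- **S33**, from reducedness and the old points. -/
theorem isOrdinary_of_old [IsReduced T] (hp2 : p ≠ 2) (hp𝒪 : (p : 𝒪) ∈ maximalIdeal 𝒪)
    (hpN : p ∣ N) (hpN2 : ¬ p ^ 2 ∣ N) (hNS : ∀ q : ℕ, q.Prime → q ∣ N → q ∈ S)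
    (hKL : ∀ (M : ℕ) [NeZero M], ∀ l : ℕ, l.Prime → ¬ l ∣ M → l ≠ p → ∀ B : ValuationSubring Qb,
      B.LiesOverPrime l → ∀ n, KLProp M (p ^ n) B) (hOld : OldOrd p S)
    (H : CuspForm.HeckeGaloisRepDatum N (↑S : Set ℕ) 𝒪 θ T)
    (hres : (GaloisRepAdic.ofResidualGaloisRep H.ρ.residual).IsOrdinaryAt p) :
    H.ρ.IsOrdinaryAt p := by
  have hpS : p ∈ S := hNS p hp.out hpN
  have hpT : (p : T) ∈ maximalIdeal T := by
    rw [← map_natCast (algebraMap 𝒪 T)]
    exact map_nonunit (algebraMap 𝒪 T) _ hp𝒪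
  obtain ⟨c, t, ε, hps, -, -, h2, h3, -⟩ := Univ.exists_pseudo_full hp.out hpS hNS (hKL N) hpT H.π
  let b : Module.Basis (Fin 2) T H.ρ.V :=
    (Module.finBasis T H.ρ.V).reindex (finCongr H.ρ.finrank_eq)
  have htd := matOf_trace_det hp𝒪 hNS H hps h2 h3 b
  have hεc := eps_cyc (ε := ε) hpT hpS (fun l hl hlS B hB σ hσ =>
    (h2 l hl (fun h => hlS (hNS l hl h)) hlS B hB σ hσ).2) (by
      obtain ⟨L, hL, h⟩ := h3 1
      refine ⟨L, hL, fun σ hσ => ?_⟩
      have h4 := (h σ hσ).2
      rw [pow_one] at h4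
      exact (Ideal.span_singleton_le_iff_mem _).mpr hpT h4)
  refine isOrdinary_of_trace H.ρ H.residual_absIrr hp2 hpT b (fun σ => (htd σ).1)
    (fun σ => (htd σ).2) hεc fun P hP σ hσ τ hτ g => ?_
  by_contra hx
  obtain ⟨B, i1, i2, i3, i4, i5, i6, i7, i8, i9, ψ, hψ, hBinj⟩ := exists_dvr_point (𝒪 := 𝒪) hx
  apply hψ
  have hpB : (p : B) ∈ maximalIdeal B := by
    rw [← map_natCast (algebraMap 𝒪 B)]
    exact map_nonunit (algebraMap 𝒪 B) _ hp𝒪
  have hψloc : IsLocalHom (ψ : T →+* B) := isLocalHom_of_algHom ψ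
  obtain ⟨M, hM0, f, chi, iota, hMN, hf, hchi, hiota⟩ := exists_newform_point hNS
    ((ψ : T →+* B).comp H.π)
  have hMS : ∀ q : ℕ, q.Prime → q ∣ M → q ∈ S := fun q hq hqM => hNS q hq (hqM.trans hMN)
  set r := mapMat (ψ : T →+* B) (matOf H.ρ b) with hr
  have hrc : IsContMat r := isContMat_mapMat _ hψloc (isContMat_matOf H.ρ b)
  have hrt : ∀ σ, (r σ).trace = ψ (t σ) := fun σ => by
    rw [hr, mapMat_trace, (htd σ).1]
    rfl
  have hrd : ∀ σ, (r σ).det = ψ (ε σ) := fun σ => by
    rw [hr, mapMat_det, (htd σ).2]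
    rfl
  suffices hgoal : (r (σ * τ * g)).trace - (r (σ * g)).trace -
      (r σ).det * ((r (τ * g)).trace - (r g).trace) = 0 by
    rw [hrt, hrt, hrt, hrt, hrd] at hgoal
    rw [← hgoal]
    simp only [map_sub, map_mul]
  by_cases hpM : p ∣ M
  · -- new points
    have hpM2 : ¬ p ^ 2 ∣ M := fun h => hpN2 (h.trans hMN)
    obtain ⟨t', ε', hps', h2', h3', h4'⟩ := exists_pseudo_ord hf hpS hMS (hKL M) hpM hpM2 hpB chi
      hchi iota
    have key := trace_det_of_frob hrc hps' (fun n => by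
        obtain ⟨L, hL, h5⟩ := h3' n
        exact ⟨L, hL, fun σ hσ g => span_pow_le hpB n ((h5 σ hσ).1 g)⟩) S (by
        intro l hl hlS A hA φ hφ
        have hlN : ¬ l ∣ N := fun h => hlS (hNS l hl h)
        have hlM : ¬ l ∣ M := fun h => hlN (h.trans hMN)
        obtain ⟨h5, h6⟩ := h2' l hl hlM hlS A hA φ hφ
        obtain ⟨h7, h8⟩ := h2 l hl hlN hlS A hA φ hφ
        rw [hrt, hrd, h5, h6, h7, h8, hiota l hl hlM hlN hlS, map_natCast]
        exact ⟨rfl, rfl⟩) (fun x hx => by
        have : (2 : B) ≠ 0 := by exact_mod_cast (two_ne_zero : (2 : ℕ) ≠ 0)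
        exact (mul_eq_zero.mp hx).resolve_left this)
    rw [(key _).1, (key _).1, (key _).1, (key _).1, (key _).2]
    exact h4' P hP σ hσ τ hτ g
  · -- old points
    have h6 : matOf (ofMat r hrc) (stdBasis r hrc) = r := by
      ext σ : 1
      exact toMatrix_ofMat r hrc σ
    let κ : ResidueField T →+* ResidueField B := ResidueField.map (ψ : T →+* B)
    have hmat : ∀ σ, LinearMap.toMatrix (basisResidual _ (stdBasis r hrc))
        (basisResidual _ (stdBasis r hrc)) ((ofMat r hrc).residual.ρ σ) =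
        (LinearMap.toMatrix (basisResidual H.ρ b) (basisResidual H.ρ b)
          (H.ρ.residual.ρ σ)).map κ := by
      intro σ
      rw [toMatrix_residual, toMatrix_ofMat, toMatrix_residual]
      rfl
    have hspan : Submodule.span (ResidueField B) (Set.range fun σ : GQ =>
        LinearMap.toMatrix (basisResidual _ (stdBasis r hrc))
          (basisResidual _ (stdBasis r hrc)) ((ofMat r hrc).residual.ρ σ)) = ⊤ := by
      have h7 := span_map_eq_top κ
        (span_matrix_eq_top H.ρ.residual H.residual_absIrr (basisResidual H.ρ b))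
      rw [← h7]
      congr 2
      funext σ
      exact hmat σ
    have hord := hOld M hpM hMS B hpB (iota.comp chi.rangeRestrict) (ofMat r hrc) (by
      intro l hl hlM hlS A hA φ hφ
      have hlN : ¬ l ∣ N := fun h => hlS (hNS l hl h)
      obtain ⟨h7, h8⟩ := h2 l hl hlN hlS A hA φ hφ
      rw [← LinearMap.charpoly_toMatrix _ (stdBasis r hrc), toMatrix_ofMat,
        Matrix.charpoly_fin_two, hrt, hrd, h7, h8, map_natCast]
      congr 4
      exact (hiota l hl hlM hlN hlS).symm) (isAbsolutelyIrreducible_of_span _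
        (basisResidual _ (stdBasis r hrc)) hspan) (by
      have hpk : (p : ResidueField B) ∈ maximalIdeal (ResidueField B) := by
        rw [← map_natCast (residue B), (residue_eq_zero_iff (p : B)).mpr hpB]
        exact zero_mem _
      have h7 : ∀ σ, (matOf (GaloisRepAdic.ofResidualGaloisRep (ofMat r hrc).residual)
          (basisResidual _ (stdBasis r hrc)) σ) =
          (matOf (GaloisRepAdic.ofResidualGaloisRep H.ρ.residual) (basisResidual H.ρ b) σ).map κ :=
        hmat
      have h8 : ∀ σ, (matOf (GaloisRepAdic.ofResidualGaloisRep H.ρ.residual)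
          (basisResidual H.ρ b) σ) = (matOf H.ρ b σ).map (residue T) :=
        fun σ => toMatrix_residual H.ρ b σ
      refine isOrdinary_of_trace_span (p := p)
        (GaloisRepAdic.ofResidualGaloisRep (ofMat r hrc).residual) hp2 hpk
        (basisResidual _ (stdBasis r hrc)) hspan (t := fun σ => κ (residue T (t σ)))
        (ε := (Units.map ((κ.comp (residue T)) : T →* ResidueField B)).comp ε)
        (fun σ => ?_) (fun σ => ?_) (fun σ => ?_) fun P hP σ hσ τ hτ g => ?_
      · rw [h7, h8, Matrix.trace_fin_two, ← (htd σ).1, Matrix.trace_fin_two, map_add, map_add]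
        rfl
      · rw [h7, h8]
        change _ = κ (residue T (ε σ))
        rw [← (htd σ).2, Matrix.det_fin_two, Matrix.det_fin_two, map_sub, map_sub, map_mul,
          map_mul, map_mul, map_mul]
        rfl
      · change κ (residue T (ε σ)) - _ ∈ _
        have h9 := (residue_eq_zero_iff _).mpr (hεc σ)
        have h10 := congrArg κ h9
        rw [map_zero, map_sub, map_sub, map_natCast, map_natCast] at h10
        rw [h10]
        exact zero_mem _
      · have h9 := trace_of_isOrdinary hres (basisResidual H.ρ b) hP hσ hτ g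
        have h10 : ∀ σ, (matOf (GaloisRepAdic.ofResidualGaloisRep H.ρ.residual)
            (basisResidual H.ρ b) σ).trace = residue T (t σ) := fun σ => by
          rw [h8, Matrix.trace_fin_two, ← (htd σ).1, Matrix.trace_fin_two, map_add]
          rfl
        have h11 : (matOf (GaloisRepAdic.ofResidualGaloisRep H.ρ.residual)
            (basisResidual H.ρ b) σ).det = residue T (ε σ) := by
          rw [h8, ← (htd σ).2, Matrix.det_fin_two, Matrix.det_fin_two, map_sub, map_mul, map_mul]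
          rfl
        rw [h10, h10, h10, h10, h11] at h9
        have h12 := congrArg κ h9
        rw [map_zero] at h12
        rw [← h12]
        change κ (residue T _) - κ (residue T _) - κ (residue T (ε σ)) *
          (κ (residue T _) - κ (residue T _)) = _
        simp only [map_sub, map_mul])
    have h5 := trace_of_isOrdinary hord (stdBasis r hrc) hP hσ hτ g
    rw [h6] at h5
    exact h5

end Main

end Fermat.Agent.ESCore
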