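import Mathlib
import Fermat.Prelude.Def_EllipticCurve_FrobeniusTrace
import Fermat.Agent.ESCore.Defs
import Fermat.Agent.ES.Rational
import Fermat.Agent.Hecke.Integral

set_option autoImplicit false

/-!
# Scaling `q`-expansions to be integral with nonzero reduction
-/

open UpperHalfPlane ModularForm Matrix PowerSeries
open scoped MatrixGroups Manifold

noncomputable section

namespace Fermat.Agent.ESCore

/-- A sequence in a finitely generated abelian group of a valued field attains its maximal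
valuation. -/
theorem exists_max_of_fg {K : Type*} [Field K] (A : ValuationSubring K) {M : Submodule ℤ K}
    (hM : M.FG) {x : ℕ → K} (hx : ∀ n, x n ∈ M) (hne : ∃ n, x n ≠ 0) :
    ∃ n₀, x n₀ ≠ 0 ∧ ∀ n, x n * (x n₀)⁻¹ ∈ A := by
  have hnoeth : IsNoetherian ℤ M := isNoetherian_of_fg_of_noetherian M hM
  let B : K → Submodule ℤ M := fun y =>
    { carrier := {z | (z : K) * y⁻¹ ∈ A}
      add_mem' := by
        intro a b ha hb
        simp only [Set.mem_ofPred_eq] at *
        rw [Submodule.coe_add, add_mul]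
        exact A.add_mem _ _ ha hb
      zero_mem' := by
        simp [A.zero_mem]
      smul_mem' := by
        intro c a ha
        simp only [Set.mem_ofPred_eq] at *
        rw [Submodule.coe_smul, smul_mul_assoc, zsmul_eq_mul]
        exact A.mul_mem _ _ (intCast_mem A c) ha }
  let T : Set (Submodule ℤ M) := {N | ∃ n, x n ≠ 0 ∧ N = B (x n)}
  have hT : T.Nonempty := by
    obtain ⟨n, hn⟩ := hne
    exact ⟨_, n, hn, rfl⟩
  obtain ⟨N, ⟨n₀, hn₀, rfl⟩, hmax⟩ := set_has_maximal_iff_noetherian.2 hnoeth T hT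
  refine ⟨n₀, hn₀, fun n => ?_⟩
  by_cases hn : x n = 0
  · rw [hn, zero_mul]
    exact A.zero_mem
  rcases A.mem_or_inv_mem (x n * (x n₀)⁻¹) with h | h
  · exact h
  · rw [mul_inv, inv_inv] at h
    have hle : B (x n₀) ≤ B (x n) := by
      intro z hz
      change (z : K) * (x n₀)⁻¹ ∈ A at hz
      change (z : K) * (x n)⁻¹ ∈ A
      have : (z : K) * (x n)⁻¹ = ((z : K) * (x n₀)⁻¹) * ((x n)⁻¹ * x n₀) := by
        field_simp
      rw [this]
      exact A.mul_mem _ _ hz h
    have heq : ¬ B (x n₀) < B (x n) := hmax _ ⟨n, hn, rfl⟩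
    have hge : B (x n) ≤ B (x n₀) := by
      by_contra hcon
      exact heq (lt_of_le_not_ge hle hcon)
    have h1 : (⟨x n, hx n⟩ : M) ∈ B (x n) := by
      change x n * (x n)⁻¹ ∈ A
      rw [mul_inv_cancel₀ hn]
      exact A.one_mem
    exact hge h1

/-- The coefficients of a cusp form generate a finitely generated abelian group up to
enlarging. -/
theorem exists_fg_coeff {N : ℕ} [NeZero N] {k : ℤ}
    (f : CuspForm (CongruenceSubgroup.Gamma0 N) k) :
    ∃ M : Submodule ℤ ℂ, M.FG ∧ ∀ n, (qExpansion 1 f).coeff n ∈ M := by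
  have hspan := Fermat.Agent.ES.hasIntegralStructure N k
  rw [CuspForm.HasIntegralStructure] at hspan
  have hf : f ∈ (⊤ : Submodule ℂ (CuspForm (CongruenceSubgroup.Gamma0 N) k)) := trivial
  rw [← hspan] at hf
  have key : ∀ n, (qExpansion 1 f).coeff n = Fermat.Agent.ES.qcS N k f n := fun n => rfl
  simp only [key]
  clear key
  induction hf using Submodule.span_induction with
  | mem g hg =>
    refine ⟨Submodule.span ℤ {1}, Submodule.fg_span_singleton 1, fun n => ?_⟩
    obtain ⟨z, hz⟩ := (Fermat.Agent.Hecke.mem_intLattice_iff g).1 hg n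
    rw [Fermat.Agent.ES.qcS_apply, hz, Submodule.mem_span_singleton]
    exact ⟨z, by simp⟩
  | zero =>
    refine ⟨⊥, Submodule.fg_bot, fun n => ?_⟩
    rw [map_zero]
    simp
  | add g h _ _ hg hh =>
    obtain ⟨M1, hM1, h1⟩ := hg
    obtain ⟨M2, hM2, h2⟩ := hh
    refine ⟨M1 ⊔ M2, hM1.sup hM2, fun n => ?_⟩
    rw [map_add, Pi.add_apply]
    exact Submodule.add_mem_sup (h1 n) (h2 n)
  | smul c g _ hg =>
    obtain ⟨M1, hM1, h1⟩ := hg
    refine ⟨M1.map ((LinearMap.mulLeft ℂ c).restrictScalars ℤ), hM1.map _, fun n => ?_⟩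
    rw [map_smul, Pi.smul_apply]
    exact ⟨_, h1 n, rfl⟩

/-- Any nonzero cusp form with coefficients in `Qb` can be rescaled to have coefficients in `A`
and nonzero reduction. -/
theorem exists_scale {N : ℕ} [NeZero N] (A : ValuationSubring Qb) {k : ℤ}
    (f : CuspForm (CongruenceSubgroup.Gamma0 N) k) (hf : f ≠ 0) {P : PowerSeries Qb}
    (hP : qExpansion 1 f = P.map ιC) : ∃ a : Qb, a ≠ 0 ∧ ∃ P' : PowerSeries A,
      P'.map A.subtype = a • P ∧ P'.map (IsLocalRing.residue A) ≠ 0 := by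
  obtain ⟨M, hM, hMc⟩ := exists_fg_coeff f
  have hinj : Function.Injective (ιC.toAddMonoidHom.toIntLinearMap : Qb →ₗ[ℤ] ℂ) :=
    ιC.injective
  have hM' : (M.comap (ιC.toAddMonoidHom.toIntLinearMap : Qb →ₗ[ℤ] ℂ)).FG := by
    have hn : IsNoetherian ℤ M := isNoetherian_of_fg_of_noetherian M hM
    apply Submodule.fg_of_fg_map_injective _ hinj
    rw [Submodule.map_comap_eq]
    exact (isNoetherian_submodule.1 hn) _ inf_le_right
  have hx : ∀ n, P.coeff n ∈ (M.comap (ιC.toAddMonoidHom.toIntLinearMap : Qb →ₗ[ℤ] ℂ)) := by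
    intro n
    rw [Submodule.mem_comap]
    have := hMc n
    rw [hP, PowerSeries.coeff_map] at this
    exact this
  have hne : ∃ n, P.coeff n ≠ 0 := by
    by_contra hcon
    push Not at hcon
    apply hf
    have h1 : qExpansion 1 f = 0 := by
      rw [hP]
      ext n
      rw [PowerSeries.coeff_map, hcon n, map_zero, map_zero]
    apply Fermat.Agent.ES.qcS_inj N k
    intro n _
    change (qExpansion 1 f).coeff n = 0
    rw [h1, map_zero]
  obtain ⟨n₀, hn₀, hA⟩ := exists_max_of_fg A hM' hx hne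
  refine ⟨(P.coeff n₀)⁻¹, inv_ne_zero hn₀, PowerSeries.mk fun n => ⟨P.coeff n * (P.coeff n₀)⁻¹,
    hA n⟩, ?_, ?_⟩
  · ext n
    rw [PowerSeries.coeff_map, PowerSeries.coeff_mk, PowerSeries.coeff_smul, smul_eq_mul]
    exact mul_comm _ _
  · intro h
    have h1 := congrArg (PowerSeries.coeff n₀) h
    rw [PowerSeries.coeff_map, PowerSeries.coeff_mk, map_zero] at h1
    have h2 : (⟨P.coeff n₀ * (P.coeff n₀)⁻¹, hA n₀⟩ : A) = 1 := by
      apply Subtype.ext
      exact mul_inv_cancel₀ hn₀
    rw [h2, map_one] at h1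
    exact one_ne_zero h1

/-- The restriction of an element of the decomposition group to the valuation ring. -/
def decMap (A : ValuationSubring Qb) {σ : GQ} (hσ : σ ∈ A.decompositionSubgroup ℚ) : A →+* A :=
  MulSemiringAction.toRingHom (A.decompositionSubgroup ℚ) A ⟨σ, hσ⟩

theorem coe_decMap (A : ValuationSubring Qb) {σ : GQ} (hσ : σ ∈ A.decompositionSubgroup ℚ)
    (x : A) : ((decMap A hσ x : A) : Qb) = σ x := rfl

theorem residue_decMap (A : ValuationSubring Qb) {σ : GQ} {l : ℕ} (h : A.IsFrobeniusAt σ l)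
    (x : A) : IsLocalRing.residue A (decMap A h.mem_decompositionSubgroup x) =
      (IsLocalRing.residue A x) ^ l := by
  rw [← h.smul_residue_eq]
  rfl

theorem residue_decMap_inertia (A : ValuationSubring Qb) {σ : GQ}
    (h : σ ∈ A.inertiaSubgroupIn ℚ) : ∃ hσ : σ ∈ A.decompositionSubgroup ℚ, ∀ x : A,
      IsLocalRing.residue A (decMap A hσ x) = IsLocalRing.residue A x := by
  obtain ⟨⟨τ, hτ⟩, h1, rfl⟩ := h
  refine ⟨hτ, fun x => ?_⟩
  have h2 : (⟨τ, hτ⟩ : A.decompositionSubgroup ℚ) • (IsLocalRing.residue A x) =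
      IsLocalRing.residue A x := by
    have := (MonoidHom.mem_ker).1 h1
    exact congrArg (fun φ : RingAut (IsLocalRing.ResidueField A) =>
      φ (IsLocalRing.residue A x)) this
  exact h2

end Fermat.Agent.ESCore
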