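import Fermat.Agent.ESCore.ResLevel
import Fermat.Agent.ESCore.TraceEq
import Fermat.Prelude.Def_CuspForm_HeckeGaloisRepDatum
import Fermat.Prelude.Def_GaloisRep_LocalConditions

set_option autoImplicit false

/-!
# The tower of characters: evaluation on parabolic characters
-/

open IsLocalRing CongruenceSubgroup Matrix.SpecialLinearGroup
open scoped MatrixGroups

noncomputable section

namespace Fermat.Agent.ESCore.Tower

variable {Γ : Type} [Group Γ] {ι : Type} {X : ℕ → Subgroup (Γ →* ℂˣ)}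
  {Tx : ι → ∀ n, Module.End ℤ (Additive (X n))} {𝕋 : Type} [CommRing 𝕋] {Tt : ι → 𝕋}
  {L : Type} [AddCommGroup L] [Module 𝕋 L] (per : Γ →* Multiplicative L)

/-- **Faithfulness up to a bounded exponent**, on the characters coming from the lattice. -/
theorem exists_faithful_weak [IsNoetherianRing 𝕋] [Module.Finite 𝕋 L] [Module.Finite ℤ L]
    (hfaith : Module.annihilator 𝕋 L = ⊥) (hsurj : Function.Surjective per) {p : ℕ} (hp : p ≠ 0)
    (hX : ∀ n (φ : Multiplicative L →* ℂˣ), φ ^ (p ^ n) = 1 → φ.comp per ∈ X n)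
    (hTx : ∀ i n (φ : Multiplicative L →* ℂˣ) (x : Additive (X n)), x.toMul.1 = φ.comp per →
      (Tx i n x).toMul.1 = (φ.comp (smulHom L (Tt i))).comp per) :
    ∃ c : ℕ, ∀ n m, n + c ≤ m → ∀ f ∈ algP Tx Tt,
      (∀ (φ : Multiplicative L →* ℂˣ) (hφ : φ ^ (p ^ m) = 1),
        f.1 m (Additive.ofMul ⟨φ.comp per, hX _ φ hφ⟩) = 0) → f.2 ∈ Ideal.span {(p : 𝕋) ^ n} := by
  obtain ⟨r, e, he⟩ := Module.Finite.exists_fin (R := 𝕋) (M := L)
  let ψ : 𝕋 →ₗ[𝕋] (Fin r → L) := LinearMap.pi fun i => LinearMap.toSpanSingleton 𝕋 L (e i)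
  have hψ : ∀ t i, ψ t i = t • e i := fun t i => rfl
  have hψinj : ∀ t, ψ t = 0 → t = 0 := by
    intro t ht
    have h1 : t ∈ Module.annihilator 𝕋 L := by
      rw [Module.mem_annihilator]
      intro v
      have hv : v ∈ Submodule.span 𝕋 (Set.range e) := by rw [he]; trivial
      induction hv using Submodule.span_induction with
      | mem x hx =>
        obtain ⟨i, rfl⟩ := hx
        rw [← hψ, ht]
        rfl
      | zero => exact smul_zero t
      | add x y _ _ hx hy => rw [smul_add, hx, hy, add_zero]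
      | smul a x _ hx => rw [smul_comm, hx, smul_zero]
    rw [hfaith] at h1
    exact (Submodule.mem_bot 𝕋).mp h1
  obtain ⟨k, hk⟩ := Ideal.exists_pow_inf_eq_pow_smul (Ideal.span {(p : 𝕋)}) ψ.range
  refine ⟨k, fun n m hm f hf h0 => ?_⟩
  have h1 : ∀ v : L, ∃ w : L, f.2 • v = (p ^ (n + k)) • w := by
    intro v
    have h1' : ∃ w : L, f.2 • v = (p ^ m) • w := by
      refine exists_eq_smul_of_forall_char (pow_ne_zero _ hp) fun φ hφ => ?_
      obtain ⟨γ, hγ⟩ := hsurj (Multiplicative.ofAdd v)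
      have h2 := algP_latX per hTx hf φ (Additive.ofMul ⟨φ.comp per, hX _ φ hφ⟩) rfl
      rw [h0 φ hφ] at h2
      have h3 := DFunLike.congr_fun h2 γ
      change (1 : ℂˣ) = φ (smulHom L f.2 (per γ)) at h3
      rw [hγ, smulHom_ofAdd] at h3
      exact h3.symm
    obtain ⟨w, hw⟩ := h1'
    refine ⟨(p ^ (m - (n + k))) • w, ?_⟩
    rw [hw, smul_smul, ← pow_add, Nat.add_sub_cancel' hm]
  have h2 : ψ f.2 ∈ (Ideal.span {(p : 𝕋)} ^ (n + k)) • (⊤ : Submodule 𝕋 (Fin r → L)) := by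
    choose w hw using fun i => h1 (e i)
    have h3 : ψ f.2 = ((p : 𝕋) ^ (n + k)) • w := by
      funext i
      rw [hψ, hw i, Pi.smul_apply, ← Nat.cast_pow, Nat.cast_smul_eq_nsmul]
    rw [h3]
    exact Submodule.smul_mem_smul
      (Ideal.pow_mem_pow (Ideal.mem_span_singleton_self _) _) Submodule.mem_top
  have h3 := hk (n + k) (Nat.le_add_left _ _)
  have h4 : ψ f.2 ∈ (Ideal.span {(p : 𝕋)} ^ (n + k)) • (⊤ : Submodule 𝕋 (Fin r → L)) ⊓ ψ.range :=
    ⟨h2, ⟨_, rfl⟩⟩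
  rw [h3, Nat.add_sub_cancel] at h4
  have h5 : ψ f.2 ∈ (Ideal.span {(p : 𝕋)} ^ n) • ψ.range :=
    Submodule.smul_mono le_rfl inf_le_right h4
  rw [LinearMap.range_eq_map, ← Submodule.map_smul''] at h5
  obtain ⟨t, ht, ht'⟩ := h5
  rw [smul_eq_mul, Ideal.mul_top, Ideal.span_singleton_pow] at ht
  have h6 : t = f.2 := by
    rw [← sub_eq_zero]
    exact hψinj _ (by rw [map_sub, ht', sub_self])
  rw [← h6]
  exact ht

end Fermat.Agent.ESCore.Tower

namespace Fermat.Agent.ESCore.Univ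

open ModP Tower

variable {N : ℕ} [NeZero N] {S : Finset ℕ} {p : ℕ}

/-- The character of `Γ₀(N)` attached to a character of the period lattice is in `XG`. -/
theorem latX_mem {m : ℕ} (φ : Multiplicative (LatM N (↑S : Set ℕ)) →* ℂˣ) (hφ : φ ^ m = 1) :
    φ.comp (perM N S) ∈ XG N m := by
  refine ⟨?_, fun γ hγ => ?_⟩
  · ext γ
    rw [MonoidHom.pow_apply, MonoidHom.comp_apply, ← MonoidHom.pow_apply, hφ]
    rfl
  · rw [MonoidHom.comp_apply, perM_par hγ, map_one]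

theorem perM_par' {γ : Gamma0 N}
    (hγ : ((γ : SL(2, ℤ)) : Matrix (Fin 2) (Fin 2) ℤ).trace ^ 2 = 4) : perM N S γ = 1 := by
  have h3 : (perHom N).rangeRestrict (Additive.ofMul γ) = 0 := by
    apply Subtype.ext
    refine LinearMap.ext fun f => ?_
    exact ES.pml_mem_parabolicHoms f γ hγ
  exact congrArg Multiplicative.ofAdd h3

theorem faithful_weak_S (hp : p ≠ 0) : ∃ c : ℕ, ∀ n m, n + c ≤ m →
    ∀ f ∈ algP (TxS N S p) (TtS N S),
      (∀ (φ : Multiplicative (LatM N (↑S : Set ℕ)) →* ℂˣ) (hφ : φ ^ (p ^ m) = 1),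
        f.1 m (Additive.ofMul ⟨φ.comp (perM N S), latX_mem φ hφ⟩) = 0) →
      f.2 ∈ Ideal.span {(p : CuspForm.heckeAlgebra N 2 (↑S : Set ℕ)) ^ n} := by
  have : Module.Finite ℤ (CuspForm.heckeAlgebra N 2 (↑S : Set ℕ)) :=
    ES.moduleFinite_heckeAlgebra 2 _
  have : IsNoetherianRing (CuspForm.heckeAlgebra N 2 (↑S : Set ℕ)) :=
    IsNoetherianRing.of_finite ℤ _
  have : Module.Finite ℤ (LatM N (↑S : Set ℕ)) := by
    have h2 : AddGroup.FG (perLat N) := (AddGroup.fg_iff_addSubgroup_fg _).mpr perLat_fg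
    have h3 : Module.Finite ℤ (perLat N) := Module.Finite.iff_addGroup_fg.mpr h2
    exact h3
  exact exists_faithful_weak (perM N S) (LatM_faithful _) perM_surjective hp
    (fun n φ hφ => latX_mem φ hφ) TxS_latX

/-- **The pseudo-representation over a quotient of the Hecke algebra**, with its relation to the
Galois action on the tower. -/
theorem exists_pseudo_full (hp : p.Prime) (hpS : p ∈ S) (hNS : ∀ q : ℕ, q.Prime → q ∣ N → q ∈ S)
    (hKL : ∀ l : ℕ, l.Prime → ¬ l ∣ N → l ≠ p → ∀ B : ValuationSubring Qb,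
      B.LiesOverPrime l → ∀ n, KLProp N (p ^ n) B)
    {O : Type} [CommRing O] [IsLocalRing O] [IsNoetherianRing O]
    [IsAdicComplete (maximalIdeal O) O] (hpO : (p : O) ∈ maximalIdeal O)
    (π : CuspForm.heckeAlgebra N 2 (↑S : Set ℕ) →+* O) :
    ∃ (c : ℕ) (t : GQ → O) (ε : GQ →* Oˣ), IsPseudo t ε ∧
      (∀ σ, ∀ f ∈ algP (TxS N S p) (TtS N S), ∀ n m, n + c ≤ m →
        f.1 m = trS (rhoT N hp.pos m) (chiT N hp.pos m) σ →
        t σ - π f.2 ∈ Ideal.span {(p : O) ^ n}) ∧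
      (∀ σ, ∀ f ∈ algP (TxS N S p) (TtS N S), ∀ n m, n + c ≤ m →
        f.1 m = chiT N hp.pos m σ → (ε σ : O) - π f.2 ∈ Ideal.span {(p : O) ^ n}) ∧
      (∀ (l : ℕ) (hl : l.Prime) (hlN : ¬ l ∣ N) (hlS : l ∉ (↑S : Set ℕ)),
        ∀ B : ValuationSubring Qb, B.LiesOverPrime l → ∀ σ : GQ, B.IsFrobeniusAt σ l →
          t σ = π (CuspForm.heckeAlgebra.T hl hlN hlS) ∧ (ε σ : O) = l) ∧
      (∀ n : ℕ, ∃ L : IntermediateField ℚ Qb, FiniteDimensional ℚ L ∧
        ∀ σ : GQ, (∀ x ∈ L, σ x = x) → (∀ g, t (σ * g) - t g ∈ Ideal.span {(p : O) ^ n}) ∧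
          (ε σ : O) - 1 ∈ Ideal.span {(p : O) ^ n}) ∧
      (∀ q : ℕ, q.Prime → ¬ q ∣ N → q ≠ p → ∀ B : ValuationSubring Qb, B.LiesOverPrime q →
        ∀ σ ∈ B.inertiaSubgroupIn ℚ, (∀ g, t (σ * g) = t g) ∧ ε σ = 1) ∧
      (ε complexConjugation : O) = -1 := by
  have hne : ∀ n, NeZero (p ^ n) := fun n => ⟨(pow_pos hp.pos n).ne'⟩
  have hnd : ∀ l : ℕ, l.Prime → l ≠ p → ∀ n, ¬ l ∣ p ^ n := by
    intro l hl hlp n h
    exact hlp ((Nat.prime_dvd_prime_iff_eq hl hp).mp (hl.dvd_of_dvd_pow h))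
  obtain ⟨c, hc⟩ := faithful_S (N := N) (S := S) hp.ne_zero
  obtain ⟨t, ε, hps, hs1, hs2, h3, h4⟩ :=
    Tower.exists_pseudo_strong (galTower hp hpS hNS hKL) hc hpO π
  have h1 : ∀ σ, ∀ f ∈ algP (TxS N S p) (TtS N S), (∀ n, c ≤ n → f.1 n =
      trS (rhoT N hp.pos n) (chiT N hp.pos n) σ) → t σ = π f.2 := fun σ f hf hf' =>
    eq_of_forall_sub_mem hpO fun n => hs1 σ f hf n (hf' (n + c) (Nat.le_add_left _ _))
  have h2 : ∀ σ, ∀ f ∈ algP (TxS N S p) (TtS N S), (∀ n, c ≤ n → f.1 n =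
      chiT N hp.pos n σ) → (ε σ : O) = π f.2 := fun σ f hf hf' =>
    eq_of_forall_sub_mem hpO fun n => hs2 σ f hf n (hf' (n + c) (Nat.le_add_left _ _))
  refine ⟨c, t, ε, hps, fun σ f hf n m hm hf' => ?_, fun σ f hf n m hm hf' => ?_,
    fun l hl hlN hlS B hB σ hσ => ?_, h3, fun q hq hqN hqp B hB σ hσ => ?_, ?_⟩
  · obtain ⟨n', rfl⟩ : ∃ n', m = n' + c := ⟨m - c, by omega⟩
    have h5 := hs1 σ f hf n' hf'
    refine Ideal.span_singleton_le_span_singleton.mpr ?_ h5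
    exact pow_dvd_pow _ (by omega)
  · obtain ⟨n', rfl⟩ : ∃ n', m = n' + c := ⟨m - c, by omega⟩
    have h5 := hs2 σ f hf n' hf'
    refine Ideal.span_singleton_le_span_singleton.mpr ?_ h5
    exact pow_dvd_pow _ (by omega)
  · have hlp : l ≠ p := fun h => hlS (by rw [h]; exact hpS)
    have hχ : ∀ n, (algebraMap ℤ ((∀ n, Module.End ℤ (Additive (XG N (p ^ n)))) ×
        CuspForm.heckeAlgebra N 2 (↑S : Set ℕ)) (l : ℤ)).1 n = chiT N hp.pos n σ := by
      intro n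
      have := hne n
      change ((l : ℤ) : Module.End ℤ (Additive (XG N (p ^ n)))) = cycE N (p ^ n) σ
      rw [cycE_of_eq (k := l) (by
        rw [cyc_frob hB hl hσ (hnd l hl hlp n), Int.cast_natCast])]
    refine ⟨h1 σ (genR (TxS N S p) (TtS N S) ⟨l, hl, hlN, hlS⟩) (genR_mem _) fun n _ => ?_, ?_⟩
    · refine (trS_of_quad ?_ rfl).symm
      refine LinearMap.ext fun χ => ?_
      have h1 := ES_relation_aux (pow_pos hp.pos n) (algForms (pow_pos hp.pos n))
        (galSpec_galX (pow_pos hp.pos n)) hl hlN hB (hKL l hl hlN hlp B hB n) hσ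
        (Additive.toMul χ)
      have h2 : heckeXL hl hlN (p ^ n) (rhoT N hp.pos n σ χ) =
          rhoT N hp.pos n (σ * σ) χ + l • χ := congrArg Additive.ofMul h1
      have h3 : chiT N hp.pos n σ χ = l • χ := by
        rw [← hχ n]
        change (l : ℤ) • χ = _
        rw [natCast_zsmul]
      rw [← map_mul]
      change _ = heckeXL hl hlN (p ^ n) (rhoT N hp.pos n σ χ) - chiT N hp.pos n σ χ
      rw [h2, h3, add_sub_cancel_right]
    · rw [h2 σ _ (Subalgebra.algebraMap_mem _ (l : ℤ)) fun n _ => hχ n]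
      change π ((l : ℤ) : CuspForm.heckeAlgebra N 2 (↑S : Set ℕ)) = _
      rw [map_intCast, Int.cast_natCast]
  · refine h4 σ (fun n => ?_) fun n => ?_
    · refine galRep_eq_one ?_
      ext1 χ
      exact inertia_trivial_aux (pow_pos hp.pos n) (algForms (pow_pos hp.pos n))
        (galSpec_galX (pow_pos hp.pos n)) (hKL q hq hqN hqp B hB n) hσ χ
    · have := hne n
      change cycE N (p ^ n) σ = 1
      rw [cycE_of_eq (k := 1) (by
        rw [cyc_inertia hB hq hσ (hnd q hq hqp n), Units.val_one, Int.cast_one]), Int.cast_one]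
  · have h5 := h2 complexConjugation (algebraMap ℤ _ (-1)) (Subalgebra.algebraMap_mem _ _)
      fun n _ => by
        have := hne n
        change ((-1 : ℤ) : Module.End ℤ (Additive (XG N (p ^ n)))) =
          cycE N (p ^ n) complexConjugation
        rw [cycE_of_eq (k := -1) (by
          rw [cyc_complexConjugation, Units.val_neg, Units.val_one, Int.cast_neg, Int.cast_one])]
    rw [h5]
    change π ((-1 : ℤ) : CuspForm.heckeAlgebra N 2 (↑S : Set ℕ)) = _
    rw [map_intCast, Int.cast_neg, Int.cast_one]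

end Fermat.Agent.ESCore.Univ
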